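/-
Row 37, first half: MAZUR'S PRINCIPLE (`Fermat.Agent.RIB.StmtMP`).  INTERFACE of the sub-captain
(helper2).  Plan and piece table: NOTES/RIB-MP.md.  Definitions and statements only.

Setting: `N = M₁ q`, `q ∤ M₁` an odd prime, `p ≥ 5` a prime `≠ q`, `A ⊂ ℚ̄` a valuation ring over
`q`, `I` its inertia group, `σ` a Frobenius element at `A`, `w = w_q` (`UNIP.atkinLehnerBar`),
`F_N = modularFunctionFieldBar N ⊂ ℚ̄((t))`, `J = JZero N`, `α : F_{M₁} → F_N` the inclusion.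
`v_∞` = Gauss valuation of `A` on `q`-expansions, `v_0 = v_∞ ∘ w`.
A class `x ∈ J[p]` has Kummer functions `u` (`ES.KummerRel p x u`: `p D = div u`, `x = [D]`),
unique up to constants and `p`-th powers.

* `TrivInf A p x`  : `x` is trivial at `v_∞` (a Kummer function is Gauss-constant);
  `TrivZero … x`   : the same at `v_0`;  `IsToric` : both.
* `RedInf A p x y` : `x ∈ J₀(N)[p]` and `y ∈ J₀(M₁)[p]` have the same reduction at `v_∞`
  (`u / α v` Gauss-constant);  `RedZero` : the same at `v_0` (`w u / α v`).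
* `eisKill ℓ x = T_ℓ x − (ℓ + 1) x` : kills the component group (which is Eisenstein).

GEOMETRIC PIECES (Props; all about inertia-fixed classes of `J₀(N)[p]`):
* `StmtRed`      (MP-RED)  the reduction of `eisKill ℓ x` at `v_∞` and at `v_0` lifts to
                           `J₀(M₁)[p]`   [local factorisation (F) + (SURJ-q)];
* `StmtRedHecke` (MP-HK)   `RedInf`, `RedZero` are stable under `T_ℓ'`, `ℓ' ∤ N`
                           [`q`-expansion formula of the Hecke norm, `ES.G2.StmtHeckeNorm`];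
* `StmtFrobToric`(MP-FROB) `σ (w y) = − q y` for `y = eisKill ℓ x` toric
                           [local factorisation (F) + swap twin of STB (T″)];
* `StmtWHecke`   (MP-W)    `w` commutes with `T_ℓ` on `J`, `ℓ ∤ N`;
* `StmtOldLevel` (PKG-OLD)  a good Hecke polynomial killing the forms of level `M` kills the
                           `p`-divisible torsion `PDiv M p` (`= STB.stb_p2_kills` + semisimplicity);
* `StmtDivEis`   (MP-DIV)  `T_ℓ − (ℓ+1)` maps `J₀(M)[p^∞]` into `PDiv M p` (`M` squarefree,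
                           `p ≥ 5`): the non-divisible part of the torsion is Eisenstein.

HECKE MODULES.  The Hecke operators are only known to commute on torsion, so Hecke POLYNOMIALS act
on `PDiv N p` (the `p`-divisible part of the `p`-power torsion of `J₀(N)(ℚ̄)`, with
`ES.pDivModule N p` and `ES.pDivGalois N p`: the `J` of the packages `ESPkgInf`, `ESPkgFaith`).
Single operators `T_ℓ = heckeOperatorBar` act on all of `JZero`.
ALGEBRA:
* `StmtAtQ`      (MP-ATQ)  the `J`-form: an inertia-fixed, non-Eisenstein, Hecke-new (level `M₁`)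
                           eigen-class `x ∈ J[p]` satisfies `σ (w x) + q x = 0`;
                           `StmtAtQOf` : from the geometric pieces.
* `StmtRepN`     (MP-1)    `R38.StmtRep` at an arbitrary level (same proof).
* `StmtGlue`     (MP-5)    `StmtMP` from `StmtAtQ`, `StmtRepN`, `R38.StmtLift`.
-/
import Fermat.Agent.RIB.Plan
import Fermat.Agent.R38.Plan
import Fermat.Agent.STB.KronQStmt
import Fermat.Agent.ES.KummerBridge
import Fermat.Agent.ES.Top
import Fermat.Agent.ES.TopFaith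

set_option autoImplicit false

noncomputable section

namespace Fermat.Agent.RIB.MP

open ModularCurve AlgebraicCurve Fermat.Agent.ES Fermat.Agent.ES.G2

/-! ### Definitions -/

section Defs

variable {M₁ q : ℕ} [NeZero M₁] [NeZero q] [NeZero (M₁ * q)]

/-- `x` is trivial at the Gauss valuation `v_∞` of `A`: one of its Kummer functions (for the
exponent `m`) is Gauss-constant. -/
def TrivInf (A : ValuationSubring Qb) (m : ℕ) (x : JZero (M₁ * q)) : Prop :=
  ∃ u : modularFunctionFieldBar (M₁ * q), KummerRel m x u ∧ GaussConst A (M₁ * q) u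

/-- `x` is trivial at `v_0 = v_∞ ∘ w_q`. -/
def TrivZero (hq : q.Prime) (hqM : ¬ q ∣ M₁) (A : ValuationSubring Qb) (m : ℕ)
    (x : JZero (M₁ * q)) : Prop :=
  ∃ u : modularFunctionFieldBar (M₁ * q), KummerRel m x u ∧
    GaussConst A (M₁ * q) (Fermat.Agent.UNIP.atkinLehnerBar hq hqM u)

/-- `x` is toric at `A`: trivial at both vertical valuations. -/
def IsToric (hq : q.Prime) (hqM : ¬ q ∣ M₁) (A : ValuationSubring Qb) (m : ℕ)
    (x : JZero (M₁ * q)) : Prop :=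
  TrivInf A m x ∧ TrivZero hq hqM A m x

/-- `x` (level `M₁ q`) and `y` (level `M₁`) have the same reduction at `v_∞`. -/
def RedInf (A : ValuationSubring Qb) (m : ℕ) (x : JZero (M₁ * q)) (y : JZero M₁) : Prop :=
  ∃ (u : modularFunctionFieldBar (M₁ * q)) (v : modularFunctionFieldBar M₁),
    KummerRel m x u ∧ KummerRel m y v ∧
      GaussConst A (M₁ * q) (u / heckeAlphaBar Qb M₁ q v)

/-- `x` (level `M₁ q`) and `y` (level `M₁`) have the same reduction at `v_0`. -/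
def RedZero (hq : q.Prime) (hqM : ¬ q ∣ M₁) (A : ValuationSubring Qb) (m : ℕ)
    (x : JZero (M₁ * q)) (y : JZero M₁) : Prop :=
  ∃ (u : modularFunctionFieldBar (M₁ * q)) (v : modularFunctionFieldBar M₁),
    KummerRel m x u ∧ KummerRel m y v ∧
      GaussConst A (M₁ * q)
        (Fermat.Agent.UNIP.atkinLehnerBar hq hqM u / heckeAlphaBar Qb M₁ q v)

end Defs

/-- `x` is fixed by the inertia group of `A`. -/
def InertiaFixed {N : ℕ} (A : ValuationSubring Qb) (x : JZero N) : Prop :=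
  ∀ σ ∈ A.inertiaSubgroupIn ℚ, σ • x = x

/-- `T_ℓ x − (ℓ + 1) x`. -/
def eisKill {N : ℕ} [NeZero N] (ℓ : Nat.Primes) (x : JZero N) : JZero N :=
  heckeOperatorBar N ℓ x - ((ℓ : ℕ) + 1) • x

/-! ### The geometric pieces -/

/-- **MP-RED.**  For an inertia-fixed `x ∈ J₀(M₁ q)[p]` the reductions of `T_ℓ x − (ℓ+1) x` at
`v_∞` and at `v_0` are reductions of classes of `J₀(M₁)[p]`. -/
def StmtRed : Prop :=
  ∀ (M₁ q : ℕ) [NeZero M₁] [NeZero q] [NeZero (M₁ * q)] (hq : q.Prime) (hqM : ¬ q ∣ M₁),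
    q ≠ 2 → ∀ p : ℕ, p.Prime → 5 ≤ p → p ≠ q →
    ∀ A : ValuationSubring Qb, A.LiesOverPrime q →
    ∀ x : JZero (M₁ * q), p • x = 0 → InertiaFixed A x →
    ∀ ℓ : Nat.Primes, ¬ (ℓ : ℕ) ∣ M₁ * q * p →
      (∃ y : JZero M₁, p • y = 0 ∧ RedInf A p (eisKill ℓ x) y) ∧
      (∃ y : JZero M₁, p • y = 0 ∧ RedZero hq hqM A p (eisKill ℓ x) y)

/-- **MP-HK.**  The reduction relations are stable under the good Hecke operators. -/
def StmtRedHecke : Prop :=
  ∀ (M₁ q : ℕ) [NeZero M₁] [NeZero q] [NeZero (M₁ * q)] (hq : q.Prime) (hqM : ¬ q ∣ M₁),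
    ∀ p : ℕ, p.Prime → p ≠ q →
    ∀ A : ValuationSubring Qb, A.LiesOverPrime q →
    ∀ (x : JZero (M₁ * q)) (y : JZero M₁) (ℓ : Nat.Primes), ¬ (ℓ : ℕ) ∣ M₁ * q * p →
      (RedInf A p x y → RedInf A p (heckeOperatorBar (M₁ * q) ℓ x) (heckeOperatorBar M₁ ℓ y)) ∧
      (RedZero hq hqM A p x y →
        RedZero hq hqM A p (heckeOperatorBar (M₁ * q) ℓ x) (heckeOperatorBar M₁ ℓ y))

/-- **MP-FROB.**  For an inertia-fixed `x ∈ J₀(M₁ q)[p]`: if `y = T_ℓ x − (ℓ+1) x` is toric then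
`σ (w y) + q y = 0` for every Frobenius element `σ` at `A`. -/
def StmtFrobToric : Prop :=
  ∀ (M₁ q : ℕ) [NeZero M₁] [NeZero q] [NeZero (M₁ * q)] (hq : q.Prime) (hqM : ¬ q ∣ M₁),
    q ≠ 2 → ∀ p : ℕ, p.Prime → 5 ≤ p → p ≠ q →
    ∀ A : ValuationSubring Qb, A.LiesOverPrime q →
    ∀ σ : Qb ≃ₐ[ℚ] Qb, A.IsFrobeniusAt σ q →
    ∀ x : JZero (M₁ * q), p • x = 0 → InertiaFixed A x →
    ∀ ℓ : Nat.Primes, ¬ (ℓ : ℕ) ∣ M₁ * q * p →
      IsToric hq hqM A p (eisKill ℓ x) →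
        σ • (Fermat.Agent.UNIP.atkinLehnerBar hq hqM • eisKill ℓ x) + q • eisKill ℓ x = 0

/-- **MP-W.**  `w_q` commutes with the Hecke operators `T_ℓ`, `ℓ ∤ M₁ q`, on `J₀(M₁ q)`. -/
def StmtWHecke : Prop :=
  ∀ (M₁ q : ℕ) [NeZero M₁] [NeZero q] [NeZero (M₁ * q)] (hq : q.Prime) (hqM : ¬ q ∣ M₁),
    ∀ (ℓ : Nat.Primes), ¬ (ℓ : ℕ) ∣ M₁ * q → ∀ x : JZero (M₁ * q),
      Fermat.Agent.UNIP.atkinLehnerBar hq hqM • heckeOperatorBar (M₁ * q) ℓ x =
        heckeOperatorBar (M₁ * q) ℓ (Fermat.Agent.UNIP.atkinLehnerBar hq hqM • x)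

/-- **PKG-OLD**: a Hecke polynomial in the good variables which vanishes on the eigen-systems of
all normalised eigenforms of level `M` kills the `p`-divisible torsion `PDiv M p` of `J₀(M)(ℚ̄)`.
(`STB.stb_p2_kills` has the hypothesis `heckeEvalForms M 2 t = 0`.) -/
def StmtOldLevel : Prop :=
  ∀ (M p : ℕ) [NeZero M], p.Prime →
    ∀ t ∈ MvPolynomial.supported ℤ (goodPrimes M p), Fermat.Agent.R38.KillsLevel M t →
      ∀ y : PDiv M p, (letI := pDivModule M p; t • y) = 0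

/-- **MP-DIV**: for squarefree `M` and `p ≥ 5`, the operator `T_ℓ − (ℓ + 1)` (`ℓ ∤ M p`) maps the
`p`-power torsion of `J₀(M)(ℚ̄)` into its `p`-divisible part `pDivTors p (JZero M)`
(the carrier of `PDiv M p`): the non-divisible part of the torsion is Eisenstein.
It follows from the strong form `StmtTorsDivMP` of `RIB/MP/TorsDivPlan.lean` (helper15: for
`p ≥ 5` ALL the `p`-power torsion is `p`-divisible), see `stmtDivEis_of_torsDiv` in
`RIB/MP/AtQ.lean`. -/
def StmtDivEis : Prop :=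
  ∀ (M p : ℕ) [NeZero M], Squarefree M → p.Prime → 5 ≤ p →
    ∀ ℓ : Nat.Primes, ¬ (ℓ : ℕ) ∣ M * p →
      ∀ x : JZero M, IsPPowerTorsion p x → eisKill ℓ x ∈ pDivTors p (JZero M)

/-! ### The algebra -/

/-- **MP-ATQ** (the `J`-form consumed by the glue): an inertia-fixed class `x` of the
`p`-torsion of `PDiv (M₁ q) p` which is a non-Eisenstein eigen-vector of some `T_ℓ₁` and on which
a good Hecke polynomial `t₀` killing level `M₁` acts as a unit, satisfies `σ (w x) + q x = 0`. -/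
def StmtAtQ : Prop :=
  ∀ (M₁ q : ℕ) [NeZero M₁] [NeZero q] [NeZero (M₁ * q)] (hq : q.Prime) (hqM : ¬ q ∣ M₁),
    Squarefree (M₁ * q) → q ≠ 2 → ∀ p : ℕ, p.Prime → 5 ≤ p → p ≠ q →
    ∀ A : ValuationSubring Qb, A.LiesOverPrime q →
    ∀ σ : Qb ≃ₐ[ℚ] Qb, A.IsFrobeniusAt σ q →
    ∀ x : PDiv (M₁ * q) p, p • x = 0 → InertiaFixed A (x : JZero (M₁ * q)) →
    ∀ (ℓ₁ : Nat.Primes) (n₁ : ℤ), ¬ (ℓ₁ : ℕ) ∣ M₁ * q * p →
      heckeOperatorBar (M₁ * q) ℓ₁ (x : JZero (M₁ * q)) = n₁ • (x : JZero (M₁ * q)) →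
      ¬ (p : ℤ) ∣ n₁ - ((ℓ₁ : ℕ) + 1) →
    ∀ t₀ ∈ MvPolynomial.supported ℤ (goodPrimes (M₁ * q) p),
      Fermat.Agent.R38.KillsLevel M₁ t₀ →
      ∀ n₀ : ℤ, (letI := pDivModule (M₁ * q) p; t₀ • x) = n₀ • x → ¬ (p : ℤ) ∣ n₀ →
        σ • (Fermat.Agent.UNIP.atkinLehnerBar hq hqM • (x : JZero (M₁ * q))) +
          q • (x : JZero (M₁ * q)) = 0

/-- **MP-ATQ from the geometric pieces.** -/
def StmtAtQOf : Prop :=
  StmtRed → StmtRedHecke → StmtFrobToric → StmtOldLevel → StmtDivEis → StmtAtQ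

/-- the good Hecke variables for `W` at level `N`: primes `ℓ ∤ N p` of good reduction -/
def goodAt (W : WeierstrassCurve ℤ) (N p : ℕ) : Set Nat.Primes :=
  {ℓ | ¬ (ℓ : ℕ) ∣ N * p ∧ W.IsGoodPrimeFor ℓ}

/-- **MP-1** = `R38.StmtRep` at an arbitrary level `N` (the proof of `R38.stmtRep` uses only the
clauses `finite`, `smul_comm`, `finite_level`, `frob` of the package). -/
def StmtRepN : Prop :=
  ∀ (W : WeierstrassCurve ℤ), W.Δ ≠ 0 → ∀ (p : ℕ), p.Prime → p ≠ 2 → W.ModRepIsIrreducible p →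
    ∀ (N : ℕ), 0 < N →
    ∀ (J : Type) (_ : AddCommGroup J) (_ : Module HeckeAlg J) (_ : DistribMulAction GQ J),
      ESDataInf N p J →
      ∀ v : J, v ≠ 0 → p • v = 0 →
        (∀ ℓ ∈ goodAt W N p, heckeGen ℓ • v = (W.apOfModel ℓ : ℤ) • v) →
        ∃ (V₀ : AddSubgroup J) (e : V₀ ≃+ Fermat.Agent.R38.ETors W p),
          (∀ x ∈ V₀, p • x = 0) ∧
          (∀ x ∈ V₀, ∀ ℓ ∈ goodAt W N p, heckeGen ℓ • x = (W.apOfModel ℓ : ℤ) • x) ∧
          ∃ hst : ∀ (σ : GQ), ∀ x ∈ V₀, σ • x ∈ V₀,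
            ∀ (σ : GQ) (x : V₀), e ⟨σ • (x : J), hst σ x x.2⟩ = σ • e x

/-- **MP-5 (glue).**  Mazur's principle from the `J`-form, the copy of `E[p]` and the lifting
lemma. -/
def StmtGlue : Prop :=
  StmtAtQ → StmtWHecke → StmtRepN → Fermat.Agent.R38.StmtLift → Fermat.Agent.RIB.StmtMP

end Fermat.Agent.RIB.MP

end
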