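/-
RIB-MP, piece MP-DIV (helper15): for `p ≥ 5` the `p`-power torsion of `J₀(M)(ℚ̄)` is `p`-divisible,
i.e. `J₀(M)[p^∞] = PDiv M p`.  INTERFACE (Props only).

Route.  `μ y` (`ES.muMap`) is a parabolic character `Γ₀(M) → μ_{pᵃ}` (`STB.stb_p2_muMap_par`).
* `StmtParLift` : for `n` prime to `6`, every parabolic `χ : Γ → ℤ/n` (`Γ ≤ SL₂(ℤ)` of finite
  index, `-1 ∈ Γ`) is the reduction of a parabolic `φ : Γ → ℤ`.
  [S41/PD normal forms: NF2 (`a U = 0`) gives `ē = a S ∈ ker (1 + S) ∩ (T - 1) M̄`,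
  `M̄ = (Q → ℤ/n)`, `Q = SL₂(ℤ) ⧸ Γ`; `StmtLatLift` lifts `ē` to `e ∈ Z*(ℤ)`;
  `S41.PD.exists_NF2_of_isZs` gives `φ`; cocycles which agree at `S` and `U` are equal.]
* `StmtLatLift` : PURE ALGEBRA on a finite transitive `SL₂(ℤ)`-set `Q` on which `-1` acts
  trivially, `n` odd:  `ker (1 + S) ∩ (T - 1) M → ker (1 + S̄) ∩ (T̄ - 1) M̄` is onto.
  [Proof: lift `m̄` to `m₀`, `e₀ := T m₀ - m₀`; `(1 + S) e₀ = n f` with `f` `S`-invariant, even at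
  the fixed points of `S` (`n` odd), of total sum `0`; so `f = (1 + S) k` with `∑ k = 0`;
  `ker ∑ ⊆ ker (1 + S) + (T - 1) M` because `⟨S, T⟩` is transitive on `Q`
  (`δ_q - δ_{S q} ∈ ker (1 + S)`, `δ_q - δ_{T q} ∈ (T - 1) M`); write `k = a + g`, `g ∈ (T - 1) M`;
  then `e := e₀ - n g`.]
* then `muSurj` + `muInj` build the `p`-tower of `y` from `φ`.
-/
import Fermat.Agent.S41.PD.Plan
import Fermat.Agent.ES.Top2

set_option autoImplicit false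

namespace Fermat.Agent.RIB.MP

open scoped MatrixGroups
open ModularGroup (S T)
open ModularCurve ModularCurve.Period Fermat.Agent.ES Fermat.Agent.S41.PD

/-- **MP-DIV / LAT** (pure algebra): `Z*(ℤ) → Z*(ℤ/n)` is onto for odd `n`. -/
def StmtLatLift : Prop :=
  ∀ (Q : Type) [Fintype Q] [MulAction SL(2, ℤ) Q] [MulAction.IsPretransitive SL(2, ℤ) Q],
    (∀ q : Q, (-1 : SL(2, ℤ)) • q = q) →
    ∀ n : ℕ, Odd n → ∀ e' m' : Q → ZMod n, e' + rho S e' = 0 → e' = rho T m' - m' →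
      ∃ e : Q → ℤ, IsZs e ∧ ∀ q, ((e q : ℤ) : ZMod n) = e' q

/-- **MP-DIV / PAR**: parabolic characters with values in `ℤ/n`, `n` prime to `6`, lift to
parabolic homomorphisms with values in `ℤ`. -/
def StmtParLift : Prop :=
  ∀ (Γ : Subgroup SL(2, ℤ)) [Fintype (SL(2, ℤ) ⧸ Γ)], (-1 : SL(2, ℤ)) ∈ Γ →
    ∀ n : ℕ, n.Coprime 6 → ∀ χ : Additive Γ →+ ZMod n, IsParabolicHom Γ χ →
      ∃ φ : Additive Γ →+ ℤ, IsParabolicHom Γ φ ∧
        ∀ γ : Additive Γ, ((φ γ : ℤ) : ZMod n) = χ γ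

/-- **MP-DIV** (`StmtTorsDiv` of the MP plan v2): for `p ≥ 5` the `p`-power torsion of
`J₀(M)(ℚ̄)` is `p`-divisible. -/
def StmtTorsDivMP : Prop :=
  ∀ (M p : ℕ) [NeZero M], p.Prime → 5 ≤ p → ∀ x : JZero M, IsPPowerTorsion p x →
    x ∈ pDivTors p (JZero M)

end Fermat.Agent.RIB.MP
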