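import Fermat.Agent.RIB.MP.Plan
import Fermat.Agent.S36.Descent
import Fermat.Agent.ES.MuUnique
import Fermat.Agent.ES.HModular
import Fermat.Agent.ES.G2.Unram

/-!
# RIB-MP, piece MP-DESC: Kummer functions of inertia-fixed classes descend to the inertia field

`A ⊂ ℚ̄` a valuation ring over `q`, `I` its inertia group, `E₀ = beta0Field A = ℚ̄^I`.

* `ribmp_desc_cocycle` : `x ∈ J₀(N)` inertia-fixed, `u` a Kummer function of `x` (exponent `m`):
  `σ u = a_σ · h_σ ^ m · u` for every `σ ∈ I`;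
* `ribmp_desc_kummerRel_of_eq` : `u = b · g ^ m · u′`, `u` a Kummer function of `x`  ⇒  `u′` is a
  Kummer function of `x`;
* **`ribmp_desc`** : an inertia-fixed `x ∈ J₀(N)[m]` has a Kummer function `nfEmb E₀ N u₀`,
  `u₀ ∈ F_N(E₀)`.
-/

set_option autoImplicit false
set_option linter.unusedSectionVars false
set_option linter.unusedVariables false
set_option linter.style.haveILetI false

noncomputable section

namespace Fermat.Agent.RIB.MP

open ModularCurve AlgebraicCurve Fermat.Agent.ES Fermat.Agent.ES.G2 Fermat.Agent.INJ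
  Fermat.Agent.UNIP

section Desc

variable {N : ℕ} [NeZero N]

/-- the Kummer function of an inertia-fixed class is multiplied by a constant times an `m`-th
power under inertia -/
theorem ribmp_desc_cocycle {A : ValuationSubring Qb} {m : ℕ} {x : JZero N}
    {u : modularFunctionFieldBar N} (hu : KummerRel m x u) (hI : InertiaFixed A x) :
    ∀ σ ∈ A.inertiaSubgroupIn ℚ, ∃ (a : Qb) (h : modularFunctionFieldBar N),
      arithmeticGalois (modularFunctionFieldFull N) σ • u =
        algebraMap Qb (modularFunctionFieldBar N) a * h ^ m * u := by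
  intro σ hσ
  have h1 : KummerRel m (arithmeticGalois (modularFunctionFieldFull N) σ • x)
      (arithmeticGalois (modularFunctionFieldFull N) σ • u) := hu.smul _
  have h2 : arithmeticGalois (modularFunctionFieldFull N) σ • x = x := hI σ hσ
  rw [h2] at h1
  obtain ⟨k, c, hk, hc0, hc, he⟩ := hu.exists_eq_mul_pow h1
  obtain ⟨c₀, rfl⟩ := mu_exists_const_of_ord_eq_zero c hc
  exact ⟨c₀, k, by rw [he]; ring⟩

/-- a function differing from a Kummer function of `x` by a constant times an `m`-th power is a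
Kummer function of `x` -/
theorem ribmp_desc_kummerRel_of_eq {m : ℕ} (hm : m ≠ 0) {x : JZero N}
    {u u' g : modularFunctionFieldBar N} {b : Qb} (hu : KummerRel m x u) (hb : b ≠ 0)
    (hg : g ≠ 0) (hu' : u' ≠ 0)
    (he : u = algebraMap Qb (modularFunctionFieldBar N) b * g ^ m * u') :
    KummerRel m x u' := by
  haveI : HasPrincipalDivisors (AlgebraicClosure ℚ) (modularFunctionFieldBar N) :=
    Fermat.Agent.ES.H.hasPrincipalDivisors_FF N
  have hb0 : algebraMap Qb (modularFunctionFieldBar N) b ≠ 0 := (map_ne_zero _).2 hb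
  have hgm : g ^ m ≠ 0 := pow_ne_zero m hg
  obtain ⟨D, hDx, hu0, hD⟩ := hu
  have hdvd : ∀ v : Place Qb (modularFunctionFieldBar N), (m : ℤ) ∣ v.ord u' := by
    intro v
    have h1 := hD v
    rw [he, v.ord_mul (mul_ne_zero hb0 hgm) hu', v.ord_mul hb0 hgm,
      unram_ord_algebraMap v hb, zero_add] at h1
    have h2 : v.ord (g ^ m) = (m : ℤ) * v.ord g := by
      have := v.ord_zpow g (m : ℤ)
      rwa [zpow_natCast] at this
    rw [h2] at h1
    exact ⟨(D : Divisor Qb (modularFunctionFieldBar N)) v - v.ord g, by linarith⟩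
  obtain ⟨x', -, hx'⟩ := exists_kummerRel_of_dvd hm hu' hdvd
  have hsub : KummerRel m (x - x') (u / u') := KummerRel.sub ⟨D, hDx, hu0, hD⟩ hx'
  have e1 : u / u' = algebraMap Qb (modularFunctionFieldBar N) b * g ^ m := by
    rw [he]
    field_simp
  rw [e1] at hsub
  have h0 : x - x' = 0 :=
    KummerRel.eq_zero_of_pow hm (fun v => unram_ord_algebraMap v hb) hsub
  rw [sub_eq_zero] at h0
  rw [h0]
  exact hx'

/-- **MP-DESC.**  An inertia-fixed class of `J₀(N)[m]` has a Kummer function with coefficients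
in the inertia field `E₀ = ℚ̄^I`. -/
theorem ribmp_desc {q : ℕ} (hq : q.Prime) {A : ValuationSubring Qb} (hA : A.LiesOverPrime q)
    {m : ℕ} (hm : m ≠ 0) {x : JZero N} (hx : m • x = 0) (hI : InertiaFixed A x) :
    ∃ u₀ : modularFunctionFieldFullC (beta0Field A) N, u₀ ≠ 0 ∧
      KummerRel m x (nfEmb (beta0Field A) N u₀) := by
  obtain ⟨u, hu⟩ := exists_kummerRel hx
  obtain ⟨u₀, b, g, hu₀, hb, hg, he⟩ :=
    Fermat.Agent.S36.s36d_descent hq hA N hm u hu.ne_zero (ribmp_desc_cocycle hu hI)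
  refine ⟨u₀, hu₀, ribmp_desc_kummerRel_of_eq hm hu hb hg ?_ he⟩
  exact (map_ne_zero _).2 hu₀

/-- **MP-DESC**, for a given Kummer function: `u = b · g ^ m · nfEmb u₀`. -/
theorem ribmp_desc_of_kummerRel {q : ℕ} (hq : q.Prime) {A : ValuationSubring Qb}
    (hA : A.LiesOverPrime q) {m : ℕ} (hm : m ≠ 0) {x : JZero N}
    {u : modularFunctionFieldBar N} (hu : KummerRel m x u) (hI : InertiaFixed A x) :
    ∃ (u₀ : modularFunctionFieldFullC (beta0Field A) N) (b : Qb)
      (g : modularFunctionFieldBar N), u₀ ≠ 0 ∧ b ≠ 0 ∧ g ≠ 0 ∧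
        u = algebraMap Qb (modularFunctionFieldBar N) b * g ^ m * nfEmb (beta0Field A) N u₀ ∧
        KummerRel m x (nfEmb (beta0Field A) N u₀) := by
  obtain ⟨u₀, b, g, hu₀, hb, hg, he⟩ :=
    Fermat.Agent.S36.s36d_descent hq hA N hm u hu.ne_zero (ribmp_desc_cocycle hu hI)
  exact ⟨u₀, b, g, hu₀, hb, hg, he,
    ribmp_desc_kummerRel_of_eq hm hu hb hg ((map_ne_zero _).2 hu₀) he⟩

end Desc

end Fermat.Agent.RIB.MP
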