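import Fermat.Agent.RIB.MP.Plan
import Fermat.Agent.ES.HeckeKummer
import Fermat.Agent.ES.G2.HeckeNorm
import Fermat.Agent.ES.G2.S37Kron

/-!
# MP-HK, part 1: the Hecke norm preserves Gauss-constants; `RedInf` is stable under `T_ℓ`

`A ⊂ ℚ̄` a valuation ring, `ℓ` a prime, `ζ` a primitive `ℓ`-th root of unity.

Formal part (series over any field `L` with a valuation ring `A`; NO condition on the residue
characteristic):
* `ribmp_hk_congr_qExpand`, `ribmp_hk_prim_qExpand` : `f ↦ f(q^N)` preserves `KronCongr`,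
  `KronPrim`;
* `ribmp_hk_congr_kronNorm`, `ribmp_hk_prim_kronNorm` : `f ↦ ∏_b f(ζ^b q^{1/ℓ})` preserves
  `KronCongr`, `KronPrim` (Gauss' lemma);
* `ribmp_hk_congr_kronHecke`, `ribmp_hk_prim_kronHecke` : the same for `kronHecke ℓ ζ`.

Modular part (`F_N = modularFunctionFieldBar N`, `ℓ ∤ N`):
* `ribmp_hk_reducesToOne` : `ReducesToOne A N u → ReducesToOne A N (heckeNormFun N ℓ u)`;
* `ribmp_hk_gaussConst`   : `GaussConst A N u → GaussConst A N (heckeNormFun N ℓ u)`;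
* `ribmp_hk_alpha`        : `α_q (heckeNormFun M₁ ℓ v) = heckeNormFun (M₁ q) ℓ (α_q v)`;
* `ribmp_hk_redInf`       : `RedInf A m x y → RedInf A m (T_ℓ x) (T_ℓ y)`, `ℓ ∤ M₁ q`.
-/

set_option autoImplicit false
set_option linter.style.haveILetI false
set_option linter.unusedSectionVars false

noncomputable section

namespace Fermat.Agent.RIB.MP

open ModularCurve AlgebraicCurve HahnSeries Fermat.Agent.ES Fermat.Agent.ES.G2

/-! ## 1. Formal part -/

section Formal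

variable {L : Type*} [Field L] {A : ValuationSubring L}

theorem ribmp_hk_congr_qExpand {f g : LaurentSeries L} (hf : KronInt A f) (hg : KronInt A g)
    (h : KronCongr A f g) (N : ℕ) [NeZero N] :
    KronCongr A (qExpand L N f) (qExpand L N g) := by
  obtain ⟨F, rfl⟩ := hf.exists_lift
  obtain ⟨G, rfl⟩ := hg.exists_lift
  rw [kronCongr_kronIncl_iff] at h
  have h1 : qExpand L N (kronIncl A F) = kronIncl A (qExpand A N F) :=
    (coeffMap_qExpand A.subtype N F).symm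
  have h2 : qExpand L N (kronIncl A G) = kronIncl A (qExpand A N G) :=
    (coeffMap_qExpand A.subtype N G).symm
  rw [h1, h2, kronCongr_kronIncl_iff]
  show coeffMap (IsLocalRing.residue A) (qExpand A N F)
    = coeffMap (IsLocalRing.residue A) (qExpand A N G)
  rw [coeffMap_qExpand, coeffMap_qExpand]
  exact congrArg _ h

theorem ribmp_hk_prim_qExpand {f : LaurentSeries L} (hf : KronPrim A f) (N : ℕ) [NeZero N] :
    KronPrim A (qExpand L N f) := by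
  obtain ⟨F, rfl⟩ := hf.1.exists_lift
  rw [kronPrim_kronIncl_iff] at hf
  have h1 : qExpand L N (kronIncl A F) = kronIncl A (qExpand A N F) :=
    (coeffMap_qExpand A.subtype N F).symm
  rw [h1, kronPrim_kronIncl_iff]
  show coeffMap (IsLocalRing.residue A) (qExpand A N F) ≠ 0
  rw [coeffMap_qExpand]
  intro h0
  apply hf
  have hinj : Function.Injective (qExpand (IsLocalRing.ResidueField A) N) :=
    RingHom.injective _
  exact hinj (by rw [h0, map_zero])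

theorem ribmp_hk_congr_kronNorm {ℓ : ℕ} [NeZero ℓ] (ζ : Lˣ) (hζ : ζ ^ ℓ = 1)
    {f g : LaurentSeries L} (hf : KronInt A f) (hg : KronInt A g) (h : KronCongr A f g) :
    KronCongr A (kronNorm ℓ ζ f) (kronNorm ℓ ζ g) := by
  obtain ⟨F, rfl⟩ := hf.exists_lift
  obtain ⟨G, rfl⟩ := hg.exists_lift
  obtain ⟨ζA, rfl⟩ := kron_exists_unit_lift A (NeZero.ne ℓ) ζ hζ
  rw [kronCongr_kronIncl_iff] at h
  have h1 : kronNorm ℓ (Units.map (A.subtype : A →* L) ζA) (kronIncl A F)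
      = kronIncl A (kronNorm ℓ ζA F) := (coeffMap_kronNorm A.subtype ℓ ζA F).symm
  have h2 : kronNorm ℓ (Units.map (A.subtype : A →* L) ζA) (kronIncl A G)
      = kronIncl A (kronNorm ℓ ζA G) := (coeffMap_kronNorm A.subtype ℓ ζA G).symm
  rw [h1, h2, kronCongr_kronIncl_iff]
  show coeffMap (IsLocalRing.residue A) (kronNorm ℓ ζA F)
    = coeffMap (IsLocalRing.residue A) (kronNorm ℓ ζA G)
  rw [coeffMap_kronNorm, coeffMap_kronNorm]
  exact congrArg _ h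

/-- a rotation by a root of unity preserves primitivity -/
theorem ribmp_hk_prim_kronRot {n : ℕ} (hn : n ≠ 0) (c : Lˣ) (hc : c ^ n = 1)
    {f : LaurentSeries L} (hf : KronPrim A f) : KronPrim A (kronRot c f) := by
  obtain ⟨F, rfl⟩ := hf.1.exists_lift
  obtain ⟨cA, rfl⟩ := kron_exists_unit_lift A hn c hc
  rw [kronPrim_kronIncl_iff] at hf
  have h1 : kronRot (Units.map (A.subtype : A →* L) cA) (kronIncl A F)
      = kronIncl A (kronRot cA F) := (coeffMap_kronRot A.subtype cA F).symm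
  rw [h1, kronPrim_kronIncl_iff]
  show coeffMap (IsLocalRing.residue A) (kronRot cA F) ≠ 0
  rw [coeffMap_kronRot]
  intro h0
  apply hf
  exact RingHom.injective _ (by rw [h0, map_zero])

theorem ribmp_hk_prim_finset_prod {ι : Type*} (s : Finset ι) (u : ι → LaurentSeries L)
    (h : ∀ i ∈ s, KronPrim A (u i)) : KronPrim A (∏ i ∈ s, u i) := by
  classical
  induction s using Finset.induction_on with
  | empty => rw [Finset.prod_empty]; exact s37Kron_kronPrim_one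
  | insert a s ha ih =>
    rw [Finset.prod_insert ha]
    exact (h a (Finset.mem_insert_self a s)).mul
      (ih fun i hi => h i (Finset.mem_insert_of_mem hi))

/-- if `f(q^N)` is primitive then so is `f` -/
theorem ribmp_hk_prim_of_qExpand {f : LaurentSeries L} (N : ℕ) [NeZero N]
    (h : KronPrim A (qExpand L N f)) : KronPrim A f := by
  refine ⟨fun n => ?_, ?_⟩
  · have := h.1 ((N : ℤ) * n)
    rwa [qExpand_coeff_mul] at this
  · obtain ⟨m, hm⟩ := h.2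
    by_cases hd : (N : ℤ) ∣ m
    · obtain ⟨n, rfl⟩ := hd
      rw [qExpand_coeff_mul] at hm
      exact ⟨n, hm⟩
    · exfalso
      apply hm
      rw [qExpand_coeff_of_not_dvd N f hd]
      exact (ValuationSubring.mem_nonunits_iff_or (A := A)).mpr (Or.inl rfl)

/-- Gauss' lemma for the norm `∏_b f(ζ^b q^{1/ℓ})` -/
theorem ribmp_hk_prim_kronNorm {ℓ : ℕ} [NeZero ℓ] (ζ : Lˣ) (hζ : IsPrimitiveRoot ζ ℓ)
    {f : LaurentSeries L} (hf : KronPrim A f) : KronPrim A (kronNorm ℓ ζ f) := by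
  apply ribmp_hk_prim_of_qExpand ℓ
  rw [qExpand_kronNorm ℓ ζ hζ, kronRotProd]
  refine ribmp_hk_prim_finset_prod _ _ fun b _ => ?_
  refine ribmp_hk_prim_kronRot (NeZero.ne ℓ) (ζ ^ b) ?_ hf
  rw [← pow_mul, mul_comm, pow_mul, hζ.pow_eq_one, one_pow]

theorem ribmp_hk_congr_kronHecke {ℓ : ℕ} [NeZero ℓ] (ζ : Lˣ) (hζ : ζ ^ ℓ = 1)
    {f g : LaurentSeries L} (hf : KronInt A f) (hg : KronInt A g) (h : KronCongr A f g) :
    KronCongr A (kronHecke ℓ ζ f) (kronHecke ℓ ζ g) :=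
  KronCongr.mul (hf.qExpand ℓ) (hg.qExpand ℓ) (hf.kronNorm ζ hζ) (hg.kronNorm ζ hζ)
    (ribmp_hk_congr_qExpand hf hg h ℓ) (ribmp_hk_congr_kronNorm ζ hζ hf hg h)

theorem ribmp_hk_prim_kronHecke {ℓ : ℕ} [NeZero ℓ] (ζ : Lˣ) (hζ : IsPrimitiveRoot ζ ℓ)
    {f : LaurentSeries L} (hf : KronPrim A f) : KronPrim A (kronHecke ℓ ζ f) :=
  (ribmp_hk_prim_qExpand hf ℓ).mul (ribmp_hk_prim_kronNorm ζ hζ hf)

end Formal

/-! ## 2. The Hecke norm preserves Gauss-constants -/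

section Modular

variable {N : ℕ} [NeZero N] {A : ValuationSubring Qb}

theorem ribmp_hk_reducesToOne (ℓ : ℕ) [NeZero ℓ] (hℓ : ℓ.Prime) (hℓN : ¬ ℓ ∣ N)
    {u : modularFunctionFieldBar N} (hu : ReducesToOne A N u) :
    ReducesToOne A N (heckeNormFun N ℓ u) := by
  obtain ⟨y₁, y₂, hy₁, hy₂, hp₁, hp₂, hc, he⟩ := hu
  obtain ⟨ζ, hζ⟩ := frob_exists_primitiveRoot ℓ hℓ.ne_zero
  have hY₁ := heckeNormFun_coe N stmtHeckeNorm ℓ hℓ hℓN ζ hζ ⟨y₁, hy₁⟩
  have hY₂ := heckeNormFun_coe N stmtHeckeNorm ℓ hℓ hℓN ζ hζ ⟨y₂, hy₂⟩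
  have hU := heckeNormFun_coe N stmtHeckeNorm ℓ hℓ hℓN ζ hζ u
  refine ⟨kronHecke ℓ ζ y₁, kronHecke ℓ ζ y₂, ?_, ?_, ribmp_hk_prim_kronHecke ζ hζ hp₁,
    ribmp_hk_prim_kronHecke ζ hζ hp₂,
    ribmp_hk_congr_kronHecke ζ hζ.pow_eq_one hp₁.1 hp₂.1 hc, ?_⟩
  · rw [← hY₁]; exact (heckeNormFun N ℓ ⟨y₁, hy₁⟩).2
  · rw [← hY₂]; exact (heckeNormFun N ℓ ⟨y₂, hy₂⟩).2
  · rw [hU, ← kronHecke_mul ζ hζ, he]

/-- the Hecke norm of a constant is a power of the constant -/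
theorem ribmp_hk_heckeNormFun_algebraMap (ℓ : ℕ) [NeZero ℓ] (c : Qb) :
    ∃ n : ℕ, heckeNormFun N ℓ (algebraMap Qb (modularFunctionFieldBar N) c) =
      algebraMap Qb (modularFunctionFieldBar N) c ^ n := by
  letI := (heckeAlphaBar Qb N ℓ).toRingHom.toAlgebra
  refine ⟨Module.finrank (modularFunctionFieldBar N) (modularFunctionFieldBar (N * ℓ)), ?_⟩
  show Algebra.norm (modularFunctionFieldBar N)
    (heckeBetaBar Qb N ℓ (algebraMap Qb (modularFunctionFieldBar N) c)) = _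
  have h1 : heckeBetaBar Qb N ℓ (algebraMap Qb (modularFunctionFieldBar N) c) =
      algebraMap (modularFunctionFieldBar N) (modularFunctionFieldBar (N * ℓ))
        (algebraMap Qb (modularFunctionFieldBar N) c) := by
    rw [AlgHom.commutes]
    exact ((heckeAlphaBar Qb N ℓ).commutes c).symm
  rw [h1, Algebra.norm_algebraMap]

theorem ribmp_hk_gaussConst (ℓ : ℕ) [NeZero ℓ] (hℓ : ℓ.Prime) (hℓN : ¬ ℓ ∣ N)
    {u : modularFunctionFieldBar N} (hu : GaussConst A N u) :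
    GaussConst A N (heckeNormFun N ℓ u) := by
  obtain ⟨c, hc, h⟩ := hu
  have h1 := ribmp_hk_reducesToOne ℓ hℓ hℓN h
  rw [heckeNormFun_mul] at h1
  obtain ⟨n, hn⟩ := ribmp_hk_heckeNormFun_algebraMap (N := N) ℓ c
  have h2 : GaussConst A N (heckeNormFun N ℓ (algebraMap Qb (modularFunctionFieldBar N) c)) := by
    rw [hn]
    exact (GaussConst.const hc).pow n
  have h3 : heckeNormFun N ℓ u =
      (heckeNormFun N ℓ (algebraMap Qb (modularFunctionFieldBar N) c) * heckeNormFun N ℓ u) /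
        heckeNormFun N ℓ (algebraMap Qb (modularFunctionFieldBar N) c) := by
    rw [mul_div_assoc, mul_div_cancel₀ _ h2.ne_zero]
  rw [h3]
  exact (GaussConst.of_reducesToOne h1).div h2

theorem ribmp_hk_heckeNormFun_div (ℓ : ℕ) [NeZero ℓ] (u v : modularFunctionFieldBar N)
    (hv : v ≠ 0) :
    heckeNormFun N ℓ (u / v) = heckeNormFun N ℓ u / heckeNormFun N ℓ v := by
  have hv' : heckeNormFun N ℓ v ≠ 0 := heckeNormFun_ne_zero N ℓ hv
  rw [eq_div_iff hv', ← heckeNormFun_mul, div_mul_cancel₀ _ hv]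

end Modular

/-! ## 3. `RedInf` is stable under `T_ℓ` -/

section RedInf

variable {M₁ q : ℕ} [NeZero M₁] [NeZero q] [NeZero (M₁ * q)]

/-- the Hecke norm commutes with the inclusion `α_q : F_{M₁} → F_{M₁ q}` -/
theorem ribmp_hk_alpha (ℓ : ℕ) [NeZero ℓ] (hℓ : ℓ.Prime) (hℓM : ¬ ℓ ∣ M₁ * q)
    (v : modularFunctionFieldBar M₁) :
    heckeAlphaBar Qb M₁ q (heckeNormFun M₁ ℓ v) =
      heckeNormFun (M₁ * q) ℓ (heckeAlphaBar Qb M₁ q v) := by
  obtain ⟨ζ, hζ⟩ := frob_exists_primitiveRoot ℓ hℓ.ne_zero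
  have hℓM₁ : ¬ ℓ ∣ M₁ := fun h => hℓM (h.mul_right q)
  apply Subtype.ext
  rw [coe_heckeAlphaBar, heckeNormFun_coe M₁ stmtHeckeNorm ℓ hℓ hℓM₁ ζ hζ,
    heckeNormFun_coe (M₁ * q) stmtHeckeNorm ℓ hℓ hℓM ζ hζ, coe_heckeAlphaBar]

theorem ribmp_hk_redInf (A : ValuationSubring Qb) (m : ℕ) (ℓ : Nat.Primes)
    (hℓM : ¬ (ℓ : ℕ) ∣ M₁ * q) {x : JZero (M₁ * q)} {y : JZero M₁} (h : RedInf A m x y) :
    RedInf A m (heckeOperatorBar (M₁ * q) ℓ x) (heckeOperatorBar M₁ ℓ y) := by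
  haveI : NeZero (ℓ : ℕ) := ⟨ℓ.2.ne_zero⟩
  obtain ⟨u, v, hu, hv, hG⟩ := h
  refine ⟨heckeNormFun (M₁ * q) (ℓ : ℕ) u, heckeNormFun M₁ (ℓ : ℕ) v,
    KummerRel.hecke (M₁ * q) ℓ hu, KummerRel.hecke M₁ ℓ hv, ?_⟩
  have hαv : heckeAlphaBar Qb M₁ q v ≠ 0 :=
    (map_ne_zero_iff _ (heckeAlphaBar Qb M₁ q).toRingHom.injective).mpr hv.ne_zero
  rw [ribmp_hk_alpha (ℓ : ℕ) ℓ.2 hℓM, ← ribmp_hk_heckeNormFun_div _ _ _ hαv]
  exact ribmp_hk_gaussConst (ℓ : ℕ) ℓ.2 hℓM hG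

end RedInf

end Fermat.Agent.RIB.MP
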