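/-
Row 37, MP-RED / RED-a (ii) "CENTRE dictionary" (helper85, for helper91's `StmtRedE`).

Pure algebra.  `V` a valuation subring of `F` (the vertical valuation `V_∞`), `ρ : V →+* L` its
reduction map (kernel `⊇ 𝔪_V`), `Q` a place of the residue function field `L`.  The composite
`T = {x ∈ V | ρ x ∈ O_Q}` is a valuation subring of `F`; it contains one of the two charts
`B_t`, `B_{t⁻¹}` (integral closures of `A₀[t]`, `A₀[t⁻¹]`), its centre on that chart is a closed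
point `𝔫` of the special fibre and `(B_u)_𝔫 ⊆ T`.  Hence a local factorisation `y = ε γ ^ m` at
`𝔫` (`STB.StbFacAt`) gives `m ∣ ord_Q (ρ y)`.

* `ribmp_rd_comp`     : the composite valuation subring `T`;
* `ribmp_rd_chart`    : the centre of `T` on the chart `u` (`u ∈ T`) is a point `𝔫 : AtPt π u` and
                        `atLoc 𝔫 ⊆ T`;
* `ribmp_rd_fac`      : `StbFacAt O m y`, `O ⊆ T`, `y ∈ V^×` ⇒ `m ∣ ord_Q (ρ y)`;
* `ribmp_rd_dvd_ord`  : **the dictionary**.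
-/
import Fermat.Agent.UNIP.AbstractT
import Fermat.Agent.STB.AbstractT2
import Fermat.Prelude.Def_AlgebraicCurve_DivisorClassGroup

set_option autoImplicit false
set_option linter.unusedSectionVars false
set_option linter.style.haveILetI false

noncomputable section

namespace Fermat.Agent.RIB.MP

open AlgebraicCurve Fermat.Agent.UNIP Fermat.Agent.STB Fermat.Agent.INJ

section Comp

variable {F L : Type*} [Field F] [Field L]

/-- a unit of `V` (as an element with valuation `1`) has nonzero image under `ρ` -/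
theorem ribmp_rd_map_inv (V : ValuationSubring F) (ρ : ↥V →+* L) {x : F} (hx : x ∈ V)
    (hxi : x⁻¹ ∈ V) (hx0 : x ≠ 0) : ρ ⟨x⁻¹, hxi⟩ = (ρ ⟨x, hx⟩)⁻¹ := by
  have h1 : (⟨x, hx⟩ : ↥V) * ⟨x⁻¹, hxi⟩ = 1 := Subtype.ext (mul_inv_cancel₀ hx0)
  have h2 : ρ ⟨x, hx⟩ * ρ ⟨x⁻¹, hxi⟩ = 1 := by rw [← map_mul, h1, map_one]
  exact eq_inv_of_mul_eq_one_right h2

/-- an element of `V` which is not in the kernel of `ρ` is a unit of `V` -/
theorem ribmp_rd_inv_mem (V : ValuationSubring F) (ρ : ↥V →+* L)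
    (hker : ∀ x : ↥V, (x : F) ∈ V.nonunits → ρ x = 0) {x : F} (hx : x ∈ V)
    (hρ : ρ ⟨x, hx⟩ ≠ 0) : x⁻¹ ∈ V := by
  have hnu : x ∉ V.nonunits := fun h => hρ (hker ⟨x, hx⟩ h)
  rw [ValuationSubring.mem_nonunits_iff, not_lt] at hnu
  rw [← V.valuation_le_one_iff, map_inv₀]
  exact inv_le_one_of_one_le₀ hnu

/-- **The composite valuation subring** `T = {x ∈ V | ρ x ∈ O}`. -/
def ribmp_rd_comp (V : ValuationSubring F) (ρ : ↥V →+* L) (O : ValuationSubring L)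
    (hker : ∀ x : ↥V, (x : F) ∈ V.nonunits → ρ x = 0) : ValuationSubring F where
  carrier := {x | ∃ hx : x ∈ V, ρ ⟨x, hx⟩ ∈ O}
  mul_mem' := by
    rintro x y ⟨hx, hx'⟩ ⟨hy, hy'⟩
    refine ⟨V.mul_mem _ _ hx hy, ?_⟩
    have e : (⟨x * y, V.mul_mem _ _ hx hy⟩ : ↥V) = ⟨x, hx⟩ * ⟨y, hy⟩ := rfl
    rw [e, map_mul]
    exact O.mul_mem _ _ hx' hy'
  one_mem' := by
    refine ⟨V.one_mem, ?_⟩
    have e : (⟨1, V.one_mem⟩ : ↥V) = 1 := rfl
    rw [e, map_one]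
    exact O.one_mem
  add_mem' := by
    rintro x y ⟨hx, hx'⟩ ⟨hy, hy'⟩
    refine ⟨V.add_mem _ _ hx hy, ?_⟩
    have e : (⟨x + y, V.add_mem _ _ hx hy⟩ : ↥V) = ⟨x, hx⟩ + ⟨y, hy⟩ := rfl
    rw [e, map_add]
    exact O.add_mem _ _ hx' hy'
  zero_mem' := by
    refine ⟨V.zero_mem, ?_⟩
    have e : (⟨0, V.zero_mem⟩ : ↥V) = 0 := rfl
    rw [e, map_zero]
    exact O.zero_mem
  neg_mem' := by
    rintro x ⟨hx, hx'⟩
    refine ⟨V.neg_mem _ hx, ?_⟩
    have e : (⟨-x, V.neg_mem _ hx⟩ : ↥V) = -⟨x, hx⟩ := rfl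
    rw [e, map_neg]
    exact O.neg_mem _ hx'
  mem_or_inv_mem' := by
    intro x
    rcases eq_or_ne x 0 with rfl | hx0
    · left
      refine ⟨V.zero_mem, ?_⟩
      have e : (⟨0, V.zero_mem⟩ : ↥V) = 0 := rfl
      rw [e, map_zero]
      exact O.zero_mem
    -- reduce to the case `x ∈ V`
    have key : ∀ z : F, z ≠ 0 → z ∈ V →
        (∃ hz : z ∈ V, ρ ⟨z, hz⟩ ∈ O) ∨ (∃ hz : z⁻¹ ∈ V, ρ ⟨z⁻¹, hz⟩ ∈ O) := by
      intro z hz0 hz
      by_cases hρ : ρ ⟨z, hz⟩ ∈ O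
      · exact Or.inl ⟨hz, hρ⟩
      · have hρ0 : ρ ⟨z, hz⟩ ≠ 0 := fun h => hρ (h ▸ O.zero_mem)
        have hzi : z⁻¹ ∈ V := ribmp_rd_inv_mem V ρ hker hz hρ0
        refine Or.inr ⟨hzi, ?_⟩
        rw [ribmp_rd_map_inv V ρ hz hzi hz0]
        exact (O.mem_or_inv_mem _).resolve_left hρ
    rcases V.mem_or_inv_mem x with hx | hx
    · exact key x hx0 hx
    · rcases key x⁻¹ (inv_ne_zero hx0) hx with h | h
      · exact Or.inr h
      · rw [inv_inv] at h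
        exact Or.inl h

theorem ribmp_rd_mem_comp {V : ValuationSubring F} {ρ : ↥V →+* L} {O : ValuationSubring L}
    {hker : ∀ x : ↥V, (x : F) ∈ V.nonunits → ρ x = 0} {x : F} :
    x ∈ ribmp_rd_comp V ρ O hker ↔ ∃ hx : x ∈ V, ρ ⟨x, hx⟩ ∈ O := Iff.rfl

end Comp

section Fac

variable {F L : Type*} [Field F] [Field L] {k : Type*} [Field k] [Algebra k L]

/-- `StbFacAt O m y` with `O` inside the composite of `V` and `Q`, `y` a unit of `V`:
`m ∣ ord_Q (ρ y)`. -/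
theorem ribmp_rd_fac (V : ValuationSubring F) (ρ : ↥V →+* L) (Q : Place k L)
    (O : Subring F)
    (hO : ∀ x ∈ O, ∃ hx : x ∈ V, ρ ⟨x, hx⟩ ∈ Q.toValuationSubring)
    {m : ℕ} (hm : 0 < m) {y : F} (hy : V.valuation y = 1) (hF : StbFacAt O m y) :
    (m : ℤ) ∣ Q.ord (ρ ⟨y, (V.valuation_le_one_iff y).mp hy.le⟩) := by
  obtain ⟨γ, ε, hε, hyε⟩ := hF
  obtain ⟨ε', hεε'⟩ := hε.exists_right_inv
  have hεε'F : (ε : F) * (ε' : F) = 1 := by
    have := congrArg (fun z : ↥O => (z : F)) hεε'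
    simpa using this
  obtain ⟨hεV, hεQ⟩ := hO ε ε.2
  obtain ⟨hε'V, hε'Q⟩ := hO ε' ε'.2
  have hρεε' : ρ ⟨ε, hεV⟩ * ρ ⟨ε', hε'V⟩ = 1 := by
    have e : (⟨(ε : F), hεV⟩ : ↥V) * ⟨(ε' : F), hε'V⟩ = 1 := Subtype.ext hεε'F
    rw [← map_mul, e, map_one]
  -- `ρ ε` is a unit of `O_Q`
  let uQ : (Q.toValuationSubring)ˣ :=
    ⟨⟨ρ ⟨ε, hεV⟩, hεQ⟩, ⟨ρ ⟨ε', hε'V⟩, hε'Q⟩, Subtype.ext hρεε',
      Subtype.ext (by rw [mul_comm]; exact hρεε')⟩
  have hordε : Q.ord (ρ ⟨ε, hεV⟩) = 0 := Q.ord_coe_unit uQ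
  -- valuations
  have hvε : V.valuation (ε : F) = 1 := by
    have h1 : V.valuation (ε : F) ≤ 1 := (V.valuation_le_one_iff _).mpr hεV
    have h2 : V.valuation (ε' : F) ≤ 1 := (V.valuation_le_one_iff _).mpr hε'V
    have h3 : V.valuation (ε : F) * V.valuation (ε' : F) = 1 := by
      rw [← map_mul, hεε'F, map_one]
    refine le_antisymm h1 ?_
    by_contra hlt
    rw [not_le] at hlt
    have : V.valuation (ε : F) * V.valuation (ε' : F) < 1 :=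
      calc V.valuation (ε : F) * V.valuation (ε' : F) ≤ V.valuation (ε : F) * 1 := by gcongr
        _ = V.valuation (ε : F) := mul_one _
        _ < 1 := hlt
    rw [h3] at this
    exact lt_irrefl _ this
  have hvγm : V.valuation γ ^ m = 1 := by
    have := hy
    rw [hyε, map_mul, hvε, one_mul, map_pow] at this
    exact this
  have hvγ : V.valuation γ = 1 := (pow_eq_one_iff.mp hvγm).resolve_right hm.ne'
  have hγV : γ ∈ V := (V.valuation_le_one_iff _).mp hvγ.le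
  have hγ0 : γ ≠ 0 := by
    rintro rfl
    rw [map_zero] at hvγ
    exact zero_ne_one hvγ
  have hγiV : γ⁻¹ ∈ V := by
    rw [← V.valuation_le_one_iff, map_inv₀, hvγ, inv_one]
  have hργ0 : ρ ⟨γ, hγV⟩ ≠ 0 := by
    intro h
    have h1 := ribmp_rd_map_inv V ρ hγV hγiV hγ0
    have h2 : ρ ⟨γ, hγV⟩ * ρ ⟨γ⁻¹, hγiV⟩ = 1 := by
      have e : (⟨γ, hγV⟩ : ↥V) * ⟨γ⁻¹, hγiV⟩ = 1 := Subtype.ext (mul_inv_cancel₀ hγ0)
      rw [← map_mul, e, map_one]
    rw [h, zero_mul] at h2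
    exact zero_ne_one h2
  have hρε0 : ρ ⟨ε, hεV⟩ ≠ 0 := by
    intro h
    rw [h, zero_mul] at hρεε'
    exact zero_ne_one hρεε'
  have hρy : ρ ⟨y, (V.valuation_le_one_iff y).mp hy.le⟩ = ρ ⟨ε, hεV⟩ * ρ ⟨γ, hγV⟩ ^ m := by
    have e : (⟨y, (V.valuation_le_one_iff y).mp hy.le⟩ : ↥V) = ⟨ε, hεV⟩ * ⟨γ, hγV⟩ ^ m :=
      Subtype.ext (by simpa using hyε)
    rw [e, map_mul, map_pow]
  rw [hρy, Q.ord_mul hρε0 (pow_ne_zero _ hργ0), hordε, zero_add]
  have := Q.ord_zpow (ρ ⟨γ, hγV⟩) (m : ℤ)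
  rw [zpow_natCast] at this
  rw [this]
  exact Dvd.intro _ rfl

end Fac

section Chart

variable {A₀ E F : Type*} [CommRing A₀] [IsDomain A₀] [IsDiscreteValuationRing A₀]
  [Field E] [Algebra A₀ E] [IsFractionRing A₀ E] [CharZero E]
  [Field F] [Algebra E F] [Algebra A₀ F] [IsScalarTower A₀ E F]
  {L : Type*} [Field L]

/-- **The centre on a chart.**  If the chart coordinate `u` lies in the composite of `V` and `O`,
the centre of the composite on the chart `B_u` is a closed point `𝔫` of the special fibre, and the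
local ring `(B_u)_𝔫` lies in the composite. -/
theorem ribmp_rd_chart {π : A₀} (V : ValuationSubring F) (ρ : ↥V →+* L)
    (hker : ∀ x : ↥V, (x : F) ∈ V.nonunits → ρ x = 0)
    (hAV : ∀ a : A₀, algebraMap A₀ F a ∈ V)
    (hπ : ρ ⟨algebraMap A₀ F π, hAV π⟩ = 0)
    (O : ValuationSubring L)
    (hAQ : ∀ a : A₀, ρ ⟨algebraMap A₀ F a, hAV a⟩ ∈ O)
    (hfin : ∀ x ∈ O, x ∉ O.nonunits → ∃ n : ℕ, 0 < n ∧ x ^ n - 1 ∈ O.nonunits)
    {u : F} (hu : u ∈ V) (hρu : ρ ⟨u, hu⟩ ∈ O) :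
    ∃ 𝔫 : AtPt (F := F) π u, ∀ x ∈ atLoc 𝔫, ∃ hx : x ∈ V, ρ ⟨x, hx⟩ ∈ O := by
  set T : ValuationSubring F := ribmp_rd_comp V ρ O hker with hT
  -- the chart lies in `T`
  let TA : Subalgebra A₀ F :=
    { T.toSubring with
      algebraMap_mem' := fun a => ⟨hAV a, hAQ a⟩ }
  have hadj : Algebra.adjoin A₀ ({u} : Set F) ≤ TA :=
    Algebra.adjoin_le (Set.singleton_subset_iff.mpr ⟨hu, hρu⟩)
  have hBT : ∀ b : ↥(zchClosure (A₀ := A₀) ({u} : Set F)), (b : F) ∈ T := fun b =>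
    crossing_mem_of_isIntegral T (Algebra.adjoin A₀ ({u} : Set F)) (fun x hx => hadj hx)
      (mem_zchClosure.mp b.2)
  -- the reduction map of the chart
  let incl : ↥(zchClosure (A₀ := A₀) ({u} : Set F)) →+* ↥V :=
    (algebraMap ↥(zchClosure (A₀ := A₀) ({u} : Set F)) F).codRestrict V.toSubring
      (fun b => (hBT b).fst)
  let φ : ↥(zchClosure (A₀ := A₀) ({u} : Set F)) →+* ↥O :=
    (ρ.comp incl).codRestrict O.toSubring (fun b => (hBT b).snd)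
  have hφ : ∀ b, ((φ b : ↥O) : L) = ρ ⟨(b : F), (hBT b).fst⟩ := fun b => rfl
  let 𝔫 : Ideal ↥(zchClosure (A₀ := A₀) ({u} : Set F)) :=
    Ideal.comap φ (IsLocalRing.maximalIdeal ↥O)
  have hmem : ∀ b, b ∈ 𝔫 ↔ ρ ⟨(b : F), (hBT b).fst⟩ ∈ O.nonunits := by
    intro b
    rw [← hφ b, ValuationSubring.coe_mem_nonunits_iff]
    exact Iff.rfl
  have hmax : 𝔫.IsMaximal := by
    rw [Ideal.isMaximal_iff]
    refine ⟨fun h1 => ?_, fun J x hJ hx hxJ => ?_⟩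
    · have : φ 1 ∈ IsLocalRing.maximalIdeal ↥O := h1
      rw [map_one] at this
      exact (IsLocalRing.maximalIdeal.isMaximal ↥O).ne_top
        ((Ideal.eq_top_iff_one _).mpr this)
    · have hx' : ρ ⟨(x : F), (hBT x).fst⟩ ∉ O.nonunits := fun h => hx ((hmem x).mpr h)
      obtain ⟨n, hn, hpow⟩ := hfin _ (hBT x).snd hx'
      have h1 : x ^ n - 1 ∈ 𝔫 := by
        change φ (x ^ n - 1) ∈ IsLocalRing.maximalIdeal ↥O
        rw [← ValuationSubring.coe_mem_nonunits_iff, map_sub, map_pow, map_one]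
        push_cast
        rw [hφ x]
        exact hpow
      have h2 : x ^ n ∈ J := Ideal.pow_mem_of_mem J hxJ n hn
      have h3 : (1 : ↥(zchClosure (A₀ := A₀) ({u} : Set F))) = x ^ n - (x ^ n - 1) := by ring
      rw [h3]
      exact J.sub_mem h2 (hJ h1)
  have hπ𝔫 : algebraMap A₀ ↥(zchClosure (A₀ := A₀) ({u} : Set F)) π ∈ 𝔫 := by
    rw [hmem]
    have e : (⟨((algebraMap A₀ ↥(zchClosure (A₀ := A₀) ({u} : Set F)) π :
        ↥(zchClosure (A₀ := A₀) ({u} : Set F))) : F), (hBT _).fst⟩ : ↥V) =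
        ⟨algebraMap A₀ F π, hAV π⟩ := Subtype.ext rfl
    rw [e, hπ]
    rw [ValuationSubring.mem_nonunits_iff, map_zero]
    exact zero_lt_one
  refine ⟨⟨𝔫, hmax, hπ𝔫⟩, ?_⟩
  rintro x ⟨b, s, hs, hsx⟩
  have hs' : ρ ⟨(s : F), (hBT s).fst⟩ ∉ O.nonunits := fun h => hs ((hmem s).mpr h)
  have hρs0 : ρ ⟨(s : F), (hBT s).fst⟩ ≠ 0 := by
    intro h
    apply hs'
    rw [h, ValuationSubring.mem_nonunits_iff, map_zero]
    exact zero_lt_one
  have hs0 : (s : F) ≠ 0 := by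
    intro h
    apply hρs0
    have e : (⟨(s : F), (hBT s).fst⟩ : ↥V) = 0 := Subtype.ext h
    rw [e, map_zero]
  have hsiV : (s : F)⁻¹ ∈ V := ribmp_rd_inv_mem V ρ hker (hBT s).fst hρs0
  have hρsi : ρ ⟨(s : F)⁻¹, hsiV⟩ ∈ O := by
    rw [ribmp_rd_map_inv V ρ (hBT s).fst hsiV hs0]
    have hv : O.valuation (ρ ⟨(s : F), (hBT s).fst⟩) = 1 := by
      refine le_antisymm ((O.valuation_le_one_iff _).mpr (hBT s).snd) ?_
      rw [ValuationSubring.mem_nonunits_iff, not_lt] at hs'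
      exact hs'
    rw [← O.valuation_le_one_iff, map_inv₀, hv, inv_one]
  have hx : x = (b : F) * (s : F)⁻¹ := by
    have h1 : (s : F) * x = (b : F) := hsx
    rw [← h1]
    field_simp
  have hxT : x ∈ T := by
    rw [hx]
    exact T.mul_mem _ _ (hBT b) ⟨hsiV, hρsi⟩
  exact hxT

end Chart

section Main

variable {A₀ E F : Type*} [CommRing A₀] [IsDomain A₀] [IsDiscreteValuationRing A₀]
  [Field E] [Algebra A₀ E] [IsFractionRing A₀ E] [CharZero E]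
  [Field F] [Algebra E F] [Algebra A₀ F] [IsScalarTower A₀ E F]
  {k L : Type*} [Field k] [Field L] [Algebra k L]

/-- **RED-a (ii), the CENTRE dictionary.**  `V` a valuation subring of `F` with reduction map
`ρ : V →+* L` (`hker`: `ρ` kills the maximal ideal), `t` a unit of `V`, `Q` a place of `L` whose
residue field is "torsion" (`hfin`).  If `y ∈ V^×` has a local factorisation `y = ε γ ^ m` at every
closed point of the special fibres of the two charts `B_t`, `B_{t⁻¹}`, then `m ∣ ord_Q (ρ y)`. -/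
theorem ribmp_rd_dvd_ord {π : A₀} {t : F} (V : ValuationSubring F) (ρ : ↥V →+* L)
    (hker : ∀ x : ↥V, (x : F) ∈ V.nonunits → ρ x = 0)
    (hAV : ∀ a : A₀, algebraMap A₀ F a ∈ V)
    (hπ : ρ ⟨algebraMap A₀ F π, hAV π⟩ = 0)
    (ht : V.valuation t = 1)
    (Q : Place k L)
    (hAQ : ∀ a : A₀, ρ ⟨algebraMap A₀ F a, hAV a⟩ ∈ Q.toValuationSubring)
    (hfin : ∀ x ∈ Q.toValuationSubring, x ∉ Q.toValuationSubring.nonunits →
      ∃ n : ℕ, 0 < n ∧ x ^ n - 1 ∈ Q.toValuationSubring.nonunits)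
    {m : ℕ} (hm : 0 < m) {y : F} (hy : V.valuation y = 1)
    (hF : ∀ i : AtPt (F := F) π t ⊕ AtPt (F := F) π t⁻¹, StbFacAt (atO π t i) m y) :
    (m : ℤ) ∣ Q.ord (ρ ⟨y, (V.valuation_le_one_iff y).mp hy.le⟩) := by
  have htV : t ∈ V := (V.valuation_le_one_iff _).mp ht.le
  have htiV : t⁻¹ ∈ V := by
    rw [← V.valuation_le_one_iff, map_inv₀, ht, inv_one]
  have ht0 : t ≠ 0 := by
    rintro rfl
    rw [map_zero] at ht
    exact zero_ne_one ht
  rcases Q.toValuationSubring.mem_or_inv_mem (ρ ⟨t, htV⟩) with h | h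
  · obtain ⟨𝔫, h𝔫⟩ := ribmp_rd_chart (π := π) V ρ hker hAV hπ Q.toValuationSubring hAQ hfin htV h
    exact ribmp_rd_fac V ρ Q (atLoc 𝔫) h𝔫 hm hy (hF (Sum.inl 𝔫))
  · rw [← ribmp_rd_map_inv V ρ htV htiV ht0] at h
    obtain ⟨𝔫, h𝔫⟩ := ribmp_rd_chart (π := π) V ρ hker hAV hπ Q.toValuationSubring hAQ hfin htiV h
    exact ribmp_rd_fac V ρ Q (atLoc 𝔫) h𝔫 hm hy (hF (Sum.inr 𝔫))

end Main

end Fermat.Agent.RIB.MP
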