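/-
Row 37, Mazur's principle, piece **MP-VH** (helper81), part 1: the Gauss valuation of
`T_ℓ u / u ^ (ℓ + 1)` at `v_∞` (in `q`-expansions over `ℚ̄`).

* `RibmpGaussUnit A N u` : `u = y₁ / y₂` with `y₁, y₂ ∈ F_N` primitive `A`-integral series
  ("`v_∞(u) = 0`");
* `ribmpEisFun N ℓ u = N_α(β u) / u ^ (ℓ + 1)` : the Kummer function of `eisKill ℓ x`
  (`ribmp_vh_kummerRel`);
* `ribmp_vh_gaussUnit` : `RibmpGaussUnit A N (ribmpEisFun N ℓ u)` for every `u ≠ 0`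
  (`stmtPrim`, `stmtHeckeNorm`, Gauss' lemma).
-/
import Fermat.Agent.RIB.MP.Plan
import Fermat.Agent.ES.HeckeKummer
import Fermat.Agent.ES.G2.HeckeNorm
import Fermat.Agent.ES.G2.Prim
import Fermat.Agent.S33.NormAlg

set_option autoImplicit false
set_option linter.unusedSectionVars false
set_option linter.style.haveILetI false

noncomputable section

namespace Fermat.Agent.RIB.MP

open ModularCurve AlgebraicCurve Fermat.Agent.ES Fermat.Agent.ES.G2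

/-! ### Primitive series and the multiplicative Hecke operator -/

section Kron

variable {L : Type*} [Field L] {A : ValuationSubring L} {ℓ : ℕ} [NeZero ℓ]

/-- `f(q^ℓ)` is primitive when `f` is -/
theorem ribmp_vh_kronPrim_qExpand {f : LaurentSeries L} (hf : KronPrim A f) :
    KronPrim A (qExpand L ℓ f) := by
  refine ⟨hf.1.qExpand ℓ, ?_⟩
  obtain ⟨n, hn⟩ := hf.2
  refine ⟨(ℓ : ℤ) * n, ?_⟩
  rw [← kronCompress_coeff, kronCompress_qExpand]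
  exact hn

/-- **Gauss' lemma for `T_ℓ`**: `f(q^ℓ) ∏_b f(ζ^b q^{1/ℓ})` is primitive when `f` is -/
theorem ribmp_vh_kronPrim_kronHecke (ζ : Lˣ) (hζ : IsPrimitiveRoot ζ ℓ) {f : LaurentSeries L}
    (hf : KronPrim A f) : KronPrim A (kronHecke ℓ ζ f) :=
  (ribmp_vh_kronPrim_qExpand hf).mul (Fermat.Agent.S33.nda_kronPrim_kronNorm ζ hζ hf)

/-- rotation fixes the constants -/
theorem ribmp_vh_kronRot_C (ζ : Lˣ) (c : L) :
    kronRot ζ (HahnSeries.C c : LaurentSeries L) = HahnSeries.C c := by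
  ext n
  rw [kronRot_coeff, HahnSeries.C_apply, HahnSeries.coeff_single]
  split_ifs with h
  · subst h
    rw [zpow_zero, Units.val_one, one_mul]
  · rw [mul_zero]

/-- `T_ℓ` of a constant `c` is `c ^ (ℓ + 1)` -/
theorem ribmp_vh_kronHecke_C (ζ : Lˣ) (c : L) :
    kronHecke ℓ ζ (HahnSeries.C c : LaurentSeries L) = HahnSeries.C (c ^ (ℓ + 1)) := by
  have h2 : kronNorm ℓ ζ (HahnSeries.C c : LaurentSeries L) = HahnSeries.C (c ^ ℓ) := by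
    apply kronNorm_unique
    rw [qExpand_C, kronRotProd]
    simp only [ribmp_vh_kronRot_C]
    rw [Finset.prod_const, Finset.card_range, map_pow]
  rw [kronHecke, qExpand_C, h2, ← map_mul, pow_succ']

end Kron

/-! ### The Kummer function of `eisKill ℓ x` -/

section EisFun

variable (N : ℕ) [NeZero N]

/-- "`v_∞(u) = 0`": `u = y₁ / y₂` with `y₁, y₂ ∈ F_N` primitive `A`-integral series. -/
def RibmpGaussUnit (A : ValuationSubring Qb) (u : modularFunctionFieldBar N) : Prop :=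
  ∃ y₁ y₂ : LaurentSeries Qb,
    y₁ ∈ modularFunctionFieldBar N ∧ y₂ ∈ modularFunctionFieldBar N ∧
      KronPrim A y₁ ∧ KronPrim A y₂ ∧ (u : LaurentSeries Qb) * y₂ = y₁

/-- `T_ℓ u / u ^ (ℓ + 1)`, the Kummer function of `T_ℓ x − (ℓ + 1) x` -/
def ribmpEisFun (ℓ : ℕ) [NeZero ℓ] (u : modularFunctionFieldBar N) : modularFunctionFieldBar N :=
  heckeNormFun N ℓ u / u ^ (ℓ + 1)

theorem ribmpEisFun_ne_zero (ℓ : ℕ) [NeZero ℓ] {u : modularFunctionFieldBar N} (hu : u ≠ 0) :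
    ribmpEisFun N ℓ u ≠ 0 :=
  div_ne_zero (heckeNormFun_ne_zero N ℓ hu) (pow_ne_zero _ hu)

theorem ribmpEisFun_mul (ℓ : ℕ) [NeZero ℓ] (u v : modularFunctionFieldBar N) :
    ribmpEisFun N ℓ (u * v) = ribmpEisFun N ℓ u * ribmpEisFun N ℓ v := by
  unfold ribmpEisFun
  rw [heckeNormFun_mul, mul_pow, mul_div_mul_comm]

variable {N}

/-- Kummer functions of multiples -/
theorem ribmp_vh_kummerRel_nsmul {n : ℕ} {x : JZero N} {u : modularFunctionFieldBar N}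
    (h : KummerRel n x u) (m : ℕ) : KummerRel n (m • x) (u ^ m) := by
  induction m with
  | zero =>
    rw [zero_nsmul, pow_zero]
    exact KummerRel.zero
  | succ k ih =>
    rw [succ_nsmul, pow_succ]
    exact ih.add h

/-- **the Kummer function of `eisKill ℓ x`** -/
theorem ribmp_vh_kummerRel (ℓ : Nat.Primes) {n : ℕ} {x : JZero N}
    {u : modularFunctionFieldBar N} (h : KummerRel n x u) :
    haveI : NeZero (ℓ : ℕ) := ⟨ℓ.2.ne_zero⟩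
    KummerRel n (eisKill ℓ x) (ribmpEisFun N (ℓ : ℕ) u) := by
  haveI : NeZero (ℓ : ℕ) := ⟨ℓ.2.ne_zero⟩
  exact (KummerRel.hecke N ℓ h).sub (ribmp_vh_kummerRel_nsmul h ((ℓ : ℕ) + 1))

/-- the `q`-expansion of `ribmpEisFun` -/
theorem ribmpEisFun_coe (ℓ : ℕ) [NeZero ℓ] (hℓ : ℓ.Prime) (hℓN : ¬ ℓ ∣ N) (ζ : Qbˣ)
    (hζ : IsPrimitiveRoot ζ ℓ) (u : modularFunctionFieldBar N) :
    ((ribmpEisFun N ℓ u : modularFunctionFieldBar N) : LaurentSeries Qb)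
      = kronHecke ℓ ζ (u : LaurentSeries Qb) / (u : LaurentSeries Qb) ^ (ℓ + 1) := by
  rw [← heckeNormFun_coe N stmtHeckeNorm ℓ hℓ hℓN ζ hζ u]
  rfl

/-- **MP-VH at `v_∞`.**  `v_∞(T_ℓ u / u ^ (ℓ + 1)) = 0` for every `u ∈ F_N^×`, every prime
`ℓ ∤ N` and every valuation ring `A` of `ℚ̄`. -/
theorem ribmp_vh_gaussUnit {q : ℕ} (hq : q.Prime) {A : ValuationSubring Qb}
    (hA : A.LiesOverPrime q) (ℓ : ℕ) [NeZero ℓ] (hℓ : ℓ.Prime) (hℓN : ¬ ℓ ∣ N)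
    (u : modularFunctionFieldBar N) (hu : u ≠ 0) : RibmpGaussUnit N A (ribmpEisFun N ℓ u) := by
  obtain ⟨ζ, hζ⟩ := frob_exists_primitiveRoot ℓ (NeZero.ne ℓ)
  obtain ⟨c, y₁, y₂, hc, hy₁, hy₂, hp₁, hp₂, hxy⟩ := stmtPrim N q hq A hA u hu
  have hK : ∀ y : LaurentSeries Qb, y ∈ modularFunctionFieldBar N →
      kronHecke ℓ ζ y ∈ modularFunctionFieldBar N := by
    intro y hy
    rw [← heckeNormFun_coe N stmtHeckeNorm ℓ hℓ hℓN ζ hζ ⟨y, hy⟩]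
    exact (heckeNormFun N ℓ ⟨y, hy⟩).2
  have hU0 : (u : LaurentSeries Qb) ≠ 0 := fun h => hu (Subtype.ext h)
  have hy₂0 : y₂ ≠ 0 := by
    rintro rfl
    obtain ⟨n, hn⟩ := hp₂.2
    apply hn
    rw [HahnSeries.coeff_zero]
    exact A.mem_nonunits_iff.2 (by rw [map_zero]; exact zero_lt_one)
  refine ⟨kronHecke ℓ ζ y₁ * y₂ ^ (ℓ + 1), kronHecke ℓ ζ y₂ * y₁ ^ (ℓ + 1),
    (modularFunctionFieldBar N).mul_mem (hK y₁ hy₁) (pow_mem hy₂ _),
    (modularFunctionFieldBar N).mul_mem (hK y₂ hy₂) (pow_mem hy₁ _),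
    (ribmp_vh_kronPrim_kronHecke ζ hζ hp₁).mul (hp₂.pow _),
    (ribmp_vh_kronPrim_kronHecke ζ hζ hp₂).mul (hp₁.pow _), ?_⟩
  rw [ribmpEisFun_coe ℓ hℓ hℓN ζ hζ u]
  have e1 : kronHecke ℓ ζ (u : LaurentSeries Qb) * kronHecke ℓ ζ y₂
      = HahnSeries.C (c ^ (ℓ + 1)) * kronHecke ℓ ζ y₁ := by
    rw [← kronHecke_mul ζ hζ, hxy, kronHecke_mul ζ hζ, ribmp_vh_kronHecke_C]
  have e2 : (u : LaurentSeries Qb) ^ (ℓ + 1) * y₂ ^ (ℓ + 1)
      = HahnSeries.C (c ^ (ℓ + 1)) * y₁ ^ (ℓ + 1) := by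
    rw [← mul_pow, hxy, mul_pow, map_pow]
  have hUp : (u : LaurentSeries Qb) ^ (ℓ + 1) ≠ 0 := pow_ne_zero _ hU0
  rw [div_mul_eq_mul_div, div_eq_iff hUp]
  calc kronHecke ℓ ζ (u : LaurentSeries Qb) * (kronHecke ℓ ζ y₂ * y₁ ^ (ℓ + 1))
      = (kronHecke ℓ ζ (u : LaurentSeries Qb) * kronHecke ℓ ζ y₂) * y₁ ^ (ℓ + 1) := by ring
    _ = kronHecke ℓ ζ y₁ * (HahnSeries.C (c ^ (ℓ + 1)) * y₁ ^ (ℓ + 1)) := by rw [e1]; ring
    _ = kronHecke ℓ ζ y₁ * y₂ ^ (ℓ + 1) * (u : LaurentSeries Qb) ^ (ℓ + 1) := by rw [← e2]; ring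

end EisFun

end Fermat.Agent.RIB.MP

end
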