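import Fermat.Agent.RIB.MP.RedHeckeInf
import Fermat.Agent.ES.GaloisCorr

/-!
# MP-W and MP-HK (part 2): the Atkin–Lehner involution `w_q` commutes with `T_ℓ`

`N = M₁ q`, `q ∤ M₁` prime, `ℓ ∤ N` prime, `F_N = modularFunctionFieldBar N ⊂ ℚ̄((t))`,
`w = UNIP.atkinLehnerBar hq hqM` on `F_N`, `α, β : F_N → F_{Nℓ}` the two degeneracy maps
(`α` the inclusion, `β f = f(t^ℓ)`).

* `ribmpWPrime` : `w′ = w_q` at the level `N ℓ = (M₁ ℓ) q`;
* `ribmp_w_alpha` : `w′ ∘ α = α ∘ w`;  `ribmp_w_beta` : `w′ ∘ β = β ∘ w`;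
* `ribmp_w_heckeNormFun` (W-F) : `w (N_α (β u)) = N_α (β (w u))`, i.e.
  `atkinLehnerBar hq hqM (heckeNormFun N ℓ u) = heckeNormFun N ℓ (atkinLehnerBar hq hqM u)`;
* `ribmp_w_hecke` : `w • T_ℓ x = T_ℓ (w • x)` for ALL `x ∈ J₀(N)`;
* `ribmp_w_kummerRel` : `KummerRel n x u → KummerRel n (w • x) (w u)`;
* `ribmp_hk_redZero` : `RedZero` is stable under `T_ℓ`.
The statements `stmtRedHecke`, `stmtWHecke` of the interface are in `RIB/MP/HKFinal.lean`.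
-/

set_option autoImplicit false
set_option linter.style.haveILetI false
set_option linter.unusedSectionVars false

noncomputable section

namespace Fermat.Agent.RIB.MP

open ModularCurve AlgebraicCurve HahnSeries Fermat.Agent.ES Fermat.Agent.ES.G2 Fermat.Agent.UNIP

/-! ## 1. Extensionality on `F_N` -/

/-- two ring homomorphisms on `F_N` which agree on the constants and on the generators `j(t^d)`,
`d ∣ N`, are equal -/
theorem ribmp_w_ringHom_ext {L : Type*} [DivisionRing L] (N : ℕ) [NeZero N]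
    (φ₁ φ₂ : modularFunctionFieldBar N →+* L)
    (hK : ∀ c : Qb, φ₁ (algebraMap Qb _ c) = φ₂ (algebraMap Qb _ c))
    (hgen : ∀ (d : ℕ) [NeZero d] (hd : d ∣ N),
      φ₁ ⟨qExpand Qb d (jqModC Qb), cheap_mem_bar (jqModCd_mem_full Qb N hd)⟩ =
        φ₂ ⟨qExpand Qb d (jqModC Qb), cheap_mem_bar (jqModCd_mem_full Qb N hd)⟩) :
    φ₁ = φ₂ := by
  set e : modularFunctionFieldFullC Qb N ≃ₐ[Qb] modularFunctionFieldBar N :=
    IntermediateField.equivOfEq (hdeg_laurentBaseChange_full Qb N).symm with he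
  have key : φ₁.comp (e : modularFunctionFieldFullC Qb N →+* modularFunctionFieldBar N) =
      φ₂.comp (e : modularFunctionFieldFullC Qb N →+* modularFunctionFieldBar N) := by
    apply Fermat.Agent.AL.al_ringHom_ext Qb N
    · intro c
      show φ₁ (e (algebraMap Qb _ c)) = φ₂ (e (algebraMap Qb _ c))
      rw [AlgEquiv.commutes]
      exact hK c
    · intro d _ hd
      exact hgen d hd
  apply RingHom.ext
  intro y
  have h := congrArg (fun φ : modularFunctionFieldFullC Qb N →+* L =>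
    φ ⟨(y : LaurentSeries Qb), cheap_mem_fullC y.2⟩) key
  exact h

/-! ## 2. The values of `w_q` -/

section Values

variable {M q : ℕ} [NeZero q] [NeZero M] [NeZero (M * q)] (hq : q.Prime) (hqM : ¬ q ∣ M)

theorem ribmp_w_low {f : LaurentSeries Qb} (hf : f ∈ modularFunctionFieldBar M)
    (y : modularFunctionFieldBar (M * q)) (hy : (y : LaurentSeries Qb) = f) :
    ((atkinLehnerBar hq hqM y : modularFunctionFieldBar (M * q)) : LaurentSeries Qb) =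
      qExpand Qb q f := by
  obtain ⟨y, hy'⟩ := y
  cases hy
  exact atkinLehnerBar_of_mem_low hq hqM hf hy'

theorem ribmp_w_high {f : LaurentSeries Qb} (hf : f ∈ modularFunctionFieldBar M)
    (y : modularFunctionFieldBar (M * q)) (hy : (y : LaurentSeries Qb) = qExpand Qb q f) :
    ((atkinLehnerBar hq hqM y : modularFunctionFieldBar (M * q)) : LaurentSeries Qb) = f := by
  obtain ⟨y, hy'⟩ := y
  cases hy
  exact atkinLehnerBar_qExpand hq hqM hf hy'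

end Values

/-! ## 3. `w′` and the two intertwining relations -/

section WPrime

variable {M₁ q ℓ : ℕ} [NeZero M₁] [NeZero q] [NeZero ℓ] [NeZero (M₁ * q)] [NeZero (M₁ * ℓ)]
  [NeZero (M₁ * ℓ * q)] (hq : q.Prime) (hqM : ¬ q ∣ M₁) (hqMℓ : ¬ q ∣ M₁ * ℓ)

theorem ribmp_w_bar_eq (M₁ q ℓ : ℕ) :
    modularFunctionFieldBar (M₁ * q * ℓ) = modularFunctionFieldBar (M₁ * ℓ * q) := by
  rw [Nat.mul_right_comm]

/-- `w′`: the Atkin–Lehner involution `w_q` at the level `M₁ q ℓ = (M₁ ℓ) q` -/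
def ribmpWPrime :
    modularFunctionFieldBar (M₁ * q * ℓ) ≃ₐ[Qb] modularFunctionFieldBar (M₁ * q * ℓ) :=
  (IntermediateField.equivOfEq (ribmp_w_bar_eq M₁ q ℓ)).trans
    ((atkinLehnerBar hq hqMℓ).trans (IntermediateField.equivOfEq (ribmp_w_bar_eq M₁ q ℓ).symm))

theorem ribmpWPrime_coe (y : modularFunctionFieldBar (M₁ * q * ℓ)) :
    ((ribmpWPrime hq hqMℓ y : modularFunctionFieldBar (M₁ * q * ℓ)) : LaurentSeries Qb) =
      ((atkinLehnerBar hq hqMℓ ⟨(y : LaurentSeries Qb), ribmp_w_bar_eq M₁ q ℓ ▸ y.2⟩ :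
        modularFunctionFieldBar (M₁ * ℓ * q)) : LaurentSeries Qb) := by
  unfold ribmpWPrime
  rw [AlgEquiv.trans_apply, AlgEquiv.trans_apply, IntermediateField.equivOfEq_apply]
  rfl

theorem ribmp_wp_low {f : LaurentSeries Qb} (hf : f ∈ modularFunctionFieldBar (M₁ * ℓ))
    (y : modularFunctionFieldBar (M₁ * q * ℓ)) (hy : (y : LaurentSeries Qb) = f) :
    ((ribmpWPrime hq hqMℓ y : modularFunctionFieldBar (M₁ * q * ℓ)) : LaurentSeries Qb) =
      qExpand Qb q f := by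
  rw [ribmpWPrime_coe]
  exact ribmp_w_low hq hqMℓ hf _ hy

theorem ribmp_wp_high {f : LaurentSeries Qb} (hf : f ∈ modularFunctionFieldBar (M₁ * ℓ))
    (y : modularFunctionFieldBar (M₁ * q * ℓ)) (hy : (y : LaurentSeries Qb) = qExpand Qb q f) :
    ((ribmpWPrime hq hqMℓ y : modularFunctionFieldBar (M₁ * q * ℓ)) : LaurentSeries Qb) = f := by
  rw [ribmpWPrime_coe]
  exact ribmp_w_high hq hqMℓ hf _ hy

theorem ribmp_w_mem_alpha {f : LaurentSeries Qb} (hf : f ∈ modularFunctionFieldBar M₁) :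
    f ∈ modularFunctionFieldBar (M₁ * ℓ) := by
  have h := (heckeAlphaBar Qb M₁ ℓ ⟨f, hf⟩).2
  rwa [coe_heckeAlphaBar] at h

theorem ribmp_w_mem_beta {f : LaurentSeries Qb} (hf : f ∈ modularFunctionFieldBar M₁) :
    qExpand Qb ℓ f ∈ modularFunctionFieldBar (M₁ * ℓ) :=
  (heckeBetaBar Qb M₁ ℓ ⟨f, hf⟩).2

theorem ribmp_w_gen_mem {d : ℕ} [NeZero d] (hd : d ∣ M₁) :
    qExpand Qb d (jqModC Qb) ∈ modularFunctionFieldBar M₁ :=
  cheap_mem_bar (jqModCd_mem_full Qb M₁ hd)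

theorem ribmp_w_qExpand_comm (a b : ℕ) [NeZero a] [NeZero b] (f : LaurentSeries Qb) :
    qExpand Qb a (qExpand Qb b f) = qExpand Qb b (qExpand Qb a f) := by
  rw [qExpand_qExpand b a f, qExpand_qExpand a b f]
  exact qExpand_congr (mul_comm a b) f

theorem ribmp_w_gen_high (d : ℕ) [NeZero d] [NeZero (d * q)] :
    qExpand Qb (d * q) (jqModC Qb) = qExpand Qb q (qExpand Qb d (jqModC Qb)) := by
  rw [qExpand_qExpand]
  exact qExpand_congr (mul_comm d q) _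

/-- **`w′ ∘ α = α ∘ w`** (as `q`-expansions) -/
theorem ribmp_w_alpha_coe (y : modularFunctionFieldBar (M₁ * q)) :
    ((ribmpWPrime hq hqMℓ (heckeAlphaBar Qb (M₁ * q) ℓ y) :
      modularFunctionFieldBar (M₁ * q * ℓ)) : LaurentSeries Qb) =
      ((atkinLehnerBar hq hqM y : modularFunctionFieldBar (M₁ * q)) : LaurentSeries Qb) := by
  set φ₁ : modularFunctionFieldBar (M₁ * q) →+* LaurentSeries Qb :=
    ((modularFunctionFieldBar (M₁ * q * ℓ)).val : _ →+* LaurentSeries Qb).comp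
      ((ribmpWPrime (ℓ := ℓ) hq hqMℓ).toRingEquiv.toRingHom.comp
        (heckeAlphaBar Qb (M₁ * q) ℓ).toRingHom) with hφ₁
  set φ₂ : modularFunctionFieldBar (M₁ * q) →+* LaurentSeries Qb :=
    ((modularFunctionFieldBar (M₁ * q)).val : _ →+* LaurentSeries Qb).comp
      (atkinLehnerBar hq hqM).toRingEquiv.toRingHom with hφ₂
  have key : φ₁ = φ₂ := by
    apply ribmp_w_ringHom_ext (M₁ * q)
    · intro c
      show ((ribmpWPrime (ℓ := ℓ) hq hqMℓ (heckeAlphaBar Qb (M₁ * q) ℓ (algebraMap Qb _ c)) :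
        modularFunctionFieldBar (M₁ * q * ℓ)) : LaurentSeries Qb) =
        ((atkinLehnerBar hq hqM (algebraMap Qb _ c) : modularFunctionFieldBar (M₁ * q)) :
          LaurentSeries Qb)
      rw [AlgHom.commutes, AlgEquiv.commutes, AlgEquiv.commutes]
      rfl
    · intro d _ hd
      show ((ribmpWPrime (ℓ := ℓ) hq hqMℓ (heckeAlphaBar Qb (M₁ * q) ℓ ⟨_, _⟩) :
        modularFunctionFieldBar (M₁ * q * ℓ)) : LaurentSeries Qb) =
        ((atkinLehnerBar hq hqM ⟨_, _⟩ : modularFunctionFieldBar (M₁ * q)) : LaurentSeries Qb)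
      rcases Fermat.Agent.AL.al_divisor_cases hq hqM hd with h | ⟨d', hd', rfl⟩
      · have hf := ribmp_w_gen_mem (M₁ := M₁) h
        rw [ribmp_wp_low hq hqMℓ (ribmp_w_mem_alpha hf) _ (coe_heckeAlphaBar _ _ _),
          ribmp_w_low hq hqM hf _ rfl]
      · haveI : NeZero d' := ⟨fun h0 => by
          subst h0; exact (NeZero.ne (0 * q)) (zero_mul q)⟩
        have hf := ribmp_w_gen_mem (M₁ := M₁) hd'
        rw [ribmp_wp_high hq hqMℓ (ribmp_w_mem_alpha hf) _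
            ((coe_heckeAlphaBar _ _ _).trans (ribmp_w_gen_high d')),
          ribmp_w_high hq hqM hf _ (ribmp_w_gen_high d')]
  exact congrArg (fun φ : modularFunctionFieldBar (M₁ * q) →+* LaurentSeries Qb => φ y) key

/-- **`w′ ∘ β = β ∘ w`** (as `q`-expansions) -/
theorem ribmp_w_beta_coe (y : modularFunctionFieldBar (M₁ * q)) :
    ((ribmpWPrime hq hqMℓ (heckeBetaBar Qb (M₁ * q) ℓ y) :
      modularFunctionFieldBar (M₁ * q * ℓ)) : LaurentSeries Qb) =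
      qExpand Qb ℓ
        ((atkinLehnerBar hq hqM y : modularFunctionFieldBar (M₁ * q)) : LaurentSeries Qb) := by
  set φ₁ : modularFunctionFieldBar (M₁ * q) →+* LaurentSeries Qb :=
    ((modularFunctionFieldBar (M₁ * q * ℓ)).val : _ →+* LaurentSeries Qb).comp
      ((ribmpWPrime (ℓ := ℓ) hq hqMℓ).toRingEquiv.toRingHom.comp
        (heckeBetaBar Qb (M₁ * q) ℓ).toRingHom) with hφ₁
  set φ₂ : modularFunctionFieldBar (M₁ * q) →+* LaurentSeries Qb :=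
    (qExpand Qb ℓ).comp
      (((modularFunctionFieldBar (M₁ * q)).val : _ →+* LaurentSeries Qb).comp
        (atkinLehnerBar hq hqM).toRingEquiv.toRingHom) with hφ₂
  have key : φ₁ = φ₂ := by
    apply ribmp_w_ringHom_ext (M₁ * q)
    · intro c
      show ((ribmpWPrime (ℓ := ℓ) hq hqMℓ (heckeBetaBar Qb (M₁ * q) ℓ (algebraMap Qb _ c)) :
        modularFunctionFieldBar (M₁ * q * ℓ)) : LaurentSeries Qb) =
        qExpand Qb ℓ ((atkinLehnerBar hq hqM (algebraMap Qb _ c) :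
          modularFunctionFieldBar (M₁ * q)) : LaurentSeries Qb)
      rw [AlgHom.commutes, AlgEquiv.commutes, AlgEquiv.commutes]
      exact ((qExpandAlgHomC Qb ℓ).commutes c).symm
    · intro d _ hd
      show ((ribmpWPrime (ℓ := ℓ) hq hqMℓ (heckeBetaBar Qb (M₁ * q) ℓ ⟨_, _⟩) :
        modularFunctionFieldBar (M₁ * q * ℓ)) : LaurentSeries Qb) =
        qExpand Qb ℓ
          ((atkinLehnerBar hq hqM ⟨_, _⟩ : modularFunctionFieldBar (M₁ * q)) : LaurentSeries Qb)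
      rcases Fermat.Agent.AL.al_divisor_cases hq hqM hd with h | ⟨d', hd', rfl⟩
      · have hf := ribmp_w_gen_mem (M₁ := M₁) h
        rw [ribmp_wp_low hq hqMℓ (ribmp_w_mem_beta hf) _ (coe_heckeBetaBar _ _ _),
          ribmp_w_low hq hqM hf _ rfl]
        exact ribmp_w_qExpand_comm q ℓ _
      · haveI : NeZero d' := ⟨fun h0 => by
          subst h0; exact (NeZero.ne (0 * q)) (zero_mul q)⟩
        have hf := ribmp_w_gen_mem (M₁ := M₁) hd'
        have e1 : qExpand Qb ℓ (qExpand Qb (d' * q) (jqModC Qb)) =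
            qExpand Qb q (qExpand Qb ℓ (qExpand Qb d' (jqModC Qb))) := by
          rw [ribmp_w_gen_high d']
          exact ribmp_w_qExpand_comm ℓ q _
        rw [ribmp_wp_high hq hqMℓ (ribmp_w_mem_beta hf) _
            ((coe_heckeBetaBar _ _ _).trans e1),
          ribmp_w_high hq hqM hf _ (ribmp_w_gen_high d')]
  exact congrArg (fun φ : modularFunctionFieldBar (M₁ * q) →+* LaurentSeries Qb => φ y) key

/-- **`w′ ∘ α = α ∘ w`** -/
theorem ribmp_w_alpha (y : modularFunctionFieldBar (M₁ * q)) :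
    ribmpWPrime hq hqMℓ (heckeAlphaBar Qb (M₁ * q) ℓ y) =
      heckeAlphaBar Qb (M₁ * q) ℓ (atkinLehnerBar hq hqM y) := by
  apply Subtype.ext
  rw [ribmp_w_alpha_coe hq hqM hqMℓ, coe_heckeAlphaBar]

/-- **`w′ ∘ β = β ∘ w`** -/
theorem ribmp_w_beta (y : modularFunctionFieldBar (M₁ * q)) :
    ribmpWPrime hq hqMℓ (heckeBetaBar Qb (M₁ * q) ℓ y) =
      heckeBetaBar Qb (M₁ * q) ℓ (atkinLehnerBar hq hqM y) := by
  apply Subtype.ext
  rw [ribmp_w_beta_coe hq hqM hqMℓ, coe_heckeBetaBar]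

end WPrime

/-! ## 4. `w` commutes with the Hecke norm and with `T_ℓ` -/

section Main

variable {M₁ q : ℕ} [NeZero M₁] [NeZero q] [NeZero (M₁ * q)] (hq : q.Prime) (hqM : ¬ q ∣ M₁)

theorem ribmp_w_not_dvd {M₁ q ℓ : ℕ} (hq : q.Prime) (hqM : ¬ q ∣ M₁) (hℓ : ℓ.Prime)
    (hℓM : ¬ ℓ ∣ M₁ * q) : ¬ q ∣ M₁ * ℓ := by
  intro h
  rcases (Nat.Prime.dvd_mul hq).mp h with h1 | h1
  · exact hqM h1
  · have : q = ℓ := (Nat.prime_dvd_prime_iff_eq hq hℓ).mp h1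
    exact hℓM (this ▸ Dvd.intro_left M₁ rfl)

/-- **W-F: `w` commutes with the Hecke norm** `u ↦ N_α (β u)`, `ℓ ∤ M₁ q` -/
theorem ribmp_w_heckeNormFun (ℓ : ℕ) [NeZero ℓ] (hℓ : ℓ.Prime) (hℓM : ¬ ℓ ∣ M₁ * q)
    (u : modularFunctionFieldBar (M₁ * q)) :
    atkinLehnerBar hq hqM (heckeNormFun (M₁ * q) ℓ u) =
      heckeNormFun (M₁ * q) ℓ (atkinLehnerBar hq hqM u) := by
  haveI : NeZero (M₁ * ℓ) := ⟨Nat.mul_ne_zero (NeZero.ne M₁) (NeZero.ne ℓ)⟩
  haveI : NeZero (M₁ * ℓ * q) := ⟨Nat.mul_ne_zero (NeZero.ne (M₁ * ℓ)) (NeZero.ne q)⟩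
  have hqMℓ : ¬ q ∣ M₁ * ℓ := ribmp_w_not_dvd hq hqM hℓ hℓM
  letI := (heckeAlphaBar Qb (M₁ * q) ℓ).toRingHom.toAlgebra
  show atkinLehnerBar hq hqM (Algebra.norm (modularFunctionFieldBar (M₁ * q))
      (heckeBetaBar Qb (M₁ * q) ℓ u)) =
    Algebra.norm (modularFunctionFieldBar (M₁ * q))
      (heckeBetaBar Qb (M₁ * q) ℓ (atkinLehnerBar hq hqM u))
  have he : (algebraMap (modularFunctionFieldBar (M₁ * q))
        (modularFunctionFieldBar (M₁ * q * ℓ))).comp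
        ((atkinLehnerBar hq hqM).toRingEquiv : _ →+* _) =
      (((ribmpWPrime (ℓ := ℓ) hq hqMℓ).toRingEquiv : _ →+* _)).comp
        (algebraMap (modularFunctionFieldBar (M₁ * q))
          (modularFunctionFieldBar (M₁ * q * ℓ))) := by
    apply RingHom.ext
    intro y
    exact (ribmp_w_alpha hq hqM hqMℓ y).symm
  have h1 := Algebra.norm_eq_of_equiv_equiv (atkinLehnerBar hq hqM).toRingEquiv
    (ribmpWPrime (ℓ := ℓ) hq hqMℓ).toRingEquiv he (heckeBetaBar Qb (M₁ * q) ℓ u)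
  rw [h1]
  have h2 : (ribmpWPrime (ℓ := ℓ) hq hqMℓ).toRingEquiv (heckeBetaBar Qb (M₁ * q) ℓ u) =
      heckeBetaBar Qb (M₁ * q) ℓ (atkinLehnerBar hq hqM u) := ribmp_w_beta hq hqM hqMℓ u
  rw [h2]
  exact (atkinLehnerBar hq hqM).toRingEquiv.apply_symm_apply _

/-- **MP-W: `w` commutes with `T_ℓ` on `J₀(M₁ q)`**, `ℓ ∤ M₁ q` (all classes) -/
theorem ribmp_w_hecke (ℓ : Nat.Primes) (hℓM : ¬ (ℓ : ℕ) ∣ M₁ * q) (x : JZero (M₁ * q)) :
    atkinLehnerBar hq hqM • heckeOperatorBar (M₁ * q) ℓ x =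
      heckeOperatorBar (M₁ * q) ℓ (atkinLehnerBar hq hqM • x) := by
  haveI : NeZero (ℓ : ℕ) := ⟨ℓ.2.ne_zero⟩
  haveI : NeZero (M₁ * (ℓ : ℕ)) := ⟨Nat.mul_ne_zero (NeZero.ne M₁) (NeZero.ne (ℓ : ℕ))⟩
  haveI : NeZero (M₁ * (ℓ : ℕ) * q) :=
    ⟨Nat.mul_ne_zero (NeZero.ne (M₁ * (ℓ : ℕ))) (NeZero.ne q)⟩
  haveI := Fermat.Agent.ES.H.hasPrincipalDivisors_FF (M₁ * q * (ℓ : ℕ))
  have hqMℓ : ¬ q ∣ M₁ * (ℓ : ℕ) := ribmp_w_not_dvd hq hqM ℓ.2 hℓM
  have e : ∀ y : JZero (M₁ * q), heckeOperatorBar (M₁ * q) ℓ y =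
      heckeOperatorBar (M₁ * q) ⟨(ℓ : ℕ), ℓ.2⟩ y := fun _ => rfl
  rw [e, e, frob_heckeOperatorBar_eq (M₁ * q) (ℓ : ℕ) ℓ.2 x,
    frob_heckeOperatorBar_eq (M₁ * q) (ℓ : ℕ) ℓ.2 (atkinLehnerBar hq hqM • x)]
  have h₁ : SemilinearAut.IntertwinesAlong
      ((heckeBetaBar Qb (M₁ * q) (ℓ : ℕ) : _ →ₐ[Qb] _) : _ →+* _)
      (SemilinearAut.ofAlgAut (atkinLehnerBar hq hqM))
      (SemilinearAut.ofAlgAut (ribmpWPrime (ℓ := (ℓ : ℕ)) hq hqMℓ)) :=
    fun y => ribmp_w_beta hq hqM hqMℓ y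
  have h₂ : SemilinearAut.IntertwinesAlong
      ((heckeAlphaBar Qb (M₁ * q) (ℓ : ℕ) : _ →ₐ[Qb] _) : _ →+* _)
      (SemilinearAut.ofAlgAut (atkinLehnerBar hq hqM))
      (SemilinearAut.ofAlgAut (ribmpWPrime (ℓ := (ℓ : ℕ)) hq hqMℓ)) :=
    fun y => ribmp_w_alpha hq hqM hqMℓ y
  exact (pic0_correspondence_smul _ _ _ _ _ _ _ h₁ h₂ x).symm

/-- `w • x` has the Kummer function `w u` -/
theorem ribmp_w_kummerRel {n : ℕ} {x : JZero (M₁ * q)} {u : modularFunctionFieldBar (M₁ * q)}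
    (h : KummerRel n x u) :
    KummerRel n (atkinLehnerBar hq hqM • x) (atkinLehnerBar hq hqM u) :=
  KummerRel.smul (SemilinearAut.ofAlgAut (atkinLehnerBar hq hqM)) h

end Main

/-! ## 5. `RedZero` is stable under `T_ℓ`; the statements of the interface -/

section RedZero

variable {M₁ q : ℕ} [NeZero M₁] [NeZero q] [NeZero (M₁ * q)] (hq : q.Prime) (hqM : ¬ q ∣ M₁)

theorem ribmp_hk_redZero (A : ValuationSubring Qb) (m : ℕ) (ℓ : Nat.Primes)
    (hℓM : ¬ (ℓ : ℕ) ∣ M₁ * q) {x : JZero (M₁ * q)} {y : JZero M₁}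
    (h : RedZero hq hqM A m x y) :
    RedZero hq hqM A m (heckeOperatorBar (M₁ * q) ℓ x) (heckeOperatorBar M₁ ℓ y) := by
  haveI : NeZero (ℓ : ℕ) := ⟨ℓ.2.ne_zero⟩
  obtain ⟨u, v, hu, hv, hG⟩ := h
  refine ⟨heckeNormFun (M₁ * q) (ℓ : ℕ) u, heckeNormFun M₁ (ℓ : ℕ) v,
    KummerRel.hecke (M₁ * q) ℓ hu, KummerRel.hecke M₁ ℓ hv, ?_⟩
  have hαv : heckeAlphaBar Qb M₁ q v ≠ 0 :=
    (map_ne_zero_iff _ (heckeAlphaBar Qb M₁ q).toRingHom.injective).mpr hv.ne_zero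
  rw [ribmp_w_heckeNormFun hq hqM (ℓ : ℕ) ℓ.2 hℓM, ribmp_hk_alpha (ℓ : ℕ) ℓ.2 hℓM,
    ← ribmp_hk_heckeNormFun_div _ _ _ hαv]
  exact ribmp_hk_gaussConst (ℓ : ℕ) ℓ.2 hℓM hG

end RedZero

end Fermat.Agent.RIB.MP
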