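/-
Row 37, Mazur's principle, piece **MP-VH** (helper81), part 2: transfer to the vertical valuations
`mgvV` of `F_{M q}(K₀)` and descent to the inertia field.

* `ribmp_vh_unit_core` : generic unit transfer (a quotient of series over the base whose image
  is a quotient of two primitive series is a unit of the Gauss ring);
* `ribmp_vh_valuation_inf`, `ribmp_vh_valuation_zero` : `RibmpGaussUnit` ⇒ `valuation = 1` at `V_∞`,
  `V_0`;
* `ribmp_vh_exists_desc` : `T_ℓ u / u ^ (ℓ + 1)` has coefficients in `E₀` when `u` has.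
-/
import Fermat.Agent.RIB.MP.ValHecke
import Fermat.Agent.STB.ToricMgv
import Fermat.Agent.S36.DescentFF
import Fermat.Agent.RIB.MP.WHecke

set_option autoImplicit false
set_option linter.unusedSectionVars false
set_option linter.style.haveILetI false

noncomputable section

namespace Fermat.Agent.RIB.MP

open ModularCurve AlgebraicCurve Fermat.Agent.ES Fermat.Agent.ES.G2 Fermat.Agent.INJ
  Fermat.Agent.UNIP Fermat.Agent.STB

/-! ### Generic unit transfer -/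

section Core

variable {A₀ E k : Type*} [CommRing A₀] [Field E] [Field k]
  {ι : A₀ →+* E} {r : A₀ →+* k} {π : A₀}
  {L : Type*} [Field L] {AL : ValuationSubring L} {ψ : E →+* L}

theorem ribmp_vh_coeffMap_C (a : E) :
    coeffMap ψ (HahnSeries.C a : LaurentSeries E) = HahnSeries.C (ψ a) := by
  ext n
  rw [coeffMap_coeff, HahnSeries.C_apply, HahnSeries.C_apply, HahnSeries.coeff_single,
    HahnSeries.coeff_single]
  split_ifs
  · rfl
  · exact map_zero ψ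

/-- the constant series of a non-unit is congruent to zero -/
theorem ribmp_vh_C_congr_zero {c : L} (hc : c ∈ AL.nonunits) :
    KronCongr AL (HahnSeries.C c : LaurentSeries L) 0 := fun n => by
  rw [HahnSeries.coeff_zero, sub_zero, HahnSeries.C_apply, HahnSeries.coeff_single]
  split_ifs
  · exact hc
  · exact AL.mem_nonunits_iff.2 (by rw [map_zero]; exact zero_lt_one)

/-- no positive power of the uniformizer: `π ^ d u · y₂ = y₁`, `u` a unit, `y₁, y₂` primitive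
⇒ `d = 0` -/
theorem ribmp_vh_pow_eq_zero (h1 : ∀ a, ψ (ι a) ∈ AL)
    (h2 : ∀ a, ψ (ι a) ∈ AL.nonunits → r a = 0) (h3 : ψ (ι π) ∈ AL.nonunits)
    {x u : LaurentSeries E} {d : ℕ} (hu : VtUnit ι r u) (hxu : x = HahnSeries.C (ι π) ^ d * u)
    {y₁ y₂ : LaurentSeries L} (hy₁ : KronPrim AL y₁) (hy₂ : KronPrim AL y₂)
    (hxy : coeffMap ψ x * y₂ = y₁) : d = 0 := by
  by_contra hd
  obtain ⟨d', rfl⟩ : ∃ d', d = d' + 1 := ⟨d - 1, by omega⟩
  obtain ⟨T, b, hT, hb, hbu⟩ := hu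
  -- `ψ̂ b · y₁ = C ϖ · (C ϖ ^ d' · ψ̂ T · y₂)`
  have key : coeffMap ψ (coeffMap ι b) * y₁ =
      HahnSeries.C (ψ (ι π)) *
        (HahnSeries.C (ψ (ι π)) ^ d' * (coeffMap ψ (coeffMap ι T) * y₂)) := by
    have e1 : coeffMap ι b * x = HahnSeries.C (ι π) ^ (d' + 1) * coeffMap ι T := by
      rw [hxu, ← hbu]
      ring
    have e2 := congrArg (coeffMap ψ) e1
    rw [map_mul, map_mul, map_pow, ribmp_vh_coeffMap_C] at e2
    rw [← hxy, ← mul_assoc, e2, pow_succ]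
    ring
  have hprim : KronPrim AL (coeffMap ψ (coeffMap ι b) * y₁) :=
    (stb_mgt_prim h1 h2 hb).mul hy₁
  have hint : KronInt AL (HahnSeries.C (ψ (ι π)) ^ d' * (coeffMap ψ (coeffMap ι T) * y₂)) :=
    ((stb_mgt_int_C (h1 π)).pow d').mul ((stb_mgt_int h1 T).mul hy₂.1)
  rw [key] at hprim
  exact stb_mgt_not_prim_of_congr_zero hprim
    (stb_mgt_congr_zero_mul (stb_mgt_int_C (h1 π)) hint (ribmp_vh_C_congr_zero h3))

/-- **Unit transfer, generic core.**  If `ψ̂ x` is a quotient of two `AL`-primitive series then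
`x` is a unit of the Gauss ring of the base. -/
theorem ribmp_vh_unit_core (hB : VtBase ι r π) (h1 : ∀ a, ψ (ι a) ∈ AL)
    (h2 : ∀ a, ψ (ι a) ∈ AL.nonunits → r a = 0) (h3 : ψ (ι π) ∈ AL.nonunits)
    {x : LaurentSeries E} (hx : VtFrac ι x) {y₁ y₂ : LaurentSeries L}
    (hy₁ : KronPrim AL y₁) (hy₂ : KronPrim AL y₂) (hxy : coeffMap ψ x * y₂ = y₁) :
    VtUnit ι r x := by
  have hy₁0 : y₁ ≠ 0 := by
    rintro rfl
    obtain ⟨n, hn⟩ := hy₁.2
    apply hn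
    rw [HahnSeries.coeff_zero]
    exact AL.mem_nonunits_iff.2 (by rw [map_zero]; exact zero_lt_one)
  have hx0 : x ≠ 0 := by
    rintro rfl
    rw [map_zero, zero_mul] at hxy
    exact hy₁0 hxy.symm
  have hψx0 : coeffMap ψ x ≠ 0 := by
    intro h
    rw [h, zero_mul] at hxy
    exact hy₁0 hxy.symm
  obtain ⟨d, u, hu, h | h⟩ := vt_exists_pow_mul hB hx0 hx
  · have hd := ribmp_vh_pow_eq_zero h1 h2 h3 hu h hy₁ hy₂ hxy
    subst hd
    rw [pow_zero, one_mul] at h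
    rw [h]
    exact hu
  · have hxy' : coeffMap ψ x⁻¹ * y₁ = y₂ := by
      rw [map_inv₀, ← hxy, ← mul_assoc, inv_mul_cancel₀ hψx0, one_mul]
    have hd := ribmp_vh_pow_eq_zero h1 h2 h3 hu h hy₂ hy₁ hxy'
    subst hd
    rw [pow_zero, one_mul] at h
    have := hu.inv hB.inj
    rw [← h, inv_inv] at this
    exact this

end Core

/-! ### Transfer to the vertical valuations of `F_{M q}(K₀)` -/

section Mgv

variable {A : ValuationSubring Qb} {K₀ : IntermediateField ℚ Qb}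
  [IsDiscreteValuationRing ↥(beta0Ring A K₀)] {π : ↥(beta0Ring A K₀)} (hπ : Irreducible π)
  (ιC : ↥K₀ →+* ℂ) {q M : ℕ} [NeZero q] [NeZero M] [NeZero (M * q)]
  (hq : q.Prime) (hqM : ¬ q ∣ M)

include hπ in
/-- `(c3)` for the base `A ∩ K₀` -/
theorem ribmp_vh_c3 :
    algebraMap ↥K₀ Qb (algebraMap ↥(beta0Ring A K₀) ↥K₀ π) ∈ A.nonunits :=
  (beta0Ring_mem_maximalIdeal_iff π).1
    ((IsLocalRing.mem_maximalIdeal π).2 hπ.not_isUnit)

/-- **unit transfer at `∞`** -/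
theorem ribmp_vh_valuation_inf (y₀ : ↥(modularFunctionFieldFullC ↥K₀ (M * q)))
    (hy : RibmpGaussUnit (M * q) A (nfEmb K₀ (M * q) y₀)) :
    (mgvV hπ ιC hq hqM true).valuation y₀ = 1 := by
  obtain ⟨y₁, y₂, -, -, hy₁, hy₂, hxy⟩ := hy
  show (vtFam (vtBase_residue hπ) ιC hq hqM true).valuation y₀ = 1
  rw [vtFam_valuation_eq_one_iff]
  exact ribmp_vh_unit_core (ψ := algebraMap ↥K₀ Qb) (vtBase_residue hπ) (stb_mgt_c1 A K₀)
    (stb_mgt_c2 A K₀) (ribmp_vh_c3 hπ) (vt_frac_fullC (vtBase_residue hπ) (M * q) y₀.2)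
    hy₁ hy₂ hxy

/-- **unit transfer at `0`** -/
theorem ribmp_vh_valuation_zero (y₀ : ↥(modularFunctionFieldFullC ↥K₀ (M * q)))
    (hy : RibmpGaussUnit (M * q) A (atkinLehnerBar hq hqM (nfEmb K₀ (M * q) y₀))) :
    (mgvV hπ ιC hq hqM false).valuation y₀ = 1 := by
  obtain ⟨y₁, y₂, -, -, hy₁, hy₂, hxy⟩ := hy
  rw [stb_mgt_atkinLehnerBar_nfEmb ιC hq hqM y₀] at hxy
  show (vtFam (vtBase_residue hπ) ιC hq hqM false).valuation y₀ = 1
  rw [vtFam_valuation_eq_one_iff]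
  exact ribmp_vh_unit_core (ψ := algebraMap ↥K₀ Qb) (vtBase_residue hπ) (stb_mgt_c1 A K₀)
    (stb_mgt_c2 A K₀) (ribmp_vh_c3 hπ)
    (vt_frac_fullC (vtBase_residue hπ) (M * q)
      (Fermat.Agent.AL.atkinLehner ↥K₀ ιC hq hqM y₀).2) hy₁ hy₂ hxy

/-- `w_q` commutes with `u ↦ T_ℓ u / u ^ (ℓ + 1)` -/
theorem ribmp_vh_atkinLehnerBar_eisFun (ℓ : ℕ) [NeZero ℓ] (hℓ : ℓ.Prime) (hℓM : ¬ ℓ ∣ M * q)
    (u : modularFunctionFieldBar (M * q)) :
    atkinLehnerBar hq hqM (ribmpEisFun (M * q) ℓ u)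
      = ribmpEisFun (M * q) ℓ (atkinLehnerBar hq hqM u) := by
  unfold ribmpEisFun
  rw [map_div₀, map_pow, ribmp_w_heckeNormFun hq hqM ℓ hℓ hℓM u]

/-- **MP-VH, the two vertical valuations**: a descent `y₀ ∈ F_{Mq}(K₀)` of
`T_ℓ u / u ^ (ℓ + 1)` is a unit at `V_∞` and at `V_0`. -/
theorem ribmp_vh_valuation (hA : A.LiesOverPrime q) (ℓ : ℕ) [NeZero ℓ] (hℓ : ℓ.Prime)
    (hℓM : ¬ ℓ ∣ M * q) (u : modularFunctionFieldBar (M * q)) (hu : u ≠ 0)
    (y₀ : ↥(modularFunctionFieldFullC ↥K₀ (M * q)))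
    (hy : nfEmb K₀ (M * q) y₀ = ribmpEisFun (M * q) ℓ u) (c : Bool) :
    (mgvV hπ ιC hq hqM c).valuation y₀ = 1 := by
  cases c
  · apply ribmp_vh_valuation_zero hπ ιC hq hqM y₀
    rw [hy, ribmp_vh_atkinLehnerBar_eisFun hq hqM ℓ hℓ hℓM u]
    exact ribmp_vh_gaussUnit hq hA ℓ hℓ hℓM _ ((map_ne_zero _).2 hu)
  · apply ribmp_vh_valuation_inf hπ ιC hq hqM y₀
    rw [hy]
    exact ribmp_vh_gaussUnit hq hA ℓ hℓ hℓM u hu

end Mgv

/-! ### Descent to the inertia field -/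

section Desc

variable {q : ℕ} (hq : q.Prime) {A : ValuationSubring Qb} (hA : A.LiesOverPrime q)
  (N : ℕ) [NeZero N]

include hq hA in
/-- **`T_ℓ` preserves `F_N(E₀)`**: `T_ℓ u / u ^ (ℓ + 1)` has coefficients in the inertia field
when `u` has. -/
theorem ribmp_vh_exists_desc (ℓ : ℕ) [NeZero ℓ] (hℓ : ℓ.Prime) (hℓN : ¬ ℓ ∣ N)
    (u₀ : ↥(modularFunctionFieldFullC ↥(beta0Field A) N)) :
    ∃ y₀ : ↥(modularFunctionFieldFullC ↥(beta0Field A) N),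
      nfEmb (beta0Field A) N y₀ = ribmpEisFun N ℓ (nfEmb (beta0Field A) N u₀) := by
  obtain ⟨ζ, hζ⟩ := frob_exists_primitiveRoot ℓ (NeZero.ne ℓ)
  set u : modularFunctionFieldBar N := nfEmb (beta0Field A) N u₀ with hu
  have hfixU : ∀ σ ∈ A.inertiaSubgroupIn ℚ,
      coeffMap ((σ : Qb ≃ₐ[ℚ] Qb) : Qb →+* Qb) (u : LaurentSeries Qb) = u := by
    intro σ hσ
    rw [hu, nfEmb_coe, coeffMap_coeffMap]
    refine coeffMap_congr (RingHom.ext fun c => ?_) _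
    exact mem_beta0Field.1 c.2 σ hσ
  have hfix : ∀ σ ∈ A.inertiaSubgroupIn ℚ,
      coeffMap ((σ : Qb ≃ₐ[ℚ] Qb) : Qb →+* Qb)
        ((ribmpEisFun N ℓ u : modularFunctionFieldBar N) : LaurentSeries Qb)
        = (ribmpEisFun N ℓ u : modularFunctionFieldBar N) := by
    intro σ hσ
    rw [ribmpEisFun_coe ℓ hℓ hℓN ζ hζ u, map_div₀, map_pow,
      coeffMap_kronHecke_algEquiv ζ hζ σ, hfixU σ hσ]
  obtain ⟨y, hy, hyx⟩ := Fermat.Agent.S36.s36d_fixed hq hA N _ (ribmpEisFun N ℓ u).2 hfix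
  exact ⟨⟨y, hy⟩, Subtype.ext hyx⟩

end Desc

/-! ### MP-VH -/

section Main

variable {M₁ q : ℕ} [NeZero M₁] [NeZero q] [NeZero (M₁ * q)] (hq : q.Prime) (hqM : ¬ q ∣ M₁)
  {A : ValuationSubring Qb} (hA : A.LiesOverPrime q)
  [IsDiscreteValuationRing ↥(beta0Ring A (beta0Field A))]
  {π : ↥(beta0Ring A (beta0Field A))} (hπ : Irreducible π) (ιC : ↥(beta0Field A) →+* ℂ)

include hA in
/-- **MP-VH.**  For `u₀ ∈ F_N(E₀)^×` (`N = M₁ q`, `E₀` the inertia field of `A`) and a prime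
`ℓ ∤ N`: the function `T_ℓ u₀ / u₀ ^ (ℓ + 1)` lies in `F_N(E₀)` and is a unit at both vertical
valuations `V_∞`, `V_0`.  If `u₀` is a Kummer function of `x` it is a Kummer function of
`eisKill ℓ x` (`ribmp_vh_kummerRel`). -/
theorem ribmp_vh_main (ℓ : ℕ) [NeZero ℓ] (hℓ : ℓ.Prime) (hℓM : ¬ ℓ ∣ M₁ * q)
    (u₀ : ↥(modularFunctionFieldFullC ↥(beta0Field A) (M₁ * q))) (hu₀ : u₀ ≠ 0) :
    ∃ y₀ : ↥(modularFunctionFieldFullC ↥(beta0Field A) (M₁ * q)), y₀ ≠ 0 ∧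
      nfEmb (beta0Field A) (M₁ * q) y₀
        = ribmpEisFun (M₁ * q) ℓ (nfEmb (beta0Field A) (M₁ * q) u₀) ∧
      ∀ c : Bool, (mgvV hπ ιC hq hqM c).valuation y₀ = 1 := by
  obtain ⟨y₀, hy₀⟩ := ribmp_vh_exists_desc hq hA (M₁ * q) ℓ hℓ hℓM u₀
  have hu : nfEmb (beta0Field A) (M₁ * q) u₀ ≠ 0 := (map_ne_zero _).2 hu₀
  refine ⟨y₀, ?_, hy₀, fun c => ribmp_vh_valuation hπ ιC hq hqM hA ℓ hℓ hℓM _ hu y₀ hy₀ c⟩
  intro h
  rw [h, map_zero] at hy₀
  exact ribmpEisFun_ne_zero (M₁ * q) ℓ hu hy₀.symm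

include hA in
/-- **MP-VH for Kummer functions**: an inertia-fixed class `x ∈ J₀(M₁ q)[m]` being given,
`eisKill ℓ x` has a Kummer function in `F_N(E₀)` which is a unit at `V_∞` and at `V_0`. -/
theorem ribmp_vh_kummer (ℓ : Nat.Primes) (hℓM : ¬ (ℓ : ℕ) ∣ M₁ * q) {m : ℕ}
    {x : JZero (M₁ * q)} (u₀ : ↥(modularFunctionFieldFullC ↥(beta0Field A) (M₁ * q)))
    (hx : KummerRel m x (nfEmb (beta0Field A) (M₁ * q) u₀)) :
    ∃ y₀ : ↥(modularFunctionFieldFullC ↥(beta0Field A) (M₁ * q)), y₀ ≠ 0 ∧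
      KummerRel m (eisKill ℓ x) (nfEmb (beta0Field A) (M₁ * q) y₀) ∧
      ∀ c : Bool, (mgvV hπ ιC hq hqM c).valuation y₀ = 1 := by
  haveI : NeZero (ℓ : ℕ) := ⟨ℓ.2.ne_zero⟩
  have hu₀ : u₀ ≠ 0 := by
    rintro rfl
    exact hx.ne_zero (map_zero _)
  obtain ⟨y₀, hy0, hy₀, hval⟩ := ribmp_vh_main hq hqM hA hπ ιC (ℓ : ℕ) ℓ.2 hℓM u₀ hu₀
  refine ⟨y₀, hy0, ?_, hval⟩
  rw [hy₀]
  exact ribmp_vh_kummerRel ℓ hx

end Main

end Fermat.Agent.RIB.MP

end
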