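/-
Row 37, Mazur's principle, piece MP-RED, part RED-a (helper91; debugged + landed by helper85): the reduction of `V_∞` in the
Kronecker language.

`A ⊂ ℚ̄` a valuation ring, `K₀ ⊂ ℚ̄`, `A₀ = A ∩ K₀` a discrete valuation ring,
`V = vtInf (E := ↥K₀) (vtBase_residue hπ) N` the Gauss valuation ring of `F_N(K₀)`.

* `ribmp_red_const_mem` : `ψ̂ x · y₂ = c · y₁`, `x` Gauss-integral over the base, `y₁, y₂`
  primitive over `A`  ⇒  `c ∈ A`;
* `ribmp_red_gaussInt` : `x ∈ V ⇒ GaussInt N A (nfEmb K₀ N x)`;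
* `ribmpRedLS N A : deuInstO N A →+* kA((Q))` : the reduction (no `StmtRedF` needed);
* `ribmpRedK hπ N : V →+* kA((Q))` with `ribmpRedK_spec : GaussRed N A (nfEmb x) (ribmpRedK x)`,
  `ribmpRedK_const`, `ribmpRedK_eq_zero_of_mem_nonunits`, `ribmpRedK_ne_zero`.
-/
import Fermat.Agent.RIB.MP.ValHeckeVert
import Fermat.Agent.DEU.Val
import Fermat.Agent.STB.ToricTransfer
import Fermat.Agent.S36.N2ExtDVR

set_option autoImplicit false
set_option linter.unusedSectionVars false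
set_option linter.unusedVariables false
set_option linter.style.haveILetI false
set_option linter.style.longLine false

noncomputable section

namespace Fermat.Agent.RIB.MP

open ModularCurve AlgebraicCurve Fermat.Agent.ES Fermat.Agent.ES.G2 Fermat.Agent.INJ
  Fermat.Agent.UNIP Fermat.Agent.STB Fermat.Agent.ES.M Fermat.Agent.DEU Fermat.Agent.S36
  Fermat.Agent.S24

section Core

variable {A₀ E k : Type*} [CommRing A₀] [Field E] [Field k]
  {ι : A₀ →+* E} {r : A₀ →+* k} {π : A₀}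
  {L : Type*} [Field L] {AL : ValuationSubring L} {ψ : E →+* L}

/-- if `ψ̂ x · y₂ = c · y₁` with `x` in the Gauss ring of the base and `y₁, y₂` primitive over
`AL`, then `c ∈ AL` -/
theorem ribmp_red_const_mem (h1 : ∀ a, ψ (ι a) ∈ AL)
    (h2 : ∀ a, ψ (ι a) ∈ AL.nonunits → r a = 0)
    {x : LaurentSeries E} (hx : x ∈ gaussRing ι r) {c : L} {y₁ y₂ : LaurentSeries L}
    (hy₁ : KronPrim AL y₁) (hy₂ : KronPrim AL y₂)
    (hxy : coeffMap ψ x * y₂ = HahnSeries.C c * y₁) : c ∈ AL := by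
  by_contra hc
  have hc0 : c ≠ 0 := fun h => hc (h ▸ AL.zero_mem)
  have hcinv : c⁻¹ ∈ AL.nonunits := by
    rw [ValuationSubring.mem_nonunits_iff, map_inv₀]
    rw [← ValuationSubring.valuation_le_one_iff, not_le] at hc
    exact inv_lt_one_of_one_lt₀ hc
  have hcinv' : c⁻¹ ∈ AL := by
    rw [← ValuationSubring.valuation_le_one_iff]
    exact (AL.mem_nonunits_iff.1 hcinv).le
  obtain ⟨T, b, hb, hbx⟩ := hx
  have e2 : coeffMap ψ (coeffMap ι b) * coeffMap ψ x = coeffMap ψ (coeffMap ι T) := by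
    rw [← map_mul, hbx]
  have hCC : (HahnSeries.C c⁻¹ : LaurentSeries L) * HahnSeries.C c = 1 := by
    rw [← map_mul, inv_mul_cancel₀ hc0, map_one]
  have key : coeffMap ψ (coeffMap ι b) * y₁ =
      HahnSeries.C c⁻¹ * (coeffMap ψ (coeffMap ι T) * y₂) := by
    calc coeffMap ψ (coeffMap ι b) * y₁
        = (HahnSeries.C c⁻¹ * HahnSeries.C c) * (coeffMap ψ (coeffMap ι b) * y₁) := by
          rw [hCC, one_mul]
      _ = HahnSeries.C c⁻¹ * (coeffMap ψ (coeffMap ι b) * (HahnSeries.C c * y₁)) := by ring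
      _ = HahnSeries.C c⁻¹ * (coeffMap ψ (coeffMap ι b) * (coeffMap ψ x * y₂)) := by rw [hxy]
      _ = HahnSeries.C c⁻¹ * (coeffMap ψ (coeffMap ι T) * y₂) := by
          rw [← mul_assoc (coeffMap ψ (coeffMap ι b)), e2]
  have hprim : KronPrim AL (coeffMap ψ (coeffMap ι b) * y₁) :=
    (stb_mgt_prim h1 h2 hb).mul hy₁
  have hint : KronInt AL (coeffMap ψ (coeffMap ι T) * y₂) := (stb_mgt_int h1 T).mul hy₂.1
  rw [key] at hprim
  exact stb_mgt_not_prim_of_congr_zero hprim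
    (stb_mgt_congr_zero_mul (stb_mgt_int_C hcinv') hint (ribmp_vh_C_congr_zero hcinv))

end Core

section RedLS

variable (N : ℕ) [NeZero N] (A : ValuationSubring Qb)

/-- the reduction of the Gauss-integral elements of `F_N(ℚ̄)`, with values in `k((Q))` -/
def ribmpRedLS : deuInstO N A →+* LaurentSeries (kA A) where
  toFun x := deuInstRedFun N A x
  map_one' := deuInstRedFun_eq N A (deuInst_gaussRed_one N A)
  map_mul' x y := deuInstRedFun_eq N A
    (deuInst_gaussRed_mul N A (deuInstRedFun_spec N A x) (deuInstRedFun_spec N A y))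
  map_zero' := deuInstRedFun_eq N A (deuInst_gaussRed_zero N A)
  map_add' x y := deuInstRedFun_eq N A
    (deuInst_gaussRed_add N A (deuInstRedFun_spec N A x) (deuInstRedFun_spec N A y))

theorem ribmpRedLS_spec (x : deuInstO N A) :
    GaussRed N A (x : FF N) (ribmpRedLS N A x) := deuInstRedFun_spec N A x

theorem ribmpRedLS_eq {x : deuInstO N A} {w : LaurentSeries (kA A)}
    (h : GaussRed N A (x : FF N) w) : ribmpRedLS N A x = w := deuInstRedFun_eq N A h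

end RedLS

section GaussInt

variable {A : ValuationSubring Qb} {K₀ : IntermediateField ℚ Qb}
  [IsDiscreteValuationRing ↥(beta0Ring A K₀)] {π : ↥(beta0Ring A K₀)} (hπ : Irreducible π)

/-- **a Gauss-integral element of `F_N(K₀)` (base `A ∩ K₀`) is Gauss-integral over `A`** -/
theorem ribmp_red_gaussInt (N : ℕ) [NeZero N] {x : modularFunctionFieldFullC ↥K₀ N}
    (hx : x ∈ vtInf (E := ↥K₀) (vtBase_residue hπ) N) : GaussInt N A (nfEmb K₀ N x) := by
  by_cases hx0 : x = 0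
  · rw [hx0, map_zero]
    exact ⟨0, deuInst_gaussRed_zero N A⟩
  obtain ⟨c, y₁, y₂, hc, hy₁m, hy₂m, hy₁, hy₂, huy⟩ :=
    deuInst_prim N A (nfEmb K₀ N x) ((map_ne_zero _).2 hx0)
  have hcA : c ∈ A :=
    ribmp_red_const_mem (ψ := algebraMap ↥K₀ Qb) (stb_mgt_c1 A K₀) (stb_mgt_c2 A K₀)
      ((mem_vtInf _ N).1 hx) hy₁ hy₂ huy
  obtain ⟨Y₁, rfl⟩ := hy₁.1.exists_lift
  obtain ⟨Y₂, rfl⟩ := hy₂.1.exists_lift
  have hR₂ : kronRed A Y₂ ≠ 0 := (kronPrim_kronIncl_iff Y₂).mp hy₂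
  have hC : kronIncl A (HahnSeries.C (⟨c, hcA⟩ : A)) = HahnSeries.C c :=
    deuInst_coeffMap_C A.subtype ⟨c, hcA⟩
  refine ⟨kronRed A (HahnSeries.C (⟨c, hcA⟩ : A) * Y₁) * (kronRed A Y₂)⁻¹,
    HahnSeries.C (⟨c, hcA⟩ : A) * Y₁, Y₂, ?_, hy₂m, hR₂, ?_, ?_⟩
  · rw [map_mul, hC]
    exact mul_mem (hahnC_mem_intermediateField _ _) hy₁m
  · rw [map_mul, hC]
    exact huy
  · rw [mul_assoc, inv_mul_cancel₀ hR₂, mul_one]

/-- the reduction of `V_∞ ⊂ F_N(K₀)` in the Kronecker language over `A` -/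
def ribmpRedK (N : ℕ) [NeZero N] :
    ↥(vtInf (E := ↥K₀) (vtBase_residue hπ) N) →+* LaurentSeries (kA A) :=
  (ribmpRedLS N A).comp
    (((nfEmb K₀ N).comp (vtInf (E := ↥K₀) (vtBase_residue hπ) N).subtype).codRestrict (deuInstO N A)
      (fun x => ribmp_red_gaussInt hπ N x.2))

theorem ribmpRedK_spec (N : ℕ) [NeZero N] (x : ↥(vtInf (E := ↥K₀) (vtBase_residue hπ) N)) :
    GaussRed N A (nfEmb K₀ N (x : modularFunctionFieldFullC ↥K₀ N)) (ribmpRedK hπ N x) :=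
  deuInstRedFun_spec N A
    ⟨nfEmb K₀ N (x : modularFunctionFieldFullC ↥K₀ N), ribmp_red_gaussInt hπ N x.2⟩

theorem ribmpRedK_eq (N : ℕ) [NeZero N] {x : ↥(vtInf (E := ↥K₀) (vtBase_residue hπ) N)}
    {w : LaurentSeries (kA A)}
    (h : GaussRed N A (nfEmb K₀ N (x : modularFunctionFieldFullC ↥K₀ N)) w) :
    ribmpRedK hπ N x = w :=
  deuInst_gaussRed_unique N A (ribmpRedK_spec hπ N x) h

/-- constants -/
theorem ribmpRedK_const (N : ℕ) [NeZero N] (a : ↥(beta0Ring A K₀))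
    (ha : mgaConst ↥K₀ N (algebraMap ↥(beta0Ring A K₀) ↥K₀ a) ∈ vtInf (E := ↥K₀) (vtBase_residue hπ) N) :
    ribmpRedK hπ N ⟨_, ha⟩ =
      HahnSeries.C (IsLocalRing.residue A ⟨algebraMap ↥K₀ Qb (algebraMap ↥(beta0Ring A K₀) ↥K₀ a),
        stb_mgt_c1 A K₀ a⟩) := by
  apply ribmpRedK_eq
  have e : nfEmb K₀ N (mgaConst ↥K₀ N (algebraMap ↥(beta0Ring A K₀) ↥K₀ a)) =
      algebraMap Qb (FF N) (algebraMap ↥K₀ Qb (algebraMap ↥(beta0Ring A K₀) ↥K₀ a)) :=
    nfEmb_algebraMap K₀ N _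
  show GaussRed N A (nfEmb K₀ N (mgaConst ↥K₀ N (algebraMap ↥(beta0Ring A K₀) ↥K₀ a))) _
  rw [e]
  exact deuInst_gaussRed_const N A ⟨_, stb_mgt_c1 A K₀ a⟩

/-- the uniformizer reduces to `0` -/
theorem ribmpRedK_unif (N : ℕ) [NeZero N]
    (ha : mgaConst ↥K₀ N (algebraMap ↥(beta0Ring A K₀) ↥K₀ π) ∈ vtInf (E := ↥K₀) (vtBase_residue hπ) N) :
    ribmpRedK hπ N ⟨_, ha⟩ = 0 := by
  rw [ribmpRedK_const]
  have h0 : IsLocalRing.residue A ⟨algebraMap ↥K₀ Qb (algebraMap ↥(beta0Ring A K₀) ↥K₀ π),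
      stb_mgt_c1 A K₀ π⟩ = 0 := by
    rw [IsLocalRing.residue_eq_zero_iff, IsLocalRing.mem_maximalIdeal, mem_nonunits_iff]
    intro hu
    have h3 := ribmp_vh_c3 (A := A) (K₀ := K₀) hπ
    rw [ValuationSubring.mem_nonunits_iff] at h3
    have h4 := (ValuationSubring.valuation_eq_one_iff A _).1 hu
    rw [h4] at h3
    exact lt_irrefl _ h3
  rw [h0, map_zero]

/-- the maximal ideal reduces to `0` -/
theorem ribmpRedK_eq_zero_of_mem_nonunits (N : ℕ) [NeZero N]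
    (x : ↥(vtInf (E := ↥K₀) (vtBase_residue hπ) N))
    (hx : (x : modularFunctionFieldFullC ↥K₀ N) ∈ (vtInf (E := ↥K₀) (vtBase_residue hπ) N).nonunits) :
    ribmpRedK hπ N x = 0 := by
  have hc : vtEmb ↥K₀ N (mgaConst ↥K₀ N (algebraMap ↥(beta0Ring A K₀) ↥K₀ π)) =
      HahnSeries.C (algebraMap ↥(beta0Ring A K₀) ↥K₀ π) :=
    algebraMap_laurentSeries_eq_single ↥K₀ _
  obtain ⟨y, hy, hxy⟩ := s36n2e_vtSub_unif (vtBase_residue hπ) (vtEmb ↥K₀ N)
    (fun x => vt_frac_fullC (vtBase_residue hπ) N x.2) hc hx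
  have hπV : mgaConst ↥K₀ N (algebraMap ↥(beta0Ring A K₀) ↥K₀ π) ∈
      vtInf (E := ↥K₀) (vtBase_residue hπ) N :=
    vtSub_const_mem (vtBase_residue hπ) _ _ hc
  have e : x = ⟨_, hπV⟩ * ⟨y, hy⟩ := Subtype.ext hxy
  rw [e, map_mul, ribmpRedK_unif, zero_mul]

/-- units have nonzero reduction -/
theorem ribmpRedK_ne_zero (N : ℕ) [NeZero N] (x : ↥(vtInf (E := ↥K₀) (vtBase_residue hπ) N))
    (hx : (vtInf (E := ↥K₀) (vtBase_residue hπ) N).valuation (x : modularFunctionFieldFullC ↥K₀ N) = 1) :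
    ribmpRedK hπ N x ≠ 0 := by
  have hu : IsUnit x := (ValuationSubring.valuation_eq_one_iff _ x).2 hx
  exact (hu.map (ribmpRedK hπ N)).ne_zero

end GaussInt

end Fermat.Agent.RIB.MP
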