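/-
Row 37, Mazur's principle, piece MP-RED, part RED-a (i) "K-RES" (helper91).

`q ∤ M` a prime, `F_M = modularFunctionFieldFullC E M ⊆ F_{Mq}`, `W = vtInf hB M` the Gauss
valuation ring of `F_M`, `V_∞ = vtFam … true`, `V_0 = vtFam … false` the two vertical valuation
rings of `F_{Mq}`.  `[F_{Mq} : F_M] = q + 1`, `V_∞` and `V_0` both dominate `W`, and the residue
field of `V_0` has degree `≥ q` over that of `W` (`1, j_q, …, j_q^(q-1)`): hence (two-valuation
theorem `UNIP.unip_twoVal_main`) the residue field of `V_∞` is that of `W`: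

* `ribmp_red_two_hom` : the abstract statement, ring homomorphism form;
* `ribmp_red_res` : `∀ x ∈ V_∞, ∃ c ∈ W, x − c ∈ 𝔪(V_∞)`.
-/
import Fermat.Agent.UNIP.NodesAbs
import Fermat.Agent.S36.N2ExtHom

set_option autoImplicit false
set_option linter.unusedSectionVars false
set_option linter.unusedVariables false
set_option linter.style.haveILetI false
set_option linter.style.longLine false

noncomputable section

namespace Fermat.Agent.RIB.MP

open Module IsLocalRing Polynomial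
open Fermat.Agent.UNIP Fermat.Agent.S36

section Abs

variable {F₁ F : Type*} [Field F₁] [Field F]

/-- Hypotheses of the two-valuation theorem with residue degrees `1` and `n`, ring homomorphism
form. -/
structure RibmpTwoHom (φ : F₁ →+* F) (W : ValuationSubring F₁)
    (V₁ V₂ : ValuationSubring F) (n : ℕ) : Prop where
  le₁ : ∀ z ∈ W, φ z ∈ V₁
  le₂ : ∀ z ∈ W, φ z ∈ V₂
  dom₁ : ∀ z ∈ W.nonunits, φ z ∈ V₁.nonunits
  dom₂ : ∀ z ∈ W.nonunits, φ z ∈ V₂.nonunits
  sep : ∃ g : F, (∃ p : F₁[X], p.Monic ∧ (∀ k, p.coeff k ∈ W) ∧ p.eval₂ φ g = 0) ∧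
    g ∈ V₁.nonunits ∧ g ∉ V₂.nonunits
  indep : ∃ y : Fin n → F,
    (∀ i, ∃ p : F₁[X], p.Monic ∧ (∀ k, p.coeff k ∈ W) ∧ p.eval₂ φ (y i) = 0) ∧
    ∀ c : Fin n → F₁, (∀ i, c i ∈ W) → (∑ i, φ (c i) * y i) ∈ V₂.nonunits →
      ∀ i, c i ∈ W.nonunits

set_option synthInstance.maxHeartbeats 400000 in
set_option maxHeartbeats 1600000 in
/-- **Two-valuation theorem, ring homomorphism form, residue degrees `1` and `n`**: the residue
field of `V₁` is that of `W`. -/
theorem ribmp_red_two_hom (φ : F₁ →+* F)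
    (hfin : letI := φ.toAlgebra; Module.Finite F₁ F)
    (hsep : letI := φ.toAlgebra; Algebra.IsSeparable F₁ F)
    {n : ℕ} (hn : 0 < n) (hdeg : letI := φ.toAlgebra; Module.finrank F₁ F = n + 1)
    (W : ValuationSubring F₁) (hW : IsDiscreteValuationRing W)
    {V₁ V₂ : ValuationSubring F} (h : RibmpTwoHom φ W V₁ V₂ n) :
    ∀ x ∈ V₁, ∃ c ∈ W, x - φ c ∈ V₁.nonunits := by
  letI := φ.toAlgebra
  letI := s36n2eAlg φ W
  haveI : IsScalarTower W F₁ F := IsScalarTower.of_algebraMap_eq (fun _ => rfl)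
  haveI : FiniteDimensional F₁ F := hfin
  haveI : Algebra.IsSeparable F₁ F := hsep
  haveI := hW
  have hT : UnipTwoVal W V₁ V₂ n :=
    { le₁ := fun r => h.le₁ _ r.2
      le₂ := fun r => h.le₂ _ r.2
      dom₁ := fun r hr => h.dom₁ _ ((s36n2e_mem_max W).mp hr)
      dom₂ := fun r hr => h.dom₂ _ ((s36n2e_mem_max W).mp hr)
      sep := by
        obtain ⟨g, hg, hg1, hg2⟩ := h.sep
        exact ⟨g, s36n2e_isIntegral_of_poly φ W hg, hg1, hg2⟩
      indep := by
        obtain ⟨y, hy, hind⟩ := h.indep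
        refine ⟨y, fun i => s36n2e_isIntegral_of_poly φ W (hy i), ?_⟩
        intro c hc i
        rw [s36n2e_mem_max]
        exact hind (fun i => (c i : F₁)) (fun i => (c i).2) hc i }
  obtain ⟨-, h2⟩ := unip_twoVal_main (K := F₁) hn hdeg hT
  intro x hx
  obtain ⟨c, hc⟩ := h2 x hx
  exact ⟨c, c.2, hc⟩

/-- integrality in polynomial form: sums, products, images -/
theorem ribmp_red_poly_map (φ : F₁ →+* F) (W : ValuationSubring F₁) {z : F₁} (hz : z ∈ W) :
    ∃ p : F₁[X], p.Monic ∧ (∀ k, p.coeff k ∈ W) ∧ p.eval₂ φ (φ z) = 0 := by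
  letI := s36n2eAlg φ W
  exact s36n2e_poly_of_isIntegral φ W
    (isIntegral_algebraMap (R := W) (A := F) (x := ⟨z, hz⟩))

theorem ribmp_red_poly_sub (φ : F₁ →+* F) (W : ValuationSubring F₁) {x y : F}
    (hx : ∃ p : F₁[X], p.Monic ∧ (∀ k, p.coeff k ∈ W) ∧ p.eval₂ φ x = 0)
    (hy : ∃ p : F₁[X], p.Monic ∧ (∀ k, p.coeff k ∈ W) ∧ p.eval₂ φ y = 0) :
    ∃ p : F₁[X], p.Monic ∧ (∀ k, p.coeff k ∈ W) ∧ p.eval₂ φ (x - y) = 0 := by
  letI := s36n2eAlg φ W
  exact s36n2e_poly_of_isIntegral φ W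
    ((s36n2e_isIntegral_of_poly φ W hx).sub (s36n2e_isIntegral_of_poly φ W hy))

theorem ribmp_red_poly_pow (φ : F₁ →+* F) (W : ValuationSubring F₁) {x : F}
    (hx : ∃ p : F₁[X], p.Monic ∧ (∀ k, p.coeff k ∈ W) ∧ p.eval₂ φ x = 0) (n : ℕ) :
    ∃ p : F₁[X], p.Monic ∧ (∀ k, p.coeff k ∈ W) ∧ p.eval₂ φ (x ^ n) = 0 := by
  letI := s36n2eAlg φ W
  exact s36n2e_poly_of_isIntegral φ W ((s36n2e_isIntegral_of_poly φ W hx).pow n)

end Abs


end Fermat.Agent.RIB.MP
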