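/-
Row 37, Mazur's principle, piece MP-RED, part RED-a (i) "K-RES" (helper91).

`q ∤ M` a prime, `F_M = modularFunctionFieldFullC E M ⊆ F_{Mq}`, `W = vtInf hB M` the Gauss
valuation ring of `F_M`, `V_∞ = vtFam … true`, `V_0 = vtFam … false` the two vertical valuation
rings of `F_{Mq}`.  `[F_{Mq} : F_M] = q + 1`, `V_∞` and `V_0` both dominate `W`, and the residue
field of `V_0` has degree `≥ q` over that of `W` (`1, j_q, …, j_q^(q-1)`): hence (two-valuation
theorem `UNIP.unip_twoVal_main`) the residue field of `V_∞` is that of `W`: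

* `ribmp_red_two_hom` : the abstract statement, ring homomorphism form;
* `ribmp_red_res` : `∀ x ∈ V_∞, ∃ c ∈ W, x − c ∈ 𝔪(V_∞)`.
-/
import Fermat.Agent.RIB.MP.RedResAbs
import Fermat.Agent.S36.N2ExtInst
import Fermat.Agent.S36.N2Val
import Fermat.Agent.UNIP.MGVertLocMain
import Fermat.Agent.UNIP.MGVloc
import Fermat.Agent.UNIP.NodesDeg
import Fermat.Agent.UNIP.NodesFrobU

set_option autoImplicit false
set_option linter.unusedSectionVars false
set_option linter.unusedVariables false
set_option linter.style.haveILetI false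
set_option linter.style.longLine false

noncomputable section

namespace Fermat.Agent.RIB.MP

open ModularCurve Module IsLocalRing Polynomial IntermediateField
open Fermat.Agent.UNIP Fermat.Agent.S36 Fermat.Agent.INJ Fermat.Agent.AL Fermat.Agent.ES.G2
open Fermat.Agent.S28

section Mod

variable {A E k : Type*} [CommRing A] [IsDomain A] [Field E] [Algebra A E] [IsFractionRing A E]
  [Field k] {r : A →+* k} {π : A} (hB : VtBase (algebraMap A E) r π) (ιC : E →+* ℂ)
  {q M : ℕ} [NeZero q] [NeZero M] [NeZero (M * q)] (hq : q.Prime) (hqM : ¬ q ∣ M)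

/-- the inclusion `F_M ⊆ F_{Mq}` -/
def ribmpRedIncl (E : Type*) [Field E] (M q : ℕ) [NeZero M] [NeZero q] :
    modularFunctionFieldFullC E M →+* modularFunctionFieldFullC E (M * q) :=
  (IntermediateField.inclusion (nodesDeg_le E M q)).toRingHom

theorem ribmpRedIncl_coe (x : modularFunctionFieldFullC E M) :
    ((ribmpRedIncl E M q x : modularFunctionFieldFullC E (M * q)) : LaurentSeries E) =
      (x : LaurentSeries E) := by
  unfold ribmpRedIncl
  exact IntermediateField.coe_inclusion _ x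

theorem ribmpRedIncl_eq (x : modularFunctionFieldFullC E M) :
    ribmpRedIncl E M q x = ⟨(x : LaurentSeries E), al_mem_of_mem_low E x.2⟩ :=
  Subtype.ext (ribmpRedIncl_coe x)

/-- the reduction map of the Gauss valuation ring of `F_M` -/
def ribmpRedW (M : ℕ) : ↥(vtInf hB M) →+* LaurentSeries k :=
  vtSubRed hB (vtEmb E M) (fun x => vt_frac_fullC hB M x.2)

theorem ribmpRedW_eq_zero_iff (M : ℕ) (x : ↥(vtInf hB M)) :
    ribmpRedW hB M x = 0 ↔ (x : modularFunctionFieldFullC E M) ∈ (vtInf hB M).nonunits :=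
  vtSubRed_eq_zero_iff hB _ _ x

/-- the reduction maps of `V_∞`, `V_0` -/
def ribmpRedV (c : Bool) : ↥(vtFam hB ιC hq hqM c) →+* LaurentSeries k :=
  vtSubRed hB (vtEmbFam ιC hq hqM c) (vt_frac_fam hB ιC hq hqM c)

theorem ribmpRedV_eq_zero_iff (c : Bool) (x : ↥(vtFam hB ιC hq hqM c)) :
    ribmpRedV hB ιC hq hqM c x = 0 ↔
      (x : modularFunctionFieldFullC E (M * q)) ∈ (vtFam hB ιC hq hqM c).nonunits :=
  vtSubRed_eq_zero_iff hB _ _ x

theorem ribmp_red_emb_incl (z : modularFunctionFieldFullC E M) :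
    vtEmbFam ιC hq hqM true (ribmpRedIncl E M q z) = (z : LaurentSeries E) := by
  rw [vtEmbFam_true, vtEmb_apply, ribmpRedIncl_coe]

theorem ribmp_red_comap_true :
    (vtFam hB ιC hq hqM true).comap (ribmpRedIncl E M q) = vtInf hB M := by
  ext z
  rw [ValuationSubring.mem_comap, mem_vtFam, ribmp_red_emb_incl, mem_vtInf]

theorem ribmp_red_emb0_incl (z : modularFunctionFieldFullC E M) :
    vtEmbFam ιC hq hqM false (ribmpRedIncl E M q z) = qExpand E q (z : LaurentSeries E) := by
  rw [vtEmbFam_false, vtEmb0_apply, ribmpRedIncl_eq]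
  exact atkinLehner_of_mem_low E ιC hq hqM z.2

theorem ribmp_red_comap_false :
    (vtFam hB ιC hq hqM false).comap (ribmpRedIncl E M q) = vtInf hB M := by
  ext z
  rw [ValuationSubring.mem_comap, mem_vtFam, ribmp_red_emb0_incl, mem_vtInf]
  exact s36n2_qExpand_mem_iff hB q (vt_frac_fullC hB M z.2)

/-- the reduction at `V_∞` of an element of `W` -/
theorem ribmpRedV_true_incl (z : modularFunctionFieldFullC E M) (hz : z ∈ vtInf hB M)
    (hz' : ribmpRedIncl E M q z ∈ vtFam hB ιC hq hqM true) :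
    ribmpRedV hB ιC hq hqM true ⟨ribmpRedIncl E M q z, hz'⟩ = ribmpRedW hB M ⟨z, hz⟩ := by
  have h1 := vtSubRed_of_eq hB (vtEmbFam ιC hq hqM true) (vt_frac_fam hB ιC hq hqM true)
    (x := ⟨ribmpRedIncl E M q z, hz'⟩) (ribmp_red_emb_incl ιC hq hqM z) hz
  exact h1

/-- the reduction at `V_0` of an element of `W`: `Q ↦ Q^q` -/
theorem ribmpRedV_false_incl (z : modularFunctionFieldFullC E M) (hz : z ∈ vtInf hB M)
    (hz' : ribmpRedIncl E M q z ∈ vtFam hB ιC hq hqM false) :
    ribmpRedV hB ιC hq hqM false ⟨ribmpRedIncl E M q z, hz'⟩ =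
      qExpand k q (ribmpRedW hB M ⟨z, hz⟩) := by
  have h1 := vtSubRed_of_eq hB (vtEmbFam ιC hq hqM false) (vt_frac_fam hB ιC hq hqM false)
    (x := ⟨ribmpRedIncl E M q z, hz'⟩) (ribmp_red_emb0_incl ιC hq hqM z)
    (s36n2_qExpand_mem q hz)
  exact h1.trans (s36n2_gaussRed_qExpand hB.inj q ⟨(z : LaurentSeries E), hz⟩)

theorem ribmp_red_Jq_mem (c : Bool) : nodesFrobJq E M q ∈ vtFam hB ιC hq hqM c :=
  vtFam_gen_mem hB ιC hq hqM c (dvd_mul_left q M)

/-- the reduction at `V_0` of `j(Q^q)` is `j̄` -/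
theorem ribmpRedV_false_Jq :
    ribmpRedV hB ιC hq hqM false ⟨nodesFrobJq E M q, ribmp_red_Jq_mem hB ιC hq hqM false⟩ =
      jqModC k := by
  have e : vtEmbFam ιC hq hqM false (nodesFrobJq E M q) = jqModC E := by
    rw [vtEmbFam_false, vtEmb0_apply, nodesFrob_atkinLehner_Jq]
    rfl
  exact (vtSubRed_of_eq hB _ _ e (nodesFrobU_j_mem r)).trans (nodesFrobU_gaussRed_j r _)

/-- `j ∈ W` -/
theorem ribmp_red_J_mem (N : ℕ) [NeZero N] : bgJ E N ∈ vtInf hB N := by
  rw [mem_vtInf]
  exact nodesFrobU_j_mem r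

include hq in
/-- `j(Q^q)` is integral over `W` -/
theorem ribmp_red_poly_Jq :
    ∃ p : (modularFunctionFieldFullC E M)[X], p.Monic ∧ (∀ k, p.coeff k ∈ vtInf hB M) ∧
      p.eval₂ (ribmpRedIncl E M q) (nodesFrobJq E M q) = 0 := by
  refine ⟨(nodesSwapPhi q hq).map (evalInt (bgJ E M)), (nodesSwapPhi_monic q hq).map _, ?_, ?_⟩
  · intro n
    rw [Polynomial.coeff_map]
    have e : evalInt (bgJ E M) = (vtInf hB M).subtype.comp
        (evalInt (⟨bgJ E M, ribmp_red_J_mem hB M⟩ : ↥(vtInf hB M))) := by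
      rw [comp_evalInt]
      rfl
    rw [e]
    exact (evalInt (⟨bgJ E M, ribmp_red_J_mem hB M⟩ : ↥(vtInf hB M))
      ((nodesSwapPhi q hq).coeff n)).2
  · rw [Polynomial.eval₂_map, comp_evalInt]
    exact nodesSwapPhi_eval q hq E M

include hq in
/-- the separating element `c = j(Q^q) − j^q` is integral over `W` -/
theorem ribmp_red_poly_C :
    ∃ p : (modularFunctionFieldFullC E M)[X], p.Monic ∧ (∀ k, p.coeff k ∈ vtInf hB M) ∧
      p.eval₂ (ribmpRedIncl E M q) (nodesFrobC E M q) = 0 :=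
  ribmp_red_poly_sub _ _ (ribmp_red_poly_Jq hB hq)
    (ribmp_red_poly_pow _ _ (ribmp_red_poly_map (ribmpRedIncl E M q) _ (ribmp_red_J_mem hB M)) q)

variable [Fact q.Prime] [CharP k q]

/-- **independence**: `1, j_q, …, j_q^(q-1)` are independent over the residue field of `W` in the
residue field of `V_0`. -/
theorem ribmp_red_indep (c : Fin q → modularFunctionFieldFullC E M)
    (hc : ∀ i, c i ∈ vtInf hB M)
    (hsum : (∑ i, ribmpRedIncl E M q (c i) * nodesFrobJq E M q ^ (i : ℕ)) ∈
      (vtFam hB ιC hq hqM false).nonunits) :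
    ∀ i, c i ∈ (vtInf hB M).nonunits := by
  have hle : ∀ i, ribmpRedIncl E M q (c i) ∈ vtFam hB ιC hq hqM false := fun i =>
    s36n2x_le_of_comap (ribmp_red_comap_false hB ιC hq hqM) _ (hc i)
  set S : ↥(vtFam hB ιC hq hqM false) :=
    ∑ i, (⟨ribmpRedIncl E M q (c i), hle i⟩ : ↥(vtFam hB ιC hq hqM false)) *
      (⟨nodesFrobJq E M q, ribmp_red_Jq_mem hB ιC hq hqM false⟩ :
        ↥(vtFam hB ιC hq hqM false)) ^ (i : ℕ) with hS
  have hScoe : ((S : ↥(vtFam hB ιC hq hqM false)) : modularFunctionFieldFullC E (M * q)) =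
      ∑ i, ribmpRedIncl E M q (c i) * nodesFrobJq E M q ^ (i : ℕ) := by
    rw [hS, AddSubmonoidClass.coe_finsetSum]
    exact Finset.sum_congr rfl (fun i _ => rfl)
  have h0 : ribmpRedV hB ιC hq hqM false S = 0 := by
    rw [ribmpRedV_eq_zero_iff, hScoe]
    exact hsum
  rw [hS, map_sum] at h0
  simp_rw [map_mul, map_pow, ribmpRedV_false_Jq, ribmpRedV_false_incl hB ιC hq hqM _ (hc _)]
    at h0
  have h1 := nodesFrobU_G4_j (k := k) q (fun i => ribmpRedW hB M ⟨c i, hc i⟩) h0
  intro i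
  exact (ribmpRedW_eq_zero_iff hB M _).mp (h1 i)

variable [CharZero E]

/-- the hypotheses of the two-valuation theorem for `V_∞`, `V_0` over `W` -/
theorem ribmp_red_twoHom :
    RibmpTwoHom (ribmpRedIncl E M q) (vtInf hB M) (vtFam hB ιC hq hqM true)
      (vtFam hB ιC hq hqM false) q where
  le₁ := s36n2x_le_of_comap (ribmp_red_comap_true hB ιC hq hqM)
  le₂ := s36n2x_le_of_comap (ribmp_red_comap_false hB ιC hq hqM)
  dom₁ := s36n2x_dom_of_comap (ribmp_red_comap_true hB ιC hq hqM)
  dom₂ := s36n2x_dom_of_comap (ribmp_red_comap_false hB ιC hq hqM)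
  sep := ⟨nodesFrobC E M q, ribmp_red_poly_C hB hq, mgvl_C_mem_true hB ιC hq hqM,
    mgvl_C_not_mem_false hB ιC hq hqM⟩
  indep := ⟨fun i => nodesFrobJq E M q ^ (i : ℕ),
    fun i => ribmp_red_poly_pow _ _ (ribmp_red_poly_Jq hB hq) i,
    ribmp_red_indep hB ιC hq hqM⟩

/-- **K-RES**: the residue field of `V_∞` (level `M q`) is the residue field of the Gauss
valuation ring `W` of level `M`. -/
theorem ribmp_red_res (x : modularFunctionFieldFullC E (M * q))
    (hx : x ∈ vtFam hB ιC hq hqM true) :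
    ∃ c ∈ vtInf hB M, x - ribmpRedIncl E M q c ∈ (vtFam hB ιC hq hqM true).nonunits := by
  have hrel : (modularFunctionFieldFullC E M).relfinrank (modularFunctionFieldFullC E (M * q)) =
      q + 1 := hdeg_relfinrank_fullC E M q hq hqM
  have hfin : letI := (ribmpRedIncl E M q).toAlgebra
      Module.Finite (modularFunctionFieldFullC E M) (modularFunctionFieldFullC E (M * q)) :=
    hdeg_finite_inclusion (nodesDeg_le E M q) (by rw [hrel]; exact Nat.succ_ne_zero q)
  have hsep : letI := (ribmpRedIncl E M q).toAlgebra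
      Algebra.IsSeparable (modularFunctionFieldFullC E M)
        (modularFunctionFieldFullC E (M * q)) := by
    letI := (ribmpRedIncl E M q).toAlgebra
    haveI : Module.Finite (modularFunctionFieldFullC E M)
      (modularFunctionFieldFullC E (M * q)) := hfin
    haveI : CharZero (modularFunctionFieldFullC E M) :=
      charZero_of_injective_ringHom (algebraMap E (modularFunctionFieldFullC E M)).injective
    infer_instance
  have hdeg : letI := (ribmpRedIncl E M q).toAlgebra
      Module.finrank (modularFunctionFieldFullC E M) (modularFunctionFieldFullC E (M * q)) =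
        q + 1 := (hdeg_finrank_inclusion (nodesDeg_le E M q)).trans hrel
  have hW : IsDiscreteValuationRing ↥(vtInf hB M) :=
    s36n2e_vtSub_isDVR hB (vtEmb E M) (fun x => vt_frac_fullC hB M x.2)
      (c := mgaConst E M (algebraMap A E π)) (algebraMap_laurentSeries_eq_single E _)
  exact ribmp_red_two_hom (ribmpRedIncl E M q) hfin hsep hq.pos hdeg (vtInf hB M) hW
    (ribmp_red_twoHom hB ιC hq hqM) x hx

/-- **K-RES**, reduction form: the reduction of an element of `V_∞` is the reduction of an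
element of the Gauss valuation ring of level `M`. -/
theorem ribmp_red_res_red (x : ↥(vtFam hB ιC hq hqM true)) :
    ∃ c : ↥(vtInf hB M), ribmpRedV hB ιC hq hqM true x = ribmpRedW hB M c := by
  obtain ⟨c, hc, hxc⟩ := ribmp_red_res hB ιC hq hqM x.1 x.2
  have hc' : ribmpRedIncl E M q c ∈ vtFam hB ιC hq hqM true :=
    s36n2x_le_of_comap (ribmp_red_comap_true hB ιC hq hqM) _ hc
  refine ⟨⟨c, hc⟩, ?_⟩
  have h0 : ribmpRedV hB ιC hq hqM true (x - ⟨ribmpRedIncl E M q c, hc'⟩) = 0 := by
    rw [ribmpRedV_eq_zero_iff]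
    exact hxc
  rw [map_sub, sub_eq_zero] at h0
  exact h0.trans (ribmpRedV_true_incl hB ιC hq hqM c hc hc')

end Mod

end Fermat.Agent.RIB.MP
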