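/-
Row 37, Mazur's principle, piece MP-RED, part RED-a (helper91; debugged + landed by helper85): THE DICTIONARY.

`N = M₁ q`, `A ⊂ ℚ̄` over `q`, `K₀ ⊂ ℚ̄` with `A ∩ K₀` a DVR, `V_∞ = mgvV … true` the Gauss
valuation ring of `F_N(K₀)`.  For `y₀ ∈ V_∞^×` with local factorisations `y₀ = ε γ ^ m` at all
closed points of the special fibres of the charts `j`, `1 / j` (the statement (F) of MP-FAC):
the Gauss reduction `ū` of `nfEmb y₀` lies in `F_{M₁}(k)` (K-RES), `ū ≠ 0`, and `m ∣ ord_Q ū` at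
every place `Q` of `F_{M₁}(k)` (the CENTRE dictionary `ribmp_rd_dvd_ord`).

* `ribmp_red_gaussRed_incl` : level change `M₁ → M₁ q` for `GaussRed`;
* `ribmpRedK_mem` : the reduction of `V_∞` has values in `F_{M₁}(k)`;
* `ribmpRedF` : the reduction map `V_∞ →+* F_{M₁}(k)`;
* **`ribmp_red_a`**.
-/
import Fermat.Agent.RIB.MP.RedRes
import Fermat.Agent.RIB.MP.RedGauss
import Fermat.Agent.RIB.MP.RedDict
import Fermat.Agent.UNIP.MGVertInertia
import Fermat.Agent.UNIP.MGVloc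

set_option autoImplicit false
set_option linter.unusedSectionVars false
set_option linter.unusedVariables false
set_option linter.style.haveILetI false
set_option linter.style.longLine false
set_option synthInstance.maxHeartbeats 400000
set_option maxHeartbeats 1600000

noncomputable section

namespace Fermat.Agent.RIB.MP

open ModularCurve AlgebraicCurve Fermat.Agent.ES Fermat.Agent.ES.G2 Fermat.Agent.INJ
  Fermat.Agent.UNIP Fermat.Agent.STB Fermat.Agent.ES.M Fermat.Agent.DEU Fermat.Agent.S36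
  Fermat.Agent.S24

section Incl

variable {M₁ q : ℕ} [NeZero M₁] [NeZero q] [NeZero (M₁ * q)] {A : ValuationSubring Qb}

/-- level change for `GaussRed`: it only depends on the `q`-expansion -/
theorem ribmp_red_gaussRed_incl {v : FF M₁} {x : FF (M₁ * q)} {w : LaurentSeries (kA A)}
    (hxv : (x : LaurentSeries Qb) = (v : LaurentSeries Qb)) (h : GaussRed M₁ A v w) :
    GaussRed (M₁ * q) A x w := by
  obtain ⟨Y₁, Y₂, hY₁, hY₂, hY₂0, hYe, hYr⟩ := h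
  exact ⟨Y₁, Y₂, hdeg_bar_le M₁ q hY₁, hdeg_bar_le M₁ q hY₂, hY₂0, by rw [hxv]; exact hYe, hYr⟩

end Incl

section Main

variable {M₁ q : ℕ} [NeZero M₁] [NeZero q] [NeZero (M₁ * q)] (hq : q.Prime) (hqM : ¬ q ∣ M₁)
  {A : ValuationSubring Qb} (hA : A.LiesOverPrime q) {K₀ : IntermediateField ℚ Qb}
  [IsDiscreteValuationRing ↥(beta0Ring A K₀)]
  {π : ↥(beta0Ring A K₀)} (hπ : Irreducible π) (ιC : ↥K₀ →+* ℂ)

include hq hqM hA ιC in
/-- **the reduction of `V_∞` (level `M₁ q`) has values in `F_{M₁}(k)`** -/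
theorem ribmpRedK_mem (hRedF : StmtRedF M₁ A)
    (x : ↥(vtInf (vtBase_residue hπ) (M₁ * q))) :
    ribmpRedK hπ (M₁ * q) x ∈ modularFunctionFieldFullC (kA A) M₁ := by
  haveI : Fact q.Prime := ⟨hq⟩
  haveI : CharP (IsLocalRing.ResidueField ↥(beta0Ring A K₀)) q := mgvl_charP hq hA
  have hxV : (x : modularFunctionFieldFullC ↥K₀ (M₁ * q)) ∈
      vtFam (E := ↥K₀) (vtBase_residue hπ) ιC hq hqM true := x.2
  obtain ⟨c, hc, hxc⟩ := ribmp_red_res (E := ↥K₀) (vtBase_residue hπ) ιC hq hqM x.1 hxV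
  have hc' : ribmpRedIncl ↥K₀ M₁ q c ∈ vtInf (E := ↥K₀) (vtBase_residue hπ) (M₁ * q) := by
    rw [mem_vtInf, ribmpRedIncl_coe]
    exact (mem_vtInf _ M₁).1 hc
  have hxc' : ((x - ⟨ribmpRedIncl ↥K₀ M₁ q c, hc'⟩ : ↥(vtInf (E := ↥K₀) (vtBase_residue hπ) (M₁ * q))) :
      modularFunctionFieldFullC ↥K₀ (M₁ * q)) ∈
      (vtInf (E := ↥K₀) (vtBase_residue hπ) (M₁ * q)).nonunits := hxc
  have h0 : ribmpRedK hπ (M₁ * q) (x - ⟨ribmpRedIncl ↥K₀ M₁ q c, hc'⟩) = 0 :=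
    ribmpRedK_eq_zero_of_mem_nonunits hπ (M₁ * q) _ hxc'
  rw [map_sub, sub_eq_zero] at h0
  rw [h0]
  have h1 : GaussRed M₁ A (nfEmb K₀ M₁ c) (ribmpRedK hπ M₁ ⟨c, hc⟩) :=
    ribmpRedK_spec hπ M₁ ⟨c, hc⟩
  have hcoe : ((nfEmb K₀ (M₁ * q) (ribmpRedIncl ↥K₀ M₁ q c) : FF (M₁ * q)) : LaurentSeries Qb) =
      ((nfEmb K₀ M₁ c : FF M₁) : LaurentSeries Qb) := by
    rw [nfEmb_coe, nfEmb_coe, ribmpRedIncl_coe]
  have h2 : GaussRed (M₁ * q) A (nfEmb K₀ (M₁ * q) (ribmpRedIncl ↥K₀ M₁ q c))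
      (ribmpRedK hπ M₁ ⟨c, hc⟩) := ribmp_red_gaussRed_incl hcoe h1
  rw [ribmpRedK_eq hπ (M₁ * q) (x := ⟨ribmpRedIncl ↥K₀ M₁ q c, hc'⟩) h2]
  exact deuInst_gaussRed_mem M₁ A hRedF h1

include hA in
/-- the reduction map `V_∞ →+* F_{M₁}(k)` -/
def ribmpRedF (hRedF : StmtRedF M₁ A) :
    ↥(mgvV hπ ιC hq hqM true) →+* ↥(modularFunctionFieldFullC (kA A) M₁) :=
  ((ribmpRedK hπ (M₁ * q)).comp
    (ValuationSubring.inclusion _ _ (le_of_eq (mgvV_true hπ ιC hq hqM)))).codRestrict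
      (modularFunctionFieldFullC (kA A) M₁)
      (fun x => ribmpRedK_mem hq hqM hA hπ ιC hRedF _)

include hA in
theorem ribmpRedF_coe (hRedF : StmtRedF M₁ A) (x : ↥(mgvV hπ ιC hq hqM true)) :
    ((ribmpRedF hq hqM hA hπ ιC hRedF x : ↥(modularFunctionFieldFullC (kA A) M₁)) :
      LaurentSeries (kA A)) =
      ribmpRedK hπ (M₁ * q)
        (ValuationSubring.inclusion _ _ (le_of_eq (mgvV_true hπ ιC hq hqM)) x) := rfl

include hA in
/-- **RED-a, the dictionary.** -/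
theorem ribmp_red_a_over (hRedF : StmtRedF M₁ A)
    (hfin : ∀ Q : Place (kA A) ↥(modularFunctionFieldFullC (kA A) M₁),
      ∀ x ∈ Q.toValuationSubring, x ∉ Q.toValuationSubring.nonunits →
        ∃ n : ℕ, 0 < n ∧ x ^ n - 1 ∈ Q.toValuationSubring.nonunits)
    {m : ℕ} (hm : 0 < m) (y₀ : ↥(modularFunctionFieldFullC ↥K₀ (M₁ * q)))
    (hy : (mgvV hπ ιC hq hqM true).valuation y₀ = 1)
    (hF : ∀ i : AtPt (F := ↥(modularFunctionFieldFullC ↥K₀ (M₁ * q))) π (bgJ ↥K₀ (M₁ * q)) ⊕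
        AtPt (F := ↥(modularFunctionFieldFullC ↥K₀ (M₁ * q))) π (bgJ ↥K₀ (M₁ * q))⁻¹,
      StbFacAt (atO π (bgJ ↥K₀ (M₁ * q)) i) m y₀) :
    ∃ (ub : LaurentSeries (kA A)) (hubF : ub ∈ modularFunctionFieldFullC (kA A) M₁), ub ≠ 0 ∧
      GaussRed (M₁ * q) A (nfEmb K₀ (M₁ * q) y₀) ub ∧
      ∀ Q : Place (kA A) ↥(modularFunctionFieldFullC (kA A) M₁),
        (m : ℤ) ∣ Q.ord (⟨ub, hubF⟩ : ↥(modularFunctionFieldFullC (kA A) M₁)) := by
  have hyV : y₀ ∈ mgvV hπ ιC hq hqM true :=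
    ((mgvV hπ ιC hq hqM true).valuation_le_one_iff y₀).mp hy.le
  refine ⟨ribmpRedK hπ (M₁ * q) ⟨y₀, hyV⟩, ribmpRedK_mem hq hqM hA hπ ιC hRedF ⟨y₀, hyV⟩,
    ribmpRedK_ne_zero hπ (M₁ * q) ⟨y₀, hyV⟩ hy, ribmpRedK_spec hπ (M₁ * q) ⟨y₀, hyV⟩, ?_⟩
  intro Q
  have hAV : ∀ a : ↥(beta0Ring A K₀),
      algebraMap ↥(beta0Ring A K₀) ↥(modularFunctionFieldFullC ↥K₀ (M₁ * q)) a ∈
        mgvV hπ ιC hq hqM true :=
    fun a => vtFam_const_mem (vtBase_residue hπ) ιC hq hqM true a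
  have hker : ∀ x : ↥(mgvV hπ ιC hq hqM true),
      (x : ↥(modularFunctionFieldFullC ↥K₀ (M₁ * q))) ∈ (mgvV hπ ιC hq hqM true).nonunits →
        ribmpRedF hq hqM hA hπ ιC hRedF x = 0 := fun x hx =>
    Subtype.ext (ribmpRedK_eq_zero_of_mem_nonunits hπ (M₁ * q) x hx)
  have hπ0 : ribmpRedF hq hqM hA hπ ιC hRedF ⟨_, hAV π⟩ = 0 :=
    hker _ (mgv_hπV hπ ιC hq hqM true)
  have hAQ : ∀ a : ↥(beta0Ring A K₀),
      ribmpRedF hq hqM hA hπ ιC hRedF ⟨_, hAV a⟩ ∈ Q.toValuationSubring := by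
    intro a
    have h1 : ribmpRedF hq hqM hA hπ ιC hRedF ⟨_, hAV a⟩ =
        algebraMap (kA A) ↥(modularFunctionFieldFullC (kA A) M₁)
          (IsLocalRing.residue A ⟨algebraMap ↥K₀ Qb (algebraMap ↥(beta0Ring A K₀) ↥K₀ a),
            stb_mgt_c1 A K₀ a⟩) := by
      apply Subtype.ext
      rw [ribmpRedF_coe]
      exact (ribmpRedK_const hπ (M₁ * q) a (hAV a)).trans (algebraMap_eq_hahnC _).symm
    rw [h1]
    exact Q.algebraMap_mem' _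
  exact ribmp_rd_dvd_ord (π := π) (t := bgJ ↥K₀ (M₁ * q)) (mgvV hπ ιC hq hqM true)
    (ribmpRedF hq hqM hA hπ ιC hRedF) hker hAV hπ0 (mgv_T_valuation hπ ιC hq hqM true) Q hAQ
    (hfin Q) hm hy hF

end Main

section Inertia

variable {M₁ q : ℕ} [NeZero M₁] [NeZero q] [NeZero (M₁ * q)] (hq : q.Prime) (hqM : ¬ q ∣ M₁)
  {A : ValuationSubring Qb} (hA : A.LiesOverPrime q)
  [IsDiscreteValuationRing ↥(beta0Ring A (beta0Field A))]
  {π : ↥(beta0Ring A (beta0Field A))} (hπ : Irreducible π) (ιC : ↥(beta0Field A) →+* ℂ)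

include hA in
/-- **RED-a** over the inertia field. -/
theorem ribmp_red_a (hRedF : StmtRedF M₁ A)
    (hfin : ∀ Q : Place (kA A) ↥(modularFunctionFieldFullC (kA A) M₁),
      ∀ x ∈ Q.toValuationSubring, x ∉ Q.toValuationSubring.nonunits →
        ∃ n : ℕ, 0 < n ∧ x ^ n - 1 ∈ Q.toValuationSubring.nonunits)
    {m : ℕ} (hm : 0 < m) (y₀ : ↥(modularFunctionFieldFullC ↥(beta0Field A) (M₁ * q)))
    (hy : (mgvV hπ ιC hq hqM true).valuation y₀ = 1)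
    (hF : ∀ i : AtPt (F := ↥(modularFunctionFieldFullC ↥(beta0Field A) (M₁ * q))) π
          (bgJ ↥(beta0Field A) (M₁ * q)) ⊕
        AtPt (F := ↥(modularFunctionFieldFullC ↥(beta0Field A) (M₁ * q))) π
          (bgJ ↥(beta0Field A) (M₁ * q))⁻¹,
      StbFacAt (atO π (bgJ ↥(beta0Field A) (M₁ * q)) i) m y₀) :
    ∃ (ub : LaurentSeries (kA A)) (hubF : ub ∈ modularFunctionFieldFullC (kA A) M₁), ub ≠ 0 ∧
      GaussRed (M₁ * q) A (nfEmb (beta0Field A) (M₁ * q) y₀) ub ∧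
      ∀ Q : Place (kA A) ↥(modularFunctionFieldFullC (kA A) M₁),
        (m : ℤ) ∣ Q.ord (⟨ub, hubF⟩ : ↥(modularFunctionFieldFullC (kA A) M₁)) :=
  ribmp_red_a_over hq hqM hA hπ ιC hRedF hfin hm y₀ hy hF

end Inertia

end Fermat.Agent.RIB.MP
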