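/-
Row 37, Mazur's principle, piece MP-FAC (helper95), part 3: FACTORIAL local rings give the local
factorisation (F) — chart form over a discrete valuation ring with REDUCED special fibre.

Setting of `UNIP/AbstractT.lean`: `A₀` a DVR (uniformizer `π`), `E = Frac A₀`, `F / E(u)` finite,
`B_u` the chart, `V : κ → ValuationSubring F` the vertical valuation rings with
 (SS1) `B_u ∩ ⋂ 𝔪(V c) = π B_u`,  (U) `𝔪(V c) = π V c`  (the special fibre is reduced).

* `ribmp_fac_hfrac`, `ribmp_fac_hE`, `ribmp_fac_hKR` : the global inputs of helper45's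
  `S36.s36n2p_fac` on such a chart.
* `ribmp_fac_ufd_chart` : at a closed point `𝔫` with `UniqueFactorizationMonoid (atLoc 𝔫)`:
  `y ≠ 0`, `m ∣ ord_P y` for all places `P` of `F / E`, `y` a unit of every `V c`
  `⇒ StbFacAt (atLoc 𝔫) m y`.
* `ribmp_fac_ufd_charts` : the same on the pair of charts `t`, `t⁻¹`.
-/
import Fermat.Agent.S36.N2PtsReg
import Fermat.Agent.UNIP.Adapter
import Fermat.Agent.UNIP.ATSmall

set_option autoImplicit false
set_option linter.unusedSectionVars false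
set_option linter.unusedVariables false
set_option linter.style.haveILetI false

namespace Fermat.Agent.RIB.MP

open Fermat.Agent.UNIP Fermat.Agent.STB Fermat.Agent.INJ Fermat.Agent.S36 IntermediateField
  AlgebraicCurve

section Chart

universe u

variable {A₀ E F : Type u} [CommRing A₀] [IsDomain A₀] [IsDiscreteValuationRing A₀]
  [Field E] [Algebra A₀ E] [IsFractionRing A₀ E] [CharZero E]
  [Field F] [Algebra E F] [Algebra A₀ F] [IsScalarTower A₀ E F]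
  {π : A₀} {κ : Type*}

/-- `F` is the fraction field of the chart `B_u` -/
theorem ribmp_fac_hfrac (u : F) [FiniteDimensional E⟮u⟯ F] (x : F) :
    ∃ a b : ↥(zchClosure (A₀ := A₀) ({u} : Set F)), b ≠ 0 ∧
      x * algebraMap ↥(zchClosure (A₀ := A₀) ({u} : Set F)) F b =
        algebraMap ↥(zchClosure (A₀ := A₀) ({u} : Set F)) F a := by
  obtain ⟨y, hy0, hy⟩ := (ad_isAlgebraic (A₀ := A₀) (E := E) u x).exists_integral_multiple
  refine ⟨⟨y • x, hy⟩, ⟨(y : F), isIntegral_algebraMap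
    (R := ↥(Algebra.adjoin A₀ ({u} : Set F))) (x := y)⟩, ?_, ?_⟩
  · intro h0
    apply hy0
    apply Subtype.ext
    exact congrArg (fun z : ↥(zchClosure (A₀ := A₀) ({u} : Set F)) => (z : F)) h0
  · show x * (y : F) = y • x
    rw [Algebra.smul_def, mul_comm]
    rfl

/-- the constants: `E = A₀[1 / π]` -/
theorem ribmp_fac_hE (hπ : Irreducible π) (u : F) (e : E) :
    ∃ (n : ℕ) (a : ↥(zchClosure (A₀ := A₀) ({u} : Set F))),
      algebraMap E F e * algebraMap ↥(zchClosure (A₀ := A₀) ({u} : Set F)) F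
        (algebraMap A₀ ↥(zchClosure (A₀ := A₀) ({u} : Set F)) π) ^ n =
        algebraMap ↥(zchClosure (A₀ := A₀) ({u} : Set F)) F a := by
  obtain ⟨a, b, hb, rfl⟩ := IsFractionRing.div_surjective (A := A₀) e
  have hb0 : b ≠ 0 := nonZeroDivisors.ne_zero hb
  obtain ⟨n, w, hw⟩ := IsDiscreteValuationRing.eq_unit_mul_pow_irreducible hb0 hπ
  refine ⟨n, algebraMap A₀ _ (a * ((w⁻¹ : A₀ˣ) : A₀)), ?_⟩
  have hbE : algebraMap A₀ E b ≠ 0 :=
    (map_ne_zero_iff _ (IsFractionRing.injective A₀ E)).2 hb0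
  have e1 : algebraMap ↥(zchClosure (A₀ := A₀) ({u} : Set F)) F
      (algebraMap A₀ ↥(zchClosure (A₀ := A₀) ({u} : Set F)) π) = algebraMap A₀ F π := rfl
  have e2 : algebraMap ↥(zchClosure (A₀ := A₀) ({u} : Set F)) F
      (algebraMap A₀ ↥(zchClosure (A₀ := A₀) ({u} : Set F)) (a * ((w⁻¹ : A₀ˣ) : A₀))) =
      algebraMap A₀ F (a * ((w⁻¹ : A₀ˣ) : A₀)) := rfl
  rw [e1, e2, IsScalarTower.algebraMap_apply A₀ E F π,
    IsScalarTower.algebraMap_apply A₀ E F (a * _), ← map_pow, ← map_mul]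
  congr 1
  have hwE : algebraMap A₀ E b = algebraMap A₀ E (w : A₀) * algebraMap A₀ E π ^ n := by
    rw [← map_pow, ← map_mul, ← hw]
  have hw0 : algebraMap A₀ E (w : A₀) ≠ 0 :=
    (map_ne_zero_iff _ (IsFractionRing.injective A₀ E)).2 w.ne_zero
  have hπ0 : algebraMap A₀ E π ≠ 0 :=
    (map_ne_zero_iff _ (IsFractionRing.injective A₀ E)).2 hπ.ne_zero
  have hwinv : algebraMap A₀ E ((w⁻¹ : A₀ˣ) : A₀) = (algebraMap A₀ E (w : A₀))⁻¹ := by
    apply eq_inv_of_mul_eq_one_left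
    rw [← map_mul, Units.inv_mul, map_one]
  rw [map_mul, hwinv, hwE]
  field_simp

/-- (KR) from (SS1) -/
theorem ribmp_fac_hKR (hπ0 : algebraMap A₀ F π ≠ 0) {u : F} (V : κ → ValuationSubring F)
    (hπV : ∀ c, algebraMap A₀ F π ∈ (V c).nonunits)
    (hSS1 : ∀ b : F, IsIntegral ↥(Algebra.adjoin A₀ {u}) b → (∀ c, b ∈ (V c).nonunits) →
      ∃ b' : F, IsIntegral ↥(Algebra.adjoin A₀ {u}) b' ∧ b = algebraMap A₀ F π * b')
    (x : F)
    (hx : ∃ b : ↥(zchClosure (A₀ := A₀) ({u} : Set F)),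
      algebraMap ↥(zchClosure (A₀ := A₀) ({u} : Set F)) F
        (algebraMap A₀ ↥(zchClosure (A₀ := A₀) ({u} : Set F)) π) * x =
        algebraMap ↥(zchClosure (A₀ := A₀) ({u} : Set F)) F b)
    (hxV : ∀ c, x ∈ V c) :
    ∃ b : ↥(zchClosure (A₀ := A₀) ({u} : Set F)),
      x = algebraMap ↥(zchClosure (A₀ := A₀) ({u} : Set F)) F b := by
  obtain ⟨b, hb⟩ := hx
  have hb' : (b : F) = algebraMap A₀ F π * x := hb.symm
  obtain ⟨b', hb'int, hbb'⟩ := hSS1 (b : F) b.2 (fun c => by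
    rw [hb', mul_comm]
    exact pwi_mul_mem_nonunits (V c) (hxV c) (hπV c))
  refine ⟨⟨b', hb'int⟩, ?_⟩
  show x = b'
  rw [hb'] at hbb'
  exact mul_left_cancel₀ hπ0 hbb'

/-- **MP-FAC at a factorial closed point of a chart with reduced special fibre.** -/
theorem ribmp_fac_ufd_chart (hπ : Irreducible π) {u : F} [FiniteDimensional E⟮u⟯ F]
    [Finite κ] (V : κ → ValuationSubring F)
    (hBV : ∀ c (b : F), IsIntegral ↥(Algebra.adjoin A₀ {u}) b → b ∈ V c)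
    (hπV : ∀ c, algebraMap A₀ F π ∈ (V c).nonunits)
    (hSS1 : ∀ b : F, IsIntegral ↥(Algebra.adjoin A₀ {u}) b → (∀ c, b ∈ (V c).nonunits) →
      ∃ b' : F, IsIntegral ↥(Algebra.adjoin A₀ {u}) b' ∧ b = algebraMap A₀ F π * b')
    (hU : ∀ c (x : F), x ∈ (V c).nonunits → ∃ z ∈ V c, x = algebraMap A₀ F π * z)
    (𝔫 : AtPt (F := F) π u) (hufd : UniqueFactorizationMonoid ↥(atLoc 𝔫))
    (m : ℕ) (y : F) (hy : y ≠ 0) (hhor : ∀ P : Place E F, (m : ℤ) ∣ P.ord y)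
    (hunit : ∀ c, (V c).valuation y = 1) :
    StbFacAt (atLoc 𝔫) m y := by
  haveI := 𝔫.2.1.isPrime
  haveI : UniqueFactorizationMonoid ↥(ls_localSubring (F := F) 𝔫.1) := hufd
  have hπ0 : algebraMap A₀ F π ≠ 0 := ei_algebraMap_ne_zero (E := E) hπ
  exact s36n2p_fac (E := E) (B := ↥(zchClosure (A₀ := A₀) ({u} : Set F)))
    Subtype.val_injective 𝔫.1 V (fun c b => hBV c _ b.2)
    (algebraMap A₀ ↥(zchClosure (A₀ := A₀) ({u} : Set F)) π)
    (ribmp_fac_hKR hπ0 V hπV hSS1) 1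
    (fun c x hx => by
      obtain ⟨z, hz, hxz⟩ := hU c x hx
      exact ⟨z, hz, by rw [pow_one, hxz]; rfl⟩)
    hπ0 hπV (ribmp_fac_hE hπ u) (ribmp_fac_hfrac (E := E) u) m y hy hhor
    (fun c _ => hunit c)

/-- **MP-FAC on the two charts `t`, `t⁻¹`**, from factoriality of all local rings. -/
theorem ribmp_fac_ufd_charts (hπ : Irreducible π) {t : F} (ht : Transcendental E t)
    [FiniteDimensional E⟮t⟯ F] [Finite κ] (V : κ → ValuationSubring F)
    (hBV₁ : ∀ c (b : F), IsIntegral ↥(Algebra.adjoin A₀ {t}) b → b ∈ V c)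
    (hBV₂ : ∀ c (b : F), IsIntegral ↥(Algebra.adjoin A₀ {t⁻¹}) b → b ∈ V c)
    (hπV : ∀ c, algebraMap A₀ F π ∈ (V c).nonunits)
    (hSS1 : ∀ b : F, IsIntegral ↥(Algebra.adjoin A₀ {t}) b → (∀ c, b ∈ (V c).nonunits) →
      ∃ b' : F, IsIntegral ↥(Algebra.adjoin A₀ {t}) b' ∧ b = algebraMap A₀ F π * b')
    (hU : ∀ c (x : F), x ∈ (V c).nonunits → ∃ z ∈ V c, x = algebraMap A₀ F π * z)
    (hufd : ∀ i : AtPt (F := F) π t ⊕ AtPt (F := F) π t⁻¹,
      UniqueFactorizationMonoid ↥(atO π t i))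
    (m : ℕ) (y : F) (hy : y ≠ 0) (hhor : ∀ P : Place E F, (m : ℤ) ∣ P.ord y)
    (hunit : ∀ c, (V c).valuation y = 1) :
    ∀ i : AtPt (F := F) π t ⊕ AtPt (F := F) π t⁻¹, StbFacAt (atO π t i) m y := by
  haveI : FiniteDimensional E⟮t⁻¹⟯ F := at_finiteDimensional_inv t
  rintro (𝔫 | 𝔫)
  · exact ribmp_fac_ufd_chart (E := E) hπ V hBV₁ hπV hSS1 hU 𝔫 (hufd (Sum.inl 𝔫)) m y hy hhor
      hunit
  · exact ribmp_fac_ufd_chart (E := E) hπ V hBV₂ hπV (ats_SS1_inv ht hπ V hBV₁ hSS1) hU 𝔫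
      (hufd (Sum.inr 𝔫)) m y hy hhor hunit

end Chart

end Fermat.Agent.RIB.MP
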