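/-
Row 37, Mazur's principle, piece MP-FAC (helper95), part 4: the CONCRETE globals for the two
vertical valuation rings `mgvV` of `F_{Mq}(K₀)` (`K₀ ⊇ ℚ̄^I`, `A ∩ K₀` a DVR), as NAMED theorems
(consumers: MP-FAC top, helper54's `RT/K6/DLFPt.lean`).

`A` a valuation subring of `ℚ̄` over `q`, `q ∤ M`, (`q = 2 → 3 ∣ M`), (`q = 3 → 2 ∣ M`),
`A₀ = A ∩ K₀`, `π` a uniformizer, `F = F_{Mq}(K₀)`, `t = j`, `V = mgvV hπ ιC hq hqM`.

* `ribmp_fc_hBV₁/₂`, `ribmp_fc_hπV`, `ribmp_fc_hπ0` : the charts lie in `V c`, `π ∈ 𝔪(V c)`;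
* `ribmp_fc_hSS1`, `ribmp_fc_hSS1_inv` : (SS1) `B ∩ ⋂ 𝔪(V c) = π B` on the charts `j`, `1 / j`;
* `ribmp_fc_hU` : (UNIF) `𝔪(V c) = π V c`;
* `ribmp_fc_hKR`, `ribmp_fc_hKR_inv` : (KR) in the shape of `S36.s36n2p_fac`;
* `ribmp_fc_hE`, `ribmp_fc_hfrac` (+ `_inv`) : constants and fractions;
* `ribmp_fc_trans`, `ribmp_fc_fin` : `j` transcendental, `F / K₀(j)` finite;
* `ribmp_fc_hhor` : the horizontal hypothesis descends from `F_N(ℚ̄)`;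
* `ribmp_fc_main` : **MP-FAC at level `M q` over `K₀`, from factoriality of the local rings**.
-/
import Fermat.Agent.RIB.MP.FacRig
import Fermat.Agent.UNIP.MGChartsBeta0Reg
import Fermat.Agent.S33.WildDeepAux
import Fermat.Agent.UNIP.MGPlaces

set_option autoImplicit false
set_option linter.unusedSectionVars false
set_option linter.unusedVariables false
set_option linter.style.haveILetI false
set_option linter.style.longLine false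
set_option synthInstance.maxHeartbeats 400000
set_option maxHeartbeats 1000000

noncomputable section

namespace Fermat.Agent.RIB.MP

open ModularCurve Polynomial IntermediateField Fermat.Agent.INJ Fermat.Agent.AL AlgebraicCurve
open Fermat.Agent.ES Fermat.Agent.ES.G2 Fermat.Agent.STB Fermat.Agent.UNIP Fermat.Agent.S36

section Conc

variable {A : ValuationSubring Qb} {K₀ : IntermediateField ℚ Qb}
  [IsDiscreteValuationRing ↥(beta0Ring A K₀)] {π : ↥(beta0Ring A K₀)} (hπ : Irreducible π)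
  (ιC : ↥K₀ →+* ℂ) {q M : ℕ} [NeZero q] [NeZero M] [NeZero (M * q)]
  (hq : q.Prime) (hqM : ¬ q ∣ M)

include hπ in
/-- `π ≠ 0` in `F` -/
theorem ribmp_fc_hπ0 :
    algebraMap ↥(beta0Ring A K₀) ↥(modularFunctionFieldFullC ↥K₀ (M * q)) π ≠ 0 :=
  ei_algebraMap_ne_zero (E := ↥K₀) hπ

/-- **(UNIF)** `𝔪(V c) = π V c` -/
theorem ribmp_fc_hU (c : Bool) (x : ↥(modularFunctionFieldFullC ↥K₀ (M * q)))
    (hx : x ∈ (mgvV hπ ιC hq hqM c).nonunits) :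
    ∃ z ∈ mgvV hπ ιC hq hqM c,
      x = algebraMap ↥(beta0Ring A K₀) ↥(modularFunctionFieldFullC ↥K₀ (M * q)) π * z :=
  Fermat.Agent.S33.wdb_mgv_hunif hπ ιC hq hqM c x hx

/-- **(SS1)**, chart `j` -/
theorem ribmp_fc_hSS1 (hA : A.LiesOverPrime q) (hE : beta0Field A ≤ K₀)
    (h2 : q = 2 → 3 ∣ M) (h3 : q = 3 → 2 ∣ M) :
    ∀ b : ↥(modularFunctionFieldFullC ↥K₀ (M * q)),
      IsIntegral ↥(Algebra.adjoin ↥(beta0Ring A K₀)
        ({bgJ ↥K₀ (M * q)} : Set ↥(modularFunctionFieldFullC ↥K₀ (M * q)))) b →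
      (∀ c, b ∈ (mgvV hπ ιC hq hqM c).nonunits) →
      ∃ b' : ↥(modularFunctionFieldFullC ↥K₀ (M * q)),
        IsIntegral ↥(Algebra.adjoin ↥(beta0Ring A K₀)
          ({bgJ ↥K₀ (M * q)} : Set ↥(modularFunctionFieldFullC ↥K₀ (M * q)))) b' ∧
        b = algebraMap ↥(beta0Ring A K₀) ↥(modularFunctionFieldFullC ↥K₀ (M * q)) π * b' :=
  mgcb_reg_SS1_J hπ ιC hq hqM hA (stb_regChart_conc_J M hq hA hE hπ hqM h2 h3)

/-- **(SS1)**, chart `1 / j` -/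
theorem ribmp_fc_hSS1_inv (hA : A.LiesOverPrime q) (hE : beta0Field A ≤ K₀)
    (h2 : q = 2 → 3 ∣ M) (h3 : q = 3 → 2 ∣ M) :
    ∀ b : ↥(modularFunctionFieldFullC ↥K₀ (M * q)),
      IsIntegral ↥(Algebra.adjoin ↥(beta0Ring A K₀)
        ({(bgJ ↥K₀ (M * q))⁻¹} : Set ↥(modularFunctionFieldFullC ↥K₀ (M * q)))) b →
      (∀ c, b ∈ (mgvV hπ ιC hq hqM c).nonunits) →
      ∃ b' : ↥(modularFunctionFieldFullC ↥K₀ (M * q)),
        IsIntegral ↥(Algebra.adjoin ↥(beta0Ring A K₀)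
          ({(bgJ ↥K₀ (M * q))⁻¹} : Set ↥(modularFunctionFieldFullC ↥K₀ (M * q)))) b' ∧
        b = algebraMap ↥(beta0Ring A K₀) ↥(modularFunctionFieldFullC ↥K₀ (M * q)) π * b' :=
  mgcb_reg_SS1_Jinv hπ ιC hq hqM hA (stb_regChart_conc_Jinv M hq hA hE hπ hqM h2 h3)

/-- `j` is transcendental over `K₀` -/
theorem ribmp_fc_trans (N : ℕ) [NeZero N] : Transcendental ↥K₀ (bgJ ↥K₀ N) :=
  bgConst_transcendental_bgJ ↥K₀ N

/-- `F_N(K₀) / K₀(j)` is finite -/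
theorem ribmp_fc_fin (N : ℕ) [NeZero N] :
    FiniteDimensional (↥K₀)⟮bgJ ↥K₀ N⟯ ↥(modularFunctionFieldFullC ↥K₀ N) :=
  bgFin_finiteDimensional_full ↥K₀ N

/-- `F_N(K₀) / K₀(1 / j)` is finite -/
theorem ribmp_fc_fin_inv (N : ℕ) [NeZero N] :
    FiniteDimensional (↥K₀)⟮(bgJ ↥K₀ N)⁻¹⟯ ↥(modularFunctionFieldFullC ↥K₀ N) := by
  haveI := ribmp_fc_fin (K₀ := K₀) N
  exact at_finiteDimensional_inv (bgJ ↥K₀ N)

/-- **(KR)**, chart `j`, in the shape of `S36.s36n2p_fac` -/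
theorem ribmp_fc_hKR (hA : A.LiesOverPrime q) (hE : beta0Field A ≤ K₀)
    (h2 : q = 2 → 3 ∣ M) (h3 : q = 3 → 2 ∣ M)
    (x : ↥(modularFunctionFieldFullC ↥K₀ (M * q)))
    (hx : ∃ b : ↥(zchClosure (A₀ := ↥(beta0Ring A K₀))
        ({bgJ ↥K₀ (M * q)} : Set ↥(modularFunctionFieldFullC ↥K₀ (M * q)))),
      algebraMap ↥(zchClosure (A₀ := ↥(beta0Ring A K₀))
          ({bgJ ↥K₀ (M * q)} : Set ↥(modularFunctionFieldFullC ↥K₀ (M * q)))) _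
        (algebraMap ↥(beta0Ring A K₀) ↥(zchClosure (A₀ := ↥(beta0Ring A K₀))
          ({bgJ ↥K₀ (M * q)} : Set ↥(modularFunctionFieldFullC ↥K₀ (M * q)))) π) * x =
        algebraMap ↥(zchClosure (A₀ := ↥(beta0Ring A K₀))
          ({bgJ ↥K₀ (M * q)} : Set ↥(modularFunctionFieldFullC ↥K₀ (M * q)))) _ b)
    (hxV : ∀ c, x ∈ mgvV hπ ιC hq hqM c) :
    ∃ b : ↥(zchClosure (A₀ := ↥(beta0Ring A K₀))
        ({bgJ ↥K₀ (M * q)} : Set ↥(modularFunctionFieldFullC ↥K₀ (M * q)))),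
      x = algebraMap ↥(zchClosure (A₀ := ↥(beta0Ring A K₀))
        ({bgJ ↥K₀ (M * q)} : Set ↥(modularFunctionFieldFullC ↥K₀ (M * q)))) _ b :=
  ribmp_fac_hKR (ribmp_fc_hπ0 hπ) (mgvV hπ ιC hq hqM) (mgv_hπV hπ ιC hq hqM)
    (ribmp_fc_hSS1 hπ ιC hq hqM hA hE h2 h3) x hx hxV

/-- **(KR)**, chart `1 / j` -/
theorem ribmp_fc_hKR_inv (hA : A.LiesOverPrime q) (hE : beta0Field A ≤ K₀)
    (h2 : q = 2 → 3 ∣ M) (h3 : q = 3 → 2 ∣ M)
    (x : ↥(modularFunctionFieldFullC ↥K₀ (M * q)))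
    (hx : ∃ b : ↥(zchClosure (A₀ := ↥(beta0Ring A K₀))
        ({(bgJ ↥K₀ (M * q))⁻¹} : Set ↥(modularFunctionFieldFullC ↥K₀ (M * q)))),
      algebraMap ↥(zchClosure (A₀ := ↥(beta0Ring A K₀))
          ({(bgJ ↥K₀ (M * q))⁻¹} : Set ↥(modularFunctionFieldFullC ↥K₀ (M * q)))) _
        (algebraMap ↥(beta0Ring A K₀) ↥(zchClosure (A₀ := ↥(beta0Ring A K₀))
          ({(bgJ ↥K₀ (M * q))⁻¹} : Set ↥(modularFunctionFieldFullC ↥K₀ (M * q)))) π) * x =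
        algebraMap ↥(zchClosure (A₀ := ↥(beta0Ring A K₀))
          ({(bgJ ↥K₀ (M * q))⁻¹} : Set ↥(modularFunctionFieldFullC ↥K₀ (M * q)))) _ b)
    (hxV : ∀ c, x ∈ mgvV hπ ιC hq hqM c) :
    ∃ b : ↥(zchClosure (A₀ := ↥(beta0Ring A K₀))
        ({(bgJ ↥K₀ (M * q))⁻¹} : Set ↥(modularFunctionFieldFullC ↥K₀ (M * q)))),
      x = algebraMap ↥(zchClosure (A₀ := ↥(beta0Ring A K₀))
        ({(bgJ ↥K₀ (M * q))⁻¹} : Set ↥(modularFunctionFieldFullC ↥K₀ (M * q)))) _ b :=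
  ribmp_fac_hKR (ribmp_fc_hπ0 hπ) (mgvV hπ ιC hq hqM) (mgv_hπV hπ ιC hq hqM)
    (ribmp_fc_hSS1_inv hπ ιC hq hqM hA hE h2 h3) x hx hxV

/-- the horizontal hypothesis descends from `F_N(ℚ̄)` to `F_N(K₀)` -/
theorem ribmp_fc_hhor (N : ℕ) (m : ℕ) (y : ↥(modularFunctionFieldFullC ↥K₀ N))
    (hhor : ∀ P : Place NfQb (modularFunctionFieldBar N), (m : ℤ) ∣ P.ord (nfEmb K₀ N y))
    (Q : Place ↥K₀ ↥(modularFunctionFieldFullC ↥K₀ N)) : (m : ℤ) ∣ Q.ord y :=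
  mg_dvd_ord K₀ N (m : ℤ) y hhor Q

/-- **MP-FAC at level `M q` over `K₀ ⊇ ℚ̄^I`, from factoriality of the local rings of the two
charts `j`, `1 / j`**: a function `y ≠ 0` whose divisor over `ℚ̄` is divisible by `m` and which is
a unit at the two vertical valuations is, at every closed point of the special fibre, a unit times
an `m`-th power. -/
theorem ribmp_fc_main (hA : A.LiesOverPrime q) (hE : beta0Field A ≤ K₀)
    (h2 : q = 2 → 3 ∣ M) (h3 : q = 3 → 2 ∣ M)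
    (hufd : ∀ i : AtPt (F := ↥(modularFunctionFieldFullC ↥K₀ (M * q))) π (bgJ ↥K₀ (M * q)) ⊕
        AtPt (F := ↥(modularFunctionFieldFullC ↥K₀ (M * q))) π (bgJ ↥K₀ (M * q))⁻¹,
      UniqueFactorizationMonoid ↥(atO π (bgJ ↥K₀ (M * q)) i))
    (m : ℕ) (y : ↥(modularFunctionFieldFullC ↥K₀ (M * q))) (hy : y ≠ 0)
    (hhor : ∀ P : Place NfQb (modularFunctionFieldBar (M * q)),
      (m : ℤ) ∣ P.ord (nfEmb K₀ (M * q) y))
    (hunit : ∀ c, (mgvV hπ ιC hq hqM c).valuation y = 1) :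
    ∀ i : AtPt (F := ↥(modularFunctionFieldFullC ↥K₀ (M * q))) π (bgJ ↥K₀ (M * q)) ⊕
        AtPt (F := ↥(modularFunctionFieldFullC ↥K₀ (M * q))) π (bgJ ↥K₀ (M * q))⁻¹,
      StbFacAt (atO π (bgJ ↥K₀ (M * q)) i) m y := by
  haveI := ribmp_fc_fin (K₀ := K₀) (M * q)
  exact ribmp_fac_ufd_charts (E := ↥K₀) hπ (ribmp_fc_trans (M * q)) (mgvV hπ ιC hq hqM)
    (mgv_hBV₁ hπ ιC hq hqM) (mgv_hBV₂ hπ ιC hq hqM) (mgv_hπV hπ ιC hq hqM)
    (ribmp_fc_hSS1 hπ ιC hq hqM hA hE h2 h3) (ribmp_fc_hU hπ ιC hq hqM) hufd m y hy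
    (ribmp_fc_hhor (M * q) m y hhor) hunit

end Conc

end Fermat.Agent.RIB.MP
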