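/-
Row 37, Mazur's principle, piece MP-FAC / FacSmooth (helper67), the commutative algebra.

* `ribmp_fs_regular_or_zero` : in a reduced noetherian local ring with maximal ideal `(γ)`,
  either `γ = 0` or `γ` is a non-zero-divisor;
* `ribmp_fs_isDomain` : a reduced noetherian local ring with principal maximal ideal is a domain;
* `ribmp_fs_isPrincipalIdealRing` : … and a principal ideal ring (a field or a DVR);
* `ribmp_fs_ufd_local` : **regular of dimension two with reduced fibre ⇒ factorial**: `O` a
  noetherian local domain, `𝔪 = (x, s)`, `x ≠ 0`, `O / x` reduced (`x ∣ c² → x ∣ c`); then `x` is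
  a prime element, `O / x` is a principal ideal ring and `O` is a UFD (`s36reg_ufd_local`).
-/
import Fermat.Agent.S36.RegAlg
import Fermat.Agent.INJ.DiscLocal

set_option autoImplicit false
set_option linter.style.haveILetI false
set_option linter.unusedSectionVars false

namespace Fermat.Agent.RIB.MP

open Ideal IsLocalRing

section Reduced

variable {T : Type*} [CommRing T] [IsNoetherianRing T] [IsLocalRing T] [IsReduced T]

/-- In a reduced noetherian local ring with maximal ideal `(γ)`, `γ ≠ 0` is regular. -/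
theorem ribmp_fs_regular (γ : T) (hγ : maximalIdeal T = Ideal.span {γ}) (hγ0 : γ ≠ 0)
    (x : T) (hx : γ * x = 0) : x = 0 := by
  by_contra hx0
  have hne : maximalIdeal T ≠ ⊤ := Ideal.IsPrime.ne_top inferInstance
  have hkrull := Ideal.iInf_pow_eq_bot_of_isLocalRing (maximalIdeal T) hne
  have hex : ∃ k : ℕ, x ∉ maximalIdeal T ^ k := by
    by_contra hcon
    push Not at hcon
    apply hx0
    have : x ∈ ⨅ i : ℕ, maximalIdeal T ^ i := by
      rw [Ideal.mem_iInf]; exact hcon
    rw [hkrull] at this
    exact this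
  classical
  let k := Nat.find hex
  have hk : x ∉ maximalIdeal T ^ k := Nat.find_spec hex
  have hk0 : k ≠ 0 := by
    intro h0
    rw [h0, pow_zero, Ideal.one_eq_top] at hk
    exact hk trivial
  obtain ⟨j, hj⟩ := Nat.exists_eq_succ_of_ne_zero hk0
  have hjmem : x ∈ maximalIdeal T ^ j := by
    by_contra hcon
    have := Nat.find_min' hex hcon
    omega
  rw [hγ, Ideal.span_singleton_pow, Ideal.mem_span_singleton] at hjmem
  obtain ⟨a, ha⟩ := hjmem
  -- `a` is a unit, else `x ∈ 𝔪 ^ k`
  have hau : IsUnit a := by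
    by_contra hna
    have ham : a ∈ maximalIdeal T := (mem_maximalIdeal a).2 hna
    rw [hγ, Ideal.mem_span_singleton] at ham
    obtain ⟨b, hb⟩ := ham
    apply hk
    rw [hj, hγ, Ideal.span_singleton_pow, Ideal.mem_span_singleton]
    exact ⟨b, by rw [ha, hb, pow_succ]; ring⟩
  -- `γ ^ (j + 1) = 0`
  have h0 : γ ^ (j + 1) * a = 0 := by
    rw [pow_succ', mul_assoc, ← ha, hx]
  have h1 : γ ^ (j + 1) = 0 := by
    obtain ⟨u, rfl⟩ := hau
    exact (Units.mul_left_eq_zero u).1 h0
  exact hγ0 (IsReduced.eq_zero γ ⟨j + 1, h1⟩)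

/-- A reduced noetherian local ring with principal maximal ideal is a domain. -/
theorem ribmp_fs_isDomain (γ : T) (hγ : maximalIdeal T = Ideal.span {γ}) : IsDomain T := by
  by_cases hγ0 : γ = 0
  · have hbot : maximalIdeal T = ⊥ := by
      rw [hγ, hγ0]
      exact Ideal.span_singleton_eq_bot.2 rfl
    exact (IsLocalRing.isField_iff_maximalIdeal_eq.2 hbot).isDomain
  · exact Fermat.Agent.INJ.isDomain_of_maximalIdeal_eq_span_of_regular γ hγ
      (ribmp_fs_regular γ hγ hγ0)

/-- A reduced noetherian local ring with principal maximal ideal is a principal ideal ring. -/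
theorem ribmp_fs_isPrincipalIdealRing (γ : T) (hγ : maximalIdeal T = Ideal.span {γ}) :
    IsPrincipalIdealRing T := by
  haveI := ribmp_fs_isDomain γ hγ
  have hpr : (maximalIdeal T).IsPrincipal := ⟨⟨γ, hγ⟩⟩
  exact ((tfae_of_isNoetherianRing_of_isLocalRing_of_isDomain T).out 4 0).1 hpr

end Reduced

section Regular

variable {O : Type*} [CommRing O] [IsDomain O] [IsNoetherianRing O] [IsLocalRing O]

/-- **Regular of dimension two with reduced fibre ⇒ prime fibre.** -/
theorem ribmp_fs_prime {x s : O} (hx0 : x ≠ 0)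
    (hm : maximalIdeal O = Ideal.span {x, s})
    (hred : ∀ c : O, x ∣ c ^ 2 → x ∣ c) :
    Prime x ∧ IsPrincipalIdealRing (O ⧸ Ideal.span {x}) := by
  set I : Ideal O := Ideal.span {x} with hI
  have hxm : x ∈ maximalIdeal O := by
    rw [hm]; exact Ideal.subset_span (Set.mem_insert _ _)
  have hxu : ¬ IsUnit x := (mem_maximalIdeal x).1 hxm
  have hIne : I ≠ ⊤ := by
    rw [hI, Ne, Ideal.span_singleton_eq_top]
    exact hxu
  haveI : Nontrivial (O ⧸ I) := Ideal.Quotient.nontrivial_iff.mpr hIne
  let mk : O →+* O ⧸ I := Ideal.Quotient.mk I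
  have hmk : Function.Surjective mk := Ideal.Quotient.mk_surjective
  haveI : IsLocalRing (O ⧸ I) := IsLocalRing.of_surjective' mk hmk
  haveI : IsReduced (O ⧸ I) := by
    rw [isReduced_iff_pow_one_lt 2 (by norm_num)]
    intro t ht
    obtain ⟨c, rfl⟩ := hmk t
    rw [← map_pow] at ht
    have h1 : c ^ 2 ∈ I := Ideal.Quotient.eq_zero_iff_mem.mp ht
    rw [hI, Ideal.mem_span_singleton] at h1
    exact Ideal.Quotient.eq_zero_iff_mem.mpr (Ideal.mem_span_singleton.2 (hred c h1))
  -- the maximal ideal of the quotient is generated by the image of `s`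
  have hmax : maximalIdeal (O ⧸ I) = Ideal.span {mk s} := by
    apply le_antisymm
    · intro t ht
      obtain ⟨c, rfl⟩ := hmk t
      have hc : c ∈ maximalIdeal O := by
        rw [mem_maximalIdeal, mem_nonunits_iff]
        intro hu
        exact (mem_maximalIdeal _).1 ht (hu.map mk)
      rw [hm, Ideal.mem_span_pair] at hc
      obtain ⟨a, b, hab⟩ := hc
      rw [Ideal.mem_span_singleton]
      refine ⟨mk b, ?_⟩
      have hx : mk x = 0 := Ideal.Quotient.eq_zero_iff_mem.mpr (Ideal.mem_span_singleton_self x)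
      rw [← hab, map_add, map_mul, map_mul, hx, mul_zero, zero_add, mul_comm]
    · rw [Ideal.span_le, Set.singleton_subset_iff]
      have hsm : s ∈ maximalIdeal O := by
        rw [hm]; exact Ideal.subset_span (Set.mem_insert_of_mem _ (Set.mem_singleton _))
      show mk s ∈ maximalIdeal (O ⧸ I)
      rw [mem_maximalIdeal, mem_nonunits_iff]
      intro hu
      obtain ⟨r', hr'⟩ := hmk (↑hu.unit⁻¹ : O ⧸ I)
      have h1 : mk (s * r' - 1) = 0 := by
        rw [map_sub, map_mul, hr', map_one, IsUnit.mul_val_inv, sub_self]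
      have h2 : s * r' - 1 ∈ I := Ideal.Quotient.eq_zero_iff_mem.mp h1
      have h3 : s * r' - 1 ∈ maximalIdeal O := by
        rw [hI] at h2
        exact (Ideal.span_singleton_le_iff_mem _).2 hxm h2
      have h4 : (1 : O) ∈ maximalIdeal O := by
        have : (1 : O) = s * r' - (s * r' - 1) := by ring
        rw [this]
        exact Ideal.sub_mem _ (Ideal.mul_mem_right _ _ hsm) h3
      exact (mem_maximalIdeal _).1 h4 isUnit_one
  haveI hdom : IsDomain (O ⧸ I) := ribmp_fs_isDomain (mk s) hmax
  have hIp : I.IsPrime := (Ideal.Quotient.isDomain_iff_prime I).1 hdom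
  exact ⟨(Ideal.span_singleton_prime hx0).1 hIp, ribmp_fs_isPrincipalIdealRing (mk s) hmax⟩

/-- **Regular of dimension two with reduced fibre ⇒ factorial.** -/
theorem ribmp_fs_ufd_local {x s : O} (hx0 : x ≠ 0)
    (hm : maximalIdeal O = Ideal.span {x, s})
    (hred : ∀ c : O, x ∣ c ^ 2 → x ∣ c) : UniqueFactorizationMonoid O := by
  obtain ⟨hprime, hpid⟩ := ribmp_fs_prime hx0 hm hred
  haveI := hpid
  exact Fermat.Agent.S36.s36reg_ufd_local hprime

end Regular

end Fermat.Agent.RIB.MP
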