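/-
Row 37, Mazur's principle, piece MP-FAC / FacSmooth (helper67): the local ring of a chart at a
SMOOTH point of the special fibre is factorial.

Setting of `STB/GluingChart.lean`: `B` a noetherian chart (`Algebra B F`, injective), `𝔫` a prime
of `B`, `O = ls_localSubring 𝔫 = B_𝔫 ⊆ F`.  Hypotheses (both are outputs of UNIP U5):
 (SS2) `NodesLocGen 𝔫 {p, s}` : `𝔫 = (p, s)` locally (first alternative of `hU5`),
 (RED) `p ∣ c ^ 2 → p ∣ c` in `B` (`hred`: the special fibre is reduced).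
No valuation, no (KR), no hypothesis "one component only" is needed: (SS2) + (RED) force the fibre
to be a DVR (or a field) at `𝔫`.

* `ribmp_fs_max_eq` : `𝔪(B_𝔫) = (p, s)`;
* `ribmp_fs_red_loc` : `p ∣ c ^ 2 → p ∣ c` in `B_𝔫`;
* `ribmp_fs_prime_chart` : `p` is a prime element of `B_𝔫` and `B_𝔫 / p` is a principal ideal ring;
* `ribmp_fs_ufd_chart` : **`B_𝔫` is a UFD**;
* `ribmp_fs_ufd_atLoc`, `ribmp_fs_ufd_atO_inl`, `ribmp_fs_ufd_atO_inr` : the same for the charts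
  `zchClosure {u}` of `UNIP/AbstractT.lean` (`atLoc 𝔫`, `atO π t i`).
-/
import Fermat.Agent.RIB.MP.FacSmoothAlg
import Fermat.Agent.S36.N2PtsReg
import Fermat.Agent.STB.GluingChart
import Fermat.Agent.UNIP.AbstractT
import Fermat.Agent.UNIP.NodesMain

set_option autoImplicit false
set_option linter.style.haveILetI false
set_option linter.unusedSectionVars false
set_option linter.unusedVariables false

namespace Fermat.Agent.RIB.MP

open Fermat.Agent.UNIP Fermat.Agent.STB Fermat.Agent.S36 Fermat.Agent.INJ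

section Chart

variable {F : Type*} [Field F] {B : Type*} [CommRing B] [Algebra B F]
variable (hinj : Function.Injective (algebraMap B F)) (𝔫 : Ideal B) [h𝔫 : 𝔫.IsPrime]

include hinj in
/-- `𝔪(B_𝔫) = (p, s)` if `𝔫 = (p, s)` locally -/
theorem ribmp_fs_max_eq {p s : B} (hp : p ∈ 𝔫) (hs : s ∈ 𝔫) (hgen : NodesLocGen 𝔫 {p, s}) :
    haveI := ls_localSubring_isLocalRing (F := F) hinj 𝔫
    IsLocalRing.maximalIdeal (ls_localSubring (F := F) 𝔫) =
      Ideal.span {s36n2pToLoc (F := F) 𝔫 p, s36n2pToLoc (F := F) 𝔫 s} := by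
  haveI := ls_localSubring_isLocalRing (F := F) hinj 𝔫
  have h1 : (1 : B) ∉ 𝔫 := fun h => h𝔫.ne_top ((Ideal.eq_top_iff_one 𝔫).mpr h)
  apply le_antisymm
  · intro r hr
    obtain ⟨b, t, hb, ht, hbt⟩ := stb_gc_exists_of_mem_maximalIdeal hinj 𝔫 r hr
    obtain ⟨u, hu, hub⟩ := hgen b hb
    rw [Ideal.mem_span_pair] at hub
    obtain ⟨c₁, c₂, hc⟩ := hub
    have hut : u * t ∉ 𝔫 := fun h' => by
      rcases h𝔫.mem_or_mem h' with h'' | h''
      · exact hu h''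
      · exact ht h''
    have hunit : IsUnit (s36n2pToLoc (F := F) 𝔫 (u * t)) :=
      ls_isUnit_of_not_mem hinj 𝔫 _ (b := u * t) (s := 1) hut h1
        (by rw [map_one, one_mul]; rfl)
    have e1 : s36n2pToLoc (F := F) 𝔫 (u * t) * r =
        s36n2pToLoc (F := F) 𝔫 c₁ * s36n2pToLoc (F := F) 𝔫 p +
          s36n2pToLoc (F := F) 𝔫 c₂ * s36n2pToLoc (F := F) 𝔫 s := by
      apply Subtype.ext
      show algebraMap B F (u * t) * (r : F) =
        algebraMap B F c₁ * algebraMap B F p + algebraMap B F c₂ * algebraMap B F s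
      rw [map_mul, mul_assoc, hbt, ← map_mul, ← map_mul, ← map_mul, ← map_add, hc]
    obtain ⟨v, hv⟩ := hunit
    have e2 : r = (↑v⁻¹ : ls_localSubring (F := F) 𝔫) *
        (s36n2pToLoc (F := F) 𝔫 c₁ * s36n2pToLoc (F := F) 𝔫 p +
          s36n2pToLoc (F := F) 𝔫 c₂ * s36n2pToLoc (F := F) 𝔫 s) := by
      rw [← e1, ← hv, ← mul_assoc, Units.inv_mul, one_mul]
    rw [e2, Ideal.mem_span_pair]
    exact ⟨↑v⁻¹ * s36n2pToLoc (F := F) 𝔫 c₁, ↑v⁻¹ * s36n2pToLoc (F := F) 𝔫 c₂, by ring⟩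
  · rw [Ideal.span_le]
    rintro x (rfl | rfl)
    · exact stb_gc_mem_maximalIdeal hinj 𝔫 (s36n2pToLoc (F := F) 𝔫 p) (b := p) (s := 1) hp h1
        (by rw [map_one, one_mul]; rfl)
    · exact stb_gc_mem_maximalIdeal hinj 𝔫 (s36n2pToLoc (F := F) 𝔫 s) (b := s) (s := 1) hs h1
        (by rw [map_one, one_mul]; rfl)

include hinj in
/-- the fibre of `B_𝔫` over `p` is reduced if that of `B` is -/
theorem ribmp_fs_red_loc {p : B} (hred : ∀ c : B, p ∣ c ^ 2 → p ∣ c)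
    (c : ls_localSubring (F := F) 𝔫) (hc : s36n2pToLoc (F := F) 𝔫 p ∣ c ^ 2) :
    s36n2pToLoc (F := F) 𝔫 p ∣ c := by
  obtain ⟨d, hd⟩ := hc
  obtain ⟨b, t, ht, hbt⟩ := c.2
  obtain ⟨b', t', ht', hbt'⟩ := d.2
  have ht0 : algebraMap B F t ≠ 0 := stb_gc_algebraMap_ne_zero hinj 𝔫 ht
  have ht'0 : algebraMap B F t' ≠ 0 := stb_gc_algebraMap_ne_zero hinj 𝔫 ht'
  have hdF : (c : F) ^ 2 = algebraMap B F p * (d : F) := congrArg Subtype.val hd
  -- `(b t')² = p · (b' t' t²)` in `B`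
  have hB : (b * t') ^ 2 = p * (b' * t' * t ^ 2) := by
    apply hinj
    simp only [map_mul, map_pow]
    rw [← hbt, ← hbt']
    have : (algebraMap B F t * (c : F) * algebraMap B F t') ^ 2 =
        algebraMap B F t ^ 2 * algebraMap B F t' ^ 2 * (c : F) ^ 2 := by ring
    rw [this, hdF]
    ring
  obtain ⟨e, he⟩ := hred (b * t') ⟨_, hB⟩
  have htt' : t * t' ∉ 𝔫 := fun h' => by
    rcases h𝔫.mem_or_mem h' with h'' | h''
    · exact ht h''
    · exact ht' h''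
  have htt'0 : algebraMap B F (t * t') ≠ 0 := stb_gc_algebraMap_ne_zero hinj 𝔫 htt'
  -- the quotient `e / (t t')`
  have hq : algebraMap B F e / algebraMap B F (t * t') ∈ ls_localSubring (F := F) 𝔫 :=
    ⟨e, t * t', htt', by field_simp⟩
  refine ⟨⟨_, hq⟩, Subtype.ext ?_⟩
  show (c : F) = algebraMap B F p * (algebraMap B F e / algebraMap B F (t * t'))
  have h1 : algebraMap B F (t * t') * (c : F) = algebraMap B F p * algebraMap B F e := by
    rw [← map_mul (algebraMap B F) p e, ← he, map_mul, map_mul, ← hbt]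
    ring
  field_simp
  rw [mul_comm (c : F), h1]

include hinj in
/-- **`p` is a prime element of `B_𝔫`** and `B_𝔫 / p` is a principal ideal ring, at a smooth
point of a reduced fibre. -/
theorem ribmp_fs_prime_chart [IsNoetherianRing B] {p s : B} (hp : p ∈ 𝔫) (hs : s ∈ 𝔫)
    (hp0 : p ≠ 0) (hgen : NodesLocGen 𝔫 {p, s}) (hred : ∀ c : B, p ∣ c ^ 2 → p ∣ c) :
    Prime (s36n2pToLoc (F := F) 𝔫 p) ∧
      IsPrincipalIdealRing
        ((ls_localSubring (F := F) 𝔫) ⧸ Ideal.span {s36n2pToLoc (F := F) 𝔫 p}) := by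
  haveI := ls_localSubring_isLocalRing (F := F) hinj 𝔫
  haveI := s36n2p_isNoetherianRing (F := F) hinj 𝔫
  have hx0 : s36n2pToLoc (F := F) 𝔫 p ≠ 0 := by
    intro h
    have h' : algebraMap B F p = 0 := congrArg Subtype.val h
    exact hp0 (hinj (h'.trans (map_zero _).symm))
  exact ribmp_fs_prime hx0 (ribmp_fs_max_eq hinj 𝔫 hp hs hgen) (ribmp_fs_red_loc hinj 𝔫 hred)

include hinj in
/-- **FacSmooth.**  The local ring of a noetherian chart at a smooth point `𝔫 = (p, s)` of a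
reduced fibre is a UFD. -/
theorem ribmp_fs_ufd_chart [IsNoetherianRing B] {p s : B} (hp : p ∈ 𝔫) (hs : s ∈ 𝔫)
    (hp0 : p ≠ 0) (hgen : NodesLocGen 𝔫 {p, s}) (hred : ∀ c : B, p ∣ c ^ 2 → p ∣ c) :
    UniqueFactorizationMonoid (ls_localSubring (F := F) 𝔫) := by
  haveI := ls_localSubring_isLocalRing (F := F) hinj 𝔫
  haveI := s36n2p_isNoetherianRing (F := F) hinj 𝔫
  have hx0 : s36n2pToLoc (F := F) 𝔫 p ≠ 0 := by
    intro h
    have h' : algebraMap B F p = 0 := congrArg Subtype.val h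
    exact hp0 (hinj (h'.trans (map_zero _).symm))
  exact ribmp_fs_ufd_local hx0 (ribmp_fs_max_eq hinj 𝔫 hp hs hgen) (ribmp_fs_red_loc hinj 𝔫 hred)

end Chart

section At

variable {A₀ E F : Type*} [CommRing A₀] [IsDomain A₀] [IsDiscreteValuationRing A₀]
  [Field E] [Algebra A₀ E] [IsFractionRing A₀ E] [CharZero E]
  [Field F] [Algebra E F] [Algebra A₀ F] [IsScalarTower A₀ E F]

/-- **FacSmooth, chart form of `UNIP/AbstractT.lean`**: `atLoc 𝔫` is a UFD at a closed point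
`𝔫 = (π, s)` (locally) of the chart `B_u = zchClosure {u}` with reduced special fibre. -/
theorem ribmp_fs_ufd_atLoc {π : A₀} {u : F}
    [IsNoetherianRing ↥(zchClosure (A₀ := A₀) ({u} : Set F))]
    (hπ0 : algebraMap A₀ ↥(zchClosure (A₀ := A₀) ({u} : Set F)) π ≠ 0)
    (hred : ∀ c : ↥(zchClosure (A₀ := A₀) ({u} : Set F)),
      algebraMap A₀ ↥(zchClosure (A₀ := A₀) ({u} : Set F)) π ∣ c ^ 2 →
        algebraMap A₀ ↥(zchClosure (A₀ := A₀) ({u} : Set F)) π ∣ c)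
    (𝔫 : AtPt (F := F) π u) {s : ↥(zchClosure (A₀ := A₀) ({u} : Set F))} (hs : s ∈ 𝔫.1)
    (hgen : NodesLocGen 𝔫.1
      {algebraMap A₀ ↥(zchClosure (A₀ := A₀) ({u} : Set F)) π, s}) :
    UniqueFactorizationMonoid (atLoc 𝔫) := by
  haveI := 𝔫.2.1.isPrime
  exact ribmp_fs_ufd_chart (F := F) Subtype.val_injective 𝔫.1 𝔫.2.2 hs hπ0 hgen hred

/-- the uniformizer is not zero in the chart -/
theorem ribmp_fs_unif_ne_zero {π : A₀} (hπ : algebraMap A₀ F π ≠ 0) (u : F) :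
    algebraMap A₀ ↥(zchClosure (A₀ := A₀) ({u} : Set F)) π ≠ 0 := by
  intro h
  apply hπ
  have := congrArg (fun z : ↥(zchClosure (A₀ := A₀) ({u} : Set F)) => (z : F)) h
  simpa using this

/-- **FacSmooth** at a closed point of the chart `t` (`atO π t (Sum.inl 𝔫)`). -/
theorem ribmp_fs_ufd_atO_inl {π : A₀} (hπ : algebraMap A₀ F π ≠ 0) {t : F}
    [IsNoetherianRing ↥(zchClosure (A₀ := A₀) ({t} : Set F))]
    (hred : ∀ c : ↥(zchClosure (A₀ := A₀) ({t} : Set F)),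
      algebraMap A₀ ↥(zchClosure (A₀ := A₀) ({t} : Set F)) π ∣ c ^ 2 →
        algebraMap A₀ ↥(zchClosure (A₀ := A₀) ({t} : Set F)) π ∣ c)
    (𝔫 : AtPt (F := F) π t)
    (hsm : ∃ s ∈ 𝔫.1, NodesLocGen 𝔫.1
      {algebraMap A₀ ↥(zchClosure (A₀ := A₀) ({t} : Set F)) π, s}) :
    UniqueFactorizationMonoid (atO π t (Sum.inl 𝔫)) := by
  obtain ⟨s, hs, hgen⟩ := hsm
  exact ribmp_fs_ufd_atLoc (ribmp_fs_unif_ne_zero hπ t) hred 𝔫 hs hgen

/-- **FacSmooth** at a closed point of the chart `t⁻¹` (`atO π t (Sum.inr 𝔫)`). -/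
theorem ribmp_fs_ufd_atO_inr {π : A₀} (hπ : algebraMap A₀ F π ≠ 0) {t : F}
    [IsNoetherianRing ↥(zchClosure (A₀ := A₀) ({t⁻¹} : Set F))]
    (hred : ∀ c : ↥(zchClosure (A₀ := A₀) ({t⁻¹} : Set F)),
      algebraMap A₀ ↥(zchClosure (A₀ := A₀) ({t⁻¹} : Set F)) π ∣ c ^ 2 →
        algebraMap A₀ ↥(zchClosure (A₀ := A₀) ({t⁻¹} : Set F)) π ∣ c)
    (𝔫 : AtPt (F := F) π t⁻¹)
    (hsm : ∃ s ∈ 𝔫.1, NodesLocGen 𝔫.1
      {algebraMap A₀ ↥(zchClosure (A₀ := A₀) ({t⁻¹} : Set F)) π, s}) :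
    UniqueFactorizationMonoid (atO π t (Sum.inr 𝔫)) := by
  obtain ⟨s, hs, hgen⟩ := hsm
  exact ribmp_fs_ufd_atLoc (ribmp_fs_unif_ne_zero hπ t⁻¹) hred 𝔫 hs hgen

end At

end Fermat.Agent.RIB.MP
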