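/-
Row 37, Mazur's principle, piece MP-FAC / FAC-C (helper81): the closed points of the special
fibre of the chart `1 / j` of `F_{Mq}(K₀)` at which `1 / j` vanishes (the CUSPS) are smooth points,
so their local rings are factorial.

Setting of `RIB/MP/FacConc.lean`: `A` a valuation subring of `ℚ̄` over `q`, `q ∤ M`,
`A₀ = beta0Ring A K₀ = A ∩ K₀` a discrete valuation ring, `π` a uniformizer, `F = F_{Mq}(K₀)`,
`T = 1 / j`, `B = integralClosure A₀[T] F`, `V = mgvV hπ ιC hq hqM` (`true ↦ V_∞`, `false ↦ V_0`).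

The separating element is `e = j(Q^q) · T ^ q ∈ B` (`S33.wpd_e_integral`, helper61):
`e − 1 ∈ 𝔪(V_∞)` (Kronecker's congruence) and `e ^ q − T ^ (q² − 1) ∈ 𝔪(V_0)`.  Hence a prime `𝔫`
of `B` with `T ∈ 𝔫` cannot contain both `𝔪(V_∞) ∩ B` and `𝔪(V_0) ∩ B`: otherwise `e − 1 ∈ 𝔫` and
`e ^ q ∈ 𝔫`, so `1 ∈ 𝔫`.

* `ribmpFcuE`, `ribmp_fcu_integral`, `ribmp_fcu_sub_one_mem`, `ribmp_fcu_pow_sub_mem` : the
  element `e` and its three properties, for every `K₀`;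
* `ribmp_fcu_not_both` : **no cusp lies on both components** (valuation form);
* `ribmp_fcu_not_both_rho` : the same for the kernels of `ρ = nodesFrobChartRed` and
  `ρ₀ = nodesSwapRho₀`;
* `ribmp_fcu_smooth` : at a cusp the smooth alternative of U5 (`UNIP.nodesReg_chart_Jinv`) holds:
  `∃ s ∈ 𝔫, NodesLocGen 𝔫 {π, s}`;
* `ribmp_fcu_ufd_atLoc` : **`atLoc 𝔫` is a UFD** at every cusp `𝔫` of the chart `1 / j`
  (`ribmpFglGen (1 / j) ∈ 𝔫`), for a Frobenius element `φ` at `A` with `φ K₀ ⊆ K₀`;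
  `ribmp_fcu_ufd_stable` : the same for `K₀` stable under the decomposition group of `A`;
  `ribmp_fcu_ufd_base` : the same over `K₀ = ℚ̄^I`, all inputs discharged;
* `ribmp_fcu_ufd_all`, `ribmp_fcu_ufd_all_base` : factoriality at the closed points of the chart
  `j` gives factoriality at ALL closed points of the two charts (the hypothesis `hufd` of
  `ribmp_fc_main`).
-/
import Fermat.Agent.RIB.MP.FacSmooth
import Fermat.Agent.RIB.MP.FacGlue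
import Fermat.Agent.S33.WildPhiDeg
import Fermat.Agent.UNIP.MGVloc
import Fermat.Agent.UNIP.MGChartsBeta0RegU5
import Fermat.Agent.UNIP.U5Concrete
import Fermat.Agent.Common.FrobExists

set_option autoImplicit false
set_option linter.style.haveILetI false
set_option linter.unusedSectionVars false
set_option linter.unusedVariables false
set_option linter.style.longLine false
set_option synthInstance.maxHeartbeats 400000
set_option maxHeartbeats 8000000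

noncomputable section

namespace Fermat.Agent.RIB.MP

open ModularCurve Polynomial IntermediateField Fermat.Agent.INJ Fermat.Agent.AL AlgebraicCurve
open Fermat.Agent.ES Fermat.Agent.ES.G2 Fermat.Agent.STB Fermat.Agent.UNIP Fermat.Agent.S36

/-! ## The algebra -/

/-- (RED) for the chart `integralClosure A₀[u] F` in the shape of `zchClosure {u}` (generic, so
that the conversion is checked once, with small instances) -/
theorem ribmp_fcu_red_zch {A₀ F : Type*} [CommRing A₀] [Field F] [Algebra A₀ F] {π : A₀} {u : F}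
    (hred : ∀ c : integralClosure (Algebra.adjoin A₀ {u}) F,
      algebraMap A₀ (integralClosure (Algebra.adjoin A₀ {u}) F) π ∣ c ^ 2 →
      algebraMap A₀ (integralClosure (Algebra.adjoin A₀ {u}) F) π ∣ c) :
    ∀ c : ↥(zchClosure (A₀ := A₀) ({u} : Set F)),
      algebraMap A₀ ↥(zchClosure (A₀ := A₀) ({u} : Set F)) π ∣ c ^ 2 →
        algebraMap A₀ ↥(zchClosure (A₀ := A₀) ({u} : Set F)) π ∣ c := hred

/-- a prime ideal cannot contain `T`, `e - 1` and `e ^ q - T ^ n` (`n > 0`) -/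
theorem ribmp_fcu_alg {B : Type*} [CommRing B] (𝔫 : Ideal B) (h𝔫 : 𝔫.IsPrime) (e T : B)
    (q n : ℕ) (hn : 0 < n) (hT : T ∈ 𝔫) (e1 : e - 1 ∈ 𝔫) (e2 : e ^ q - T ^ n ∈ 𝔫) : False := by
  have e3 : T ^ n ∈ 𝔫 := 𝔫.pow_mem_of_mem hT _ hn
  have e4 : e ^ q ∈ 𝔫 := by
    have h := 𝔫.add_mem e2 e3
    rwa [sub_add_cancel] at h
  have e5 : e ∈ 𝔫 := h𝔫.mem_of_pow_mem q e4
  have e6 : (1 : B) ∈ 𝔫 := by
    have h := 𝔫.sub_mem e5 e1
    rwa [sub_sub_cancel] at h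
  exact h𝔫.ne_top ((Ideal.eq_top_iff_one 𝔫).mpr e6)

/-! ## The element `e = j(Q^q) / j ^ q` -/

section Elt

variable (K₀ : IntermediateField ℚ Qb) (M q : ℕ) [NeZero q] [NeZero M] [NeZero (M * q)]

/-- `e = j(Q^q) · (1 / j) ^ q ∈ F_{Mq}(K₀)` -/
def ribmpFcuE : ↥(modularFunctionFieldFullC ↥K₀ (M * q)) :=
  nodesFrobJq ↥K₀ M q * (bgJ ↥K₀ (M * q))⁻¹ ^ q

theorem ribmp_fcu_bgJ_eq : bgJ ↥K₀ (M * q) = nodesFrobJ ↥K₀ M q := Subtype.ext rfl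

theorem ribmp_fcu_bgJ_ne_zero : bgJ ↥K₀ (M * q) ≠ 0 := by
  rw [ribmp_fcu_bgJ_eq]
  exact Fermat.Agent.S33.wpd_J_ne_zero q ↥K₀ M

variable {K₀ M q}

/-- `e` is integral over `A₀[1 / j]`, for every base ring `A₀` -/
theorem ribmp_fcu_integral (hq : q.Prime) {A₀ : Type*} [CommRing A₀]
    [Algebra A₀ ↥(modularFunctionFieldFullC ↥K₀ (M * q))] :
    IsIntegral ↥(Algebra.adjoin A₀
      ({(bgJ ↥K₀ (M * q))⁻¹} : Set ↥(modularFunctionFieldFullC ↥K₀ (M * q))))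
      (ribmpFcuE K₀ M q) := by
  rw [ribmpFcuE, ribmp_fcu_bgJ_eq]
  exact Fermat.Agent.S33.wpd_e_integral q ↥K₀ M hq

/-- `e − 1 = c / j ^ q`, `c = j(Q^q) − j ^ q` -/
theorem ribmp_fcu_sub_one_eq :
    ribmpFcuE K₀ M q - 1 = (bgJ ↥K₀ (M * q))⁻¹ ^ q * nodesFrobC ↥K₀ M q := by
  have h0 := ribmp_fcu_bgJ_ne_zero K₀ M q
  have h1 : (bgJ ↥K₀ (M * q))⁻¹ ^ q * bgJ ↥K₀ (M * q) ^ q = 1 := by
    rw [← mul_pow, inv_mul_cancel₀ h0, one_pow]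
  rw [ribmpFcuE, nodesFrobC, ← ribmp_fcu_bgJ_eq]
  linear_combination h1

/-- `e ^ q − (1 / j) ^ (q² − 1) = −(1 / j) ^ (q²) · w c`, `w c = j − j(Q^q) ^ q` -/
theorem ribmp_fcu_pow_sub_eq (hq1 : 1 ≤ q) :
    ribmpFcuE K₀ M q ^ q - (bgJ ↥K₀ (M * q))⁻¹ ^ (q ^ 2 - 1) =
      -((bgJ ↥K₀ (M * q))⁻¹ ^ (q ^ 2)) *
        (nodesFrobJ ↥K₀ M q - nodesFrobJq ↥K₀ M q ^ q) := by
  have h0 := ribmp_fcu_bgJ_ne_zero K₀ M q
  have hq2 : q ^ 2 = (q ^ 2 - 1) + 1 := (Nat.sub_add_cancel (Nat.one_le_pow _ _ hq1)).symm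
  have h1 : (bgJ ↥K₀ (M * q))⁻¹ ^ (q ^ 2 - 1) =
      (bgJ ↥K₀ (M * q))⁻¹ ^ (q ^ 2) * bgJ ↥K₀ (M * q) := by
    conv_rhs => rw [hq2, pow_succ, mul_assoc, inv_mul_cancel₀ h0, mul_one]
  rw [h1, ribmpFcuE, ← ribmp_fcu_bgJ_eq, mul_pow, ← pow_mul, ← sq]
  ring

theorem ribmp_fcu_exp_ne_zero (hq : q.Prime) : q ^ 2 - 1 ≠ 0 := by
  have h2 := hq.two_le
  have : 4 ≤ q ^ 2 := by nlinarith
  omega

end Elt

/-! ## The two vertical valuations at the cusps -/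

section Val

variable {A : ValuationSubring Qb} {K₀ : IntermediateField ℚ Qb}
  [IsDiscreteValuationRing ↥(beta0Ring A K₀)] {π : ↥(beta0Ring A K₀)} (hπ : Irreducible π)
  (ιC : ↥K₀ →+* ℂ) {q M : ℕ} [NeZero q] [NeZero M] [NeZero (M * q)]
  (hq : q.Prime) (hqM : ¬ q ∣ M)

/-- **`e − 1 ∈ 𝔪(V_∞)`** -/
theorem ribmp_fcu_sub_one_mem (hA : A.LiesOverPrime q) :
    ribmpFcuE K₀ M q - 1 ∈ (mgvV hπ ιC hq hqM true).nonunits := by
  rw [ribmp_fcu_sub_one_eq]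
  exact vt_mul_mem_nonunits _ (pow_mem (mgv_T_inv_mem hπ ιC hq hqM true) q)
    (mgvl_hsep hπ ιC hq hqM hA).1

/-- **`e ^ q − (1 / j) ^ (q² − 1) ∈ 𝔪(V_0)`** -/
theorem ribmp_fcu_pow_sub_mem (hA : A.LiesOverPrime q) :
    ribmpFcuE K₀ M q ^ q - (bgJ ↥K₀ (M * q))⁻¹ ^ (q ^ 2 - 1) ∈
      (mgvV hπ ιC hq hqM false).nonunits := by
  rw [ribmp_fcu_pow_sub_eq hq.one_le]
  have h1 := (mgvl_hsep' hπ ιC hq hqM hA).1
  rw [nodesFrob_atkinLehner_C] at h1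
  exact vt_mul_mem_nonunits _
    (neg_mem (pow_mem (mgv_T_inv_mem hπ ιC hq hqM false) (q ^ 2))) h1

/-- **FAC-C, valuation form: no cusp of the chart `1 / j` lies on both components.**  A prime
`𝔫` of the chart `B_t`, `t = 1 / j`, with `t ∈ 𝔫` does not contain both `𝔪(V_∞) ∩ B_t` and
`𝔪(V_0) ∩ B_t`. -/
theorem ribmp_fcu_not_both (hA : A.LiesOverPrime q)
    (t : ↥(modularFunctionFieldFullC ↥K₀ (M * q))) (ht : t = (bgJ ↥K₀ (M * q))⁻¹)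
    (𝔫 : Ideal (integralClosure (Algebra.adjoin ↥(beta0Ring A K₀) {t})
      ↥(modularFunctionFieldFullC ↥K₀ (M * q)))) (h𝔫 : 𝔫.IsPrime)
    (hT : ∃ x ∈ 𝔫, (x : ↥(modularFunctionFieldFullC ↥K₀ (M * q))) = t)
    (h1 : ∀ x : integralClosure (Algebra.adjoin ↥(beta0Ring A K₀) {t})
        ↥(modularFunctionFieldFullC ↥K₀ (M * q)),
      (x : ↥(modularFunctionFieldFullC ↥K₀ (M * q))) ∈ (mgvV hπ ιC hq hqM true).nonunits →
        x ∈ 𝔫)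
    (h2 : ∀ x : integralClosure (Algebra.adjoin ↥(beta0Ring A K₀) {t})
        ↥(modularFunctionFieldFullC ↥K₀ (M * q)),
      (x : ↥(modularFunctionFieldFullC ↥K₀ (M * q))) ∈ (mgvV hπ ιC hq hqM false).nonunits →
        x ∈ 𝔫) : False := by
  subst ht
  obtain ⟨T, hT𝔫, hTe⟩ := hT
  -- the element `e` of the chart
  obtain ⟨e, he⟩ : ∃ e : integralClosure (Algebra.adjoin ↥(beta0Ring A K₀)
      {(bgJ ↥K₀ (M * q))⁻¹}) ↥(modularFunctionFieldFullC ↥K₀ (M * q)),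
      (e : ↥(modularFunctionFieldFullC ↥K₀ (M * q))) = ribmpFcuE K₀ M q :=
    ⟨⟨ribmpFcuE K₀ M q, ribmp_fcu_integral hq⟩, rfl⟩
  have e1 : e - 1 ∈ 𝔫 := by
    apply h1
    rw [Subalgebra.coe_sub, Subalgebra.coe_one, he]
    exact ribmp_fcu_sub_one_mem hπ ιC hq hqM hA
  have e2 : e ^ q - T ^ (q ^ 2 - 1) ∈ 𝔫 := by
    apply h2
    rw [Subalgebra.coe_sub, Subalgebra.coe_pow, Subalgebra.coe_pow, he, hTe]
    exact ribmp_fcu_pow_sub_mem hπ ιC hq hqM hA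
  exact ribmp_fcu_alg 𝔫 h𝔫 e T q (q ^ 2 - 1) (Nat.pos_of_ne_zero (ribmp_fcu_exp_ne_zero hq))
    hT𝔫 e1 e2

/-- **FAC-C, kernel form**: a prime `𝔫 ∋ t` of the chart `B_t`, `t = 1 / j`, does not contain
both `ker ρ` and `ker ρ₀`. -/
theorem ribmp_fcu_not_both_rho (hA : A.LiesOverPrime q) {k : Type*} [Field k]
    (r : ↥(beta0Ring A K₀) →+* k) (hr : ∀ a, r a = 0 → π ∣ a) (hrπ : r π = 0)
    (t : ↥(modularFunctionFieldFullC ↥K₀ (M * q))) (ht : t = (bgJ ↥K₀ (M * q))⁻¹)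
    (htG : (t : LaurentSeries ↥K₀) ∈ gaussRing (algebraMap ↥(beta0Ring A K₀) ↥K₀) r)
    (hwt : (((atkinLehner ↥K₀ ιC hq hqM).toAlgHom t : ↥(modularFunctionFieldFullC ↥K₀ (M * q))) :
      LaurentSeries ↥K₀) ∈ gaussRing (algebraMap ↥(beta0Ring A K₀) ↥K₀) r)
    (𝔫 : Ideal (integralClosure (Algebra.adjoin ↥(beta0Ring A K₀) {t})
      ↥(modularFunctionFieldFullC ↥K₀ (M * q)))) (h𝔫 : 𝔫.IsPrime)
    (hT : ∃ x ∈ 𝔫, (x : ↥(modularFunctionFieldFullC ↥K₀ (M * q))) = t)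
    (h1 : ∀ x, nodesFrobChartRed r hπ.ne_zero hπ.not_isUnit hr hrπ (nodesFrob_full_le (M * q))
      t htG x = 0 → x ∈ 𝔫)
    (h2 : ∀ x, nodesSwapRho₀ r hπ.ne_zero hπ.not_isUnit hr hrπ (nodesFrob_full_le (M * q))
      (atkinLehner ↥K₀ ιC hq hqM).toAlgHom t hwt x = 0 → x ∈ 𝔫) : False :=
  ribmp_fcu_not_both hπ ιC hq hqM hA t ht 𝔫 h𝔫 hT
    (fun x hx => h1 x ((mgcb_rho_eq_zero_iff_mgvV hπ ιC hq hqM r hr hrπ t htG x).mpr hx))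
    (fun x hx => h2 x ((mgcb_rho₀_eq_zero_iff_mgvV hπ ιC hq hqM r hr hrπ t hwt x).mpr hx))

end Val

/-! ## Cusps are smooth points -/

section Smooth

variable {A : ValuationSubring Qb} {K₀ : IntermediateField ℚ Qb}
  [IsDiscreteValuationRing ↥(beta0Ring A K₀)] {π : ↥(beta0Ring A K₀)} (hπ : Irreducible π)
  (ιC : ↥K₀ →+* ℂ) {q M : ℕ} [NeZero q] [NeZero M] [NeZero (M * q)]
  (hq : q.Prime) (hqM : ¬ q ∣ M)

include hπ ιC hq hqM in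
/-- at a maximal ideal `𝔫 ∋ π, t` of the chart `t = 1 / j` the smooth alternative of U5 holds -/
theorem ribmp_fcu_smooth_aux (hA : A.LiesOverPrime q) {φ : Qb ≃ₐ[ℚ] Qb}
    (hφF : A.IsFrobeniusAt φ q) (hφ : ∀ x ∈ K₀, φ x ∈ K₀)
    (h : RegChart (E := ↥K₀) π (bgJ ↥K₀ M)⁻¹)
    (t : ↥(modularFunctionFieldFullC ↥K₀ (M * q)))
    (e : nodesInstIncl ↥K₀ M q (bgJ ↥K₀ M)⁻¹ = t)
    (𝔫 : Ideal (integralClosure (Algebra.adjoin ↥(beta0Ring A K₀) {t})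
      ↥(modularFunctionFieldFullC ↥K₀ (M * q))))
    (h𝔫 : 𝔫.IsMaximal)
    (hπ𝔫 : algebraMap ↥(beta0Ring A K₀) (integralClosure
      (Algebra.adjoin ↥(beta0Ring A K₀) {t})
      ↥(modularFunctionFieldFullC ↥K₀ (M * q))) π ∈ 𝔫)
    (hT : ∃ x ∈ 𝔫, (x : ↥(modularFunctionFieldFullC ↥K₀ (M * q))) = t) :
    ∃ s ∈ 𝔫, NodesLocGen 𝔫 {algebraMap ↥(beta0Ring A K₀) (integralClosure
      (Algebra.adjoin ↥(beta0Ring A K₀) {t})
      ↥(modularFunctionFieldFullC ↥K₀ (M * q))) π, s} := by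
  haveI : Fact q.Prime := ⟨hq⟩
  haveI : CharP (IsLocalRing.ResidueField ↥(beta0Ring A K₀)) q := frobLift_charP A K₀ hq hA
  subst e
  rcases nodesReg_chart_Jinv K₀ (IsLocalRing.residue ↥(beta0Ring A K₀)) ιC hq hqM
    ((stbLiftA hφF hφ).symm : ↥(beta0Ring A K₀) →+* ↥(beta0Ring A K₀))
    ((mgaRestrictEquiv K₀ φ hφ).symm : ↥K₀ →+* ↥K₀)
    (stbLiftTheta hφF hφ) hπ (stb_residue_ker hπ) (stb_residue_pi hπ) h
    (stbLift_hψ' hφF hφ) (stbLift_hθ hφF hφ) (stbLift_hθq hφF hφ) 𝔫 h𝔫 hπ𝔫 with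
    h0 | ⟨h1, h2, -⟩
  · exact h0
  · exact (ribmp_fcu_not_both_rho hπ ιC hq hqM hA (IsLocalRing.residue ↥(beta0Ring A K₀))
      (stb_residue_ker hπ) (stb_residue_pi hπ) _ mgcb_incl_bgJ_inv _ _ 𝔫 h𝔫.isPrime hT
      h1 h2).elim

end Smooth

/-! ## Factoriality at the cusps -/

section UFD

variable {A : ValuationSubring Qb} {K₀ : IntermediateField ℚ Qb}
  [IsDiscreteValuationRing ↥(beta0Ring A K₀)] {π : ↥(beta0Ring A K₀)} (hπ : Irreducible π)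
  {q M : ℕ} [NeZero q] [NeZero M] [NeZero (M * q)]
  (hq : q.Prime) (hqM : ¬ q ∣ M)

include hπ hq hqM in
/-- **FAC-C, smoothness**: a cusp `𝔫` (closed point of the special fibre of the chart `1 / j` of
`F_{Mq}(K₀)` with `1 / j ∈ 𝔫`) is a smooth point: `𝔫 = (π, s)` locally. -/
theorem ribmp_fcu_smooth (hA : A.LiesOverPrime q) (hE : beta0Field A ≤ K₀) {φ : Qb ≃ₐ[ℚ] Qb}
    (hφF : A.IsFrobeniusAt φ q) (hφ : ∀ x ∈ K₀, φ x ∈ K₀)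
    (h2 : q = 2 → 3 ∣ M) (h3 : q = 3 → 2 ∣ M)
    (𝔫 : AtPt (F := ↥(modularFunctionFieldFullC ↥K₀ (M * q))) π (bgJ ↥K₀ (M * q))⁻¹)
    (hT : ribmpFglGen (A₀ := ↥(beta0Ring A K₀)) (bgJ ↥K₀ (M * q))⁻¹ ∈ 𝔫.1) :
    ∃ s ∈ 𝔫.1, NodesLocGen 𝔫.1
      {algebraMap ↥(beta0Ring A K₀) ↥(zchClosure (A₀ := ↥(beta0Ring A K₀))
        ({(bgJ ↥K₀ (M * q))⁻¹} : Set ↥(modularFunctionFieldFullC ↥K₀ (M * q)))) π, s} :=
  ribmp_fcu_smooth_aux hπ (u5cIota K₀) hq hqM hA hφF hφ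
    (stb_regChart_conc_Jinv M hq hA hE hπ hqM h2 h3) _ mgcb_incl_bgJ_inv 𝔫.1 𝔫.2.1 𝔫.2.2
    ⟨_, hT, rfl⟩

/-- the chart `1 / j` of `F_{Mq}(K₀)` over `A ∩ K₀` is noetherian -/
theorem ribmp_fcu_noeth :
    IsNoetherianRing ↥(zchClosure (A₀ := ↥(beta0Ring A K₀))
      ({(bgJ ↥K₀ (M * q))⁻¹} : Set ↥(modularFunctionFieldFullC ↥K₀ (M * q)))) := by
  have ht' : Transcendental ↥K₀ (bgJ ↥K₀ (M * q))⁻¹ :=
    zch_transcendental_inv (bgConst_transcendental_bgJ ↥K₀ (M * q))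
  haveI : FiniteDimensional (↥K₀)⟮bgJ ↥K₀ (M * q)⟯ ↥(modularFunctionFieldFullC ↥K₀ (M * q)) :=
    bgFin_finiteDimensional_full ↥K₀ (M * q)
  haveI : FiniteDimensional (↥K₀)⟮(bgJ ↥K₀ (M * q))⁻¹⟯
      ↥(modularFunctionFieldFullC ↥K₀ (M * q)) :=
    at_finiteDimensional_inv (bgJ ↥K₀ (M * q))
  exact chart_closure_isNoetherianRing (A₀ := ↥(beta0Ring A K₀)) (E := ↥K₀) ht'

include hπ hq hqM in
/-- **FAC-C**: the local ring of the chart `1 / j` of `F_{Mq}(K₀)` at a cusp is factorial. -/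
theorem ribmp_fcu_ufd_atLoc (hA : A.LiesOverPrime q) (hE : beta0Field A ≤ K₀)
    {φ : Qb ≃ₐ[ℚ] Qb} (hφF : A.IsFrobeniusAt φ q) (hφ : ∀ x ∈ K₀, φ x ∈ K₀)
    (h2 : q = 2 → 3 ∣ M) (h3 : q = 3 → 2 ∣ M)
    (𝔫 : AtPt (F := ↥(modularFunctionFieldFullC ↥K₀ (M * q))) π (bgJ ↥K₀ (M * q))⁻¹)
    (hT : ribmpFglGen (A₀ := ↥(beta0Ring A K₀)) (bgJ ↥K₀ (M * q))⁻¹ ∈ 𝔫.1) :
    UniqueFactorizationMonoid ↥(atLoc 𝔫) := by
  haveI := ribmp_fcu_noeth (A := A) (K₀ := K₀) (q := q) (M := M)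
  obtain ⟨s, hs, hgen⟩ := ribmp_fcu_smooth hπ hq hqM hA hE hφF hφ h2 h3 𝔫 hT
  have hred := ribmp_fcu_red_zch (A₀ := ↥(beta0Ring A K₀))
    (F := ↥(modularFunctionFieldFullC ↥K₀ (M * q))) (π := π) (u := (bgJ ↥K₀ (M * q))⁻¹)
    (u5c_reduced_Jinv hq hA hE hπ hqM h2 h3)
  exact ribmp_fs_ufd_atLoc (ribmp_fs_unif_ne_zero (ei_algebraMap_ne_zero (E := ↥K₀) hπ) _)
    hred 𝔫 hs hgen

include hπ hq hqM in
/-- **FAC-C** for `K₀` stable under the decomposition group of `A`. -/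
theorem ribmp_fcu_ufd_stable (hA : A.LiesOverPrime q) (hE : beta0Field A ≤ K₀)
    (hstab : ∀ τ : Qb ≃ₐ[ℚ] Qb, τ ∈ A.decompositionSubgroup ℚ → ∀ x ∈ K₀, τ x ∈ K₀)
    (h2 : q = 2 → 3 ∣ M) (h3 : q = 3 → 2 ∣ M)
    (𝔫 : AtPt (F := ↥(modularFunctionFieldFullC ↥K₀ (M * q))) π (bgJ ↥K₀ (M * q))⁻¹)
    (hT : ribmpFglGen (A₀ := ↥(beta0Ring A K₀)) (bgJ ↥K₀ (M * q))⁻¹ ∈ 𝔫.1) :
    UniqueFactorizationMonoid ↥(atLoc 𝔫) := by
  obtain ⟨φ, hφF⟩ := Fermat.Agent.Common.exists_isFrobeniusAt_of_liesOverPrime q hq A hA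
  exact ribmp_fcu_ufd_atLoc hπ hq hqM hA hE hφF (hstab φ hφF.mem_decompositionSubgroup) h2 h3 𝔫 hT

include hπ hq hqM in
/-- **FAC-C + FAC-D**: factoriality at the closed points of the chart `j` gives the hypothesis
`hufd` of `ribmp_fc_main` (factoriality at all closed points of the two charts). -/
theorem ribmp_fcu_ufd_all (hA : A.LiesOverPrime q) (hE : beta0Field A ≤ K₀)
    (hstab : ∀ τ : Qb ≃ₐ[ℚ] Qb, τ ∈ A.decompositionSubgroup ℚ → ∀ x ∈ K₀, τ x ∈ K₀)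
    (h2 : q = 2 → 3 ∣ M) (h3 : q = 3 → 2 ∣ M)
    (h₁ : ∀ 𝔫 : AtPt (F := ↥(modularFunctionFieldFullC ↥K₀ (M * q))) π (bgJ ↥K₀ (M * q)),
      UniqueFactorizationMonoid ↥(atLoc 𝔫)) :
    ∀ i : AtPt (F := ↥(modularFunctionFieldFullC ↥K₀ (M * q))) π (bgJ ↥K₀ (M * q)) ⊕
        AtPt (F := ↥(modularFunctionFieldFullC ↥K₀ (M * q))) π (bgJ ↥K₀ (M * q))⁻¹,
      UniqueFactorizationMonoid ↥(atO π (bgJ ↥K₀ (M * q)) i) :=
  ribmp_fgl_ufd_all hπ (ribmp_fcu_bgJ_ne_zero K₀ M q) h₁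
    (fun 𝔫 hT => ribmp_fcu_ufd_stable hπ hq hqM hA hE hstab h2 h3 𝔫 hT)

end UFD

section Base

variable {A : ValuationSubring Qb} [IsDiscreteValuationRing ↥(beta0Ring A (beta0Field A))]
  {π : ↥(beta0Ring A (beta0Field A))} (hπ : Irreducible π)
  {q M : ℕ} [NeZero q] [NeZero M] [NeZero (M * q)]
  (hq : q.Prime) (hqM : ¬ q ∣ M)

include hπ hq hqM in
/-- **FAC-C over `K₀ = ℚ̄^I`**, all inputs discharged. -/
theorem ribmp_fcu_ufd_base (hA : A.LiesOverPrime q)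
    (h2 : q = 2 → 3 ∣ M) (h3 : q = 3 → 2 ∣ M)
    (𝔫 : AtPt (F := ↥(modularFunctionFieldFullC ↥(beta0Field A) (M * q))) π
      (bgJ ↥(beta0Field A) (M * q))⁻¹)
    (hT : ribmpFglGen (A₀ := ↥(beta0Ring A (beta0Field A)))
      (bgJ ↥(beta0Field A) (M * q))⁻¹ ∈ 𝔫.1) :
    UniqueFactorizationMonoid ↥(atLoc 𝔫) :=
  ribmp_fcu_ufd_stable hπ hq hqM hA le_rfl (fun τ hτ => stb_stable_beta0 hτ) h2 h3 𝔫 hT

include hπ hq hqM in
/-- **FAC-C + FAC-D over `K₀ = ℚ̄^I`**. -/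
theorem ribmp_fcu_ufd_all_base (hA : A.LiesOverPrime q)
    (h2 : q = 2 → 3 ∣ M) (h3 : q = 3 → 2 ∣ M)
    (h₁ : ∀ 𝔫 : AtPt (F := ↥(modularFunctionFieldFullC ↥(beta0Field A) (M * q))) π
        (bgJ ↥(beta0Field A) (M * q)),
      UniqueFactorizationMonoid ↥(atLoc 𝔫)) :
    ∀ i : AtPt (F := ↥(modularFunctionFieldFullC ↥(beta0Field A) (M * q))) π
          (bgJ ↥(beta0Field A) (M * q)) ⊕
        AtPt (F := ↥(modularFunctionFieldFullC ↥(beta0Field A) (M * q))) π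
          (bgJ ↥(beta0Field A) (M * q))⁻¹,
      UniqueFactorizationMonoid ↥(atO π (bgJ ↥(beta0Field A) (M * q)) i) :=
  ribmp_fcu_ufd_all hπ hq hqM hA le_rfl (fun τ hτ => stb_stable_beta0 hτ) h2 h3 h₁

end Base

end Fermat.Agent.RIB.MP
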