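/-
Row 37, Mazur's principle, piece MP-FAC (helper95), part 1: THE NORM DESCENT of local
factorisations along a finite extension of charts (abstract; no modular input).

`F ⊆ F'` fields, `[F' : F] = D` finite, `B ⊆ F`, `B' ⊆ F'` integrally closed charts, `B'` integral
over `B`, `𝔫` a maximal ideal of `B` with finitely many maximal ideals `𝔫'` of `B'` above it.
If `y ∈ F^×` has a local factorisation `y = ε γ ^ p`, `ε ∈ (B'_𝔫')^×`, at EVERY `𝔫'` above `𝔫`, and
`p` is prime to `D`, then `y = ε₀ γ₀ ^ p` with `ε₀ ∈ (B_𝔫)^×`.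

* `ribmp_fac_pow_mem`   : `B_𝔫` is integrally closed for `p`-th roots (`B` integrally closed);
* `ribmp_fac_patch`     : a simultaneous `γ` for finitely many maximal ideals (CRT);
* `ribmp_fac_norm_mem`  : the norm of an element which is integral at all `𝔫' ∣ 𝔫` lies in `B_𝔫`;
* `ribmp_fac_descent`   : the descent.

Application (RIB/MP/Fac*.lean): `B'` = chart of a rigid level `M₁' q` (all local rings factorial,
S36 G-thin), `B` = chart of the level `M₁ q`, `D ∈ {1, 2, 3, 4, 6, 9, 12}`, `p ≥ 5`.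
-/
import Fermat.Agent.STB.SmoothFac
import Fermat.Agent.STB.GluingChart

set_option autoImplicit false
set_option linter.unusedSectionVars false
set_option linter.unusedVariables false
set_option linter.style.haveILetI false

namespace Fermat.Agent.RIB.MP

open Fermat.Agent.UNIP Fermat.Agent.STB

section Local

variable {F : Type*} [Field F] {B : Type*} [CommRing B] [Algebra B F]

/-- `B_𝔫` is closed under `p`-th roots, if `B` is integrally closed in `F`. -/
theorem ribmp_fac_pow_mem (hcl : ∀ x : F, IsIntegral B x → x ∈ (algebraMap B F).range)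
    (𝔫 : Ideal B) [h𝔫 : 𝔫.IsPrime] {p : ℕ} (hp : 0 < p) {x : F}
    (hx : x ^ p ∈ ls_localSubring (F := F) 𝔫) : x ∈ ls_localSubring (F := F) 𝔫 := by
  obtain ⟨b, s, hs, h⟩ := hx
  have hint : IsIntegral B (algebraMap B F s * x) := by
    refine ⟨Polynomial.X ^ p - Polynomial.C (s ^ (p - 1) * b),
      Polynomial.monic_X_pow_sub_C _ hp.ne', ?_⟩
    rw [Polynomial.eval₂_sub, Polynomial.eval₂_pow, Polynomial.eval₂_X, Polynomial.eval₂_C,
      map_mul, map_pow, ← h, mul_pow]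
    obtain ⟨n, rfl⟩ : ∃ n, p = n + 1 := ⟨p - 1, (Nat.sub_add_cancel hp).symm⟩
    rw [Nat.add_sub_cancel]
    ring
  obtain ⟨b', hb'⟩ := hcl _ hint
  exact ⟨b', s, hs, hb'.symm⟩

/-- a unit of `B_𝔫` is `t / s` with `s, t ∉ 𝔫` -/
theorem ribmp_fac_unit_repr (hinj : Function.Injective (algebraMap B F))
    (𝔫 : Ideal B) [h𝔫 : 𝔫.IsPrime] {ε : F} (hε : ε ∈ ls_localSubring (F := F) 𝔫)
    (hε' : ε⁻¹ ∈ ls_localSubring (F := F) 𝔫) (hε0 : ε ≠ 0) :
    ∃ s t : B, s ∉ 𝔫 ∧ t ∉ 𝔫 ∧ algebraMap B F s * ε = algebraMap B F t := by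
  obtain ⟨b, s, hs, h⟩ := hε
  obtain ⟨b', s', hs', h'⟩ := hε'
  refine ⟨s, b, hs, fun hb => ?_, h⟩
  have e : algebraMap B F (s * s') = algebraMap B F (b * b') := by
    rw [map_mul, map_mul, ← h, ← h']
    field_simp
  have e' := hinj e
  have : s * s' ∈ 𝔫 := by
    rw [e']
    exact 𝔫.mul_mem_right _ hb
  rcases h𝔫.mem_or_mem this with h1 | h1
  · exact hs h1
  · exact hs' h1

/-- integer powers of a unit of a subring -/
theorem ribmp_fac_zpow_mem (O : Subring F) {ε : F} (hε : ε ∈ O) (hε' : ε⁻¹ ∈ O) (n : ℤ) :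
    ε ^ n ∈ O := by
  rcases Int.eq_nat_or_neg n with ⟨k, rfl | rfl⟩
  · rw [zpow_natCast]
    exact O.pow_mem hε k
  · rw [zpow_neg, zpow_natCast, ← inv_pow]
    exact O.pow_mem hε' k

end Local

section Patch

variable {F : Type*} [Field F] {B : Type*} [CommRing B] [Algebra B F]

/-- **Patching.**  Local factorisations `y = ε_i γ_i ^ p` at finitely many maximal ideals of an
integrally closed chart can be realised with ONE `γ`. -/
theorem ribmp_fac_patch (hinj : Function.Injective (algebraMap B F))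
    (hcl : ∀ x : F, IsIntegral B x → x ∈ (algebraMap B F).range)
    {ι : Type*} [Finite ι] (𝔫 : ι → Ideal B) [h𝔫 : ∀ i, (𝔫 i).IsMaximal]
    (hne : Function.Injective 𝔫) {p : ℕ} (hp : 0 < p) {y : F} (hy : y ≠ 0)
    (hfac : ∀ i, StbFacAt (ls_localSubring (F := F) (𝔫 i)) p y) :
    ∃ γ : F, γ ≠ 0 ∧ ∀ i, y / γ ^ p ∈ ls_localSubring (F := F) (𝔫 i) ∧
      (y / γ ^ p)⁻¹ ∈ ls_localSubring (F := F) (𝔫 i) := by
  classical
  cases nonempty_fintype ι
  rcases isEmpty_or_nonempty ι with hι | hι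
  · exact ⟨1, one_ne_zero, fun i => (hι.false i).elim⟩
  choose γ ε hε h using hfac
  have hγ0 : ∀ i, γ i ≠ 0 := fun i h0 => hy (by rw [h i, h0, zero_pow hp.ne', mul_zero])
  have hε0 : ∀ i, ((ε i : ls_localSubring (F := F) (𝔫 i)) : F) ≠ 0 := fun i h0 =>
    hy (by rw [h i, h0, zero_mul])
  -- the inverses of the `ε i`
  have hεinv : ∀ i, ((ε i : ls_localSubring (F := F) (𝔫 i)) : F)⁻¹ ∈
      ls_localSubring (F := F) (𝔫 i) := by
    intro i
    obtain ⟨u, hu⟩ := hε i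
    have := ((u⁻¹ : (ls_localSubring (F := F) (𝔫 i))ˣ) : ls_localSubring (F := F) (𝔫 i)).2
    rwa [stb_coe_inv, hu] at this
  have hrepr : ∀ i, ∃ s b : B, s ∉ 𝔫 i ∧
      algebraMap B F s * ((ε i : ls_localSubring (F := F) (𝔫 i)) : F)⁻¹ = algebraMap B F b := by
    intro i
    obtain ⟨b, s, hs, hb⟩ := hεinv i
    exact ⟨s, b, hs, hb⟩
  choose s b hs hb using hrepr
  -- `s i * γ i / γ j ∈ B_{𝔫 j}`
  have hA : ∀ i j, algebraMap B F (s i) * γ i / γ j ∈ ls_localSubring (F := F) (𝔫 j) := by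
    intro i j
    apply ribmp_fac_pow_mem hcl (𝔫 j) hp
    have e : (algebraMap B F (s i) * γ i / γ j) ^ p =
        algebraMap B F (s i ^ (p - 1) * b i) *
          ((ε j : ls_localSubring (F := F) (𝔫 j)) : F) := by
      have h1 : γ i ^ p = y * ((ε i : ls_localSubring (F := F) (𝔫 i)) : F)⁻¹ := by
        rw [h i]
        field_simp [hε0 i]
      have h2 : γ j ^ p = y * ((ε j : ls_localSubring (F := F) (𝔫 j)) : F)⁻¹ := by
        rw [h j]
        field_simp [hε0 j]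
      obtain ⟨n, rfl⟩ : ∃ n, p = n + 1 := ⟨p - 1, (Nat.sub_add_cancel hp).symm⟩
      rw [Nat.add_sub_cancel, div_pow, mul_pow, h1, h2, map_mul, map_pow, ← hb i]
      have := hε0 j
      field_simp
      ring
    rw [e]
    exact Subring.mul_mem _ (ls_algebraMap_mem _ _) (ε j).2
  -- CRT
  have hcop : Pairwise (Function.onFun IsCoprime 𝔫) := by
    intro i j hij
    show IsCoprime (𝔫 i) (𝔫 j)
    rw [Ideal.isCoprime_iff_sup_eq]
    exact Ideal.IsMaximal.coprime_of_ne (h𝔫 i) (h𝔫 j) (fun h => hij (hne h))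
  have hCRT : ∀ i, ∃ e : B, e - 1 ∈ 𝔫 i ∧ ∀ j, j ≠ i → e ∈ 𝔫 j := by
    intro i
    obtain ⟨r, hr⟩ := Ideal.exists_forall_sub_mem_ideal hcop (fun j => if j = i then (1 : B) else 0)
    refine ⟨r, ?_, fun j hj => ?_⟩
    · have := hr i
      rwa [if_pos rfl] at this
    · have := hr j
      rwa [if_neg hj, sub_zero] at this
  choose e he1 he0 using hCRT
  -- the simultaneous `γ`
  set g : F := ∑ i, algebraMap B F (e i) * (algebraMap B F (s i) * γ i) with hg
  -- `g / γ j` is a unit of `B_{𝔫 j}`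
  have hunit : ∀ j, ∃ u : ls_localSubring (F := F) (𝔫 j), IsUnit u ∧ (u : F) = g / γ j := by
    intro j
    haveI : IsLocalRing (ls_localSubring (F := F) (𝔫 j)) :=
      ls_localSubring_isLocalRing hinj (𝔫 j)
    -- the main term
    let u₀ : ls_localSubring (F := F) (𝔫 j) :=
      ⟨algebraMap B F (e j * s j), ls_algebraMap_mem _ _⟩
    have hu₀ : IsUnit u₀ := by
      refine ls_isUnit_of_not_mem hinj (𝔫 j) u₀ (b := e j * s j) (s := 1) ?_ ?_ ?_
      · intro hmem
        rcases (h𝔫 j).isPrime.mem_or_mem hmem with h1 | h1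
        · have : (1 : B) ∈ 𝔫 j := by
            have := (𝔫 j).sub_mem h1 (he1 j)
            rwa [sub_sub_cancel] at this
          exact (h𝔫 j).ne_top ((Ideal.eq_top_iff_one _).2 this)
        · exact hs j h1
      · exact fun h1 => (h𝔫 j).ne_top ((Ideal.eq_top_iff_one _).2 h1)
      · rw [map_one, one_mul]
    -- the other terms
    let z : ι → ls_localSubring (F := F) (𝔫 j) := fun i =>
      ⟨algebraMap B F (e i), ls_algebraMap_mem _ _⟩ * ⟨_, hA i j⟩
    have hz : ∀ i, i ≠ j → z i ∈ IsLocalRing.maximalIdeal (ls_localSubring (F := F) (𝔫 j)) := by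
      intro i hij
      refine Ideal.mul_mem_right _ _ ?_
      exact stb_gc_mem_maximalIdeal hinj (𝔫 j) _ (b := e i) (s := 1) (he0 i j hij.symm)
        (fun h1 => (h𝔫 j).ne_top ((Ideal.eq_top_iff_one _).2 h1)) (by rw [map_one, one_mul])
    have hsum : (∑ i ∈ Finset.univ.erase j, z i) ∈
        IsLocalRing.maximalIdeal (ls_localSubring (F := F) (𝔫 j)) :=
      Ideal.sum_mem _ (fun i hi => hz i (Finset.ne_of_mem_erase hi))
    refine ⟨u₀ + ∑ i ∈ Finset.univ.erase j, z i, ?_, ?_⟩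
    · by_contra hnu
      have h1 : u₀ + ∑ i ∈ Finset.univ.erase j, z i ∈
          IsLocalRing.maximalIdeal (ls_localSubring (F := F) (𝔫 j)) :=
        (IsLocalRing.mem_maximalIdeal _).2 hnu
      have h2 : u₀ ∈ IsLocalRing.maximalIdeal (ls_localSubring (F := F) (𝔫 j)) := by
        have := Ideal.sub_mem _ h1 hsum
        rwa [add_sub_cancel_right] at this
      exact (IsLocalRing.mem_maximalIdeal _).1 h2 hu₀
    · rw [hg, Finset.sum_div, ← Finset.add_sum_erase Finset.univ _ (Finset.mem_univ j)]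
      push_cast
      congr 1
      · show algebraMap B F (e j * s j) = _
        rw [map_mul]
        field_simp [hγ0 j]
      · refine Finset.sum_congr rfl fun i _ => ?_
        show algebraMap B F (e i) * (algebraMap B F (s i) * γ i / γ j) = _
        ring
  have hg0 : g ≠ 0 := by
    obtain ⟨j⟩ := hι
    obtain ⟨u, hu, huj⟩ := hunit j
    intro h0
    rw [h0, zero_div] at huj
    have : u = 0 := Subtype.ext huj
    rw [this] at hu
    haveI : IsLocalRing (ls_localSubring (F := F) (𝔫 j)) :=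
      ls_localSubring_isLocalRing hinj (𝔫 j)
    exact not_isUnit_zero hu
  refine ⟨g, hg0, fun j => ?_⟩
  obtain ⟨u, ⟨w, hw⟩, huj⟩ := hunit j
  obtain ⟨v, hv⟩ := hε j
  -- `y / g ^ p = ε j * (γ j / g) ^ p = ε j * (u⁻¹) ^ p`
  have hu0 : (u : F) ≠ 0 := by
    rw [huj]
    exact div_ne_zero hg0 (hγ0 j)
  have e1 : y / g ^ p = ((ε j : ls_localSubring (F := F) (𝔫 j)) : F) * ((u : F)⁻¹) ^ p := by
    rw [huj, h j, inv_div, div_pow]
    field_simp
  have hwinv : (u : F)⁻¹ ∈ ls_localSubring (F := F) (𝔫 j) := by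
    have := ((w⁻¹ : (ls_localSubring (F := F) (𝔫 j))ˣ) : ls_localSubring (F := F) (𝔫 j)).2
    rwa [stb_coe_inv, hw] at this
  constructor
  · rw [e1]
    exact Subring.mul_mem _ (ε j).2 (Subring.pow_mem _ hwinv p)
  · rw [e1, mul_inv, ← inv_pow, inv_inv]
    exact Subring.mul_mem _ (hεinv j) (Subring.pow_mem _ u.2 p)

end Patch

section Norm

variable {F F' B B' : Type*} [Field F] [Field F'] [CommRing B] [CommRing B']
  [Algebra B F] [Algebra B' F'] [Algebra F F'] [Algebra B B'] [Algebra B F']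
  [IsScalarTower B B' F'] [IsScalarTower B F F']

/-- **The norm of a semi-locally integral element.**  `ε ∈ F'` lies in `B'_𝔫'` for every maximal
ideal `𝔫'` of `B'` above `𝔫`: then `N_{F'/F} ε ∈ B_𝔫`. -/
theorem ribmp_fac_norm_mem [Algebra.IsIntegral B B']
    (hcl : ∀ x : F, IsIntegral B x → x ∈ (algebraMap B F).range)
    (𝔫 : Ideal B) [h𝔫 : 𝔫.IsMaximal] {ε : F'}
    (hε : ∀ (𝔫' : Ideal B') [𝔫'.IsMaximal], 𝔫'.comap (algebraMap B B') = 𝔫 →
      ε ∈ ls_localSubring (F := F') 𝔫') :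
    Algebra.norm F ε ∈ ls_localSubring (F := F) 𝔫 := by
  -- the denominator ideal
  let 𝔡 : Ideal B' :=
    { carrier := {d | ∃ b : B', algebraMap B' F' d * ε = algebraMap B' F' b}
      add_mem' := by
        rintro d d' ⟨b, hb⟩ ⟨b', hb'⟩
        exact ⟨b + b', by rw [map_add, map_add, add_mul, hb, hb']⟩
      zero_mem' := ⟨0, by rw [map_zero, zero_mul]⟩
      smul_mem' := by
        rintro c d ⟨b, hb⟩
        exact ⟨c * b, by rw [smul_eq_mul, map_mul, map_mul, mul_assoc, hb]⟩ }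
  have h𝔡 : ¬ 𝔡.comap (algebraMap B B') ≤ 𝔫 := by
    intro hle
    obtain ⟨Q, hQ, hQp, hQ𝔫⟩ := Ideal.exists_ideal_over_prime_of_isIntegral 𝔫 𝔡 hle
    haveI := hQp
    haveI : Q.IsMaximal :=
      Ideal.isMaximal_of_isIntegral_of_isMaximal_comap (R := B) Q (by rw [hQ𝔫]; exact h𝔫)
    obtain ⟨b, t, ht, hb⟩ := hε Q hQ𝔫
    exact ht (hQ ⟨b, hb⟩)
  obtain ⟨s, hs𝔡, hs𝔫⟩ := Set.not_subset.1 h𝔡
  obtain ⟨b, hb⟩ := hs𝔡
  have hint : IsIntegral B (algebraMap F F' (algebraMap B F s) * ε) := by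
    have e : algebraMap F F' (algebraMap B F s) * ε = algebraMap B' F' b := by
      rw [← hb, ← IsScalarTower.algebraMap_apply, ← IsScalarTower.algebraMap_apply]
    rw [e]
    exact (Algebra.IsIntegral.isIntegral (R := B) b).algebraMap
  have hnorm := Algebra.isIntegral_norm F hint
  rw [map_mul, Algebra.norm_algebraMap] at hnorm
  obtain ⟨b₀, hb₀⟩ := hcl _ hnorm
  refine ⟨b₀, s ^ Module.finrank F F', fun h => hs𝔫 (h𝔫.isPrime.mem_of_pow_mem _ h), ?_⟩
  rw [map_pow, hb₀]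

variable [IsNoetherianRing B'] [Algebra.IsIntegral B B']

/-- the maximal ideals of `B'` above a maximal ideal of `B` are finite in number -/
theorem ribmp_fac_finite_over (𝔫 : Ideal B) [h𝔫 : 𝔫.IsMaximal] :
    {𝔫' : Ideal B' | 𝔫'.IsMaximal ∧ 𝔫'.comap (algebraMap B B') = 𝔫}.Finite := by
  refine (Ideal.finite_minimalPrimes_of_isNoetherianRing B' (𝔫.map (algebraMap B B'))).subset ?_
  rintro 𝔫' ⟨hmax, hcomap⟩
  refine ⟨⟨hmax.isPrime, ?_⟩, ?_⟩
  · rw [Ideal.map_le_iff_le_comap, hcomap]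
  · rintro Q ⟨hQp, hQ⟩ hQ𝔫'
    haveI := hQp
    have h1 : 𝔫 ≤ Q.comap (algebraMap B B') := Ideal.map_le_iff_le_comap.1 hQ
    have h2 : Q.comap (algebraMap B B') = 𝔫 :=
      (h𝔫.eq_of_le (Ideal.comap_ne_top _ hQp.ne_top) h1).symm
    haveI : Q.IsMaximal :=
      Ideal.isMaximal_of_isIntegral_of_isMaximal_comap (R := B) Q (by rw [h2]; exact h𝔫)
    exact (this.eq_of_le hmax.ne_top hQ𝔫').ge

/-- **MP-FAC, the norm descent.**  A local factorisation `y = ε γ ^ p` at every maximal ideal of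
`B'` above `𝔫` descends to `𝔫`, if `p` is prime to `[F' : F]`. -/
theorem ribmp_fac_descent
    (hinj' : Function.Injective (algebraMap B' F'))
    (hcl : ∀ x : F, IsIntegral B x → x ∈ (algebraMap B F).range)
    (hcl' : ∀ x : F', IsIntegral B' x → x ∈ (algebraMap B' F').range)
    (𝔫 : Ideal B) [h𝔫 : 𝔫.IsMaximal] {p : ℕ} (hp : 0 < p)
    (hD : Nat.Coprime p (Module.finrank F F')) {y : F} (hy : y ≠ 0)
    (hfac : ∀ (𝔫' : Ideal B') [𝔫'.IsMaximal], 𝔫'.comap (algebraMap B B') = 𝔫 →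
      StbFacAt (ls_localSubring (F := F') 𝔫') p (algebraMap F F' y)) :
    StbFacAt (ls_localSubring (F := F) 𝔫) p y := by
  classical
  -- the finite family of the maximal ideals above `𝔫`
  let ι := {𝔫' : Ideal B' // 𝔫'.IsMaximal ∧ 𝔫'.comap (algebraMap B B') = 𝔫}
  haveI : Finite ι := (ribmp_fac_finite_over (B' := B') 𝔫).to_subtype
  haveI hmaxι : ∀ i : ι, (i.1).IsMaximal := fun i => i.2.1
  have hy' : algebraMap F F' y ≠ 0 := (map_ne_zero _).2 hy
  obtain ⟨γ, hγ0, hγ⟩ := ribmp_fac_patch hinj' hcl' (fun i : ι => i.1)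
    Subtype.val_injective hp hy' (fun i => hfac i.1 i.2.2)
  set ε : F' := algebraMap F F' y / γ ^ p with hε
  have hε0 : ε ≠ 0 := div_ne_zero hy' (pow_ne_zero _ hγ0)
  have h1 : Algebra.norm F ε ∈ ls_localSubring (F := F) 𝔫 :=
    ribmp_fac_norm_mem hcl 𝔫 (fun 𝔫' _ h => (hγ ⟨𝔫', ‹_›, h⟩).1)
  have h2 : (Algebra.norm F ε)⁻¹ ∈ ls_localSubring (F := F) 𝔫 := by
    have e : (Algebra.norm F ε)⁻¹ = Algebra.norm F ε⁻¹ := by
      symm
      apply eq_inv_of_mul_eq_one_right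
      rw [← map_mul, mul_inv_cancel₀ hε0, map_one]
    rw [e]
    exact ribmp_fac_norm_mem hcl 𝔫 (fun 𝔫' _ h => (hγ ⟨𝔫', ‹_›, h⟩).2)
  -- `y ^ D = N ε * (N γ) ^ p`
  have hyD : y ^ Module.finrank F F' = Algebra.norm F ε * Algebra.norm F γ ^ p := by
    rw [← Algebra.norm_algebraMap, ← map_pow, ← map_mul, hε]
    congr 1
    field_simp
  have hyD0 : y ^ Module.finrank F F' ≠ 0 := pow_ne_zero _ hy
  have hN0 : Algebra.norm F ε ≠ 0 := by
    intro h0
    rw [h0, zero_mul] at hyD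
    exact hyD0 hyD
  -- Bezout
  have hgcd : Int.gcd (p : ℤ) (Module.finrank F F' : ℤ) = 1 := by
    rw [Int.gcd_natCast_natCast]
    exact hD
  have hbez := Int.gcd_eq_gcd_ab (p : ℤ) (Module.finrank F F' : ℤ)
  rw [hgcd] at hbez
  set a := Int.gcdA (p : ℤ) (Module.finrank F F' : ℤ)
  set b := Int.gcdB (p : ℤ) (Module.finrank F F' : ℤ)
  have hNγ0 : Algebra.norm F γ ≠ 0 := by
    intro h0
    rw [h0, zero_pow hp.ne', mul_zero] at hyD
    exact hyD0 hyD
  have key : y = Algebra.norm F ε ^ b * (y ^ a * Algebra.norm F γ ^ b) ^ p := by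
    have e1 : y = y ^ ((p : ℤ) * a + (Module.finrank F F' : ℤ) * b) := by
      rw [← hbez]
      push_cast
      rw [zpow_one]
    have e2 : y ^ ((Module.finrank F F' : ℤ) * b) =
        (Algebra.norm F ε * Algebra.norm F γ ^ p) ^ b := by
      rw [zpow_mul, zpow_natCast, hyD]
    rw [zpow_add₀ hy, e2, mul_zpow] at e1
    rw [mul_pow, ← zpow_natCast (y ^ a) p, ← zpow_mul, ← zpow_natCast (_ ^ b) p, ← zpow_mul,
      mul_comm a (p : ℤ)]
    rw [← zpow_natCast (Algebra.norm F γ) p, ← zpow_mul, mul_comm (p : ℤ) b] at e1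
    rw [e1]
    conv_lhs => rw [e1]
    ring
  exact stb_facAt_of_mem _ hy (ribmp_fac_zpow_mem _ h1 h2 b)
    (by rw [← inv_zpow]; exact ribmp_fac_zpow_mem _ h2 (by rwa [inv_inv]) b) key

end Norm

end Fermat.Agent.RIB.MP
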