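/-
Row 37, Mazur's principle, piece MP-FAC (helper95), part 2: the norm descent `ribmp_fac_descent`
for two charts `B_u ⊆ F`, `B_{up u} ⊆ F'` over the same discrete valuation ring `A₀`, along an
embedding `up : F →ₐ[E] F'` of function fields (in the application: `F = F_{M₁ q}(E₀)`,
`F' = F_{M₁' q}(E₀)`, `M₁ ∣ M₁'`, `M₁'` rigid, `u = j` or `1 / j`).

* `ribmp_fac_chart` : `(∀ 𝔫' : AtPt π (up u), StbFacAt (atLoc 𝔫') p (up y))` `⇒`
  `∀ 𝔫 : AtPt π u, StbFacAt (atLoc 𝔫) p y`, if `p` is prime to `[F' : F]`.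
* `ribmp_fac_charts` : the same for the pair of charts `t`, `t⁻¹` (index type of `atO`).
-/
import Fermat.Agent.RIB.MP.FacDesc
import Fermat.Agent.STB.NormSquare
import Fermat.Agent.INJ.ChartFinite

set_option autoImplicit false
set_option linter.unusedSectionVars false
set_option linter.unusedVariables false
set_option linter.style.haveILetI false

namespace Fermat.Agent.RIB.MP

open Fermat.Agent.UNIP Fermat.Agent.STB Fermat.Agent.INJ IntermediateField

section Chart

universe u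

variable {A₀ E F F' : Type u} [CommRing A₀] [IsDomain A₀] [IsDiscreteValuationRing A₀]
  [Field E] [Algebra A₀ E] [IsFractionRing A₀ E] [CharZero E]
  [Field F] [Algebra E F] [Algebra A₀ F] [IsScalarTower A₀ E F]
  [Field F'] [Algebra E F'] [Algebra A₀ F'] [IsScalarTower A₀ E F']

/-- an `E`-embedding is `A₀`-linear -/
def ribmpUpA (up : F →ₐ[E] F') : F →ₐ[A₀] F' :=
  { up.toRingHom with
    commutes' := fun a => by
      show up (algebraMap A₀ F a) = algebraMap A₀ F' a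
      rw [IsScalarTower.algebraMap_apply A₀ E F, IsScalarTower.algebraMap_apply A₀ E F',
        AlgHom.commutes] }

theorem ribmpUpA_apply (up : F →ₐ[E] F') (x : F) : ribmpUpA (A₀ := A₀) up x = up x := rfl

/-- `up` maps `A₀[u]` into `A₀[up u]` -/
theorem ribmp_fac_up_adjoin (up : F →ₐ[E] F') (u : F) {x : F}
    (hx : x ∈ Algebra.adjoin A₀ ({u} : Set F)) :
    up x ∈ Algebra.adjoin A₀ ({up u} : Set F') := by
  have h := AlgHom.map_adjoin (ribmpUpA (A₀ := A₀) up) ({u} : Set F)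
  rw [Set.image_singleton] at h
  have h2 : ribmpUpA (A₀ := A₀) up x ∈ (Algebra.adjoin A₀ ({u} : Set F)).map
      (ribmpUpA (A₀ := A₀) up) := ⟨x, hx, rfl⟩
  rw [h] at h2
  exact h2

/-- `up` maps the chart `B_u` into the chart `B_{up u}` -/
theorem ribmp_fac_up_isIntegral (up : F →ₐ[E] F') (u : F) {x : F}
    (hx : IsIntegral ↥(Algebra.adjoin A₀ ({u} : Set F)) x) :
    IsIntegral ↥(Algebra.adjoin A₀ ({up u} : Set F')) (up x) := by
  let φ : ↥(Algebra.adjoin A₀ ({u} : Set F)) →+* ↥(Algebra.adjoin A₀ ({up u} : Set F')) :=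
    { toFun := fun a => ⟨up (a : F), ribmp_fac_up_adjoin up u a.2⟩
      map_one' := Subtype.ext (map_one up)
      map_mul' := fun a b => Subtype.ext (map_mul up (a : F) (b : F))
      map_zero' := Subtype.ext (map_zero up)
      map_add' := fun a b => Subtype.ext (map_add up (a : F) (b : F)) }
  exact hx.map_of_comp_eq φ up.toRingHom (by ext a; rfl)

/-- the map of charts `B_u → B_{up u}` -/
def ribmpChartMap (up : F →ₐ[E] F') (u : F) :
    ↥(zchClosure (A₀ := A₀) ({u} : Set F)) →+* ↥(zchClosure (A₀ := A₀) ({up u} : Set F')) where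
  toFun b := ⟨up (b : F), ribmp_fac_up_isIntegral up u b.2⟩
  map_one' := Subtype.ext (map_one up)
  map_mul' a b := Subtype.ext (map_mul up (a : F) (b : F))
  map_zero' := Subtype.ext (map_zero up)
  map_add' a b := Subtype.ext (map_add up (a : F) (b : F))

theorem ribmpChartMap_coe (up : F →ₐ[E] F') (u : F)
    (b : ↥(zchClosure (A₀ := A₀) ({u} : Set F))) :
    ((ribmpChartMap up u b : ↥(zchClosure (A₀ := A₀) ({up u} : Set F'))) : F') = up (b : F) :=
  rfl

/-- an element of `F` which is integral over the chart `B_u` lies in `B_u` -/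
theorem ribmp_fac_chart_closed (u : F) (x : F)
    (hx : IsIntegral ↥(zchClosure (A₀ := A₀) ({u} : Set F)) x) :
    x ∈ (algebraMap ↥(zchClosure (A₀ := A₀) ({u} : Set F)) F).range := by
  have h1 : IsIntegral ↥(integralClosure ↥(Algebra.adjoin A₀ ({u} : Set F)) F) x := hx
  have h2 : IsIntegral ↥(Algebra.adjoin A₀ ({u} : Set F)) x :=
    isIntegral_trans (A := ↥(integralClosure ↥(Algebra.adjoin A₀ ({u} : Set F)) F)) x h1
  exact ⟨⟨x, h2⟩, rfl⟩

/-- the chart `B_{up u}` is integral over the chart `B_u` -/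
theorem ribmp_fac_chart_isIntegral (up : F →ₐ[E] F') (u : F)
    (b' : ↥(zchClosure (A₀ := A₀) ({up u} : Set F'))) :
    (ribmpChartMap (A₀ := A₀) up u).IsIntegralElem b' := by
  -- `A₀[u] → A₀[up u]` is surjective
  let φ : ↥(Algebra.adjoin A₀ ({u} : Set F)) →+* ↥(Algebra.adjoin A₀ ({up u} : Set F')) :=
    { toFun := fun a => ⟨up (a : F), ribmp_fac_up_adjoin up u a.2⟩
      map_one' := Subtype.ext (map_one up)
      map_mul' := fun a b => Subtype.ext (map_mul up (a : F) (b : F))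
      map_zero' := Subtype.ext (map_zero up)
      map_add' := fun a b => Subtype.ext (map_add up (a : F) (b : F)) }
  have hφ : Function.Surjective φ := by
    intro c
    have h := AlgHom.map_adjoin (ribmpUpA (A₀ := A₀) up) ({u} : Set F)
    rw [Set.image_singleton] at h
    have hc : (c : F') ∈ (Algebra.adjoin A₀ ({u} : Set F)).map (ribmpUpA (A₀ := A₀) up) := by
      rw [h]
      exact c.2
    obtain ⟨x, hx, hxc⟩ := hc
    exact ⟨⟨x, hx⟩, Subtype.ext hxc⟩
  obtain ⟨P, hP, hPb⟩ := (b'.2 : IsIntegral ↥(Algebra.adjoin A₀ ({up u} : Set F')) (b' : F'))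
  -- a monic lift of `P`
  obtain ⟨Q, hQ, -, hQm⟩ := Polynomial.lifts_and_degree_eq_and_monic
    ((Polynomial.mem_lifts P).2 (Polynomial.map_surjective φ hφ P)) hP
  let ι : ↥(Algebra.adjoin A₀ ({u} : Set F)) →+* ↥(zchClosure (A₀ := A₀) ({u} : Set F)) :=
    { toFun := fun a => ⟨(a : F), isIntegral_algebraMap
        (R := ↥(Algebra.adjoin A₀ ({u} : Set F))) (x := a)⟩
      map_one' := rfl
      map_mul' := fun a b => rfl
      map_zero' := rfl
      map_add' := fun a b => rfl }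
  refine ⟨Q.map ι, hQm.map ι, ?_⟩
  apply Subtype.ext
  have e1 : (((Polynomial.eval₂ (ribmpChartMap (A₀ := A₀) up u) b' (Q.map ι) :
      ↥(zchClosure (A₀ := A₀) ({up u} : Set F'))) : F')) =
      Polynomial.eval₂ ((algebraMap ↥(zchClosure (A₀ := A₀) ({up u} : Set F')) F').comp
        (ribmpChartMap (A₀ := A₀) up u)) (b' : F') (Q.map ι) := by
    exact Polynomial.hom_eval₂ (Q.map ι) (ribmpChartMap (A₀ := A₀) up u)
      (algebraMap ↥(zchClosure (A₀ := A₀) ({up u} : Set F')) F') b'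
  rw [e1, Polynomial.eval₂_map]
  have e2 : ((algebraMap ↥(zchClosure (A₀ := A₀) ({up u} : Set F')) F').comp
      (ribmpChartMap (A₀ := A₀) up u)).comp ι =
      (algebraMap ↥(Algebra.adjoin A₀ ({up u} : Set F')) F').comp φ := by
    ext a
    rfl
  rw [e2, ← Polynomial.eval₂_map, hQ, hPb]
  rfl

set_option maxHeartbeats 800000 in
set_option synthInstance.maxHeartbeats 200000 in
/-- **MP-FAC, the norm descent on a chart.** -/
theorem ribmp_fac_chart (up : F →ₐ[E] F') {π : A₀} {u : F}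
    (hu' : Transcendental E (up u)) [FiniteDimensional E⟮up u⟯ F']
    {p : ℕ} (hp : 0 < p) (hD : Nat.Coprime p (stbDeg up.toRingHom)) {y : F} (hy : y ≠ 0)
    (hfac : ∀ 𝔫' : AtPt (F := F') π (up u), StbFacAt (atLoc 𝔫') p (up y)) :
    ∀ 𝔫 : AtPt (F := F) π u, StbFacAt (atLoc 𝔫) p y := by
  intro 𝔫
  letI i1 : Algebra F F' := up.toRingHom.toAlgebra
  letI i2 : Algebra ↥(zchClosure (A₀ := A₀) ({u} : Set F))
      ↥(zchClosure (A₀ := A₀) ({up u} : Set F')) := (ribmpChartMap up u).toAlgebra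
  letI i3 : Algebra ↥(zchClosure (A₀ := A₀) ({u} : Set F)) F' :=
    ((algebraMap F F').comp (algebraMap ↥(zchClosure (A₀ := A₀) ({u} : Set F)) F)).toAlgebra
  have s1 : @IsScalarTower ↥(zchClosure (A₀ := A₀) ({u} : Set F))
      ↥(zchClosure (A₀ := A₀) ({up u} : Set F')) F' i2.toSMul _ i3.toSMul :=
    @IsScalarTower.of_algebraMap_eq _ _ _ _ _ _ i2 _ i3 (fun x => rfl)
  have s2 : @IsScalarTower ↥(zchClosure (A₀ := A₀) ({u} : Set F)) F F' _ i1.toSMul i3.toSMul :=
    @IsScalarTower.of_algebraMap_eq _ _ _ _ _ _ _ i1 i3 (fun x => rfl)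
  haveI hN : IsNoetherianRing ↥(zchClosure (A₀ := A₀) ({up u} : Set F')) :=
    chart_closure_isNoetherianRing (A₀ := A₀) (E := E) hu'
  have hI : @Algebra.IsIntegral ↥(zchClosure (A₀ := A₀) ({u} : Set F))
      ↥(zchClosure (A₀ := A₀) ({up u} : Set F')) _ _ i2 :=
    @Algebra.IsIntegral.mk _ _ _ _ i2 (fun b' => ribmp_fac_chart_isIntegral up u b')
  haveI := 𝔫.2.1
  refine @ribmp_fac_descent F F' ↥(zchClosure (A₀ := A₀) ({u} : Set F))
    ↥(zchClosure (A₀ := A₀) ({up u} : Set F')) _ _ _ _ _ _ i1 i2 i3 s1 s2 hN hI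
    Subtype.val_injective
    (ribmp_fac_chart_closed u) (ribmp_fac_chart_closed (up u)) 𝔫.1 _ p hp hD y hy ?_
  intro 𝔫' h𝔫' hcomap
  refine hfac ⟨𝔫', h𝔫', ?_⟩
  have h1 : algebraMap A₀ ↥(zchClosure (A₀ := A₀) ({u} : Set F)) π ∈
      𝔫'.comap (algebraMap ↥(zchClosure (A₀ := A₀) ({u} : Set F))
        ↥(zchClosure (A₀ := A₀) ({up u} : Set F'))) := by
    rw [hcomap]
    exact 𝔫.2.2
  have e : algebraMap ↥(zchClosure (A₀ := A₀) ({u} : Set F))
      ↥(zchClosure (A₀ := A₀) ({up u} : Set F'))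
      (algebraMap A₀ ↥(zchClosure (A₀ := A₀) ({u} : Set F)) π) =
      algebraMap A₀ ↥(zchClosure (A₀ := A₀) ({up u} : Set F')) π := by
    apply Subtype.ext
    show up (algebraMap A₀ F π) = algebraMap A₀ F' π
    rw [IsScalarTower.algebraMap_apply A₀ E F, IsScalarTower.algebraMap_apply A₀ E F',
      AlgHom.commutes]
  rw [Ideal.mem_comap, e] at h1
  exact h1

/-- **MP-FAC, the norm descent on the two charts `t`, `t⁻¹`.** -/
theorem ribmp_fac_charts (up : F →ₐ[E] F') {π : A₀} {t : F}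
    (ht' : Transcendental E (up t)) [FiniteDimensional E⟮up t⟯ F']
    (htinv' : Transcendental E (up t)⁻¹) [FiniteDimensional E⟮(up t)⁻¹⟯ F']
    {p : ℕ} (hp : 0 < p) (hD : Nat.Coprime p (stbDeg up.toRingHom)) {y : F} (hy : y ≠ 0)
    (hfac : ∀ i' : AtPt (F := F') π (up t) ⊕ AtPt (F := F') π (up t)⁻¹,
      StbFacAt (atO π (up t) i') p (up y)) :
    ∀ i : AtPt (F := F) π t ⊕ AtPt (F := F) π t⁻¹, StbFacAt (atO π t i) p y := by
  have e : up t⁻¹ = (up t)⁻¹ := map_inv₀ up t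
  rintro (𝔫 | 𝔫)
  · exact ribmp_fac_chart up ht' hp hD hy (fun 𝔫' => hfac (Sum.inl 𝔫')) 𝔫
  · haveI : FiniteDimensional E⟮up t⁻¹⟯ F' := by rw [e]; infer_instance
    refine ribmp_fac_chart up (u := t⁻¹) (by rw [e]; exact htinv') hp hD hy ?_ 𝔫
    intro 𝔫'
    have key : ∀ (v : F') (hv : v = (up t)⁻¹) (𝔪 : AtPt (F := F') π v),
        StbFacAt (atLoc 𝔪) p (up y) := by
      intro v hv 𝔪
      subst hv
      exact hfac (Sum.inr 𝔪)
    exact key _ e 𝔫'

end Chart

end Fermat.Agent.RIB.MP
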