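/-
Row 37, Mazur's principle, piece MP-FAC (helper95): THE STATEMENT (F) as a `Prop`
(consumer: MP-RED `stmtRed_of : StmtFac → StmtRed`, MP-FROB).

`A` a valuation subring of `ℚ̄` over `q`, `E₀ = ℚ̄^I = beta0Field A`, `A₀ = A ∩ E₀` (a DVR),
`N = M₁ q`, `q ∤ M₁`, `F = F_N(E₀)`, `t = j`, `V = mgvV hπ ιC hq hqM` (`true ↦ V_∞`, `false ↦ V_0`).

(F): a function `y ≠ 0` of `F` whose divisor over `ℚ̄` is divisible by `m` and which is a unit of
`V_∞` and of `V_0` is, at EVERY closed point `i` of the special fibre of the two charts `j`,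
`1 / j` of the normalisation, a unit of the local ring times an `m`-th power:
`StbFacAt (atO π t i) m y`, i.e. `∃ γ : F, ∃ ε ∈ O_i^×, y = ε γ ^ m`.
-/
import Fermat.Agent.UNIP.MGVertInertia
import Fermat.Agent.UNIP.AbstractT
import Fermat.Agent.STB.AbstractT2
import Fermat.Agent.INJ.NFEmb

set_option autoImplicit false
set_option linter.unusedSectionVars false
set_option linter.unusedVariables false
set_option linter.style.longLine false

noncomputable section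

namespace Fermat.Agent.RIB.MP

open ModularCurve AlgebraicCurve Fermat.Agent.INJ Fermat.Agent.UNIP Fermat.Agent.STB
open Fermat.Agent.ES Fermat.Agent.ES.G2

/-- **MP-FAC at level `M₁ q`, exponent `m`, over `K₀`** (`A ∩ K₀` a discrete valuation ring). -/
def StmtFacOver (M₁ q : ℕ) [NeZero M₁] [NeZero q] [NeZero (M₁ * q)] (m : ℕ)
    (A : ValuationSubring Qb) (K₀ : IntermediateField ℚ Qb) : Prop :=
  ∀ (hq : q.Prime) (hqM : ¬ q ∣ M₁) [IsDiscreteValuationRing ↥(beta0Ring A K₀)]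
    (π : ↥(beta0Ring A K₀)) (hπ : Irreducible π) (ιC : ↥K₀ →+* ℂ)
    (y : ↥(modularFunctionFieldFullC ↥K₀ (M₁ * q))), y ≠ 0 →
    (∀ P : Place NfQb (modularFunctionFieldBar (M₁ * q)),
      (m : ℤ) ∣ P.ord (nfEmb K₀ (M₁ * q) y)) →
    (∀ c, (mgvV hπ ιC hq hqM c).valuation y = 1) →
    ∀ i : AtPt (F := ↥(modularFunctionFieldFullC ↥K₀ (M₁ * q))) π (bgJ ↥K₀ (M₁ * q)) ⊕
        AtPt (F := ↥(modularFunctionFieldFullC ↥K₀ (M₁ * q))) π (bgJ ↥K₀ (M₁ * q))⁻¹,
      StbFacAt (atO π (bgJ ↥K₀ (M₁ * q)) i) m y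

/-- **MP-FAC at level `M₁ q`, exponent `m`** (over the inertia field `ℚ̄^I` of `A`). -/
def StmtFacAt (M₁ q : ℕ) [NeZero M₁] [NeZero q] [NeZero (M₁ * q)] (m : ℕ) : Prop :=
  ∀ A : ValuationSubring Qb, A.LiesOverPrime q → StmtFacOver M₁ q m A (beta0Field A)

/-- **MP-FAC**: (F) for every level `M₁ q` (`q ≠ 2` prime, `q ∤ M₁`, NO rigidity hypothesis) and
every exponent `m` prime to `6`. -/
def StmtFac : Prop :=
  ∀ (M₁ q : ℕ) [NeZero M₁] [NeZero q] [NeZero (M₁ * q)], q.Prime → ¬ q ∣ M₁ → q ≠ 2 →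
    ∀ m : ℕ, Nat.Coprime m 6 → StmtFacAt M₁ q m

end Fermat.Agent.RIB.MP
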