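/-
Row 37, Mazur's principle, piece **MP-FAC / FAC-E (E-hhor)** (helper3): horizontal divisibility
of the divisor ascends along the inclusion of levels `F_{M q}(K₀) ⊆ F_{M d q}(K₀)`.

Setting: `K₀ : IntermediateField ℚ ℚ̄`, levels `M * q` and `M * d * q`,
`up := IntermediateField.inclusion h`, for an ARBITRARY proof
`h : modularFunctionFieldFullC ↥K₀ (M * q) ≤ modularFunctionFieldFullC ↥K₀ (M * d * q)`.

* `ribmp_fhor_nfEmb_up` : `nfEmb K₀ (M d q) (up y) = stbdUp M q d (nfEmb K₀ (M q) y)`;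
* `ribmp_fhor` : if `m ∣ ord_P (nfEmb y)` for every place `P` of `F_{M q}(ℚ̄)`, then
  `m ∣ ord_P (nfEmb (up y))` for every place `P` of `F_{M d q}(ℚ̄)`
  (from `S36.s36aux_dvd_ord`).
-/
import Fermat.Agent.S36.AuxLevel
import Fermat.Agent.INJ.NFEmb

set_option autoImplicit false
set_option linter.style.haveILetI false
set_option linter.unusedSectionVars false
set_option linter.unusedVariables false

namespace Fermat.Agent.RIB.MP

open AlgebraicCurve ModularCurve IntermediateField Fermat.Agent.INJ Fermat.Agent.STB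
  Fermat.Agent.S36

section Hor

variable (K₀ : IntermediateField ℚ NfQb) (M d q : ℕ) [NeZero M] [NeZero d] [NeZero q]

/-- `nfEmb` commutes with the inclusions of levels. -/
theorem ribmp_fhor_nfEmb_up
    (h : modularFunctionFieldFullC ↥K₀ (M * q) ≤ modularFunctionFieldFullC ↥K₀ (M * d * q))
    (y : ↥(modularFunctionFieldFullC ↥K₀ (M * q))) :
    nfEmb K₀ (M * d * q) (IntermediateField.inclusion h y)
      = stbdUp M q d (nfEmb K₀ (M * q) y) := by
  apply Subtype.ext
  rw [coe_stbdUp, nfEmb_coe, nfEmb_coe, IntermediateField.coe_inclusion]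

/-- **(E-hhor)** `m ∣ div (nfEmb y)` ascends along the inclusion of levels. -/
theorem ribmp_fhor
    (h : modularFunctionFieldFullC ↥K₀ (M * q) ≤ modularFunctionFieldFullC ↥K₀ (M * d * q))
    (m : ℕ) (y : ↥(modularFunctionFieldFullC ↥K₀ (M * q)))
    (hhor : ∀ P : Place NfQb (modularFunctionFieldBar (M * q)),
      (m : ℤ) ∣ P.ord (nfEmb K₀ (M * q) y)) :
    ∀ P : Place NfQb (modularFunctionFieldBar (M * d * q)),
      (m : ℤ) ∣ P.ord (nfEmb K₀ (M * d * q) (IntermediateField.inclusion h y)) := by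
  intro P
  rw [ribmp_fhor_nfEmb_up K₀ M d q h y]
  exact s36aux_dvd_ord M q d m (nfEmb K₀ (M * q) y) hhor P

end Hor

end Fermat.Agent.RIB.MP
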