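/-
Row 37, Mazur's principle: the RESTRICTED interface (helper2, sub-captain), Plan v3.

The reduction package of `X₀(M₁)` at a place over `q` (`S15.s15red_exists_pkg`) exists for
`5 ≤ q ∨ (5 - q) ∣ M₁` only, i.e. for `q = 3` only at EVEN levels `M₁`.  Ruling (C)+(A):

* the geometric pieces are proved under the extra hypothesis `5 ≤ q ∨ (5 - q) ∣ M₁`
  (`StmtRedE`, `StmtFrobToricE`), and so is the `J`-form (`StmtAtQE`);
* MP-AUX (`StmtOddLevel`): a conductor level `N` prime to `p` at which the Frey representation is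
  modular is EVEN (the Frey representation is ramified at `2`, `J₀(N)[p]` is unramified at
  `2 ∤ N p`);
* the glue (`StmtGlueE`) uses `StmtOddLevel` to get `2 ∣ M₁ = N / q`.

`Plan.lean` is unchanged (the unrestricted Props imply the restricted ones).
-/
import Fermat.Agent.RIB.MP.Plan

set_option autoImplicit false

noncomputable section

namespace Fermat.Agent.RIB.MP

open ModularCurve AlgebraicCurve Fermat.Agent.ES Fermat.Agent.ES.G2
open WeierstrassCurve WeierstrassCurve.Affine WeierstrassCurve.Affine.Point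

/-- the hypothesis of `S15.s15red_exists_pkg` holds at an odd prime `q` and an even level -/
theorem ribmp_e_hyp_of_even {M₁ q : ℕ} (hq : q.Prime) (hq2 : q ≠ 2) (h2 : 2 ∣ M₁) :
    5 ≤ q ∨ (5 - q) ∣ M₁ := by
  rcases le_or_gt 5 q with h | h
  · exact Or.inl h
  · right
    have h2' := hq.two_le
    have hq3 : q = 3 := by
      interval_cases q
      · exact absurd rfl hq2
      · rfl
      · exact absurd hq (by decide)
    subst hq3
    exact h2

/-- **MP-RED, restricted**: `StmtRed` under `5 ≤ q ∨ (5 - q) ∣ M₁`. -/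
def StmtRedE : Prop :=
  ∀ (M₁ q : ℕ) [NeZero M₁] [NeZero q] [NeZero (M₁ * q)] (hq : q.Prime) (hqM : ¬ q ∣ M₁),
    (5 ≤ q ∨ (5 - q) ∣ M₁) →
    q ≠ 2 → ∀ p : ℕ, p.Prime → 5 ≤ p → p ≠ q →
    ∀ A : ValuationSubring Qb, A.LiesOverPrime q →
    ∀ x : JZero (M₁ * q), p • x = 0 → InertiaFixed A x →
    ∀ ℓ : Nat.Primes, ¬ (ℓ : ℕ) ∣ M₁ * q * p →
      (∃ y : JZero M₁, p • y = 0 ∧ RedInf A p (eisKill ℓ x) y) ∧
      (∃ y : JZero M₁, p • y = 0 ∧ RedZero hq hqM A p (eisKill ℓ x) y)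

/-- **MP-FROB, restricted**: `StmtFrobToric` under `5 ≤ q ∨ (5 - q) ∣ M₁`. -/
def StmtFrobToricE : Prop :=
  ∀ (M₁ q : ℕ) [NeZero M₁] [NeZero q] [NeZero (M₁ * q)] (hq : q.Prime) (hqM : ¬ q ∣ M₁),
    (5 ≤ q ∨ (5 - q) ∣ M₁) →
    q ≠ 2 → ∀ p : ℕ, p.Prime → 5 ≤ p → p ≠ q →
    ∀ A : ValuationSubring Qb, A.LiesOverPrime q →
    ∀ σ : Qb ≃ₐ[ℚ] Qb, A.IsFrobeniusAt σ q →
    ∀ x : JZero (M₁ * q), p • x = 0 → InertiaFixed A x →
    ∀ ℓ : Nat.Primes, ¬ (ℓ : ℕ) ∣ M₁ * q * p →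
      IsToric hq hqM A p (eisKill ℓ x) →
        σ • (Fermat.Agent.UNIP.atkinLehnerBar hq hqM • eisKill ℓ x) + q • eisKill ℓ x = 0

/-- **MP-ATQ, restricted**: `StmtAtQ` under `5 ≤ q ∨ (5 - q) ∣ M₁`. -/
def StmtAtQE : Prop :=
  ∀ (M₁ q : ℕ) [NeZero M₁] [NeZero q] [NeZero (M₁ * q)] (hq : q.Prime) (hqM : ¬ q ∣ M₁),
    (5 ≤ q ∨ (5 - q) ∣ M₁) →
    Squarefree (M₁ * q) → q ≠ 2 → ∀ p : ℕ, p.Prime → 5 ≤ p → p ≠ q →
    ∀ A : ValuationSubring Qb, A.LiesOverPrime q →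
    ∀ σ : Qb ≃ₐ[ℚ] Qb, A.IsFrobeniusAt σ q →
    ∀ x : PDiv (M₁ * q) p, p • x = 0 → InertiaFixed A (x : JZero (M₁ * q)) →
    ∀ (ℓ₁ : Nat.Primes) (n₁ : ℤ), ¬ (ℓ₁ : ℕ) ∣ M₁ * q * p →
      heckeOperatorBar (M₁ * q) ℓ₁ (x : JZero (M₁ * q)) = n₁ • (x : JZero (M₁ * q)) →
      ¬ (p : ℤ) ∣ n₁ - ((ℓ₁ : ℕ) + 1) →
    ∀ t₀ ∈ MvPolynomial.supported ℤ (goodPrimes (M₁ * q) p),
      Fermat.Agent.R38.KillsLevel M₁ t₀ →
      ∀ n₀ : ℤ, (letI := pDivModule (M₁ * q) p; t₀ • x) = n₀ • x → ¬ (p : ℤ) ∣ n₀ →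
        σ • (Fermat.Agent.UNIP.atkinLehnerBar hq hqM • (x : JZero (M₁ * q))) +
          q • (x : JZero (M₁ * q)) = 0

/-- **MP-AUX** (helper85): a conductor level prime to `p` at which the (irreducible) Frey
representation is modular is even. -/
def StmtOddLevel : Prop :=
  ∀ (P : FreyPackage) (N : ℕ), P.IsConductorLevel N → ¬ P.p ∣ N →
    GaloisRepIsIrreducible (K := AlgebraicClosure ℚ) ℚ P.freyCurve P.p →
    P.ModularRepOfLevel N → 2 ∣ N

/-- **MP-5 (glue), restricted form.** -/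
def StmtGlueE : Prop :=
  StmtAtQE → StmtWHecke → StmtRepN → Fermat.Agent.R38.StmtLift → StmtOddLevel →
    Fermat.Agent.RIB.StmtMP

/-- the unrestricted pieces imply the restricted ones -/
theorem stmtRedE_of_stmtRed (h : StmtRed) : StmtRedE :=
  fun M₁ q _ _ _ hq hqM _ => h M₁ q hq hqM

theorem stmtFrobToricE_of_stmtFrobToric (h : StmtFrobToric) : StmtFrobToricE :=
  fun M₁ q _ _ _ hq hqM _ => h M₁ q hq hqM

theorem stmtAtQE_of_stmtAtQ (h : StmtAtQ) : StmtAtQE :=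
  fun M₁ q _ _ _ hq hqM _ => h M₁ q hq hqM

/-- the unrestricted glue implies the restricted one is NOT available (the restricted glue is
stronger); conversely the restricted glue gives the unrestricted one. -/
theorem stmtGlue_of_stmtGlueE (h : StmtGlueE) (hOdd : StmtOddLevel) : StmtGlue :=
  fun hAtQ hW hRep hLift => h (stmtAtQE_of_stmtAtQ hAtQ) hW hRep hLift hOdd

end Fermat.Agent.RIB.MP

end
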