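/-
Row 37, MP-RED / RED-a (ii), complement (helper85): the hypothesis `hfin` of `ribmp_rd_dvd_ord`
for a place with residue field `k` whose nonzero elements have finite order
(`k = kA A`, `W1.teich_residue_pow_eq_one`).

* `ribmp_rd_hfin`      : `hfin` from `Function.Surjective (algebraMap k Q.ResidueField)` and the
                         torsion property of `k`;
* `ribmp_rd_dvd_ord_k` : `ribmp_rd_dvd_ord` with these two hypotheses instead of `hfin`.
-/
import Fermat.Agent.RIB.MP.RedDict

set_option autoImplicit false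
set_option linter.unusedSectionVars false

noncomputable section

namespace Fermat.Agent.RIB.MP

open AlgebraicCurve Fermat.Agent.UNIP Fermat.Agent.STB Fermat.Agent.INJ

section Fin

variable {k L : Type*} [Field k] [Field L] [Algebra k L]

/-- the units of the valuation ring of a place with residue field `k` are torsion modulo the
maximal ideal, if the nonzero elements of `k` have finite order -/
theorem ribmp_rd_hfin (Q : Place k L)
    (hres : Function.Surjective (algebraMap k Q.ResidueField))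
    (hk : ∀ c : k, c ≠ 0 → ∃ n : ℕ, 0 < n ∧ c ^ n = 1) :
    ∀ x ∈ Q.toValuationSubring, x ∉ Q.toValuationSubring.nonunits →
      ∃ n : ℕ, 0 < n ∧ x ^ n - 1 ∈ Q.toValuationSubring.nonunits := by
  intro x hx hxu
  obtain ⟨c, hc⟩ := hres (IsLocalRing.residue ↥Q.toValuationSubring ⟨x, hx⟩)
  have hc0 : c ≠ 0 := by
    rintro rfl
    rw [map_zero] at hc
    have h1 : (⟨x, hx⟩ : ↥Q.toValuationSubring) ∈
        IsLocalRing.maximalIdeal ↥Q.toValuationSubring :=
      (IsLocalRing.residue_eq_zero_iff _).mp hc.symm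
    exact hxu ((ValuationSubring.coe_mem_nonunits_iff (A := Q.toValuationSubring)).mpr h1)
  obtain ⟨n, hn, hcn⟩ := hk c hc0
  refine ⟨n, hn, ?_⟩
  have h2 : IsLocalRing.residue ↥Q.toValuationSubring ((⟨x, hx⟩ : ↥Q.toValuationSubring) ^ n - 1)
      = 0 := by
    rw [map_sub, map_pow, map_one, ← hc, ← map_pow, hcn, map_one, sub_self]
  have h3 := (IsLocalRing.residue_eq_zero_iff _).mp h2
  have h4 := (ValuationSubring.coe_mem_nonunits_iff (A := Q.toValuationSubring)).mpr h3
  simpa using h4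

end Fin

section Main

variable {A₀ E F : Type*} [CommRing A₀] [IsDomain A₀] [IsDiscreteValuationRing A₀]
  [Field E] [Algebra A₀ E] [IsFractionRing A₀ E] [CharZero E]
  [Field F] [Algebra E F] [Algebra A₀ F] [IsScalarTower A₀ E F]
  {k L : Type*} [Field k] [Field L] [Algebra k L]

/-- `ribmp_rd_dvd_ord` for a place with residue field `k`, `k` with torsion units. -/
theorem ribmp_rd_dvd_ord_k {π : A₀} {t : F} (V : ValuationSubring F) (ρ : ↥V →+* L)
    (hker : ∀ x : ↥V, (x : F) ∈ V.nonunits → ρ x = 0)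
    (hAV : ∀ a : A₀, algebraMap A₀ F a ∈ V)
    (hπ : ρ ⟨algebraMap A₀ F π, hAV π⟩ = 0)
    (ht : V.valuation t = 1)
    (Q : Place k L)
    (hAQ : ∀ a : A₀, ρ ⟨algebraMap A₀ F a, hAV a⟩ ∈ Q.toValuationSubring)
    (hres : Function.Surjective (algebraMap k Q.ResidueField))
    (hk : ∀ c : k, c ≠ 0 → ∃ n : ℕ, 0 < n ∧ c ^ n = 1)
    {m : ℕ} (hm : 0 < m) {y : F} (hy : V.valuation y = 1)
    (hF : ∀ i : AtPt (F := F) π t ⊕ AtPt (F := F) π t⁻¹, StbFacAt (atO π t i) m y) :
    (m : ℤ) ∣ Q.ord (ρ ⟨y, (V.valuation_le_one_iff y).mp hy.le⟩) :=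
  ribmp_rd_dvd_ord V ρ hker hAV hπ ht Q hAQ (ribmp_rd_hfin Q hres hk) hm hy hF

end Main

end Fermat.Agent.RIB.MP
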