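import Fermat.Agent.RIB.MP.RedLift
import Fermat.Agent.RIB.MP.Plan
import Fermat.Agent.ES.G2.S37Kron

/-!
# MP-RED-LIFT, part 2: from Gauss reductions to `RedInf` / `RedZero`

`N = M₁ q`, `A ⊂ ℚ̄` a valuation ring over `q`, `k = kA A`, `F̄_{M₁} = modularFunctionFieldFullC k M₁`.

* `ribmp_rl_bridge` : `GaussRed (M₁ q) A u ū`, `GaussRed M₁ A v ū`, `ū ≠ 0`
  `⇒ ReducesToOne A (M₁ q) (u / α v)` (`α = heckeAlphaBar Qb M₁ q`);
* `ribmp_rl_redInf` : if a Kummer function `u` of `x ∈ J₀(M₁ q)` (exponent `m`, `q ∤ m`) has Gauss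
  reduction `ū ∈ F̄_{M₁}`, `ū ≠ 0`, all of whose orders are divisible by `m`, then
  `∃ y ∈ J₀(M₁)[m], RedInf A m x y`;
* `ribmp_rl_redZero` : the same with `w_q u` and `RedZero`.
The reduction package `h : ModPRG M₁ A …` of `X₀(M₁)` at `A` is a hypothesis
(`S15.s15red_exists_pkg`: it exists for `5 ≤ q ∨ (5 - q) ∣ M₁`).
-/

set_option autoImplicit false
set_option linter.unusedSectionVars false
set_option linter.style.haveILetI false
set_option synthInstance.maxHeartbeats 400000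
set_option maxHeartbeats 1600000

open ModularCurve AlgebraicCurve Module

namespace Fermat.Agent.RIB.MP

open Fermat.Agent.W1 Fermat.Agent.S15 Fermat.Agent.S24 Fermat.Agent.ES.M Fermat.Agent.DEU
  Fermat.Agent.ES Fermat.Agent.ES.G2 Fermat.Agent.RIB

section Bridge

variable {M₁ q : ℕ} [NeZero M₁] [NeZero q] [NeZero (M₁ * q)] {A : ValuationSubring Qb}

/-- **the bridge**: two functions with the same nonzero Gauss reduction have a quotient which
reduces to one -/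
theorem ribmp_rl_bridge {u : modularFunctionFieldBar (M₁ * q)} {v : modularFunctionFieldBar M₁}
    {ub : LaurentSeries (kA A)} (hub : ub ≠ 0) (hu : GaussRed (M₁ * q) A u ub)
    (hv : GaussRed M₁ A v ub) :
    ReducesToOne A (M₁ * q) (u / heckeAlphaBar Qb M₁ q v) := by
  obtain ⟨Y₁, Y₂, hY₁, hY₂, hY₂0, hYe, hYr⟩ := hu
  obtain ⟨Z₁, Z₂, hZ₁, hZ₂, hZ₂0, hZe, hZr⟩ := hv
  have hmem : ∀ {f : LaurentSeries Qb}, f ∈ modularFunctionFieldBar M₁ →
      f ∈ modularFunctionFieldBar (M₁ * q) := by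
    intro f hf
    have h := (heckeAlphaBar Qb M₁ q ⟨f, hf⟩).2
    rwa [coe_heckeAlphaBar] at h
  have hZ₁0 : kronRed A Z₁ ≠ 0 := by
    rw [← hZr]
    exact mul_ne_zero hub hZ₂0
  have hv0 : (v : LaurentSeries Qb) ≠ 0 := by
    intro h0
    rw [h0, zero_mul] at hZe
    have : Z₁ = 0 := kronIncl_injective (by rw [← hZe, map_zero])
    rw [this, map_zero] at hZ₁0
    exact hZ₁0 rfl
  refine ⟨kronIncl A (Y₁ * Z₂), kronIncl A (Y₂ * Z₁), ?_, ?_, ?_, ?_, ?_, ?_⟩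
  · rw [map_mul]
    exact mul_mem hY₁ (hmem hZ₂)
  · rw [map_mul]
    exact mul_mem hY₂ (hmem hZ₁)
  · rw [kronPrim_kronIncl_iff, map_mul, ← hYr]
    exact mul_ne_zero (mul_ne_zero hub hY₂0) hZ₂0
  · rw [kronPrim_kronIncl_iff, map_mul]
    exact mul_ne_zero hY₂0 hZ₁0
  · rw [kronCongr_kronIncl_iff, map_mul, map_mul, ← hYr, ← hZr]
    ring
  · have hcoe : ((u / heckeAlphaBar Qb M₁ q v : modularFunctionFieldBar (M₁ * q)) :
        LaurentSeries Qb) = (u : LaurentSeries Qb) / (v : LaurentSeries Qb) := by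
      rw [IntermediateField.coe_div, coe_heckeAlphaBar]
    rw [hcoe, map_mul, map_mul, ← hYe, ← hZe]
    field_simp

end Bridge

section Red

variable {M₁ q : ℕ} [NeZero M₁] [NeZero q] [NeZero (M₁ * q)] {A : ValuationSubring Qb}
  {hq : q.Prime} {hA : A.LiesOverPrime q} {hRedF : StmtRedF M₁ A}
  {r : Place Kb (FF M₁) → Place (kA A) ↥(modularFunctionFieldFullC (kA A) M₁)}
  {sp : JZero M₁ →+ JZeroC (kA A) M₁} {Pinf : Place Kb (FF M₁)}
  {Qinf : Place (kA A) ↥(modularFunctionFieldFullC (kA A) M₁)}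

/-- a Kummer function at level `M₁ q` whose Gauss reduction lies in `F̄_{M₁}` and has all orders
divisible by `m` is congruent to a Kummer function of a class of `J₀(M₁)[m]` -/
theorem ribmp_rl_exists (h : ModPRG M₁ A hq hA hRedF r sp Pinf Qinf) {m : ℕ} (hm : ¬ q ∣ m)
    {u : modularFunctionFieldBar (M₁ * q)} {ub : LaurentSeries (kA A)}
    (hubF : ub ∈ modularFunctionFieldFullC (kA A) M₁) (hub : ub ≠ 0)
    (hred : GaussRed (M₁ * q) A u ub)
    (hdvd : ∀ Q : Place (kA A) ↥(modularFunctionFieldFullC (kA A) M₁),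
      (m : ℤ) ∣ Q.ord (⟨ub, hubF⟩ : ↥(modularFunctionFieldFullC (kA A) M₁))) :
    ∃ (y : JZero M₁) (v : modularFunctionFieldBar M₁), m • y = 0 ∧ KummerRel m y v ∧
      GaussConst A (M₁ * q) (u / heckeAlphaBar Qb M₁ q v) := by
  haveI := h.modPR.nice_k.hpd
  have hm0 : m ≠ 0 := by
    rintro rfl
    exact hm (dvd_zero q)
  have hub' : (⟨ub, hubF⟩ : ↥(modularFunctionFieldFullC (kA A) M₁)) ≠ 0 :=
    fun h0 => hub (congrArg Subtype.val h0)
  obtain ⟨yb, -, hyb⟩ := exists_kummerRel_of_dvd hm0 hub' hdvd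
  obtain ⟨y, v, hy, -, hv, hvred⟩ := ribmp_rl_modular h hm yb ⟨ub, hubF⟩ hyb
  exact ⟨y, v, hy, hv, GaussConst.of_reducesToOne (ribmp_rl_bridge hub hred hvred)⟩

/-- **MP-RED, the lifting step at `v_∞`** -/
theorem ribmp_rl_redInf (h : ModPRG M₁ A hq hA hRedF r sp Pinf Qinf) {m : ℕ} (hm : ¬ q ∣ m)
    {x : JZero (M₁ * q)} {u : modularFunctionFieldBar (M₁ * q)} (hxu : KummerRel m x u)
    {ub : LaurentSeries (kA A)} (hubF : ub ∈ modularFunctionFieldFullC (kA A) M₁) (hub : ub ≠ 0)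
    (hred : GaussRed (M₁ * q) A u ub)
    (hdvd : ∀ Q : Place (kA A) ↥(modularFunctionFieldFullC (kA A) M₁),
      (m : ℤ) ∣ Q.ord (⟨ub, hubF⟩ : ↥(modularFunctionFieldFullC (kA A) M₁))) :
    ∃ y : JZero M₁, m • y = 0 ∧ RedInf A m x y := by
  obtain ⟨y, v, hy, hv, hG⟩ := ribmp_rl_exists h hm hubF hub hred hdvd
  exact ⟨y, hy, u, v, hxu, hv, hG⟩

/-- **MP-RED, the lifting step at `v_0 = v_∞ ∘ w_q`** -/
theorem ribmp_rl_redZero (hqM : ¬ q ∣ M₁) (h : ModPRG M₁ A hq hA hRedF r sp Pinf Qinf) {m : ℕ}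
    (hm : ¬ q ∣ m) {x : JZero (M₁ * q)} {u : modularFunctionFieldBar (M₁ * q)}
    (hxu : KummerRel m x u) {ub : LaurentSeries (kA A)}
    (hubF : ub ∈ modularFunctionFieldFullC (kA A) M₁) (hub : ub ≠ 0)
    (hred : GaussRed (M₁ * q) A (Fermat.Agent.UNIP.atkinLehnerBar hq hqM u) ub)
    (hdvd : ∀ Q : Place (kA A) ↥(modularFunctionFieldFullC (kA A) M₁),
      (m : ℤ) ∣ Q.ord (⟨ub, hubF⟩ : ↥(modularFunctionFieldFullC (kA A) M₁))) :
    ∃ y : JZero M₁, m • y = 0 ∧ RedZero hq hqM A m x y := by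
  obtain ⟨y, v, hy, hv, hG⟩ := ribmp_rl_exists h hm hubF hub hred hdvd
  exact ⟨y, hy, u, v, hxu, hv, hG⟩

end Red

end Fermat.Agent.RIB.MP
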