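/-
Row 37, MP-RED / RED-c "ASSEMBLY" (helper85; RED-a = helper91's `ribmp_red_a`, RED-b =
`RedLiftRed.lean`).

    ribmp_rf_main : StmtRedA → StmtFac → StmtRedE

`StmtRedA` is the exact statement of helper91's deliverable `ribmp_red_a` (`RIB/MP/RedA.lean`):
a unit `y₀` of `V_∞` in `F_N(E₀)` with a local factorisation `y₀ = ε γ ^ m` at every closed point
of the special fibre of the two `j`-charts has a Gauss reduction `ū ∈ F_{M₁}(k)` all of whose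
orders are divisible by `m`.

The assembly: for an inertia-fixed `x ∈ J₀(M₁ q)[p]` and a prime `ℓ ∤ M₁ q p`,
 1. MP-DESC  : a Kummer function `u₀ ∈ F_N(E₀)` of `x`;
 2. MP-VH    : `y₀ = T_ℓ u₀ / u₀ ^ (ℓ + 1) ∈ F_N(E₀)`, a Kummer function of `eisKill ℓ x`, a unit at
               `V_∞` and at `V_0`;  the same for `w_q y₀` (`w_q` commutes with `u ↦ T_ℓ u / u^(ℓ+1)`);
 3. MP-FAC   : (F) for `y₀` and for `w_q y₀`;
 4. the reduction package of `X₀(M₁)` at `A` (`S15.s15red_exists_pkg`, hypothesis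
    `5 ≤ q ∨ (5 - q) ∣ M₁`), `hfin` from its clause `nice_k.hres`;
 5. RED-a, then RED-b (`ribmp_rl_redInf`, `ribmp_rl_redZero`).
-/
import Fermat.Agent.RIB.MP.PlanE
import Fermat.Agent.RIB.MP.FacStmt
import Fermat.Agent.RIB.MP.Desc
import Fermat.Agent.RIB.MP.ValHeckeVert
import Fermat.Agent.RIB.MP.RedLiftRed
import Fermat.Agent.RIB.MP.RedDictFin
import Fermat.Agent.UNIP.Beta0Pkg
import Fermat.Agent.UNIP.MGData
import Fermat.Agent.W1.Teich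

set_option autoImplicit false
set_option linter.unusedSectionVars false
set_option linter.unusedVariables false
set_option linter.style.longLine false
set_option linter.style.haveILetI false
set_option synthInstance.maxHeartbeats 400000
set_option maxHeartbeats 1600000

noncomputable section

namespace Fermat.Agent.RIB.MP

open ModularCurve AlgebraicCurve Fermat.Agent.INJ Fermat.Agent.UNIP Fermat.Agent.STB
open Fermat.Agent.ES Fermat.Agent.ES.G2 Fermat.Agent.ES.M Fermat.Agent.S15 Fermat.Agent.W1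
open Fermat.Agent.S24 Fermat.Agent.DEU

/-- **RED-a** (helper91's `ribmp_red_a`, as a `Prop`). -/
def StmtRedA : Prop :=
  ∀ (M₁ q : ℕ) [NeZero M₁] [NeZero q] [NeZero (M₁ * q)] (hq : q.Prime) (hqM : ¬ q ∣ M₁)
    (A : ValuationSubring Qb) (hA : A.LiesOverPrime q)
    [IsDiscreteValuationRing ↥(beta0Ring A (beta0Field A))]
    (π : ↥(beta0Ring A (beta0Field A))) (hπ : Irreducible π) (ιC : ↥(beta0Field A) →+* ℂ)
    (hRedF : ES.M.StmtRedF M₁ A)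
    (hfin : ∀ Q : Place (kA A) ↥(modularFunctionFieldFullC (kA A) M₁),
      ∀ x ∈ Q.toValuationSubring, x ∉ Q.toValuationSubring.nonunits →
        ∃ n : ℕ, 0 < n ∧ x ^ n - 1 ∈ Q.toValuationSubring.nonunits)
    (m : ℕ) (hm : 0 < m) (y₀ : ↥(modularFunctionFieldFullC ↥(beta0Field A) (M₁ * q)))
    (hy : (mgvV hπ ιC hq hqM true).valuation y₀ = 1)
    (hF : ∀ i : AtPt (F := ↥(modularFunctionFieldFullC ↥(beta0Field A) (M₁ * q))) π
          (bgJ ↥(beta0Field A) (M₁ * q)) ⊕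
        AtPt (F := ↥(modularFunctionFieldFullC ↥(beta0Field A) (M₁ * q))) π
          (bgJ ↥(beta0Field A) (M₁ * q))⁻¹,
      StbFacAt (atO π (bgJ ↥(beta0Field A) (M₁ * q)) i) m y₀),
    ∃ (ub : LaurentSeries (kA A)) (hubF : ub ∈ modularFunctionFieldFullC (kA A) M₁), ub ≠ 0 ∧
      ES.M.GaussRed (M₁ * q) A (nfEmb (beta0Field A) (M₁ * q) y₀) ub ∧
      ∀ Q : Place (kA A) ↥(modularFunctionFieldFullC (kA A) M₁),
        (m : ℤ) ∣ Q.ord (⟨ub, hubF⟩ : ↥(modularFunctionFieldFullC (kA A) M₁))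

/-- a prime `p ≥ 5` is prime to `6` -/
theorem ribmp_rf_coprime_six {p : ℕ} (hp : p.Prime) (hp5 : 5 ≤ p) : Nat.Coprime p 6 := by
  rw [Nat.Prime.coprime_iff_not_dvd hp]
  intro h
  have hle : p ≤ 6 := Nat.le_of_dvd (by norm_num) h
  interval_cases p
  · omega
  · exact absurd hp (by decide)

/-- the orders of a Kummer function are divisible by the exponent -/
theorem ribmp_rf_dvd_ord {N : ℕ} [NeZero N] {m : ℕ} {x : JZero N}
    {u : modularFunctionFieldBar N} (h : KummerRel m x u)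
    (P : Place Qb (modularFunctionFieldBar N)) : (m : ℤ) ∣ P.ord u := by
  obtain ⟨D, -, -, hD⟩ := h
  exact Dvd.intro _ (hD P)

section Half

variable {M₁ q : ℕ} [NeZero M₁] [NeZero q] [NeZero (M₁ * q)] {A : ValuationSubring Qb}
  {hq : q.Prime} {hA : A.LiesOverPrime q} {hRedF : StmtRedF M₁ A}
  {r : Place Kb (FF M₁) → Place (kA A) ↥(modularFunctionFieldFullC (kA A) M₁)}
  {sp : JZero M₁ →+ JZeroC (kA A) M₁} {Pinf : Place Kb (FF M₁)}
  {Qinf : Place (kA A) ↥(modularFunctionFieldFullC (kA A) M₁)}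

/-- `hfin` from the reduction package -/
theorem ribmp_rf_hfin (h : ModPRG M₁ A hq hA hRedF r sp Pinf Qinf)
    (Q : Place (kA A) ↥(modularFunctionFieldFullC (kA A) M₁)) :
    ∀ x ∈ Q.toValuationSubring, x ∉ Q.toValuationSubring.nonunits →
      ∃ n : ℕ, 0 < n ∧ x ^ n - 1 ∈ Q.toValuationSubring.nonunits :=
  ribmp_rd_hfin Q (h.modPR.nice_k.hres Q).surjective
    (fun c hc => teich_residue_pow_eq_one hq hA c hc)

/-- **One half**: a Kummer function `nfEmb y₀` (`y₀ ∈ F_N(E₀)` a unit at `V_∞` and `V_0`) of a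
class `x'` of level `M₁ q` has a Gauss reduction in `F_{M₁}(k)` with all orders divisible by
`m`. -/
theorem ribmp_rf_half (hRedA : StmtRedA) (hFac : StmtFac) (hqM : ¬ q ∣ M₁) (hq2 : q ≠ 2)
    (h : ModPRG M₁ A hq hA hRedF r sp Pinf Qinf) {m : ℕ} (hm0 : 0 < m) (hm6 : Nat.Coprime m 6)
    [IsDiscreteValuationRing ↥(beta0Ring A (beta0Field A))]
    {π : ↥(beta0Ring A (beta0Field A))} (hπ : Irreducible π) (ιC : ↥(beta0Field A) →+* ℂ)
    {x' : JZero (M₁ * q)} (y₀ : ↥(modularFunctionFieldFullC ↥(beta0Field A) (M₁ * q)))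
    (hy0 : y₀ ≠ 0) (hK : KummerRel m x' (nfEmb (beta0Field A) (M₁ * q) y₀))
    (hval : ∀ c : Bool, (mgvV hπ ιC hq hqM c).valuation y₀ = 1) :
    ∃ (ub : LaurentSeries (kA A)) (hubF : ub ∈ modularFunctionFieldFullC (kA A) M₁), ub ≠ 0 ∧
      ES.M.GaussRed (M₁ * q) A (nfEmb (beta0Field A) (M₁ * q) y₀) ub ∧
      ∀ Q : Place (kA A) ↥(modularFunctionFieldFullC (kA A) M₁),
        (m : ℤ) ∣ Q.ord (⟨ub, hubF⟩ : ↥(modularFunctionFieldFullC (kA A) M₁)) := by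
  have hF := hFac M₁ q hq hqM hq2 m hm6 A hA hq hqM π hπ ιC y₀ hy0
    (fun P => ribmp_rf_dvd_ord hK P) hval
  exact hRedA M₁ q hq hqM A hA π hπ ιC hRedF (fun Q => ribmp_rf_hfin h Q) m hm0 y₀
    (hval true) hF

end Half

/-- **RED-c, general exponent** `m` prime to `6 q`: for an inertia-fixed `x ∈ J₀(M₁ q)[m]` the
reductions of `T_ℓ x − (ℓ + 1) x` at `v_∞` and at `v_0` are reductions of classes of
`J₀(M₁)[m]`. -/
theorem ribmp_rf_gen (hRedA : StmtRedA) (hFac : StmtFac)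
    (M₁ q : ℕ) [NeZero M₁] [NeZero q] [NeZero (M₁ * q)] (hq : q.Prime) (hqM : ¬ q ∣ M₁)
    (hE : 5 ≤ q ∨ (5 - q) ∣ M₁) (hq2 : q ≠ 2) (m : ℕ) (hm0 : 0 < m) (hm6 : Nat.Coprime m 6)
    (hqm : ¬ q ∣ m) (A : ValuationSubring Qb) (hA : A.LiesOverPrime q)
    (x : JZero (M₁ * q)) (hx : m • x = 0) (hI : InertiaFixed A x)
    (ℓ : Nat.Primes) (hℓM : ¬ (ℓ : ℕ) ∣ M₁ * q) :
    (∃ y : JZero M₁, m • y = 0 ∧ RedInf A m (eisKill ℓ x) y) ∧
    (∃ y : JZero M₁, m • y = 0 ∧ RedZero hq hqM A m (eisKill ℓ x) y) := by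
  haveI : IsDiscreteValuationRing ↥(beta0Ring A (beta0Field A)) := beta0Ring_isDVR_base hq hA
  have hπ := beta0Ring_irreducible_q (A := A) hq hA
  set ιC : ↥(beta0Field A) →+* ℂ := mgdIota (beta0Field A) with hιC
  haveI : NeZero (ℓ : ℕ) := ⟨ℓ.2.ne_zero⟩
  -- 1. descent of a Kummer function to the inertia field
  obtain ⟨u₀, hu₀, hxu⟩ := ribmp_desc hq hA hm0.ne' hx hI
  -- 2. the Eisenstein-killed Kummer function and its `w`-twin
  obtain ⟨y₀, hy0, hy₀, hval⟩ := ribmp_vh_main hq hqM hA hπ ιC (ℓ : ℕ) ℓ.2 hℓM u₀ hu₀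
  have hK : KummerRel m (eisKill ℓ x) (nfEmb (beta0Field A) (M₁ * q) y₀) := by
    rw [hy₀]
    exact ribmp_vh_kummerRel ℓ hxu
  set y₁ : ↥(modularFunctionFieldFullC ↥(beta0Field A) (M₁ * q)) :=
    Fermat.Agent.AL.atkinLehner ↥(beta0Field A) ιC hq hqM y₀ with hy₁def
  have hy₁ : nfEmb (beta0Field A) (M₁ * q) y₁ =
      atkinLehnerBar hq hqM (nfEmb (beta0Field A) (M₁ * q) y₀) :=
    (stb_mgt_atkinLehnerBar_nfEmb' ιC hq hqM y₀).symm
  have hu : nfEmb (beta0Field A) (M₁ * q) u₀ ≠ 0 := (map_ne_zero _).2 hu₀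
  have hy₁E : nfEmb (beta0Field A) (M₁ * q) y₁ =
      ribmpEisFun (M₁ * q) (ℓ : ℕ) (atkinLehnerBar hq hqM (nfEmb (beta0Field A) (M₁ * q) u₀)) := by
    rw [hy₁, hy₀, ribmp_vh_atkinLehnerBar_eisFun hq hqM (ℓ : ℕ) ℓ.2 hℓM]
  have hval₁ : ∀ c : Bool, (mgvV hπ ιC hq hqM c).valuation y₁ = 1 := fun c =>
    ribmp_vh_valuation hπ ιC hq hqM hA (ℓ : ℕ) ℓ.2 hℓM _ ((map_ne_zero _).2 hu) y₁ hy₁E c
  have hK₁ : KummerRel m (atkinLehnerBar hq hqM • eisKill ℓ x)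
      (nfEmb (beta0Field A) (M₁ * q) y₁) := by
    rw [hy₁]
    exact ribmp_w_kummerRel hq hqM hK
  have hy10 : y₁ ≠ 0 := by
    intro h0
    apply hK₁.ne_zero
    rw [h0, map_zero]
  -- 4. the reduction package
  obtain ⟨r, sp, Pinf, Qinf, h⟩ := s15red_exists_pkg M₁ q hq hqM hE A hA
  -- 5. the two halves
  obtain ⟨ub, hubF, hub, hred, hdvd⟩ :=
    ribmp_rf_half hRedA hFac hqM hq2 h hm0 hm6 hπ ιC y₀ hy0 hK hval
  obtain ⟨ub₁, hubF₁, hub₁, hred₁, hdvd₁⟩ :=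
    ribmp_rf_half hRedA hFac hqM hq2 h hm0 hm6 hπ ιC y₁ hy10 hK₁ hval₁
  rw [hy₁] at hred₁
  exact ⟨ribmp_rl_redInf h hqm hK hubF hub hred hdvd,
    ribmp_rl_redZero hqM h hqm hK hubF₁ hub₁ hred₁ hdvd₁⟩

/-- **RED-c at the exponent `p ^ r`** (`RT.K8.StmtRedPow`, helper21's request). -/
theorem ribmp_red_powE (hRedA : StmtRedA) (hFac : StmtFac)
    (M₁ q : ℕ) [NeZero M₁] [NeZero q] [NeZero (M₁ * q)] (hq : q.Prime) (hqM : ¬ q ∣ M₁)
    (hE : 5 ≤ q ∨ (5 - q) ∣ M₁) (hq2 : q ≠ 2) (p : ℕ) (hp : p.Prime) (hp5 : 5 ≤ p) (hpq : p ≠ q)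
    (r : ℕ) (A : ValuationSubring Qb) (hA : A.LiesOverPrime q) (x : JZero (M₁ * q))
    (hx : p ^ r • x = 0) (hI : InertiaFixed A x)
    (ℓ : Nat.Primes) (hℓ : ¬ (ℓ : ℕ) ∣ M₁ * q * p) :
    (∃ y : JZero M₁, p ^ r • y = 0 ∧ RedInf A (p ^ r) (eisKill ℓ x) y) ∧
    (∃ y : JZero M₁, p ^ r • y = 0 ∧ RedZero hq hqM A (p ^ r) (eisKill ℓ x) y) := by
  have hℓM : ¬ (ℓ : ℕ) ∣ M₁ * q := fun hd => hℓ (Dvd.dvd.mul_right hd p)
  have hqp : ¬ q ∣ p ^ r := fun hd =>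
    hpq ((Nat.prime_dvd_prime_iff_eq hq hp).mp (hq.dvd_of_dvd_pow hd)).symm
  exact ribmp_rf_gen hRedA hFac M₁ q hq hqM hE hq2 (p ^ r) (pow_pos hp.pos r)
    (Nat.Coprime.pow_left r (ribmp_rf_coprime_six hp hp5)) hqp A hA x hx hI ℓ hℓM

/-- **RED-c, the assembly**: `StmtRedE` from RED-a and MP-FAC. -/
theorem ribmp_rf_main (hRedA : StmtRedA) (hFac : StmtFac) : StmtRedE := by
  intro M₁ q _ _ _ hq hqM h5 hq2 p hp hp5 hpq A hA x hx hI ℓ hℓ
  have h := ribmp_red_powE hRedA hFac M₁ q hq hqM h5 hq2 p hp hp5 hpq 1 A hA x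
    (by rwa [pow_one]) hI ℓ hℓ
  simpa only [pow_one] using h

end Fermat.Agent.RIB.MP
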