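/-
Row 37, Mazur's principle: MP-ATQ in the RESTRICTED form (helper2), see `PlanE.lean`.

`stmtAtQE_of : StmtRedE → StmtRedHecke → StmtFrobToricE → StmtOldLevel → StmtDivEis → StmtAtQE`
`stmtAtQE_of_geom : StmtRedE → StmtFrobToricE → StmtAtQE` (landed pieces plugged in).
Same proof as `stmtAtQOf` (`AtQ.lean`): the pieces MP-RED and MP-FROB are used at the given
`(M₁, q)` only.
-/
import Fermat.Agent.RIB.MP.PlanE
import Fermat.Agent.RIB.MP.AtQFinal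

set_option autoImplicit false

noncomputable section

namespace Fermat.Agent.RIB.MP

open ModularCurve AlgebraicCurve Fermat.Agent.ES Fermat.Agent.ES.G2

/-- **MP-ATQ, restricted form**, from the geometric pieces. -/
theorem stmtAtQE_of (hRed : StmtRedE) (hHK : StmtRedHecke) (hFrob : StmtFrobToricE)
    (hOld : StmtOldLevel) (hDiv : StmtDivEis) : StmtAtQE := by
  intro M₁ q _ _ _ hq hqM hE hsq hq2 p hp h5 hpq A hA σ hσ x hpx hI ℓ₁ n₁ hℓ₁ hn₁ hd t₀ ht₀ hK n₀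
    hn₀ hpn₀
  set X : JZero (M₁ * q) := (x : JZero (M₁ * q)) with hX
  have hpX : p • X = 0 := (pDiv_smul_eq_zero_iff p x).1 hpx
  obtain ⟨⟨yI, hyI, hRI⟩, ⟨y0, hy0, hR0⟩⟩ :=
    hRed M₁ q hq hqM hE hq2 p hp h5 hpq A hA X hpX hI ℓ₁ hℓ₁
  -- triviality at `v_∞`
  have hTI : eisKill ℓ₁ X ∈ ribmpTriv (M₁ := M₁) (q := q) (RingEquiv.refl _) A p := by
    refine ribmp_atq_triv hOld hDiv hq hqM hsq hp h5 (RingEquiv.refl _) (fun c => rfl) A
      (fun ℓ hℓ z hz => ?_) x hpx ℓ₁ n₁ hℓ₁ hn₁ hd t₀ ht₀ hK n₀ hn₀ hpn₀ yI hyI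
      ((ribmp_atq_redInf_iff A p _ _).1 hRI)
    exact (ribmp_atq_redInf_iff A p _ _).1
      ((hHK M₁ q hq hqM p hp hpq A hA z.1 z.2 ℓ hℓ).1 ((ribmp_atq_redInf_iff A p _ _).2 hz))
  -- triviality at `v_0`
  have h0 : eisKill ℓ₁ X ∈ ribmpTriv (M₁ := M₁) (q := q)
      (Fermat.Agent.UNIP.atkinLehnerBar hq hqM).toRingEquiv A p := by
    refine ribmp_atq_triv hOld hDiv hq hqM hsq hp h5
      (Fermat.Agent.UNIP.atkinLehnerBar hq hqM).toRingEquiv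
      (fun c => (Fermat.Agent.UNIP.atkinLehnerBar hq hqM).commutes c) A
      (fun ℓ hℓ z hz => ?_) x hpx ℓ₁ n₁ hℓ₁ hn₁ hd t₀ ht₀ hK n₀ hn₀ hpn₀ y0 hy0
      ((ribmp_atq_redZero_iff hq hqM A p _ _).1 hR0)
    exact (ribmp_atq_redZero_iff hq hqM A p _ _).1
      ((hHK M₁ q hq hqM p hp hpq A hA z.1 z.2 ℓ hℓ).2
        ((ribmp_atq_redZero_iff hq hqM A p _ _).2 hz))
  have htoric : IsToric hq hqM A p (eisKill ℓ₁ X) :=
    ⟨(ribmp_atq_trivInf_iff A p _).2 hTI, (ribmp_atq_trivZero_iff hq hqM A p _).2 h0⟩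
  have hF := hFrob M₁ q hq hqM hE hq2 p hp h5 hpq A hA σ hσ X hpX hI ℓ₁ hℓ₁ htoric
  -- divide by `d`
  have hEX : eisKill ℓ₁ X = (n₁ - (((ℓ₁ : ℕ) : ℤ) + 1)) • X :=
    ribmp_atq_eisKill_eigen ℓ₁ X n₁ hn₁
  rw [hEX] at hF
  set d : ℤ := n₁ - (((ℓ₁ : ℕ) : ℤ) + 1) with hdd
  set Z : JZero (M₁ * q) := σ • (Fermat.Agent.UNIP.atkinLehnerBar hq hqM • X) + q • X with hZ
  have hdZ : d • Z = 0 := by
    have hcomm : d • (q • X) = q • (d • X) := by
      rw [← natCast_zsmul X q, ← natCast_zsmul (d • X) q, smul_comm]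
    rw [hZ, zsmul_add, smul_comm d σ, smul_comm d (Fermat.Agent.UNIP.atkinLehnerBar hq hqM) X,
      hcomm]
    exact hF
  have hpZ : p • Z = 0 := by
    have h1 : p • (σ • (Fermat.Agent.UNIP.atkinLehnerBar hq hqM • X)) = 0 := by
      rw [smul_comm p σ, smul_comm p (Fermat.Agent.UNIP.atkinLehnerBar hq hqM) X, hpX,
        smul_zero]
      exact smul_zero (A := JZero (M₁ * q)) σ
    have h2 : p • (q • X) = 0 := by
      rw [smul_comm p q X, hpX, smul_zero]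
    rw [hZ, nsmul_add, h1, h2, add_zero]
  exact ribmp_atq_eq_zero_of_smul hp hd hpZ hdZ

/-- **MP-ATQ, restricted form**, from the two open geometric pieces MP-RED and MP-FROB. -/
theorem stmtAtQE_of_geom (hRed : StmtRedE) (hFrob : StmtFrobToricE) : StmtAtQE :=
  stmtAtQE_of hRed stmtRedHecke hFrob stmtOldLevel stmtDivEis

end Fermat.Agent.RIB.MP

end
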