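/-
RIB-MP, piece MP-DIV / LAT (helper30): `stmtLatLift : StmtLatLift`.

PURE ALGEBRA on a finite transitive `SL₂(ℤ)`-set `Q` on which `-1` acts trivially, `n` odd,
`M = (Q → ℤ)`, `M̄ = (Q → ℤ/n)`:  `ker (1 + S) ∩ (T - 1) M → ker (1 + S̄) ∩ (T̄ - 1) M̄` is onto.

Proof.  Lift `m̄` to `m₀`, `e₀ := T m₀ - m₀`; `(1 + S) e₀ = n f` with `f` `S`-invariant, even at the
fixed points of `S` (`n` odd), of total sum `0`; so `f = (1 + S) k` (`ribmp_lat_halve`) with
`∑ k = 0`; `ker ∑ ⊆ ker (1 + S) + (T - 1) M` (`ribmp_lat_sum_zero`: `⟨S, T⟩` is transitive);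
`k = a + g`, `g ∈ (T - 1) M`, and `e := e₀ - n g`.
-/
import Fermat.Agent.RIB.MP.TorsDivPlan
import Fermat.Agent.S41.PD.LatticeUniq

set_option autoImplicit false

namespace Fermat.Agent.RIB.MP

open scoped MatrixGroups
open ModularGroup (S T)
open Fermat.Agent.S41.PD

/-- an involution `s`, `f` invariant under `s` and even at the fixed points of `s`:
`f = k + k ∘ s`. -/
theorem ribmp_lat_halve {Q : Type} (s : Q → Q) (hs : ∀ q, s (s q) = q) (f : Q → ℤ)
    (hf : ∀ q, f (s q) = f q) (heven : ∀ q, s q = q → Even (f q)) :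
    ∃ k : Q → ℤ, ∀ q, k q + k (s q) = f q := by
  classical
  obtain ⟨_, _⟩ := exists_wellFoundedLT Q
  refine ⟨fun q => if s q = q then f q / 2 else if q < s q then f q else 0, fun q => ?_⟩
  show (if s q = q then f q / 2 else if q < s q then f q else 0) +
    (if s (s q) = s q then f (s q) / 2 else if s q < s (s q) then f (s q) else 0) = f q
  rw [hs q, hf q]
  by_cases h : s q = q
  · have h' : q = s q := h.symm
    rw [if_pos h, if_pos h']
    obtain ⟨c, hc⟩ := heven q h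
    rw [hc]
    omega
  · have h' : ¬ q = s q := fun e => h e.symm
    rw [if_neg h, if_neg h']
    rcases lt_or_gt_of_ne h' with hlt | hgt
    · rw [if_pos hlt, if_neg (not_lt.2 hlt.le), add_zero]
    · rw [if_neg (not_lt.2 hgt.le), if_pos hgt, zero_add]

section Sum

variable {Q : Type} [Fintype Q] [MulAction SL(2, ℤ) Q]

/-- the subgroup `ker (1 + S) + (T - 1) M` -/
def ribmp_latN (Q : Type) [MulAction SL(2, ℤ) Q] : AddSubgroup (Q → ℤ) where
  carrier := {k | ∃ a m : Q → ℤ, a + rho S a = 0 ∧ k = a + (rho T m - m)}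
  zero_mem' := ⟨0, 0, by simp, by simp⟩
  add_mem' := by
    rintro _ _ ⟨a, m, ha, rfl⟩ ⟨a', m', ha', rfl⟩
    refine ⟨a + a', m + m', ?_, ?_⟩
    · rw [rho_add]
      calc a + a' + (rho S a + rho S a') = (a + rho S a) + (a' + rho S a') := by abel
        _ = 0 := by rw [ha, ha', add_zero]
    · rw [rho_add]
      abel
  neg_mem' := by
    rintro _ ⟨a, m, ha, rfl⟩
    refine ⟨-a, -m, ?_, ?_⟩
    · rw [rho_neg, ← neg_add, ha, neg_zero]
    · rw [rho_neg]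
      abel

omit [Fintype Q] in
lemma ribmp_lat_mem_N {k : Q → ℤ} :
    k ∈ ribmp_latN Q ↔ ∃ a m : Q → ℤ, a + rho S a = 0 ∧ k = a + (rho T m - m) := Iff.rfl

omit [Fintype Q] in
lemma ribmp_lat_rho_single [DecidableEq Q] (g : SL(2, ℤ)) (q : Q) :
    rho g (Pi.single q (1 : ℤ)) = Pi.single (g • q) (1 : ℤ) := by
  funext x
  rw [rho_apply, Pi.single_apply, Pi.single_apply]
  by_cases h : x = g • q
  · rw [if_pos h, if_pos (by rw [h, inv_smul_smul])]
  · rw [if_neg h, if_neg (fun e => h (by rw [← e, smul_inv_smul]))]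

/-- `ker ∑ ⊆ ker (1 + S) + (T - 1) M`. -/
theorem ribmp_lat_sum_zero [MulAction.IsPretransitive SL(2, ℤ) Q]
    (hneg : ∀ q : Q, (-1 : SL(2, ℤ)) • q = q) (k : Q → ℤ) (hk : ∑ q, k q = 0) :
    ∃ a m : Q → ℤ, a + rho S a = 0 ∧ k = a + (rho T m - m) := by
  classical
  rw [← ribmp_lat_mem_N]
  rcases isEmpty_or_nonempty Q with hE | ⟨⟨q₀⟩⟩
  · have : k = 0 := funext fun q => (hE.false q).elim
    rw [this]
    exact (ribmp_latN Q).zero_mem
  -- the classes of the `δ_q`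
  let h : Q → (Q → ℤ) ⧸ ribmp_latN Q := fun q => QuotientAddGroup.mk (Pi.single q (1 : ℤ))
  have hS : ∀ q, h (S • q) = h q := by
    intro q
    apply (QuotientAddGroup.eq_iff_sub_mem).2
    refine ⟨Pi.single (S • q) (1 : ℤ) - Pi.single q (1 : ℤ), 0, ?_, by simp⟩
    have hSS : S • (S • q) = q := by
      have := pdu_S_inv_smul hneg (S • q)
      rw [inv_smul_smul] at this
      exact this.symm
    rw [rho_sub, ribmp_lat_rho_single, ribmp_lat_rho_single, hSS]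
    abel
  have hT : ∀ q, h (T • q) = h q := by
    intro q
    apply (QuotientAddGroup.eq_iff_sub_mem).2
    refine ⟨0, Pi.single q (1 : ℤ), by simp, ?_⟩
    rw [ribmp_lat_rho_single, zero_add]
  have hconst : ∀ q, h q = h q₀ := by
    intro q
    obtain ⟨g, rfl⟩ := MulAction.exists_smul_eq SL(2, ℤ) q₀ q
    exact pdu_inv_of_inv_S_T h hS hT g q₀
  -- `k = ∑ k q • δ_q`
  have hksum : k = ∑ q, k q • (Pi.single q (1 : ℤ) : Q → ℤ) := by
    funext x
    rw [Finset.sum_apply]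
    simp only [Pi.smul_apply, Pi.single_apply, smul_eq_mul, mul_ite, mul_one, mul_zero]
    rw [Finset.sum_ite_eq]
    simp
  have hmk : (QuotientAddGroup.mk k : (Q → ℤ) ⧸ ribmp_latN Q) = 0 := by
    have e1 : (QuotientAddGroup.mk k : (Q → ℤ) ⧸ ribmp_latN Q) =
        QuotientAddGroup.mk' (ribmp_latN Q) (∑ q, k q • (Pi.single q (1 : ℤ) : Q → ℤ)) := by
      rw [← hksum]
      rfl
    rw [e1, map_sum]
    have e2 : ∀ q ∈ (Finset.univ : Finset Q), QuotientAddGroup.mk' (ribmp_latN Q)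
        (k q • (Pi.single q (1 : ℤ) : Q → ℤ)) = k q • h q₀ := by
      intro q _
      rw [map_zsmul]
      exact congrArg (fun x => k q • x) (hconst q)
    rw [Finset.sum_congr rfl e2, ← Finset.sum_smul, hk, zero_smul]
  exact (QuotientAddGroup.eq_zero_iff k).1 hmk

end Sum

/-- **MP-DIV / LAT.** -/
theorem stmtLatLift : StmtLatLift := by
  intro Q _ _ _ hneg n hn e' m' he' hm'
  classical
  have hn0 : (n : ℤ) ≠ 0 := by
    have : n ≠ 0 := hn.pos.ne'
    exact_mod_cast this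
  have hnodd : ¬ Even (n : ℤ) := by
    rw [Int.not_even_iff_odd]
    exact_mod_cast hn
  -- the involution
  have hs : ∀ q : Q, (S⁻¹ : SL(2, ℤ)) • ((S⁻¹ : SL(2, ℤ)) • q) = q := by
    intro q
    rw [pdu_S_inv_smul hneg q, inv_smul_smul]
  -- lift `m'`
  have hsurj : ∀ q, ∃ z : ℤ, (z : ZMod n) = m' q := fun q => ZMod.intCast_surjective (m' q)
  choose m₀ hm₀ using hsurj
  have hcast : ∀ q, (((rho T m₀ - m₀) q : ℤ) : ZMod n) = e' q := by
    intro q
    rw [hm']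
    show ((m₀ (T⁻¹ • q) - m₀ q : ℤ) : ZMod n) = m' (T⁻¹ • q) - m' q
    rw [Int.cast_sub, hm₀, hm₀]
  -- `(1 + S) e₀ = n f`
  have hdiv : ∀ q, (n : ℤ) ∣ (rho T m₀ - m₀) q + (rho T m₀ - m₀) (S⁻¹ • q) := by
    intro q
    rw [← ZMod.intCast_zmod_eq_zero_iff_dvd, Int.cast_add, hcast, hcast]
    exact congrFun he' q
  choose f hf using hdiv
  have hfS : ∀ q, f ((S⁻¹ : SL(2, ℤ)) • q) = f q := by
    intro q
    have h1 := hf ((S⁻¹ : SL(2, ℤ)) • q)
    rw [hs q] at h1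
    have h2 := hf q
    have : (n : ℤ) * f ((S⁻¹ : SL(2, ℤ)) • q) = (n : ℤ) * f q := by
      rw [← h1, ← h2]
      ring
    exact mul_left_cancel₀ hn0 this
  have hfeven : ∀ q, (S⁻¹ : SL(2, ℤ)) • q = q → Even (f q) := by
    intro q hq
    have h2 := hf q
    rw [hq] at h2
    have : Even ((n : ℤ) * f q) := by
      rw [← h2]
      exact ⟨_, rfl⟩
    rcases Int.even_mul.1 this with h | h
    · exact (hnodd h).elim
    · exact h
  have hfsum : ∑ q, f q = 0 := by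
    have h1 : ∑ q, ((rho T m₀ - m₀) q + (rho T m₀ - m₀) ((S⁻¹ : SL(2, ℤ)) • q)) = 0 := by
      rw [Finset.sum_add_distrib]
      have e1 : ∑ q, (rho T m₀ - m₀) ((S⁻¹ : SL(2, ℤ)) • q) = ∑ q, (rho T m₀ - m₀) q :=
        sum_rho S (rho T m₀ - m₀)
      have e2 : ∑ q, (rho T m₀ - m₀) q = 0 := by
        simp only [Pi.sub_apply]
        rw [Finset.sum_sub_distrib, sum_rho T m₀, sub_self]
      rw [e1, e2, add_zero]
    have h2 : (n : ℤ) * ∑ q, f q = 0 := by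
      rw [Finset.mul_sum, ← h1]
      exact Finset.sum_congr rfl (fun q _ => (hf q).symm)
    rcases mul_eq_zero.1 h2 with h | h
    · exact (hn0 h).elim
    · exact h
  -- `f = (1 + S) k`, `∑ k = 0`
  obtain ⟨k, hk⟩ := ribmp_lat_halve (fun q : Q => (S⁻¹ : SL(2, ℤ)) • q) hs f hfS hfeven
  have hksum : ∑ q, k q = 0 := by
    have h1 : ∑ q, (k q + k ((S⁻¹ : SL(2, ℤ)) • q)) = 0 := by
      rw [Finset.sum_congr rfl (fun q _ => hk q), hfsum]
    rw [Finset.sum_add_distrib] at h1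
    have e1 : ∑ q, k ((S⁻¹ : SL(2, ℤ)) • q) = ∑ q, k q := sum_rho S k
    rw [e1] at h1
    omega
  obtain ⟨a, m₁, ha, hka⟩ := ribmp_lat_sum_zero hneg k hksum
  -- the lift
  refine ⟨rho T (m₀ - (n : ℤ) • m₁) - (m₀ - (n : ℤ) • m₁), ⟨?_, _, rfl⟩, fun q => ?_⟩
  · funext q
    have h1 := hf q
    have h2 := hk q
    have h3 := congrFun ha q
    have h4 := congrFun hka q
    have h5 := congrFun hka ((S⁻¹ : SL(2, ℤ)) • q)
    simp only [Pi.add_apply, Pi.sub_apply, Pi.smul_apply, Pi.zero_apply, rho_apply,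
      smul_eq_mul] at h1 h2 h3 h4 h5 ⊢
    have e : m₀ (T⁻¹ • q) - ↑n * m₁ (T⁻¹ • q) - (m₀ q - ↑n * m₁ q) +
        (m₀ (T⁻¹ • S⁻¹ • q) - ↑n * m₁ (T⁻¹ • S⁻¹ • q) - (m₀ (S⁻¹ • q) - ↑n * m₁ (S⁻¹ • q))) =
        (m₀ (T⁻¹ • q) - m₀ q + (m₀ (T⁻¹ • S⁻¹ • q) - m₀ (S⁻¹ • q))) -
        ↑n * ((m₁ (T⁻¹ • q) - m₁ q) + (m₁ (T⁻¹ • S⁻¹ • q) - m₁ (S⁻¹ • q))) := by ring
    rw [e, h1]
    have e2 : (m₁ (T⁻¹ • q) - m₁ q) + (m₁ (T⁻¹ • S⁻¹ • q) - m₁ (S⁻¹ • q)) = f q := by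
      rw [← h2, h4, h5]
      linarith
    rw [e2, sub_self]
  · have h1 := hcast q
    simp only [Pi.sub_apply, Pi.smul_apply, rho_apply, smul_eq_mul, Int.cast_sub, Int.cast_mul,
      Int.cast_natCast, ZMod.natCast_self, zero_mul, sub_zero] at h1 ⊢
    exact h1

end Fermat.Agent.RIB.MP
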