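/-
RIB-MP, piece MP-DIV / PAR (helper15): `stmtParLift_of : StmtLatLift → StmtParLift`.

For `n` prime to `6`, a parabolic character `χ : Γ → ℤ/n` of a subgroup `Γ ≤ SL₂(ℤ)` of finite
index containing `-1` is the reduction of a parabolic homomorphism `φ : Γ → ℤ`.

Proof.  `χ` kills the elements of finite order (`6` is invertible), so it has a `U`-normal form
`a'` (`S41.PD.exists_NF2`) and a `T`-normal form `b'` (`exists_NF1`); `a' = b' + ∂ξ`, hence
`ē := a' S = a' T = (T - 1) ξ` lies in `Z*(ℤ/n)`.  `StmtLatLift` gives `e ∈ Z*(ℤ)` over `ē`, and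
`exists_NF2_of_isZs` a parabolic `φ` with `U`-normal form `a`, `a S = e`.  The reduction of `a`
and `a'` are cocycles which agree at `S` and `T`, hence everywhere.
-/
import Fermat.Agent.RIB.MP.TorsDivPlan
import Fermat.Agent.S41.PD.Surj

set_option autoImplicit false

namespace Fermat.Agent.RIB.MP

open scoped MatrixGroups
open ModularGroup (S T)
open ModularCurve.Period (IsParabolicHom)
open Fermat.Agent.S41.PD

/-- a cocycle which vanishes at `S` and at `T` vanishes -/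
theorem ribmp_td_coc_eq_zero {R : Type*} [AddCommGroup R] {Q : Type*} [MulAction SL(2, ℤ) Q]
    {c : SL(2, ℤ) → Q → R} (hc : IsCoc c) (hS : c S = 0) (hT : c T = 0) : c = 0 := by
  have key : ∀ g : SL(2, ℤ), c g = (0 : Q → R) := by
    intro g
    have hg : g ∈ Subgroup.closure ({S, T} : Set SL(2, ℤ)) := by
      rw [SpecialLinearGroup.SL2Z_generators]; exact Subgroup.mem_top g
    induction hg using Subgroup.closure_induction with
    | mem x hx =>
      rcases hx with rfl | hx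
      · exact hS
      · rw [Set.mem_singleton_iff] at hx
        rw [hx]; exact hT
    | one => exact hc.map_one
    | mul x y _ _ hx hy => rw [hc, hx, hy, rho_zero, add_zero]
    | inv x _ hx => rw [hc.map_inv, hx, rho_zero, neg_zero]
  funext g
  exact key g

/-- reduction mod `n` of an integral cocycle -/
theorem ribmp_td_isCoc_cast {Q : Type*} [MulAction SL(2, ℤ) Q] (n : ℕ)
    {a : SL(2, ℤ) → Q → ℤ} (ha : IsCoc a) :
    IsCoc (fun g q => ((a g q : ℤ) : ZMod n)) := by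
  intro g h
  funext q
  show ((a (g * h) q : ℤ) : ZMod n) = ((a g q : ℤ) : ZMod n) + ((a h (g⁻¹ • q) : ℤ) : ZMod n)
  rw [ha g h, Pi.add_apply, rho_apply, Int.cast_add]

/-- the trace of `-1` -/
theorem ribmp_td_trace_neg_one :
    (((-1 : SL(2, ℤ)) : Matrix (Fin 2) (Fin 2) ℤ)).trace ^ 2 = 4 := by
  rw [Matrix.SpecialLinearGroup.coe_neg, Matrix.SpecialLinearGroup.coe_one, Matrix.trace_neg,
    Matrix.trace_one]
  simp

/-- **MP-DIV / PAR** from the lattice lemma. -/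
theorem stmtParLift_of (hL : StmtLatLift) : StmtParLift := by
  intro Γ _ hneg n hn χ hχ
  have hodd : Odd n := by
    rw [← Nat.not_even_iff_odd]
    intro h2
    have : 2 ∣ Nat.gcd n 6 := Nat.dvd_gcd h2.two_dvd (by norm_num)
    rw [Nat.Coprime] at hn
    rw [hn] at this
    exact absurd this (by norm_num)
  -- `χ` kills the elements of finite order
  have hx6 : ∀ γ : Γ, γ ^ 6 = 1 → χ (Additive.ofMul γ) = 0 := by
    intro γ hγ
    have h6 : (6 : ℕ) • χ (Additive.ofMul γ) = 0 := by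
      rw [← map_nsmul, ← ofMul_pow, hγ, ofMul_one, map_zero]
    have hu : IsUnit ((6 : ℕ) : ZMod n) := (ZMod.isUnit_iff_coprime 6 n).mpr hn.symm
    rw [nsmul_eq_mul] at h6
    exact (hu.mul_right_eq_zero).mp h6
  have hχ1 : χ (Additive.ofMul (⟨-1, hneg⟩ : Γ)) = 0 := hχ ⟨-1, hneg⟩ ribmp_td_trace_neg_one
  obtain ⟨a', ha', haU'⟩ := exists_NF2 χ hx6
  obtain ⟨b', hb', hbT'⟩ := exists_NF1 χ hχ
  have h1' : a' (-1) = 0 := ha'.map_neg_one hneg hχ1
  have haT' : a' T = a' S := ha'.1.map_T_of_map_U hneg h1' haU'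
  have hSS : a' S + rho S (a' S) = 0 := ha'.1.map_S_add h1'
  obtain ⟨ξ, hξ⟩ := hb'.exists_cobdry ha'
  have hZs : a' S = rho T ξ - ξ := by
    rw [← haT', hξ, Pi.add_apply, hbT', zero_add, cobdry_apply]
  obtain ⟨e, he, hee⟩ := hL (SL(2, ℤ) ⧸ Γ) (fun q => neg_one_smul_eq hneg q) n hodd (a' S) ξ
    hSS hZs
  obtain ⟨x, hx, a, hax, haU, haS⟩ := exists_NF2_of_isZs hneg e he
  have hx1 : x (Additive.ofMul (⟨-1, hneg⟩ : Γ)) = 0 := hx ⟨-1, hneg⟩ ribmp_td_trace_neg_one
  have h1 : a (-1) = 0 := hax.map_neg_one hneg hx1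
  have haT : a T = a S := hax.1.map_T_of_map_U hneg h1 haU
  refine ⟨x, hx, ?_⟩
  have hā := ribmp_td_isCoc_cast n hax.1
  have hd := ribmp_td_coc_eq_zero (hā.sub ha'.1)
    (by
      funext q
      show ((a S q : ℤ) : ZMod n) - a' S q = 0
      rw [haS, hee, sub_self])
    (by
      funext q
      show ((a T q : ℤ) : ZMod n) - a' T q = 0
      rw [haT, haS, haT', hee, sub_self])
  intro γ
  obtain ⟨γ, rfl⟩ : ∃ γ' : Γ, Additive.ofMul γ' = γ := ⟨Additive.toMul γ, rfl⟩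
  have h2 := congrFun (congrFun hd (γ : SL(2, ℤ))) ((1 : SL(2, ℤ)) : SL(2, ℤ) ⧸ Γ)
  have h3 : ((a (γ : SL(2, ℤ)) ((1 : SL(2, ℤ)) : SL(2, ℤ) ⧸ Γ) : ℤ) : ZMod n) -
      a' (γ : SL(2, ℤ)) ((1 : SL(2, ℤ)) : SL(2, ℤ) ⧸ Γ) = 0 := h2
  rw [hax.2 γ, ha'.2 γ, sub_eq_zero] at h3
  exact h3

end Fermat.Agent.RIB.MP
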