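/-
RIB-MP, piece MP-DIV (helper15): `stmtTorsDivMP_of : StmtParLift → StmtTorsDivMP`.

For `p ≥ 5` every `p`-power torsion class `y` of `J₀(M)(ℚ̄)` lies in the `p`-divisible part
`PDiv M p`.  Proof: `μ y` is a parabolic character of `Γ₀(M)` of order dividing `pᵃ`
(`STB.stb_p2_muMap_par`), hence (`StmtParLift`, `pᵃ` prime to `6`) of the form `e(φ / pᵃ)` with
`φ` integral parabolic; `MultData.surj_pDiv` gives `x ∈ PDiv` with `μ x = e(φ / pᵃ)`, and
`x = y` by the injectivity of `μ`.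
-/
import Fermat.Agent.RIB.MP.ParLift
import Fermat.Agent.STB.KillsJ

set_option autoImplicit false
set_option linter.style.haveILetI false

noncomputable section

namespace Fermat.Agent.RIB.MP

open scoped MatrixGroups
open ModularCurve ModularCurve.Period CongruenceSubgroup
open Fermat.Agent.ES Fermat.Agent.STB

/-- a character of order dividing `n` with values in `ℂˣ` is `e(χ / n)` for a character `χ` with
values in `ℤ/n` -/
theorem ribmp_td_zmod {G : Type*} [AddGroup G] {n : ℕ} (hn : n ≠ 0)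
    (ψ : G →+ Additive ℂˣ) (hψ : n • ψ = 0) :
    ∃ χ : G →+ ZMod n, ∀ (g : G) (k : ℤ), (k : ZMod n) = χ g → ψ g = expHom n k := by
  have hex : ∀ g : G, ∃ k : ℤ, expHom n k = ψ g := fun g =>
    stb_p2_expHom_surj hn (ψ g) (by rw [← AddMonoidHom.nsmul_apply, hψ, AddMonoidHom.zero_apply])
  choose κ hκ using hex
  have hiff : ∀ k l : ℤ, expHom n k = expHom n l ↔ ((k : ZMod n) = (l : ZMod n)) := by
    intro k l
    rw [← sub_eq_zero, ← map_sub, expHom_eq_zero_iff hn, ← sub_eq_zero (a := (k : ZMod n)),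
      ← Int.cast_sub, ZMod.intCast_zmod_eq_zero_iff_dvd]
  refine ⟨AddMonoidHom.mk' (fun g => ((κ g : ℤ) : ZMod n)) ?_, ?_⟩
  · intro g h
    rw [← Int.cast_add, ← hiff, map_add, hκ, hκ, hκ, map_add]
  · intro g k hk
    rw [← hκ g]
    exact ((hiff k (κ g)).mpr hk).symm

/-- **MP-DIV** from the lifting of parabolic characters. -/
theorem stmtTorsDivMP_of (hP : StmtParLift) : StmtTorsDivMP := by
  intro M p _ hp h5 y hy
  obtain ⟨a, ha⟩ := hy
  have hD := stb_p2_unifData M p hp.pos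
  have hm := multData_of_torsionUnifData hp.ne_zero hD
  have hyt : IsPPowerTorsion p y := ⟨a, ha⟩
  have hpar : IsParabolicHom (Gamma0 M) (muMap M y) := stb_p2_muMap_par M p hp.pos ha
  have htor : p ^ a • muMap M y = 0 := by
    rw [← hm.map_nsmul hyt, ha, hm.map_zero]
  have hn0 : p ^ a ≠ 0 := pow_ne_zero a hp.ne_zero
  obtain ⟨χ, hχ⟩ := ribmp_td_zmod hn0 (muMap M y) htor
  -- `χ` is parabolic
  have hχpar : IsParabolicHom (Gamma0 M) χ := by
    intro γ hγ
    obtain ⟨k, hk⟩ := ZMod.intCast_surjective (χ (Additive.ofMul γ))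
    have h1 := hχ (Additive.ofMul γ) k hk
    rw [hpar γ hγ] at h1
    rw [← hk]
    exact (ZMod.intCast_zmod_eq_zero_iff_dvd k (p ^ a)).mpr
      ((expHom_eq_zero_iff hn0 k).mp h1.symm)
  -- `pᵃ` is prime to `6`
  have hc2 : Nat.Coprime p 2 := (Nat.coprime_primes hp Nat.prime_two).mpr (by omega)
  have hc3 : Nat.Coprime p 3 := (Nat.coprime_primes hp Nat.prime_three).mpr (by omega)
  have hc6 : Nat.Coprime (p ^ a) 6 := by
    apply Nat.Coprime.pow_left
    have : (6 : ℕ) = 2 * 3 := rfl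
    rw [this]
    exact Nat.Coprime.mul_right hc2 hc3
  have hneg : (-1 : SL(2, ℤ)) ∈ Gamma0 M := by
    rw [Gamma0_mem]
    simp
  haveI : Fintype (SL(2, ℤ) ⧸ Gamma0 M) := Fintype.ofFinite _
  obtain ⟨φ, hφ, hφχ⟩ := hP (Gamma0 M) hneg (p ^ a) hc6 χ hχpar
  have hμ : muMap M y = (expHom (p ^ a)).comp φ := by
    refine DFunLike.ext _ _ fun γ => ?_
    rw [AddMonoidHom.comp_apply]
    exact hχ γ (φ γ) (hφχ γ)
  obtain ⟨x, hx, hxa, hμx⟩ := hm.surj_pDiv φ hφ a
  have hxy : x = y := hm.eq_of_eq (isPPowerTorsion_of_pow_smul hxa) hyt (by rw [hμx, hμ])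
  rw [← hxy]
  exact hx

end Fermat.Agent.RIB.MP

end
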