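/-
RIB-MP, piece MP-DIV (helper15, lattice lemma by helper30): for `p ≥ 5` the `p`-power torsion of
`J₀(M)(ℚ̄)` is `p`-divisible (`J₀(M)[p^∞] = PDiv M p`), UNCONDITIONAL.

* `stmtParLift   : StmtParLift`   (parabolic characters mod `n`, `n` prime to `6`, lift to `ℤ`);
* `stmtTorsDivMP : StmtTorsDivMP`;
* `ribmp_torsDiv` : the same, as a lemma.
-/
import Fermat.Agent.RIB.MP.TorsDiv
import Fermat.Agent.RIB.MP.LatLift

set_option autoImplicit false

namespace Fermat.Agent.RIB.MP

open ModularCurve Fermat.Agent.ES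

/-- **MP-DIV / PAR**, unconditional. -/
theorem stmtParLift : StmtParLift := stmtParLift_of stmtLatLift

/-- **MP-DIV**, unconditional. -/
theorem stmtTorsDivMP : StmtTorsDivMP := stmtTorsDivMP_of stmtParLift

/-- for `p ≥ 5` every `p`-power torsion class of `J₀(M)(ℚ̄)` lies in the `p`-divisible part -/
theorem ribmp_torsDiv (M p : ℕ) [NeZero M] (hp : p.Prime) (h5 : 5 ≤ p) (x : JZero M)
    (hx : IsPPowerTorsion p x) : x ∈ pDivTors p (JZero M) :=
  stmtTorsDivMP M p hp h5 x hx

end Fermat.Agent.RIB.MP
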