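/-
RIB-MP, piece MP-DIV (helper15): `stmtDivEis : StmtDivEis` (MP plan v2), from the strong form
`stmtTorsDivMP` (all the `p`-power torsion of `J₀(M)(ℚ̄)` is `p`-divisible, `p ≥ 5`).
-/
import Fermat.Agent.RIB.MP.Plan
import Fermat.Agent.RIB.MP.TorsDivFinal

set_option autoImplicit false

namespace Fermat.Agent.RIB.MP

open ModularCurve Fermat.Agent.ES

/-- `T_ℓ x − (ℓ + 1) x` is `p`-power torsion if `x` is -/
theorem ribmp_td_eisKill_tors {M p : ℕ} [NeZero M] (ℓ : Nat.Primes) {x : JZero M}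
    (hx : IsPPowerTorsion p x) : IsPPowerTorsion p (eisKill ℓ x) := by
  obtain ⟨a, ha⟩ := hx
  refine ⟨a, ?_⟩
  show p ^ a • (heckeOperatorBar M ℓ x - ((ℓ : ℕ) + 1) • x) = 0
  rw [nsmul_sub, ← map_nsmul, ha, map_zero, smul_comm, ha, smul_zero, sub_zero]

/-- **MP-DIV** (`StmtDivEis` of the MP plan v2), unconditional (the hypothesis `Squarefree M` is
not used). -/
theorem stmtDivEis : StmtDivEis :=
  fun M p _ _ hp h5 ℓ _ x hx =>
    stmtTorsDivMP M p hp h5 (eisKill ℓ x) (ribmp_td_eisKill_tors ℓ hx)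

end Fermat.Agent.RIB.MP
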