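import Fermat.Agent.RIB.MP.WHecke

/-!
# MP-HK and MP-W: the statements of the interface `RIB/MP/Plan.lean`

* `stmtRedHecke : StmtRedHecke` (from `ribmp_hk_redInf`, `ribmp_hk_redZero`);
* `stmtWHecke : StmtWHecke` (from `ribmp_w_hecke`, which holds for all classes).
-/

set_option autoImplicit false

namespace Fermat.Agent.RIB.MP

open ModularCurve AlgebraicCurve Fermat.Agent.ES Fermat.Agent.ES.G2

/-- **MP-HK.** -/
theorem stmtRedHecke : StmtRedHecke := by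
  intro M₁ q _ _ _ hq hqM p _ _ A _ x y ℓ hℓ
  have hℓM : ¬ (ℓ : ℕ) ∣ M₁ * q := fun h => hℓ (h.mul_right p)
  exact ⟨ribmp_hk_redInf A p ℓ hℓM, ribmp_hk_redZero hq hqM A p ℓ hℓM⟩

/-- **MP-W.** -/
theorem stmtWHecke : StmtWHecke := by
  intro M₁ q _ _ _ hq hqM ℓ hℓ x
  exact ribmp_w_hecke hq hqM ℓ hℓ x

end Fermat.Agent.RIB.MP
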