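/-
RIB-MP, piece PKG-OLD (helper15): a Hecke polynomial in the good variables which vanishes on the
eigen-systems of all normalised eigenforms of level `M` kills the `p`-divisible torsion
`PDiv M p` of `J₀(M)(ℚ̄)`.  (`R38.r38pkg_forms_eq_zero` + `STB.stb_p2_kills`.)
This is `StmtOldLevel` of the MP plan v2.
-/
import Fermat.Agent.R38.PkgForms
import Fermat.Agent.STB.KillsJ

set_option autoImplicit false
set_option linter.style.haveILetI false

noncomputable section

namespace Fermat.Agent.RIB.MP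

open ModularCurve Fermat.Agent.ES Fermat.Agent.STB

/-- **PKG-OLD** (MP plan v2, `StmtOldLevel`). -/
theorem ribmp_old_pdiv (M p : ℕ) [NeZero M] (hp : p.Prime) (t : HeckeAlg)
    (ht : t ∈ MvPolynomial.supported ℤ (goodPrimes M p)) (hK : Fermat.Agent.R38.KillsLevel M t)
    (y : PDiv M p) : (letI := pDivModule M p; t • y) = 0 := by
  have hG : ∀ ℓ ∈ goodPrimes M p, ¬ (ℓ : ℕ) ∣ M := fun ℓ hℓ h =>
    hℓ (Dvd.dvd.mul_right h p)
  exact stb_p2_kills hp t ht
    (Fermat.Agent.R38.r38pkg_forms_eq_zero (goodPrimes M p) hG t ht hK) y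

end Fermat.Agent.RIB.MP

end
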