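/-
RIB-MP, piece PKG-OLD (helper15): `stmtOldLevel : StmtOldLevel` (MP plan v2).
-/
import Fermat.Agent.RIB.MP.Plan
import Fermat.Agent.RIB.MP.OldLevel

set_option autoImplicit false

namespace Fermat.Agent.RIB.MP

/-- **PKG-OLD**, unconditional. -/
theorem stmtOldLevel : StmtOldLevel :=
  fun M p _ hp t ht hK y => ribmp_old_pdiv M p hp t ht hK y

end Fermat.Agent.RIB.MP
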