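/-
Row 37, Mazur's principle: MP-ATQ with the landed pieces plugged in (helper2).

`stmtAtQ_of_geom : StmtRed → StmtFrobToric → StmtAtQ`
(MP-HK = `stmtRedHecke` of helper85, PKG-OLD = `stmtOldLevel` and MP-DIV = `stmtDivEis` of
helper15 are on main).
-/
import Fermat.Agent.RIB.MP.AtQ
import Fermat.Agent.RIB.MP.HKFinal
import Fermat.Agent.RIB.MP.OldLevelFinal
import Fermat.Agent.RIB.MP.DivEis

set_option autoImplicit false

namespace Fermat.Agent.RIB.MP

/-- **MP-ATQ** from the two open geometric pieces MP-RED and MP-FROB. -/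
theorem stmtAtQ_of_geom (hRed : StmtRed) (hFrob : StmtFrobToric) : StmtAtQ :=
  stmtAtQOf hRed stmtRedHecke hFrob stmtOldLevel stmtDivEis

end Fermat.Agent.RIB.MP
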