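/-
Row 37, Mazur's principle, MP-FAC piece FAC-D (helper2): GENERIC CHART TRANSFER.

Setting of `UNIP/AbstractT.lean`: `A₀` a DVR with uniformizer `π`, `E = Frac A₀`, `F ⊇ E` a field,
charts `B_u = zchClosure {u}` (integral closure of `A₀[u]` in `F`), closed points
`AtPt π u` (maximal ideals of `B_u` containing `π`), local rings `atLoc 𝔫 = (B_u)_𝔫 ⊆ F`.

* `ribmp_fgl_facAt_mono`     : `O₁ ≤ O₂ → StbFacAt O₁ m y → StbFacAt O₂ m y`;
* `ribmp_fgl_residue_isIntegral` : the residue field of a closed point of the special fibre of a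
  chart is integral over the base ring (Zariski's lemma, as in `STB.stb_rational`);
* `ribmp_fgl_exists_pt`      : `u u' = 1`, `𝔫₂ : AtPt π u` with `u ∉ 𝔫₂` (the point lies on the
  overlap of the two charts) ⇒ `∃ 𝔫₁ : AtPt π u', atLoc 𝔫₁ = atLoc 𝔫₂`;
* `ribmp_fgl_exists_pt_inv`  : the case `u = t⁻¹`, `u' = t`;
* `ribmp_fgl_facAt_all`      : (F) at the closed points of the chart `t` and at the closed points
  of the chart `t⁻¹` containing `t⁻¹` (the cusps) ⇒ (F) at all `i`;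
* `ribmp_fgl_ufd_all`        : the same for `UniqueFactorizationMonoid (atO π t i)`.
-/
import Fermat.Agent.UNIP.AbstractT
import Fermat.Agent.STB.AbstractT2
import Fermat.Agent.STB.GluingChart
import Fermat.Agent.UNIP.NodesCuspPoly

set_option autoImplicit false
set_option linter.unusedSectionVars false
set_option linter.unusedVariables false
set_option linter.style.haveILetI false

noncomputable section

namespace Fermat.Agent.RIB.MP

open Polynomial IntermediateField Fermat.Agent.INJ Fermat.Agent.UNIP Fermat.Agent.STB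

section Mono

variable {F : Type*} [Field F]

/-- (F) is monotone in the local ring -/
theorem ribmp_fgl_facAt_mono {O₁ O₂ : Subring F} (h : O₁ ≤ O₂) {m : ℕ} {y : F}
    (hy : StbFacAt O₁ m y) : StbFacAt O₂ m y := by
  obtain ⟨γ, ε, hε, hy⟩ := hy
  exact ⟨γ, Subring.inclusion h ε, hε.map (Subring.inclusion h), hy⟩

theorem ribmp_fgl_facAt_of_eq {O₁ O₂ : Subring F} (h : O₁ = O₂) {m : ℕ} {y : F}
    (hy : StbFacAt O₁ m y) : StbFacAt O₂ m y :=
  ribmp_fgl_facAt_mono h.le hy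

theorem ribmp_fgl_ufd_of_eq {O₁ O₂ : Subring F} (h : O₁ = O₂)
    (hy : UniqueFactorizationMonoid O₁) : UniqueFactorizationMonoid O₂ := by
  subst h; exact hy

end Mono

section Residue

variable {R F : Type*} [CommRing R] [IsLocalRing R] [Field F] [Algebra R F]

/-- **The residue field of a closed point of the special fibre of a chart is integral over the
base** (`S` integral over `R[u]`, `𝔫` a maximal ideal of `S` containing `𝔪_R`). -/
theorem ribmp_fgl_residue_isIntegral (S : Subalgebra R F) {u : F}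
    (hu : u ∈ S) (hS : ∀ b ∈ S, IsIntegral (Algebra.adjoin R {u}) b)
    (𝔫 : Ideal S) [h𝔫 : 𝔫.IsMaximal]
    (h𝔪 : ∀ a ∈ IsLocalRing.maximalIdeal R, algebraMap R S a ∈ 𝔫) :
    ((Ideal.Quotient.mk 𝔫).comp (algebraMap R S)).IsIntegral := by
  letI : Field (S ⧸ 𝔫) := Ideal.Quotient.field 𝔫
  set f : R →+* S ⧸ 𝔫 := (Ideal.Quotient.mk 𝔫).comp (algebraMap R S) with hf
  set g : IsLocalRing.ResidueField R →+* S ⧸ 𝔫 :=
    Ideal.Quotient.lift (IsLocalRing.maximalIdeal R) f (fun a ha => by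
      rw [hf, RingHom.comp_apply]
      exact Ideal.Quotient.eq_zero_iff_mem.mpr (h𝔪 a ha)) with hg
  have hgf : ∀ a : R, g (IsLocalRing.residue R a) = f a := fun a => rfl
  set uS : S := ⟨u, hu⟩ with huS
  set ev : (IsLocalRing.ResidueField R)[X] →+* S ⧸ 𝔫 :=
    Polynomial.eval₂RingHom g (Ideal.Quotient.mk 𝔫 uS) with hev
  have hcomp : ev.comp (Polynomial.mapRingHom (IsLocalRing.residue R)) =
      (Ideal.Quotient.mk 𝔫).comp ((aeval uS : R[X] →ₐ[R] S) : R[X] →+* S) := by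
    apply Polynomial.ringHom_ext
    · intro a
      simp only [RingHom.comp_apply, Polynomial.coe_mapRingHom, Polynomial.map_C, hev,
        Polynomial.coe_eval₂RingHom, Polynomial.eval₂_C, hgf, hf, RingHom.coe_coe,
        Polynomial.aeval_C]
    · simp only [RingHom.comp_apply, Polynomial.coe_mapRingHom, Polynomial.map_X, hev,
        Polynomial.coe_eval₂RingHom, Polynomial.eval₂_X, RingHom.coe_coe, Polynomial.aeval_X]
  have hint : ev.IsIntegral := by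
    intro x
    obtain ⟨c, rfl⟩ := Ideal.Quotient.mk_surjective x
    obtain ⟨p, hp, hpc⟩ := (cusp_isIntegral_adjoin_iff (A := R) u (c : F)).mp (hS c c.2)
    refine ⟨p.map (Polynomial.mapRingHom (IsLocalRing.residue R)), hp.map _, ?_⟩
    rw [Polynomial.eval₂_map, hcomp, ← Polynomial.hom_eval₂]
    have h0 : p.eval₂ ((aeval uS : R[X] →ₐ[R] S) : R[X] →+* S) c = 0 := by
      apply Subtype.val_injective
      have h1 := Polynomial.hom_eval₂ p ((aeval uS : R[X] →ₐ[R] S) : R[X] →+* S)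
        (S.val : S →+* F) c
      have h2 : (S.val : S →+* F).comp ((aeval uS : R[X] →ₐ[R] S) : R[X] →+* S) =
          ((aeval u : R[X] →ₐ[R] F) : R[X] →+* F) := by
        apply Polynomial.ringHom_ext
        · intro a
          simp
        · simp [huS]
      rw [h2] at h1
      have h3 : (S.val : S →+* F) c = (c : F) := rfl
      rw [h3, hpc] at h1
      rw [ZeroMemClass.coe_zero]
      exact h1
    rw [h0, map_zero]
  haveI hmax : (RingHom.ker ev).IsMaximal := by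
    rw [RingHom.ker_eq_comap_bot]
    haveI : (⊥ : Ideal (S ⧸ 𝔫)).IsMaximal := Ideal.bot_isMaximal
    exact Ideal.isMaximal_comap_of_isIntegral_of_isMaximal' ev hint ⊥
  have hJ := Polynomial.quotient_mk_comp_C_isIntegral_of_isJacobsonRing (RingHom.ker ev)
  have hlift : (RingHom.kerLift ev).IsIntegral := by
    have h1 : ((RingHom.kerLift ev).comp (Ideal.Quotient.mk (RingHom.ker ev))).IsIntegral := by
      have : (RingHom.kerLift ev).comp (Ideal.Quotient.mk (RingHom.ker ev)) = ev := by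
        ext x <;> simp [RingHom.kerLift_mk]
      rw [this]
      exact hint
    exact RingHom.IsIntegral.tower_top _ _ h1
  have hgint : g.IsIntegral := by
    have h1 := hJ.trans _ _ hlift
    have h2 : (RingHom.kerLift ev).comp ((Ideal.Quotient.mk (RingHom.ker ev)).comp C) = g := by
      ext x
      simp [RingHom.kerLift_mk, hev]
    rw [h2] at h1
    exact h1
  have hres : (IsLocalRing.residue R).IsIntegral :=
    RingHom.isIntegral_of_surjective _ IsLocalRing.residue_surjective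
  have hfg : f = g.comp (IsLocalRing.residue R) := RingHom.ext fun a => (hgf a).symm
  rw [hfg]
  exact hres.trans _ _ hgint

end Residue

section Glue

variable {A₀ E F : Type*} [CommRing A₀] [IsDomain A₀] [IsDiscreteValuationRing A₀]
  [Field E] [Algebra A₀ E] [IsFractionRing A₀ E] [CharZero E]
  [Field F] [Algebra E F] [Algebra A₀ F] [IsScalarTower A₀ E F]
  {π : A₀}

/-- the generator of a chart, as an element of the chart -/
def ribmpFglGen (u : F) : ↥(zchClosure (A₀ := A₀) ({u} : Set F)) :=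
  ⟨u, mem_zchClosure.mpr (isIntegral_algebraMap
    (x := (⟨u, Algebra.subset_adjoin (Set.mem_singleton u)⟩ :
      ↥(Algebra.adjoin A₀ ({u} : Set F))))) ⟩

@[simp] theorem ribmpFglGen_coe (u : F) : ((ribmpFglGen (A₀ := A₀) u : _) : F) = u := rfl

/-- elements of the chart `u'` lie in the local ring of a closed point of the chart `u` which
does not contain `u` (`u u' = 1`) -/
theorem ribmp_fgl_chart_mem {u u' : F} (huu' : u * u' = 1) (𝔫 : AtPt (F := F) π u)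
    (h𝔫 : ribmpFglGen (A₀ := A₀) u ∉ 𝔫.1)
    {b : F} (hb : IsIntegral (Algebra.adjoin A₀ ({u'} : Set F)) b) : b ∈ atLoc 𝔫 := by
  have h1 : IsIntegral (Algebra.adjoin A₀ ({u, u'} : Set F)) b :=
    zch_isIntegral_mono (Algebra.adjoin_mono (by
      intro x hx
      rw [Set.mem_singleton_iff] at hx
      rw [hx]
      exact Set.mem_insert_of_mem _ rfl)) hb
  obtain ⟨k, hk⟩ := zch_exists_pow_mul_isIntegral huu' h1
  haveI := 𝔫.2.1.isPrime
  refine ⟨⟨u ^ k * b, mem_zchClosure.mpr hk⟩, ribmpFglGen (A₀ := A₀) u ^ k,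
    fun h => h𝔫 (Ideal.IsPrime.mem_of_pow_mem inferInstance k h), ?_⟩
  rfl

/-- elements of the chart `u` lie in the local rings of its closed points -/
theorem ribmp_fgl_self_mem {u : F} (𝔫 : AtPt (F := F) π u)
    (b : ↥(zchClosure (A₀ := A₀) ({u} : Set F))) : (b : F) ∈ atLoc 𝔫 := by
  haveI := 𝔫.2.1.isPrime
  refine ⟨b, 1, fun h => ?_, ?_⟩
  · exact (inferInstance : 𝔫.1.IsPrime).ne_top ((Ideal.eq_top_iff_one 𝔫.1).mpr h)
  · rw [map_one, one_mul]
    rfl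

/-- `b / s` with `b ∈ 𝔫` lies in the maximal ideal of the local ring -/
theorem ribmp_fgl_mem_max {u : F} (𝔫 : AtPt (F := F) π u)
    [IsLocalRing (atLoc 𝔫)] (x : atLoc 𝔫)
    {b s : ↥(zchClosure (A₀ := A₀) ({u} : Set F))} (hb : b ∈ 𝔫.1) (hs : s ∉ 𝔫.1)
    (h : (s : F) * (x : F) = (b : F)) : x ∈ IsLocalRing.maximalIdeal (atLoc 𝔫) := by
  haveI := 𝔫.2.1.isPrime
  haveI hloc : IsLocalRing (ls_localSubring (F := F) 𝔫.1) := ‹IsLocalRing (atLoc 𝔫)›
  exact stb_gc_mem_maximalIdeal (F := F) Subtype.val_injective 𝔫.1 x hb hs h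

/-- an element of the chart outside `𝔫` is a unit of the local ring -/
theorem ribmp_fgl_isUnit {u : F} (𝔫 : AtPt (F := F) π u)
    {s : ↥(zchClosure (A₀ := A₀) ({u} : Set F))} (hs : s ∉ 𝔫.1) :
    ∃ v : F, v ∈ atLoc 𝔫 ∧ (s : F) * v = 1 := by
  haveI := 𝔫.2.1.isPrime
  have h1 : (1 : ↥(zchClosure (A₀ := A₀) ({u} : Set F))) ∉ 𝔫.1 := fun h =>
    (inferInstance : 𝔫.1.IsPrime).ne_top ((Ideal.eq_top_iff_one 𝔫.1).mpr h)
  have hs0 : (s : F) ≠ 0 := by
    intro h0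
    apply hs
    have : s = 0 := Subtype.ext h0
    rw [this]
    exact 𝔫.1.zero_mem
  refine ⟨(s : F)⁻¹, ⟨1, s, hs, ?_⟩, mul_inv_cancel₀ hs0⟩
  show (s : F) * (s : F)⁻¹ = ((1 : ↥(zchClosure (A₀ := A₀) ({u} : Set F))) : F)
  rw [mul_inv_cancel₀ hs0]
  rfl

/-- the inclusion of the chart `u'` in the local ring of `𝔫` -/
def ribmpFglInc {u u' : F} (huu' : u * u' = 1) (𝔫 : AtPt (F := F) π u)
    (h𝔫 : ribmpFglGen (A₀ := A₀) u ∉ 𝔫.1) :
    ↥(zchClosure (A₀ := A₀) ({u'} : Set F)) →+* ↥(atLoc 𝔫) :=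
  RingHom.codRestrict ((zchClosure (A₀ := A₀) ({u'} : Set F)).val :
      ↥(zchClosure (A₀ := A₀) ({u'} : Set F)) →+* F) (atLoc 𝔫)
    (fun b => ribmp_fgl_chart_mem huu' 𝔫 h𝔫 (mem_zchClosure.mp b.2))

@[simp] theorem ribmpFglInc_coe {u u' : F} (huu' : u * u' = 1) (𝔫 : AtPt (F := F) π u)
    (h𝔫 : ribmpFglGen (A₀ := A₀) u ∉ 𝔫.1) (b : ↥(zchClosure (A₀ := A₀) ({u'} : Set F))) :
    ((ribmpFglInc huu' 𝔫 h𝔫 b : atLoc 𝔫) : F) = (b : F) := rfl

/-- the residue field of `atLoc 𝔫` is integral over the chart `u'` -/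
theorem ribmp_fgl_inc_isIntegral (hπ : Irreducible π) {u u' : F} (huu' : u * u' = 1)
    (𝔫 : AtPt (F := F) π u) (h𝔫 : ribmpFglGen (A₀ := A₀) u ∉ 𝔫.1)
    [IsLocalRing (atLoc 𝔫)] :
    ((IsLocalRing.residue (atLoc 𝔫)).comp (ribmpFglInc huu' 𝔫 h𝔫)).IsIntegral := by
  classical
  haveI hp2 := 𝔫.2.1.isPrime
  haveI hmax2 : 𝔫.1.IsMaximal := 𝔫.2.1
  have h1 : (1 : ↥(zchClosure (A₀ := A₀) ({u} : Set F))) ∉ 𝔫.1 := fun h =>
    hp2.ne_top ((Ideal.eq_top_iff_one 𝔫.1).mpr h)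
  have hres := ribmp_fgl_residue_isIntegral (R := A₀) (zchClosure (A₀ := A₀) ({u} : Set F))
    (u := u) (ribmpFglGen (A₀ := A₀) u).2 (fun b hb => mem_zchClosure.mp hb) 𝔫.1
    (fun a ha => by
      rw [hπ.maximalIdeal_eq, Ideal.mem_span_singleton] at ha
      obtain ⟨c, rfl⟩ := ha
      rw [map_mul]
      exact 𝔫.1.mul_mem_right _ 𝔫.2.2)
  intro z
  obtain ⟨x, rfl⟩ := IsLocalRing.residue_surjective z
  obtain ⟨b, s, hs, hx⟩ := x.2
  replace hx : (s : F) * (x : F) = (b : F) := hx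
  obtain ⟨s', i, hi, hsi⟩ := hmax2.exists_inv hs
  have hsiF : (s' : F) * (s : F) + (i : F) = 1 := by
    have := congrArg (fun z : ↥(zchClosure (A₀ := A₀) ({u} : Set F)) => (z : F)) hsi
    simpa using this
  set c : ↥(zchClosure (A₀ := A₀) ({u} : Set F)) := b * s' with hc
  have hcF : (c : F) = (b : F) * (s' : F) := rfl
  set cO : atLoc 𝔫 := ⟨(c : F), ribmp_fgl_self_mem 𝔫 c⟩ with hcO
  have hxc : x - cO ∈ IsLocalRing.maximalIdeal (atLoc 𝔫) := by
    refine ribmp_fgl_mem_max 𝔫 _ (b := b * i) (s := s) (𝔫.1.mul_mem_left _ hi) hs ?_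
    show (s : F) * ((x : F) - (c : F)) = (b : F) * (i : F)
    rw [mul_sub, hx, hcF]
    linear_combination (-(b : F)) * hsiF
  have hρ : IsLocalRing.residue (atLoc 𝔫) x = IsLocalRing.residue (atLoc 𝔫) cO :=
    Ideal.Quotient.eq.mpr hxc
  obtain ⟨p, hp, hpc⟩ := hres (Ideal.Quotient.mk 𝔫.1 c)
  rw [← Polynomial.hom_eval₂, Ideal.Quotient.eq_zero_iff_mem] at hpc
  set e : ↥(zchClosure (A₀ := A₀) ({u} : Set F)) :=
    p.eval₂ (algebraMap A₀ ↥(zchClosure (A₀ := A₀) ({u} : Set F))) c with he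
  refine ⟨p.map (algebraMap A₀ ↥(zchClosure (A₀ := A₀) ({u'} : Set F))), hp.map _, ?_⟩
  rw [Polynomial.eval₂_map, hρ]
  set j : A₀ →+* atLoc 𝔫 := (ribmpFglInc huu' 𝔫 h𝔫).comp
    (algebraMap A₀ ↥(zchClosure (A₀ := A₀) ({u'} : Set F))) with hj
  have hjj : ((IsLocalRing.residue (atLoc 𝔫)).comp (ribmpFglInc huu' 𝔫 h𝔫)).comp
      (algebraMap A₀ ↥(zchClosure (A₀ := A₀) ({u'} : Set F))) =
      (IsLocalRing.residue (atLoc 𝔫)).comp j := rfl
  rw [hjj, ← Polynomial.hom_eval₂]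
  rw [IsLocalRing.residue_eq_zero_iff]
  refine ribmp_fgl_mem_max 𝔫 _ (b := e) (s := 1) hpc h1 ?_
  rw [OneMemClass.coe_one, one_mul]
  -- both sides are `p` evaluated at `c` in `F`
  have e1 := Polynomial.hom_eval₂ p j ((atLoc 𝔫).subtype : atLoc 𝔫 →+* F) cO
  have e2 := Polynomial.hom_eval₂ p (algebraMap A₀ ↥(zchClosure (A₀ := A₀) ({u} : Set F)))
    ((zchClosure (A₀ := A₀) ({u} : Set F)).val :
      ↥(zchClosure (A₀ := A₀) ({u} : Set F)) →+* F) c
  have e3 : ((atLoc 𝔫).subtype : atLoc 𝔫 →+* F).comp j =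
      ((zchClosure (A₀ := A₀) ({u} : Set F)).val :
        ↥(zchClosure (A₀ := A₀) ({u} : Set F)) →+* F).comp
        (algebraMap A₀ ↥(zchClosure (A₀ := A₀) ({u} : Set F))) := by
    ext a
    rfl
  have e4 : ((atLoc 𝔫).subtype : atLoc 𝔫 →+* F) cO =
      ((zchClosure (A₀ := A₀) ({u} : Set F)).val :
        ↥(zchClosure (A₀ := A₀) ({u} : Set F)) →+* F) c := rfl
  rw [e3, e4, ← e2] at e1
  exact e1

/-- **FAC-D, chart transfer.**  `u u' = 1`; a closed point `𝔫₂` of the special fibre of the chart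
`u` which does not contain `u` is a closed point `𝔫₁` of the chart `u'`, with the same local
ring. -/
theorem ribmp_fgl_exists_pt (hπ : Irreducible π) {u u' : F} (huu' : u * u' = 1)
    (𝔫₂ : AtPt (F := F) π u) (h𝔫 : ribmpFglGen (A₀ := A₀) u ∉ 𝔫₂.1) :
    ∃ 𝔫₁ : AtPt (F := F) π u', atLoc 𝔫₁ = atLoc 𝔫₂ := by
  classical
  haveI hp2 := 𝔫₂.2.1.isPrime
  haveI hmax2 : 𝔫₂.1.IsMaximal := 𝔫₂.2.1
  haveI hloc : IsLocalRing (atLoc 𝔫₂) :=
    ls_localSubring_isLocalRing Subtype.val_injective 𝔫₂.1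
  have h1 : (1 : ↥(zchClosure (A₀ := A₀) ({u} : Set F))) ∉ 𝔫₂.1 := fun h =>
    hp2.ne_top ((Ideal.eq_top_iff_one 𝔫₂.1).mpr h)
  set ι' := ribmpFglInc huu' 𝔫₂ h𝔫 with hι'
  set φ := (IsLocalRing.residue (atLoc 𝔫₂)).comp ι' with hφ
  have hφint : φ.IsIntegral := ribmp_fgl_inc_isIntegral hπ huu' 𝔫₂ h𝔫
  set 𝔫₁ : Ideal ↥(zchClosure (A₀ := A₀) ({u'} : Set F)) :=
    Ideal.comap ι' (IsLocalRing.maximalIdeal (atLoc 𝔫₂)) with h𝔫₁
  have hker : Ideal.comap φ ⊥ = 𝔫₁ := by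
    ext b
    rw [Ideal.mem_comap, Ideal.mem_bot, hφ, RingHom.comp_apply,
      IsLocalRing.residue_eq_zero_iff, h𝔫₁, Ideal.mem_comap]
  have hmax1 : 𝔫₁.IsMaximal := by
    rw [← hker]
    haveI : (⊥ : Ideal (IsLocalRing.ResidueField (atLoc 𝔫₂))).IsMaximal := Ideal.bot_isMaximal
    exact Ideal.isMaximal_comap_of_isIntegral_of_isMaximal' φ hφint ⊥
  have hπ1 : algebraMap A₀ ↥(zchClosure (A₀ := A₀) ({u'} : Set F)) π ∈ 𝔫₁ := by
    rw [h𝔫₁, Ideal.mem_comap]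
    refine ribmp_fgl_mem_max 𝔫₂ _
      (b := algebraMap A₀ ↥(zchClosure (A₀ := A₀) ({u} : Set F)) π) (s := 1) 𝔫₂.2.2 h1 ?_
    rw [OneMemClass.coe_one, one_mul]
    rfl
  refine ⟨⟨𝔫₁, hmax1, hπ1⟩, ?_⟩
  haveI hp1 : 𝔫₁.IsPrime := hmax1.isPrime
  apply le_antisymm
  · intro x hx
    obtain ⟨b', s', hs', hx⟩ := hx
    replace hx : (s' : F) * x = (b' : F) := hx
    have hs'' : ι' s' ∉ IsLocalRing.maximalIdeal (atLoc 𝔫₂) := fun h => hs' h
    have hunit : IsUnit (ι' s') := by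
      by_contra h
      exact hs'' ((IsLocalRing.mem_maximalIdeal _).2 h)
    obtain ⟨v, hv⟩ := hunit.exists_right_inv
    have hvF : (s' : F) * (v : F) = 1 := congrArg Subtype.val hv
    have hs0 : (s' : F) ≠ 0 := fun h0 => by
      rw [h0, zero_mul] at hvF
      exact zero_ne_one hvF
    have hxF : x = (v : F) * (b' : F) := by
      have : (s' : F) * x = (s' : F) * ((v : F) * (b' : F)) := by
        rw [hx, ← mul_assoc, hvF, one_mul]
      exact mul_left_cancel₀ hs0 this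
    rw [hxF]
    exact (atLoc 𝔫₂).mul_mem v.2 (ι' b').2
  · intro x hx
    obtain ⟨b, s, hs, hx⟩ := hx
    replace hx : (s : F) * x = (b : F) := hx
    have hu'u : u' * u = 1 := by rw [mul_comm]; exact huu'
    have hmono : Algebra.adjoin A₀ ({u} : Set F) ≤ Algebra.adjoin A₀ ({u', u} : Set F) :=
      Algebra.adjoin_mono (by
        intro y hy
        rw [Set.mem_singleton_iff] at hy
        rw [hy]
        exact Set.mem_insert_of_mem _ rfl)
    obtain ⟨k₁, hk₁⟩ := zch_exists_pow_mul_isIntegral hu'u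
      (zch_isIntegral_mono hmono (mem_zchClosure.mp b.2))
    obtain ⟨k₂, hk₂⟩ := zch_exists_pow_mul_isIntegral hu'u
      (zch_isIntegral_mono hmono (mem_zchClosure.mp s.2))
    set g' := ribmpFglGen (A₀ := A₀) u' with hg'
    set b₁ : ↥(zchClosure (A₀ := A₀) ({u'} : Set F)) :=
      g' ^ k₂ * ⟨u' ^ k₁ * (b : F), mem_zchClosure.mpr hk₁⟩ with hb₁
    set s₁ : ↥(zchClosure (A₀ := A₀) ({u'} : Set F)) :=
      g' ^ k₁ * ⟨u' ^ k₂ * (s : F), mem_zchClosure.mpr hk₂⟩ with hs₁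
    have hb₁F : (b₁ : F) = u' ^ (k₁ + k₂) * (b : F) := by
      show u' ^ k₂ * (u' ^ k₁ * (b : F)) = _
      rw [pow_add]; ring
    have hs₁F : (s₁ : F) = u' ^ (k₁ + k₂) * (s : F) := by
      show u' ^ k₁ * (u' ^ k₂ * (s : F)) = _
      rw [pow_add]; ring
    refine ⟨b₁, s₁, ?_, ?_⟩
    · -- `s₁` is a unit of `atLoc 𝔫₂`
      intro hmem
      have hmem' : ι' s₁ ∈ IsLocalRing.maximalIdeal (atLoc 𝔫₂) := hmem
      obtain ⟨v, hvO, hv⟩ := ribmp_fgl_isUnit 𝔫₂ hs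
      have hgO : u ^ (k₁ + k₂) ∈ atLoc 𝔫₂ :=
        ribmp_fgl_self_mem 𝔫₂ (ribmpFglGen (A₀ := A₀) u ^ (k₁ + k₂))
      have hunit : IsUnit (ι' s₁) := by
        refine IsUnit.of_mul_eq_one ⟨u ^ (k₁ + k₂) * v, (atLoc 𝔫₂).mul_mem hgO hvO⟩ ?_
        apply Subtype.ext
        show (s₁ : F) * (u ^ (k₁ + k₂) * v) = 1
        rw [hs₁F]
        have : u' ^ (k₁ + k₂) * (s : F) * (u ^ (k₁ + k₂) * v) =
            (u' * u) ^ (k₁ + k₂) * ((s : F) * v) := by
          rw [mul_pow]; ring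
        rw [this, hu'u, one_pow, one_mul, hv]
      exact (IsLocalRing.mem_maximalIdeal _).1 hmem' hunit
    · show (s₁ : F) * x = (b₁ : F)
      rw [hs₁F, hb₁F, mul_assoc, hx]

/-- **FAC-D** for the charts `t⁻¹`, `t`. -/
theorem ribmp_fgl_exists_pt_inv (hπ : Irreducible π) {t : F} (ht : t ≠ 0)
    (𝔫₂ : AtPt (F := F) π t⁻¹) (h𝔫 : ribmpFglGen (A₀ := A₀) t⁻¹ ∉ 𝔫₂.1) :
    ∃ 𝔫₁ : AtPt (F := F) π t, atLoc 𝔫₁ = atLoc 𝔫₂ :=
  ribmp_fgl_exists_pt hπ (inv_mul_cancel₀ ht) 𝔫₂ h𝔫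

/-- **FAC-D, assembly for (F).**  (F) at the closed points of the chart `t` and at the closed
points of the chart `t⁻¹` containing `t⁻¹` (the cusps) gives (F) at all closed points of the two
charts. -/
theorem ribmp_fgl_facAt_all (hπ : Irreducible π) {t : F} (ht : t ≠ 0) {m : ℕ} {y : F}
    (h₁ : ∀ 𝔫 : AtPt (F := F) π t, StbFacAt (atLoc 𝔫) m y)
    (h₂ : ∀ 𝔫 : AtPt (F := F) π t⁻¹, ribmpFglGen (A₀ := A₀) t⁻¹ ∈ 𝔫.1 →
      StbFacAt (atLoc 𝔫) m y) :
    ∀ i : AtPt (F := F) π t ⊕ AtPt (F := F) π t⁻¹, StbFacAt (atO π t i) m y := by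
  rintro (𝔫 | 𝔫)
  · exact h₁ 𝔫
  · by_cases h : ribmpFglGen (A₀ := A₀) t⁻¹ ∈ 𝔫.1
    · exact h₂ 𝔫 h
    · obtain ⟨𝔫₁, h𝔫₁⟩ := ribmp_fgl_exists_pt_inv hπ ht 𝔫 h
      exact ribmp_fgl_facAt_of_eq h𝔫₁ (h₁ 𝔫₁)

/-- **FAC-D, assembly for the UFD property.** -/
theorem ribmp_fgl_ufd_all (hπ : Irreducible π) {t : F} (ht : t ≠ 0)
    (h₁ : ∀ 𝔫 : AtPt (F := F) π t, UniqueFactorizationMonoid (atLoc 𝔫))
    (h₂ : ∀ 𝔫 : AtPt (F := F) π t⁻¹, ribmpFglGen (A₀ := A₀) t⁻¹ ∈ 𝔫.1 →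
      UniqueFactorizationMonoid (atLoc 𝔫)) :
    ∀ i : AtPt (F := F) π t ⊕ AtPt (F := F) π t⁻¹,
      UniqueFactorizationMonoid (atO π t i) := by
  rintro (𝔫 | 𝔫)
  · exact h₁ 𝔫
  · by_cases h : ribmpFglGen (A₀ := A₀) t⁻¹ ∈ 𝔫.1
    · exact h₂ 𝔫 h
    · obtain ⟨𝔫₁, h𝔫₁⟩ := ribmp_fgl_exists_pt_inv hπ ht 𝔫 h
      exact ribmp_fgl_ufd_of_eq h𝔫₁ (h₁ 𝔫₁)

end Glue

end Fermat.Agent.RIB.MP

end
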