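/-
Row 37, Mazur's principle, piece MP-FAC / FAC-C (helper81): `StmtFacCusp` of `RIB/MP/FacTop.lean`
(factoriality at the cusps), proved.  The proof does not use rigidity: `4 ∣ M`, `q ≠ 2` only serve
to discharge (`q = 2 → 3 ∣ M`), (`q = 3 → 2 ∣ M`).
-/
import Fermat.Agent.RIB.MP.FacCusp
import Fermat.Agent.RIB.MP.FacTop

set_option autoImplicit false
set_option linter.style.haveILetI false
set_option linter.unusedSectionVars false
set_option linter.unusedVariables false
set_option linter.style.longLine false
set_option synthInstance.maxHeartbeats 400000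
set_option maxHeartbeats 1000000

namespace Fermat.Agent.RIB.MP

open ModularCurve Polynomial IntermediateField Fermat.Agent.INJ Fermat.Agent.AL AlgebraicCurve
open Fermat.Agent.ES Fermat.Agent.ES.G2 Fermat.Agent.STB Fermat.Agent.UNIP Fermat.Agent.S36

/-- **FAC-C**: the local rings at the cusps are factorial. -/
theorem ribmp_fcu_stmtFacCusp : StmtFacCusp := by
  intro M q _ _ _ hq hqM hq2 h4 A hA _ π hπ 𝔫 hT
  exact ribmp_fcu_ufd_base hπ hq hqM hA (fun h => absurd h hq2)
    (fun _ => dvd_trans (by norm_num) h4) 𝔫 hT

end Fermat.Agent.RIB.MP
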