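/-
Row 37, Mazur's principle, piece MP-FAC, part FAC-E (E-deg) (helper49): the degree of the
inclusion of function fields `F_{M q}(K) ⊆ F_{4 M q}(K)` is prime to every `m` prime to `6`.

`K` a field of characteristic `0`.  By Igusa's theorem on degrees
(`S28.relfinrank_full_eq_dedekindPsi`) `[F_N(K) : K(j)] = ψ(N)`, so for `N ∣ N'` the tower
`K(j) ⊆ F_N ⊆ F_{N'}` gives `ψ(N) · [F_{N'} : F_N] = ψ(N')`.  For `N' = 4 N` (resp. `9 N`) one
has `ψ(N') = 6 ψ(N)` or `4 ψ(N)` (resp. `12 ψ(N)` or `9 ψ(N)`), and in general for `N' = d N`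
every prime factor of `[F_{dN} : F_N]` divides `d · ∏_{ℓ ∣ d} (ℓ + 1)`.

* `ribmp_fdeg_psi_four`, `ribmp_fdeg_psi_nine` : `ψ(4 N)`, `ψ(9 N)`;
* `ribmp_fdeg_relfinrank_mul` : `ψ(N) · [F_{N'} : F_N] = ψ(N')` (`N ∣ N'`);
* `ribmp_fdeg_stbDeg_eq` : `stbDeg (inclusion h) = relfinrank`;
* `ribmp_fdeg_four`, `ribmp_fdeg_nine` : the degree is `4` or `6` (resp. `9` or `12`);
* `ribmp_fdeg_coprime` : **(E-deg)** `Coprime m (stbDeg (inclusion h))` for `M q ⊆ M 4 q`;
* `ribmp_fdeg_coprime_nine` : the twin for `M q ⊆ M 9 q`.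
-/
import Fermat.Agent.ES.G2.HeckeDeg
import Fermat.Agent.S20.Index
import Fermat.Agent.STB.NormSquare

set_option autoImplicit false
set_option linter.unusedSectionVars false
set_option linter.unusedVariables false
set_option linter.style.longLine false

noncomputable section

namespace Fermat.Agent.RIB.MP

open ModularCurve IntermediateField Fermat.Agent.STB

/-- `ψ(4 N) = 6 ψ(N)` for `N` odd, `4 ψ(N)` for `N` even. -/
theorem ribmp_fdeg_psi_four {N : ℕ} (hN : N ≠ 0) :
    dedekindPsi (4 * N) = 6 * dedekindPsi N ∨ dedekindPsi (4 * N) = 4 * dedekindPsi N := by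
  have e : 4 * N = 2 * (2 * N) := by ring
  have h1 : dedekindPsi (2 * (2 * N)) = 2 * dedekindPsi (2 * N) :=
    Fermat.Agent.S20.dedekindPsi_mul_of_dvd Nat.prime_two (Dvd.intro _ rfl)
      (mul_ne_zero two_ne_zero hN)
  by_cases h2 : 2 ∣ N
  · right
    rw [e, h1, Fermat.Agent.S20.dedekindPsi_mul_of_dvd Nat.prime_two h2 hN]
    ring
  · left
    rw [e, h1, Fermat.Agent.S20.dedekindPsi_mul_of_not_dvd Nat.prime_two h2]
    ring

/-- `ψ(9 N) = 12 ψ(N)` for `3 ∤ N`, `9 ψ(N)` for `3 ∣ N`. -/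
theorem ribmp_fdeg_psi_nine {N : ℕ} (hN : N ≠ 0) :
    dedekindPsi (9 * N) = 12 * dedekindPsi N ∨ dedekindPsi (9 * N) = 9 * dedekindPsi N := by
  have e : 9 * N = 3 * (3 * N) := by ring
  have h1 : dedekindPsi (3 * (3 * N)) = 3 * dedekindPsi (3 * N) :=
    Fermat.Agent.S20.dedekindPsi_mul_of_dvd Nat.prime_three (Dvd.intro _ rfl)
      (mul_ne_zero three_ne_zero hN)
  by_cases h3 : 3 ∣ N
  · right
    rw [e, h1, Fermat.Agent.S20.dedekindPsi_mul_of_dvd Nat.prime_three h3 hN]
    ring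
  · left
    rw [e, h1, Fermat.Agent.S20.dedekindPsi_mul_of_not_dvd Nat.prime_three h3]
    ring

section Field

variable (K : Type*) [Field K] [CharZero K]

/-- `ψ(N) > 0` -/
theorem ribmp_fdeg_psi_pos (N : ℕ) [NeZero N] : 0 < dedekindPsi N := by
  rw [dedekindPsi]
  have h1 : (1 : ℕ) ∈ N.divisors.filter (fun d => Squarefree d) := by
    simp [Nat.mem_divisors, NeZero.ne N]
  have h2 : N / 1 ≤ ∑ d ∈ N.divisors.filter (fun d => Squarefree d), N / d :=
    Finset.single_le_sum (f := fun d => N / d) (fun _ _ => Nat.zero_le _) h1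
  rw [Nat.div_one] at h2
  exact lt_of_lt_of_le (Nat.pos_of_ne_zero (NeZero.ne N)) h2

/-- the tower `K(j) ⊆ F_N ⊆ F_{N'}`: `ψ(N) · [F_{N'} : F_N] = ψ(N')` -/
theorem ribmp_fdeg_relfinrank_mul {N N' : ℕ} [NeZero N] [NeZero N']
    (h : modularFunctionFieldFullC K N ≤ modularFunctionFieldFullC K N') :
    dedekindPsi N *
      (modularFunctionFieldFullC K N).relfinrank (modularFunctionFieldFullC K N') =
      dedekindPsi N' := by
  have hle : adjoin K {jqModC K} ≤ modularFunctionFieldFullC K N := by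
    rw [adjoin_le_iff, Set.singleton_subset_iff]
    exact jqModC_mem_full K N
  rw [← Fermat.Agent.S28.relfinrank_full_eq_dedekindPsi K N
      (Nat.cast_ne_zero.mpr (NeZero.ne N)),
    ← Fermat.Agent.S28.relfinrank_full_eq_dedekindPsi K N'
      (Nat.cast_ne_zero.mpr (NeZero.ne N'))]
  exact relfinrank_mul_relfinrank hle h

/-- `stbDeg` of an inclusion of intermediate fields is the relative degree -/
theorem ribmp_fdeg_stbDeg_eq {k E : Type*} [Field k] [Field E] [Algebra k E]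
    {A B : IntermediateField k E} (h : A ≤ B) :
    stbDeg (IntermediateField.inclusion h).toRingHom = A.relfinrank B :=
  Fermat.Agent.ES.G2.hdeg_finrank_inclusion h

/-- `[F_{N'} : F_N] = ψ(N') / ψ(N)` in multiplicative form, for `stbDeg` -/
theorem ribmp_fdeg_stbDeg_mul {N N' : ℕ} [NeZero N] [NeZero N']
    (h : modularFunctionFieldFullC K N ≤ modularFunctionFieldFullC K N') :
    dedekindPsi N * stbDeg (IntermediateField.inclusion h).toRingHom = dedekindPsi N' := by
  rw [ribmp_fdeg_stbDeg_eq h]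
  exact ribmp_fdeg_relfinrank_mul K h

/-- the degree of `F_N ⊆ F_{4N}` is `6` or `4` -/
theorem ribmp_fdeg_four {N N' : ℕ} [NeZero N] [NeZero N'] (hN' : N' = 4 * N)
    (h : modularFunctionFieldFullC K N ≤ modularFunctionFieldFullC K N') :
    stbDeg (IntermediateField.inclusion h).toRingHom = 6 ∨
      stbDeg (IntermediateField.inclusion h).toRingHom = 4 := by
  have hmul := ribmp_fdeg_stbDeg_mul K h
  have hpos := ribmp_fdeg_psi_pos N
  subst hN'
  rcases ribmp_fdeg_psi_four (NeZero.ne N) with h6 | h4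
  · left
    exact Nat.eq_of_mul_eq_mul_left hpos (hmul.trans (h6.trans (mul_comm _ _)))
  · right
    exact Nat.eq_of_mul_eq_mul_left hpos (hmul.trans (h4.trans (mul_comm _ _)))

/-- the degree of `F_N ⊆ F_{9N}` is `12` or `9` -/
theorem ribmp_fdeg_nine {N N' : ℕ} [NeZero N] [NeZero N'] (hN' : N' = 9 * N)
    (h : modularFunctionFieldFullC K N ≤ modularFunctionFieldFullC K N') :
    stbDeg (IntermediateField.inclusion h).toRingHom = 12 ∨
      stbDeg (IntermediateField.inclusion h).toRingHom = 9 := by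
  have hmul := ribmp_fdeg_stbDeg_mul K h
  have hpos := ribmp_fdeg_psi_pos N
  subst hN'
  rcases ribmp_fdeg_psi_nine (NeZero.ne N) with h12 | h9
  · left
    exact Nat.eq_of_mul_eq_mul_left hpos (hmul.trans (h12.trans (mul_comm _ _)))
  · right
    exact Nat.eq_of_mul_eq_mul_left hpos (hmul.trans (h9.trans (mul_comm _ _)))

/-- a number prime to `6` is prime to `4`, `6`, `9`, `12` -/
theorem ribmp_fdeg_coprime_of_six {m : ℕ} (hm : Nat.Coprime m 6) :
    Nat.Coprime m 4 ∧ Nat.Coprime m 6 ∧ Nat.Coprime m 9 ∧ Nat.Coprime m 12 := by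
  have h2 : Nat.Coprime m 2 := Nat.Coprime.coprime_dvd_right (by norm_num : 2 ∣ 6) hm
  have h3 : Nat.Coprime m 3 := Nat.Coprime.coprime_dvd_right (by norm_num : 3 ∣ 6) hm
  refine ⟨?_, hm, ?_, ?_⟩
  · have : Nat.Coprime m (2 * 2) := Nat.Coprime.mul_right h2 h2
    simpa using this
  · have : Nat.Coprime m (3 * 3) := Nat.Coprime.mul_right h3 h3
    simpa using this
  · have : Nat.Coprime m (2 * 6) := Nat.Coprime.mul_right h2 hm
    simpa using this

/-- **FAC-E (E-deg), general form**: the degree of `F_N ⊆ F_{4N}` is prime to every `m` prime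
to `6`. -/
theorem ribmp_fdeg_coprime_four {N N' : ℕ} [NeZero N] [NeZero N'] (hN' : N' = 4 * N)
    (h : modularFunctionFieldFullC K N ≤ modularFunctionFieldFullC K N') {m : ℕ}
    (hm : Nat.Coprime m 6) :
    Nat.Coprime m (stbDeg (IntermediateField.inclusion h).toRingHom) := by
  obtain ⟨h4, h6, -, -⟩ := ribmp_fdeg_coprime_of_six hm
  rcases ribmp_fdeg_four K hN' h with e | e <;> rw [e] <;> assumption

/-- the degree of `F_N ⊆ F_{9N}` is prime to every `m` prime to `6`. -/
theorem ribmp_fdeg_coprime_nine' {N N' : ℕ} [NeZero N] [NeZero N'] (hN' : N' = 9 * N)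
    (h : modularFunctionFieldFullC K N ≤ modularFunctionFieldFullC K N') {m : ℕ}
    (hm : Nat.Coprime m 6) :
    Nat.Coprime m (stbDeg (IntermediateField.inclusion h).toRingHom) := by
  obtain ⟨-, -, h9, h12⟩ := ribmp_fdeg_coprime_of_six hm
  rcases ribmp_fdeg_nine K hN' h with e | e <;> rw [e] <;> assumption

/-- **FAC-E (E-deg)**: the degree of `F_{M q}(K) ⊆ F_{M 4 q}(K)` is prime to every `m` prime
to `6`. -/
theorem ribmp_fdeg_coprime {M q : ℕ} [NeZero M] [NeZero q] [NeZero (M * q)]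
    [NeZero (M * 4 * q)] (hq : q.Prime) (hq2 : q ≠ 2) (hqM : ¬ q ∣ M)
    (h : modularFunctionFieldFullC K (M * q) ≤ modularFunctionFieldFullC K (M * 4 * q))
    {m : ℕ} (hm : Nat.Coprime m 6) :
    Nat.Coprime m (stbDeg (IntermediateField.inclusion h).toRingHom) :=
  ribmp_fdeg_coprime_four K (by ring) h hm

/-- the twin of `ribmp_fdeg_coprime` for `F_{M q}(K) ⊆ F_{M 9 q}(K)`. -/
theorem ribmp_fdeg_coprime_nine {M q : ℕ} [NeZero M] [NeZero q] [NeZero (M * q)]
    [NeZero (M * 9 * q)]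
    (h : modularFunctionFieldFullC K (M * q) ≤ modularFunctionFieldFullC K (M * 9 * q))
    {m : ℕ} (hm : Nat.Coprime m 6) :
    Nat.Coprime m (stbDeg (IntermediateField.inclusion h).toRingHom) :=
  ribmp_fdeg_coprime_nine' K (by ring) h hm

end Field

end Fermat.Agent.RIB.MP
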