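/-
Row 37, Mazur's principle, piece MP-FAC (helper95), part 7: the two elementary inputs discharged.

* `stmtFacDeg : StmtFacDeg` (helper49, `ribmp_fdeg_coprime`);
* `stmtFacHor : StmtFacHor` (helper3, `ribmp_fhor`);
* `ribmp_fac_of_ufd : StmtFacUfdJ → StmtFacCusp → StmtFac`.
-/
import Fermat.Agent.RIB.MP.FacTop
import Fermat.Agent.RIB.MP.FacDeg
import Fermat.Agent.RIB.MP.FacHor

set_option autoImplicit false
set_option linter.unusedSectionVars false
set_option linter.unusedVariables false
set_option linter.style.haveILetI false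
set_option linter.style.longLine false

noncomputable section

namespace Fermat.Agent.RIB.MP

open ModularCurve Polynomial IntermediateField Fermat.Agent.INJ Fermat.Agent.AL AlgebraicCurve
open Fermat.Agent.ES Fermat.Agent.ES.G2 Fermat.Agent.STB Fermat.Agent.UNIP Fermat.Agent.S36

theorem stmtFacDeg : StmtFacDeg := by
  intro K₀ M q _ _ _ _ hq hqM hq2 m hm
  exact ribmp_fdeg_coprime (K := ↥K₀) hq hq2 hqM (ribmp_fl_le ↥K₀ M 4 q) hm

theorem stmtFacHor : StmtFacHor := by
  intro K₀ M d q _ _ _ _ _ m y hhor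
  exact ribmp_fhor K₀ M d q (ribmp_fl_le ↥K₀ M d q) m y hhor

/-- **MP-FAC from the two factoriality inputs** (FAC-A: chart `j` at a rigid level; FAC-C: the
cusps). -/
theorem ribmp_fac_of_ufd (HA : StmtFacUfdJ) (HC : StmtFacCusp) : StmtFac :=
  ribmp_fac_of HA HC stmtFacDeg stmtFacHor

end Fermat.Agent.RIB.MP
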