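/-
Row 37, Mazur's principle, piece MP-FAC, FAC-A: the adapter (helper3).

`ribmp_fuj_stmt : StmtFacUfdJ` — at a rigid level `M q` (`4 ∣ M`, `q ≠ 2`) every local ring of the
chart `j` of `F_{Mq}(ℚ̄^I)` at a closed point of the special fibre is factorial.  This is helper54's
`RT.K6.rtk6lfb0_ufd_J` (`RT/K6/DLFConc.lean`) with the embedding `ιC := cheapIota ∘ (ℚ̄^I ⊆ ℚ̄)`.
-/
import Fermat.Agent.RIB.MP.FacTop
import Fermat.Agent.RT.K6.DLFConc
import Fermat.Agent.UNIP.Cheap

set_option autoImplicit false
set_option linter.unusedSectionVars false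
set_option linter.unusedVariables false
set_option linter.style.haveILetI false
set_option linter.style.longLine false

noncomputable section

namespace Fermat.Agent.RIB.MP

open ModularCurve Polynomial IntermediateField Fermat.Agent.INJ Fermat.Agent.AL AlgebraicCurve
open Fermat.Agent.ES Fermat.Agent.ES.G2 Fermat.Agent.STB Fermat.Agent.UNIP Fermat.Agent.S36

/-- **FAC-A**: factoriality of the local rings of the chart `j` at a rigid level. -/
theorem ribmp_fuj_stmt : StmtFacUfdJ := by
  intro M q _ _ _ hq hqM hq2 h4 A hA _ π hπ 𝔫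
  exact Fermat.Agent.RT.K6.rtk6lfb0_ufd_J hπ
    (cheapIota.comp (algebraMap ↥(beta0Field A) Qb)) hq hqM hA
    ⟨fun _ => h4, fun h => absurd h hq2⟩ 𝔫

end Fermat.Agent.RIB.MP
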