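/-
Row 37, Mazur's principle, piece MP-FAC: **THE LOCAL FACTORISATION (F), UNCONDITIONAL.**

**`stmtFac : StmtFac`** : for every level `M₁ q` (`q ≠ 2` prime, `q ∤ M₁`) and every `m` prime to
`6`: a function `y ≠ 0` of `F_{M₁q}(ℚ̄^I)` whose divisor over `ℚ̄` is divisible by `m` and which
is a unit at the two vertical valuations `V_∞`, `V_0` is, at every closed point of the special
fibre of the two charts `j`, `1 / j`, a unit of the local ring times an `m`-th power.

Inputs: FAC-A `ribmp_fuj_stmt` (helper3 / helper54 `RT.K6.rtk6lfb0_ufd_J`, on top of helper80's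
thin node `S36.s36tm_node` and UNIP's U5), FAC-C `ribmp_fcu_stmtFacCusp` (helper81, with helper61's
`S33.wpd_e_integral`), FAC-B (helper67), FAC-D (helper2), E-deg (helper49), E-hhor (helper3),
norm descent + level change + assembly (helper95).  See NOTES/RIB-MP-FAC.md.
-/
import Fermat.Agent.RIB.MP.FacFinal
import Fermat.Agent.RIB.MP.FacCuspStmt
import Fermat.Agent.RIB.MP.FacUfdJ

set_option autoImplicit false

namespace Fermat.Agent.RIB.MP

/-- **MP-FAC.** -/
theorem stmtFac : StmtFac := ribmp_fac_of_ufd ribmp_fuj_stmt ribmp_fcu_stmtFacCusp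

end Fermat.Agent.RIB.MP
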