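/-
S59 wall M2 (Mazur's principle at `p = 3`), leaf MP-D, piece "E-deg twin" + the FAC assembly at
EVEN levels (helper49; twin of `FacDeg.lean` / `FacTop.lean`, which are stated for `m` prime to `6`).

At an EVEN level `N` the cover `F_N ⊆ F_{4N}` has degree exactly `4` (`ψ(4N) = 4 ψ(N)`), so the
norm descent from the rigid level `4 M₁ q` works for every ODD exponent `m`, in particular for
`m = 3 ^ r`:

* `ribmp_fdege_four`        : `2 ∣ N → stbDeg (F_N ⊆ F_{4N}) = 4`;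
* `ribmp_fdege_nine`        : `3 ∣ N → stbDeg (F_N ⊆ F_{9N}) = 9`;
* `ribmp_fdege_coprime_four`: `2 ∣ N → Coprime m 2 → Coprime m (stbDeg (F_N ⊆ F_{4N}))`;
* `ribmp_fdege_coprime`     : the same for `F_{M q} ⊆ F_{M 4 q}`, `2 ∣ M`;
* `ribmp_fdege_coprime_nine`: `3 ∣ M → Coprime m 3 → Coprime m (stbDeg (F_{M q} ⊆ F_{M 9 q}))`;
* `StmtFacDegEven`, `stmtFacDegEven` : the `Prop` form (twin of `StmtFacDeg`);
* `StmtFacEven` : (F) for every level `M₁ q` with `2 ∣ M₁`, `q ≠ 2`, and every ODD `m`;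
* `ribmp_face_of : StmtFacUfdJ → StmtFacCusp → StmtFacHor → StmtFacEven` (twin of `ribmp_fac_of`);
* `ribmp_face_pow_three` : the instance `m = 3 ^ r`.
-/
import Fermat.Agent.RIB.MP.FacTop
import Fermat.Agent.RIB.MP.FacDeg

set_option autoImplicit false
set_option linter.unusedSectionVars false
set_option linter.unusedVariables false
set_option linter.style.haveILetI false
set_option linter.style.longLine false
set_option synthInstance.maxHeartbeats 400000
set_option maxHeartbeats 1000000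

noncomputable section

namespace Fermat.Agent.RIB.MP

open ModularCurve Polynomial IntermediateField Fermat.Agent.INJ Fermat.Agent.AL AlgebraicCurve
open Fermat.Agent.ES Fermat.Agent.ES.G2 Fermat.Agent.STB Fermat.Agent.UNIP Fermat.Agent.S36

/-- `ψ(4 N) = 4 ψ(N)` for `N` even. -/
theorem ribmp_fdege_psi_four {N : ℕ} (hN : N ≠ 0) (h2 : 2 ∣ N) :
    dedekindPsi (4 * N) = 4 * dedekindPsi N := by
  have e : 4 * N = 2 * (2 * N) := by ring
  have h1 : dedekindPsi (2 * (2 * N)) = 2 * dedekindPsi (2 * N) :=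
    Fermat.Agent.S20.dedekindPsi_mul_of_dvd Nat.prime_two (Dvd.intro _ rfl)
      (mul_ne_zero two_ne_zero hN)
  rw [e, h1, Fermat.Agent.S20.dedekindPsi_mul_of_dvd Nat.prime_two h2 hN]
  ring

/-- `ψ(9 N) = 9 ψ(N)` for `3 ∣ N`. -/
theorem ribmp_fdege_psi_nine {N : ℕ} (hN : N ≠ 0) (h3 : 3 ∣ N) :
    dedekindPsi (9 * N) = 9 * dedekindPsi N := by
  have e : 9 * N = 3 * (3 * N) := by ring
  have h1 : dedekindPsi (3 * (3 * N)) = 3 * dedekindPsi (3 * N) :=
    Fermat.Agent.S20.dedekindPsi_mul_of_dvd Nat.prime_three (Dvd.intro _ rfl)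
      (mul_ne_zero three_ne_zero hN)
  rw [e, h1, Fermat.Agent.S20.dedekindPsi_mul_of_dvd Nat.prime_three h3 hN]
  ring

section Field

variable (K : Type*) [Field K] [CharZero K]

/-- the degree of `F_N ⊆ F_{4N}` is `4` for `N` even -/
theorem ribmp_fdege_four {N N' : ℕ} [NeZero N] [NeZero N'] (hN' : N' = 4 * N) (h2 : 2 ∣ N)
    (h : modularFunctionFieldFullC K N ≤ modularFunctionFieldFullC K N') :
    stbDeg (IntermediateField.inclusion h).toRingHom = 4 := by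
  have hmul := ribmp_fdeg_stbDeg_mul K h
  have hpos := ribmp_fdeg_psi_pos N
  subst hN'
  exact Nat.eq_of_mul_eq_mul_left hpos
    (hmul.trans ((ribmp_fdege_psi_four (NeZero.ne N) h2).trans (mul_comm _ _)))

/-- the degree of `F_N ⊆ F_{9N}` is `9` for `3 ∣ N` -/
theorem ribmp_fdege_nine {N N' : ℕ} [NeZero N] [NeZero N'] (hN' : N' = 9 * N) (h3 : 3 ∣ N)
    (h : modularFunctionFieldFullC K N ≤ modularFunctionFieldFullC K N') :
    stbDeg (IntermediateField.inclusion h).toRingHom = 9 := by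
  have hmul := ribmp_fdeg_stbDeg_mul K h
  have hpos := ribmp_fdeg_psi_pos N
  subst hN'
  exact Nat.eq_of_mul_eq_mul_left hpos
    (hmul.trans ((ribmp_fdege_psi_nine (NeZero.ne N) h3).trans (mul_comm _ _)))

/-- an odd number is prime to `4` -/
theorem ribmp_fdege_coprime_four_of_two {m : ℕ} (hm : Nat.Coprime m 2) : Nat.Coprime m 4 := by
  have : Nat.Coprime m (2 * 2) := Nat.Coprime.mul_right hm hm
  simpa using this

/-- a number prime to `3` is prime to `9` -/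
theorem ribmp_fdege_coprime_nine_of_three {m : ℕ} (hm : Nat.Coprime m 3) : Nat.Coprime m 9 := by
  have : Nat.Coprime m (3 * 3) := Nat.Coprime.mul_right hm hm
  simpa using this

/-- **E-deg at even level, general form**: the degree of `F_N ⊆ F_{4N}`, `N` even, is prime to
every odd `m`. -/
theorem ribmp_fdege_coprime_four {N N' : ℕ} [NeZero N] [NeZero N'] (hN' : N' = 4 * N)
    (h2 : 2 ∣ N)
    (h : modularFunctionFieldFullC K N ≤ modularFunctionFieldFullC K N') {m : ℕ}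
    (hm : Nat.Coprime m 2) :
    Nat.Coprime m (stbDeg (IntermediateField.inclusion h).toRingHom) := by
  rw [ribmp_fdege_four K hN' h2 h]
  exact ribmp_fdege_coprime_four_of_two hm

/-- the degree of `F_N ⊆ F_{9N}`, `3 ∣ N`, is prime to every `m` prime to `3`. -/
theorem ribmp_fdege_coprime_nine' {N N' : ℕ} [NeZero N] [NeZero N'] (hN' : N' = 9 * N)
    (h3 : 3 ∣ N)
    (h : modularFunctionFieldFullC K N ≤ modularFunctionFieldFullC K N') {m : ℕ}
    (hm : Nat.Coprime m 3) :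
    Nat.Coprime m (stbDeg (IntermediateField.inclusion h).toRingHom) := by
  rw [ribmp_fdege_nine K hN' h3 h]
  exact ribmp_fdege_coprime_nine_of_three hm

/-- **E-deg at even level**: the degree of `F_{M q}(K) ⊆ F_{M 4 q}(K)`, `M` even, is prime to
every odd `m` (e.g. `m = 3 ^ r`). -/
theorem ribmp_fdege_coprime {M q : ℕ} [NeZero M] [NeZero q] [NeZero (M * q)]
    [NeZero (M * 4 * q)] (h2 : 2 ∣ M)
    (h : modularFunctionFieldFullC K (M * q) ≤ modularFunctionFieldFullC K (M * 4 * q))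
    {m : ℕ} (hm : Nat.Coprime m 2) :
    Nat.Coprime m (stbDeg (IntermediateField.inclusion h).toRingHom) :=
  ribmp_fdege_coprime_four K (by ring) (Dvd.dvd.mul_right h2 q) h hm

/-- the twin for `F_{M q}(K) ⊆ F_{M 9 q}(K)`, `3 ∣ M`, `m` prime to `3`. -/
theorem ribmp_fdege_coprime_nine {M q : ℕ} [NeZero M] [NeZero q] [NeZero (M * q)]
    [NeZero (M * 9 * q)] (h3 : 3 ∣ M)
    (h : modularFunctionFieldFullC K (M * q) ≤ modularFunctionFieldFullC K (M * 9 * q))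
    {m : ℕ} (hm : Nat.Coprime m 3) :
    Nat.Coprime m (stbDeg (IntermediateField.inclusion h).toRingHom) :=
  ribmp_fdege_coprime_nine' K (by ring) (Dvd.dvd.mul_right h3 q) h hm

end Field

/-- **E-deg at even level** (twin of `StmtFacDeg`): the degree of `F_{4Mq} / F_{Mq}`, `M` even, is
prime to every odd `m`. -/
def StmtFacDegEven : Prop :=
  ∀ (K₀ : IntermediateField ℚ Qb) (M q : ℕ) [NeZero M] [NeZero q] [NeZero (M * q)]
    [NeZero (M * 4 * q)], q.Prime → ¬ q ∣ M → q ≠ 2 → 2 ∣ M → ∀ m : ℕ, Nat.Coprime m 2 →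
    Nat.Coprime m (stbDeg (ribmpFlUp ↥K₀ M 4 q).toRingHom)

theorem stmtFacDegEven : StmtFacDegEven := by
  intro K₀ M q _ _ _ _ hq hqM hq2 h2 m hm
  exact ribmp_fdege_coprime (K := ↥K₀) h2 (ribmp_fl_le ↥K₀ M 4 q) hm

/-- **MP-FAC at even levels**: (F) for every level `M₁ q` (`q ≠ 2` prime, `q ∤ M₁`, `2 ∣ M₁`) and
every ODD exponent `m` (twin of `StmtFac`, which asks `m` prime to `6`). -/
def StmtFacEven : Prop :=
  ∀ (M₁ q : ℕ) [NeZero M₁] [NeZero q] [NeZero (M₁ * q)], q.Prime → ¬ q ∣ M₁ → q ≠ 2 → 2 ∣ M₁ →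
    ∀ m : ℕ, Nat.Coprime m 2 → StmtFacAt M₁ q m

/-- **MP-FAC at even levels**, from the inputs of `ribmp_fac_of` (FAC-A, FAC-C, E-hor). -/
theorem ribmp_face_of (HA : StmtFacUfdJ) (HC : StmtFacCusp) (HH : StmtFacHor) :
    StmtFacEven := by
  intro M₁ q _ _ _ hq hqM hq2 h2M m hm A hA
  have h40 : (4 : ℕ) ≠ 0 := by norm_num
  haveI : NeZero (4 : ℕ) := ⟨h40⟩
  haveI : NeZero (M₁ * 4) := ⟨Nat.mul_ne_zero (NeZero.ne M₁) h40⟩
  haveI : NeZero (M₁ * 4 * q) := ⟨Nat.mul_ne_zero (NeZero.ne (M₁ * 4)) (NeZero.ne q)⟩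
  have hq4 : ¬ q ∣ 4 := by
    intro h
    have h2 : q ∣ 2 ^ 2 := by simpa using h
    exact hq2 ((Nat.prime_dvd_prime_iff_eq hq Nat.prime_two).1 (hq.dvd_of_dvd_pow h2))
  have hqMd : ¬ q ∣ M₁ * 4 := fun h => (hq.dvd_mul.1 h).elim hqM hq4
  have hm0 : 0 < m := by
    rcases Nat.eq_zero_or_pos m with h | h
    · subst h
      simp at hm
    · exact h
  refine ribmp_fl_descent (d := 4) hqMd hm0 (stmtFacDegEven (beta0Field A) M₁ q hq hqM hq2 h2M m hm)
    (fun y hy => HH (beta0Field A) M₁ 4 q m y hy) ?_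
  intro hq' hqM' _ π hπ ιC y hy hhor hunit
  exact ribmp_fac_rigid_of hπ ιC hq' hqM' hA le_rfl (fun h => absurd h hq2)
    (fun _ => Dvd.dvd.mul_left (by norm_num : (2 : ℕ) ∣ 4) M₁)
    (HA (M₁ * 4) q hq hqMd hq2 (Dvd.intro_left M₁ rfl) A hA π hπ)
    (HC (M₁ * 4) q hq hqMd hq2 (Dvd.intro_left M₁ rfl) A hA π hπ) m y hy hhor hunit

/-- the instance `m = 3 ^ r` of `StmtFacEven` -/
theorem ribmp_face_pow_three (H : StmtFacEven) (M₁ q : ℕ) [NeZero M₁] [NeZero q]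
    [NeZero (M₁ * q)] (hq : q.Prime) (hqM : ¬ q ∣ M₁) (hq2 : q ≠ 2) (h2 : 2 ∣ M₁) (r : ℕ) :
    StmtFacAt M₁ q (3 ^ r) :=
  H M₁ q hq hqM hq2 h2 (3 ^ r) (Nat.Coprime.pow_left r (by norm_num))

/-- the instance `m = p ^ r`, `p` an odd prime, of `StmtFacEven` -/
theorem ribmp_face_pow_odd (H : StmtFacEven) (M₁ q : ℕ) [NeZero M₁] [NeZero q]
    [NeZero (M₁ * q)] (hq : q.Prime) (hqM : ¬ q ∣ M₁) (hq2 : q ≠ 2) (h2 : 2 ∣ M₁) {p : ℕ}
    (hp : p.Prime) (hp2 : p ≠ 2) (r : ℕ) :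
    StmtFacAt M₁ q (p ^ r) :=
  H M₁ q hq hqM hq2 h2 (p ^ r)
    (Nat.Coprime.pow_left r ((Nat.coprime_primes hp Nat.prime_two).2 hp2))

end Fermat.Agent.RIB.MP
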