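import Mathlib

/-!
# Row 37 / MP-FAC, piece FAC-B (helper67): a symmetric monic relation makes `a / b ^ (n - 1)`
integral over `ℤ[1 / b]`

Pure algebra, Mathlib only.  `Φ ∈ ℤ[Y][X]` (outer variable `X`, inner variable `Y`), monic in `X`
of degree `n ≥ 2`; `F` a field, `a b : F`, `b ≠ 0`, `Φ(a, b) = 0 = Φ(b, a)`, and `Φ` is a relation
of minimal `X`-degree for `(a, b)`.  Then `swap Φ = ± Φ`, so the coefficient of `X ^ i` in `Φ` has
`Y`-degree `≤ n - 1` for `i ≥ 1` and `≤ n` for `i = 0`, and `a * b⁻¹ ^ (n - 1)` is integral over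
`ℤ[b⁻¹]`.

* `ribmp_fsym_eval₂_eq` : `Φ.eval₂ φ a = aevalAeval (φ X) a Φ` for every ring hom `φ : ℤ[Y] → F`;
* `ribmp_fsym_coeff_swap` : the coefficients of `swap p`;
* `ribmp_fsym_swap_eq` : `swap Φ = Φ * C (C u)` with `u` a unit of `ℤ`;
* `ribmp_fsym_coeff_natDegree_le` : the degree bounds;
* `ribmp_fsym_isIntegral` : the statement (ring homs `φa`, `φb` with `φa X = a`, `φb X = b`);
* `ribmp_fsym_isIntegral_aeval` : the same for `φ = aeval _`.
-/

set_option autoImplicit false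

open Polynomial

namespace Fermat.Agent.RIB.MP

section general

variable {F : Type*} [CommRing F]

/-- every ring hom `ℤ[Y] → F` is `aeval (φ X)` -/
theorem ribmp_fsym_hom_eq (φ : Polynomial ℤ →+* F) :
    φ = ((aeval (φ X) : Polynomial ℤ →ₐ[ℤ] F) : Polynomial ℤ →+* F) := by
  refine Polynomial.ringHom_ext (fun n => ?_) ?_
  · simp
  · simp

/-- `Φ.eval₂ φ a` is the evaluation of `Φ` at inner variable `φ X`, outer variable `a`. -/
theorem ribmp_fsym_eval₂_eq (φ : Polynomial ℤ →+* F) (a : F) (Φ : Polynomial (Polynomial ℤ)) :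
    Φ.eval₂ φ a = Polynomial.aevalAeval (φ X) a Φ := by
  induction Φ using Polynomial.induction_on' with
  | add p q hp hq => rw [eval₂_add, map_add, hp, hq]
  | monomial n p =>
    rw [eval₂_monomial, ← C_mul_X_pow_eq_monomial, map_mul, map_pow, aevalAeval_C, aevalAeval_Y]
    congr 1
    conv_lhs => rw [ribmp_fsym_hom_eq φ]
    rfl

/-- the coefficients of `swap p` -/
theorem ribmp_fsym_coeff_swap (p : Polynomial (Polynomial ℤ)) (i j : ℕ) :
    ((Polynomial.Bivariate.swap p).coeff i).coeff j = (p.coeff j).coeff i := by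
  induction p using Polynomial.induction_on' with
  | add p q hp hq => simp only [map_add, coeff_add, hp, hq]
  | monomial n f =>
    induction f using Polynomial.induction_on' with
    | add f g hf hg =>
      rw [map_add (monomial n) f g, map_add, coeff_add, coeff_add, hf, hg, coeff_add, coeff_add]
    | monomial m r =>
      rw [Polynomial.Bivariate.swap_monomial_monomial]
      by_cases h1 : m = i <;> by_cases h2 : n = j <;> simp [coeff_monomial, h1, h2]

end general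

section main

variable {F : Type*} [Field F]

/-- **symmetry**: a monic relation `Φ` of minimal degree for `(a, b)` with `Φ(b, a) = 0`
satisfies `swap Φ = ± Φ`. -/
theorem ribmp_fsym_swap_eq (Φ : Polynomial (Polynomial ℤ)) (hΦ : Φ.Monic) (n : ℕ)
    (hn : Φ.natDegree = n) (h1n : 1 ≤ n) (a b : F) (φa φb : Polynomial ℤ →+* F)
    (hφa : φa X = a) (hφb : φb X = b)
    (hab : Φ.eval₂ φb a = 0) (hba : Φ.eval₂ φa b = 0)
    (hmin : ∀ R : Polynomial (Polynomial ℤ), R.natDegree < n → R.eval₂ φb a = 0 → R = 0) :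
    ∃ u : ℤ, IsUnit u ∧ Polynomial.Bivariate.swap Φ = Φ * C (C u) := by
  set Ψ := Polynomial.Bivariate.swap Φ with hΨ
  have hΦ1 : Φ ≠ 1 := by
    intro h
    rw [h, natDegree_one] at hn
    omega
  -- `swap Φ (a, b) = Φ (b, a) = 0`
  have hΨab : Ψ.eval₂ φb a = 0 := by
    rw [ribmp_fsym_eval₂_eq, hφb, hΨ, Polynomial.Bivariate.aevalAeval_swap, ← hφa,
      ← ribmp_fsym_eval₂_eq]
    exact hba
  -- the remainder vanishes
  have hR : Ψ %ₘ Φ = 0 := by
    refine hmin _ ?_ ?_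
    · rw [← hn]
      exact natDegree_modByMonic_lt _ hΦ hΦ1
    · have h := modByMonic_add_div Ψ Φ
      have h2 : Ψ %ₘ Φ = Ψ - Φ * (Ψ /ₘ Φ) := by rw [eq_sub_iff_add_eq]; exact h
      rw [h2, eval₂_sub, eval₂_mul, hΨab, hab, zero_mul, sub_zero]
  have hdiv : Ψ = Φ * (Ψ /ₘ Φ) := by
    have h := modByMonic_add_div Ψ Φ
    rw [hR, zero_add] at h
    exact h.symm
  set G := Ψ /ₘ Φ with hG
  -- `G * swap G = 1`
  have hΦ0 : Φ ≠ 0 := hΦ.ne_zero
  have hGG : G * Polynomial.Bivariate.swap G = 1 := by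
    have h : Φ = Φ * (G * Polynomial.Bivariate.swap G) := by
      calc Φ = Polynomial.Bivariate.swap Ψ := (Polynomial.Bivariate.swap_swap_apply Φ).symm
        _ = Polynomial.Bivariate.swap (Φ * G) := by rw [← hdiv]
        _ = Ψ * Polynomial.Bivariate.swap G := by rw [map_mul]
        _ = Φ * (G * Polynomial.Bivariate.swap G) := by rw [hdiv, mul_assoc]
    have h2 : Φ * (G * Polynomial.Bivariate.swap G) = Φ * 1 := by rw [mul_one]; exact h.symm
    exact mul_left_cancel₀ hΦ0 h2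
  have hGu : IsUnit G := IsUnit.of_mul_eq_one _ hGG
  obtain ⟨g, hg, hgG⟩ := Polynomial.isUnit_iff.1 hGu
  obtain ⟨u, hu, hug⟩ := Polynomial.isUnit_iff.1 hg
  exact ⟨u, hu, by rw [hdiv, ← hgG, ← hug]⟩

/-- **degree bounds**: the coefficient of `X ^ i` in `Φ` has `Y`-degree `≤ n` and `≤ n - 1` for
`1 ≤ i`. -/
theorem ribmp_fsym_coeff_eq_zero (Φ : Polynomial (Polynomial ℤ)) (hΦ : Φ.Monic) (n : ℕ)
    (hn : Φ.natDegree = n) (u : ℤ)
    (hsw : Polynomial.Bivariate.swap Φ = Φ * C (C u)) (i j : ℕ)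
    (hj : n < j ∨ (n = j ∧ 1 ≤ i)) : (Φ.coeff i).coeff j = 0 := by
  have h1 : (Φ.coeff j).coeff i = (Φ.coeff i).coeff j * u := by
    rw [← ribmp_fsym_coeff_swap, hsw, coeff_mul_C, coeff_mul_C]
  have hsw2 : Φ = Polynomial.Bivariate.swap Φ * C (C u) := by
    have := congrArg Polynomial.Bivariate.swap hsw
    rw [Polynomial.Bivariate.swap_swap_apply, map_mul, Polynomial.Bivariate.swap_C_C] at this
    exact this
  have h2 : (Φ.coeff i).coeff j = (Φ.coeff j).coeff i * u := by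
    conv_lhs => rw [hsw2]
    rw [coeff_mul_C, coeff_mul_C, ribmp_fsym_coeff_swap]
  rw [h2]
  rcases hj with hj | ⟨hj, hi⟩
  · have h0 : Φ.coeff j = 0 := coeff_eq_zero_of_natDegree_lt (by rw [hn]; exact hj)
    rw [h0, coeff_zero, zero_mul]
  · have : Φ.coeff j = 1 := by
      rw [← hj, ← hn]
      exact hΦ.coeff_natDegree
    rw [this, coeff_one, if_neg (by omega), zero_mul]

/-- `φ p * c ^ m ∈ ℤ[c]` for `m ≥ deg p`, `c = (φ X)⁻¹`. -/
theorem ribmp_fsym_mul_pow_mem (φ : Polynomial ℤ →+* F) (b : F) (hb : b ≠ 0) (hφ : φ X = b)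
    (p : Polynomial ℤ) (m : ℕ) (hm : p.natDegree ≤ m) :
    φ p * b⁻¹ ^ m ∈ Algebra.adjoin ℤ {b⁻¹} := by
  have hc : b⁻¹ ∈ Algebra.adjoin ℤ {b⁻¹} := Algebra.subset_adjoin (Set.mem_singleton _)
  have h1 : φ p = ∑ j ∈ Finset.range (p.natDegree + 1), (p.coeff j : F) * b ^ j := by
    conv_lhs => rw [ribmp_fsym_hom_eq φ, hφ]
    change aeval b p = _
    rw [aeval_eq_sum_range]
    refine Finset.sum_congr rfl fun j _ => ?_
    rw [zsmul_eq_mul]
  rw [h1, Finset.sum_mul]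
  refine Subalgebra.sum_mem _ fun j hj => ?_
  have hjm : j ≤ m := by
    have := Finset.mem_range.1 hj
    omega
  have h2 : b ^ j * b⁻¹ ^ m = b⁻¹ ^ (m - j) := by
    have : m = j + (m - j) := by omega
    conv_lhs => rw [this, pow_add, ← mul_assoc, ← mul_pow, mul_inv_cancel₀ hb, one_pow, one_mul]
  rw [mul_assoc, h2]
  exact Subalgebra.mul_mem _ (Subalgebra.intCast_mem _ _) (Subalgebra.pow_mem _ hc _)

/-- **FAC-B**: `Φ ∈ ℤ[Y][X]` monic in `X` of degree `n ≥ 2`, `Φ(a, b) = 0 = Φ(b, a)`, `Φ` of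
minimal `X`-degree among the relations of `(a, b)`, `b ≠ 0`: then `a * b⁻¹ ^ (n - 1)` is integral
over `ℤ[b⁻¹]`. -/
theorem ribmp_fsym_isIntegral (Φ : Polynomial (Polynomial ℤ)) (hΦ : Φ.Monic) (n : ℕ)
    (hn : Φ.natDegree = n) (h2n : 2 ≤ n) (a b : F) (hb : b ≠ 0) (φa φb : Polynomial ℤ →+* F)
    (hφa : φa X = a) (hφb : φb X = b)
    (hab : Φ.eval₂ φb a = 0) (hba : Φ.eval₂ φa b = 0)
    (hmin : ∀ R : Polynomial (Polynomial ℤ), R.natDegree < n → R.eval₂ φb a = 0 → R = 0) :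
    IsIntegral (Algebra.adjoin ℤ {b⁻¹}) (a * b⁻¹ ^ (n - 1)) := by
  obtain ⟨u, -, hsw⟩ := ribmp_fsym_swap_eq Φ hΦ n hn (by omega) a b φa φb hφa hφb hab hba hmin
  set S := Algebra.adjoin ℤ {b⁻¹} with hS
  -- the coefficients
  have hdeg : ∀ i, i < n → (Φ.coeff i).natDegree ≤ (n - 1) * (n - i) := by
    intro i hi
    rw [natDegree_le_iff_coeff_eq_zero]
    intro j hj
    refine ribmp_fsym_coeff_eq_zero Φ hΦ n hn u hsw i j ?_
    rcases Nat.eq_zero_or_pos i with h0 | h0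
    · left
      subst h0
      have : n ≤ (n - 1) * (n - 0) := by
        rw [Nat.sub_zero]
        calc n = 1 * n := (one_mul n).symm
          _ ≤ (n - 1) * n := Nat.mul_le_mul_right n (by omega)
      omega
    · have h1 : n - 1 ≤ (n - 1) * (n - i) := by
        calc n - 1 = (n - 1) * 1 := (mul_one _).symm
          _ ≤ (n - 1) * (n - i) := Nat.mul_le_mul_left _ (by omega)
      by_cases hjn : n < j
      · exact Or.inl hjn
      · exact Or.inr ⟨by omega, h0⟩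
  have hd : ∀ i, i < n → φb (Φ.coeff i) * b⁻¹ ^ ((n - 1) * (n - i)) ∈ S := fun i hi =>
    ribmp_fsym_mul_pow_mem φb b hb hφb _ _ (hdeg i hi)
  classical
  let d : ℕ → S := fun i =>
    if hi : i < n then ⟨φb (Φ.coeff i) * b⁻¹ ^ ((n - 1) * (n - i)), hd i hi⟩ else 0
  have hdval : ∀ i, i < n → ((d i : S) : F) = φb (Φ.coeff i) * b⁻¹ ^ ((n - 1) * (n - i)) := by
    intro i hi
    simp only [d, dif_pos hi]
  let Q : Polynomial S := ∑ i ∈ Finset.range n, C (d i) * X ^ i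
  have hQdeg : Q.degree < (n : WithBot ℕ) := by
    rw [← Polynomial.mem_degreeLT]
    refine Submodule.sum_mem _ fun i hi => ?_
    rw [Polynomial.mem_degreeLT]
    refine lt_of_le_of_lt (degree_C_mul_X_pow_le i (d i)) ?_
    exact_mod_cast Finset.mem_range.1 hi
  refine ⟨X ^ n + Q, monic_X_pow_add hQdeg, ?_⟩
  -- evaluation
  have hev : Φ.eval₂ φb a = a ^ n + ∑ i ∈ Finset.range n, φb (Φ.coeff i) * a ^ i := by
    rw [eval₂_eq_sum_range, hn, Finset.sum_range_succ, add_comm]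
    congr 1
    have : Φ.coeff n = 1 := by rw [← hn]; exact hΦ.coeff_natDegree
    rw [this, map_one, one_mul]
  rw [← aeval_def, map_add, map_pow, aeval_X, map_sum]
  have hterm : ∀ i ∈ Finset.range n, aeval (a * b⁻¹ ^ (n - 1)) (C (d i) * X ^ i)
      = b⁻¹ ^ ((n - 1) * n) * (φb (Φ.coeff i) * a ^ i) := by
    intro i hi
    have hi' := Finset.mem_range.1 hi
    rw [map_mul, map_pow, aeval_X, aeval_C]
    change ((d i : S) : F) * _ = _
    rw [hdval i hi', mul_pow, ← pow_mul]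
    have : (n - 1) * n = (n - 1) * (n - i) + (n - 1) * i := by
      rw [← Nat.mul_add]
      congr 1
      omega
    rw [this, pow_add]
    ring
  rw [Finset.sum_congr rfl hterm, ← Finset.mul_sum, mul_pow, ← pow_mul]
  have : a ^ n * b⁻¹ ^ ((n - 1) * n) + b⁻¹ ^ ((n - 1) * n) *
      ∑ i ∈ Finset.range n, φb (Φ.coeff i) * a ^ i = b⁻¹ ^ ((n - 1) * n) * Φ.eval₂ φb a := by
    rw [hev]
    ring
  rw [this, hab, mul_zero]

/-- **FAC-B**, `aeval` form. -/
theorem ribmp_fsym_isIntegral_aeval (Φ : Polynomial (Polynomial ℤ)) (hΦ : Φ.Monic) (n : ℕ)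
    (hn : Φ.natDegree = n) (h2n : 2 ≤ n) (a b : F) (hb : b ≠ 0)
    (hab : Φ.eval₂ ((aeval b : Polynomial ℤ →ₐ[ℤ] F) : Polynomial ℤ →+* F) a = 0)
    (hba : Φ.eval₂ ((aeval a : Polynomial ℤ →ₐ[ℤ] F) : Polynomial ℤ →+* F) b = 0)
    (hmin : ∀ R : Polynomial (Polynomial ℤ), R.natDegree < n →
      R.eval₂ ((aeval b : Polynomial ℤ →ₐ[ℤ] F) : Polynomial ℤ →+* F) a = 0 → R = 0) :
    IsIntegral (Algebra.adjoin ℤ {b⁻¹}) (a * b⁻¹ ^ (n - 1)) :=
  ribmp_fsym_isIntegral Φ hΦ n hn h2n a b hb _ _ (by simp) (by simp) hab hba hmin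

end main

end Fermat.Agent.RIB.MP
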