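/-
Row 37, Mazur's principle, piece **MP-FROB** (helper3), part 1 (FROB-J): the reduction of
`StmtFrobToric` (classes of `J₀(M₁ q)`) to a statement on Kummer functions.

* `StmtFrobToricKummerAt`, `StmtFrobToricKummer` : for `y₀ ∈ F_N(E₀)^×` (`N = M₁ q`, `E₀` the inertia field of `A`) with
  `p ^ r ∣ div y₀`, `v_∞(y₀) = v_0(y₀) = 0` and `y₀ ≡ t ^ (p ^ r)` at `v_∞`,
  `y₀ ≡ t' ^ (p ^ r)` at `v_0` (`t, t' ∈ F_N(ℚ̄)`): `σ (w y₀) · y₀ ^ q` is a `p ^ r`-th power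
  in `F_N(ℚ̄)`, for every Frobenius element `σ` at `A`.
* `ribmp_frob_pow_of_kummer` : `StmtFrobToricKummer ⇒` `StmtFrobToric` for the exponent `p ^ r`
  (the form `StmtFrobToricPow` needed by K8);
* `ribmp_frob_of_kummer` : `StmtFrobToricKummer → StmtFrobToric`.
-/
import Fermat.Agent.RIB.MP.Desc
import Fermat.Agent.RIB.MP.ValHeckeVert
import Fermat.Agent.ES.GaloisHecke
import Fermat.Agent.ES.KummerMu

set_option autoImplicit false
set_option linter.unusedSectionVars false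
set_option linter.unusedVariables false
set_option linter.style.haveILetI false

noncomputable section

namespace Fermat.Agent.RIB.MP

open ModularCurve AlgebraicCurve Fermat.Agent.ES Fermat.Agent.ES.G2 Fermat.Agent.INJ
  Fermat.Agent.UNIP

/-- **MP-FROB, Kummer form, at `(M₁, q, m, A, σ)`.** -/
def StmtFrobToricKummerAt (M₁ q : ℕ) [NeZero M₁] [NeZero q] [NeZero (M₁ * q)] (hq : q.Prime)
    (hqM : ¬ q ∣ M₁) (m : ℕ) (A : ValuationSubring Qb) (σ : Qb ≃ₐ[ℚ] Qb) : Prop :=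
  ∀ y₀ : modularFunctionFieldFullC (beta0Field A) (M₁ * q), y₀ ≠ 0 →
    (∀ P : Place Qb (modularFunctionFieldBar (M₁ * q)),
      (m : ℤ) ∣ P.ord (nfEmb (beta0Field A) (M₁ * q) y₀)) →
    RibmpGaussUnit (M₁ * q) A (nfEmb (beta0Field A) (M₁ * q) y₀) →
    RibmpGaussUnit (M₁ * q) A
      (atkinLehnerBar hq hqM (nfEmb (beta0Field A) (M₁ * q) y₀)) →
    ∀ t t' : modularFunctionFieldBar (M₁ * q),
      ReducesToOne A (M₁ * q) (nfEmb (beta0Field A) (M₁ * q) y₀ / t ^ m) →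
      ReducesToOne A (M₁ * q)
        (atkinLehnerBar hq hqM (nfEmb (beta0Field A) (M₁ * q) y₀ / t' ^ m)) →
      ∃ h : modularFunctionFieldBar (M₁ * q),
        h ^ m = (arithmeticGalois (modularFunctionFieldFull (M₁ * q)) σ •
          atkinLehnerBar hq hqM (nfEmb (beta0Field A) (M₁ * q) y₀)) *
            nfEmb (beta0Field A) (M₁ * q) y₀ ^ q

/-- **MP-FROB, Kummer form.** -/
def StmtFrobToricKummer : Prop :=
  ∀ (M₁ q : ℕ) [NeZero M₁] [NeZero q] [NeZero (M₁ * q)] (hq : q.Prime) (hqM : ¬ q ∣ M₁),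
    q ≠ 2 → ∀ p : ℕ, p.Prime → 5 ≤ p → p ≠ q → ∀ r : ℕ,
    ∀ A : ValuationSubring Qb, A.LiesOverPrime q →
    ∀ σ : Qb ≃ₐ[ℚ] Qb, A.IsFrobeniusAt σ q →
      StmtFrobToricKummerAt M₁ q hq hqM (p ^ r) A σ

section J

variable {M₁ q : ℕ} [NeZero M₁] [NeZero q] [NeZero (M₁ * q)]

/-- the divisor of a Kummer function is divisible by the exponent -/
theorem ribmp_frob_dvd_ord {m : ℕ} {x : JZero (M₁ * q)} {u : modularFunctionFieldBar (M₁ * q)}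
    (h : KummerRel m x u) (P : Place Qb (modularFunctionFieldBar (M₁ * q))) :
    (m : ℤ) ∣ P.ord u := by
  obtain ⟨D, -, -, hD⟩ := h
  exact ⟨_, (hD P).symm⟩

/-- `eisKill ℓ x` is inertia-fixed when `x` is -/
theorem ribmp_frob_inertiaFixed_eisKill {A : ValuationSubring Qb} {x : JZero (M₁ * q)}
    (hI : InertiaFixed A x) (ℓ : Nat.Primes) : InertiaFixed A (eisKill ℓ x) := by
  intro σ hσ
  unfold eisKill
  have h1 : σ • (((ℓ : ℕ) + 1) • x) = ((ℓ : ℕ) + 1) • (σ • x) :=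
    map_nsmul (DistribSMul.toAddMonoidHom (JZero (M₁ * q)) σ) _ x
  rw [smul_sub, galois_heckeOperatorBar, h1, hI σ hσ]

/-- a Gauss-constant Kummer function gives the toric datum `t` for any other Kummer function -/
theorem ribmp_frob_exists_t {m : ℕ} (hm : m ≠ 0)
    {y : JZero (M₁ * q)} {Y u : modularFunctionFieldBar (M₁ * q)}
    (hY : KummerRel m y Y) (hu : KummerRel m y u) {c : Qb} (hc : c ≠ 0) :
    ∃ t : modularFunctionFieldBar (M₁ * q), t ≠ 0 ∧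
      Y / t ^ m = algebraMap Qb (modularFunctionFieldBar (M₁ * q)) c * u := by
  obtain ⟨k, e, hk, he, hec, hYe⟩ := hu.exists_eq_mul_pow hY
  obtain ⟨a, rfl⟩ := mu_exists_const_of_ord_eq_zero e hec
  have ha : a ≠ 0 := by
    rintro rfl
    exact he (map_zero _)
  obtain ⟨d, hd⟩ := IsAlgClosed.exists_pow_nat_eq (a / c) (Nat.pos_of_ne_zero hm)
  have hd0 : d ≠ 0 := by
    rintro rfl
    rw [zero_pow hm] at hd
    exact div_ne_zero ha hc hd.symm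
  have hd' : algebraMap Qb (modularFunctionFieldBar (M₁ * q)) d ≠ 0 := (map_ne_zero _).2 hd0
  have hc' : algebraMap Qb (modularFunctionFieldBar (M₁ * q)) c ≠ 0 := (map_ne_zero _).2 hc
  refine ⟨algebraMap Qb (modularFunctionFieldBar (M₁ * q)) d * k, mul_ne_zero hd' hk, ?_⟩
  have hkm : k ^ m ≠ 0 := pow_ne_zero m hk
  have hdm : algebraMap Qb (modularFunctionFieldBar (M₁ * q)) d ^ m
      = algebraMap Qb (modularFunctionFieldBar (M₁ * q)) a /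
          algebraMap Qb (modularFunctionFieldBar (M₁ * q)) c := by
    rw [← map_pow, hd, map_div₀]
  rw [hYe, mul_pow, hdm]
  have ha' : algebraMap Qb (modularFunctionFieldBar (M₁ * q)) a ≠ 0 := (map_ne_zero _).2 ha
  field_simp

end J

/-- **FROB-J, local form.**  `StmtFrobToric` at `(M₁, q, p ^ r, A, σ)` from the Kummer form
at `(M₁, q, p ^ r, A, σ)`. -/
theorem ribmp_frob_pow_of_kummerAt
    (M₁ q : ℕ) [NeZero M₁] [NeZero q] [NeZero (M₁ * q)] (hq : q.Prime) (hqM : ¬ q ∣ M₁)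
    (p : ℕ) (hp : p.Prime) (r : ℕ)
    (A : ValuationSubring Qb) (hA : A.LiesOverPrime q)
    (σ : Qb ≃ₐ[ℚ] Qb) (hK : StmtFrobToricKummerAt M₁ q hq hqM (p ^ r) A σ)
    (x : JZero (M₁ * q)) (hx : p ^ r • x = 0) (hI : InertiaFixed A x)
    (ℓ : Nat.Primes) (hℓ : ¬ (ℓ : ℕ) ∣ M₁ * q * p)
    (htor : IsToric hq hqM A (p ^ r) (eisKill ℓ x)) :
    σ • (atkinLehnerBar hq hqM • eisKill ℓ x) + q • eisKill ℓ x = 0 := by
  haveI : NeZero (ℓ : ℕ) := ⟨ℓ.2.ne_zero⟩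
  have hm : p ^ r ≠ 0 := pow_ne_zero r hp.ne_zero
  have hℓN : ¬ (ℓ : ℕ) ∣ M₁ * q := fun h => hℓ (Dvd.dvd.mul_right h p)
  obtain ⟨u₀, hu₀, hxu⟩ := ribmp_desc hq hA hm hx hI
  have hu₀' : nfEmb (beta0Field A) (M₁ * q) u₀ ≠ 0 := (map_ne_zero _).2 hu₀
  obtain ⟨y₀, hy₀⟩ := ribmp_vh_exists_desc hq hA (M₁ * q) (ℓ : ℕ) ℓ.2 hℓN u₀
  have hY : KummerRel (p ^ r) (eisKill ℓ x) (nfEmb (beta0Field A) (M₁ * q) y₀) := by
    rw [hy₀]
    exact ribmp_vh_kummerRel ℓ hxu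
  have hy₀0 : y₀ ≠ 0 := by
    rintro rfl
    exact hY.ne_zero (map_zero _)
  have hU₁ : RibmpGaussUnit (M₁ * q) A (nfEmb (beta0Field A) (M₁ * q) y₀) := by
    rw [hy₀]
    exact ribmp_vh_gaussUnit hq hA (ℓ : ℕ) ℓ.2 hℓN _ hu₀'
  have hU₂ : RibmpGaussUnit (M₁ * q) A
      (atkinLehnerBar hq hqM (nfEmb (beta0Field A) (M₁ * q) y₀)) := by
    rw [hy₀, ribmp_vh_atkinLehnerBar_eisFun hq hqM (ℓ : ℕ) ℓ.2 hℓN]
    exact ribmp_vh_gaussUnit hq hA (ℓ : ℕ) ℓ.2 hℓN _ ((map_ne_zero _).2 hu₀')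
  obtain ⟨⟨u₁, hu₁, c₁, hc₁, hR₁⟩, ⟨u₂, hu₂, c₂, hc₂, hR₂⟩⟩ := htor
  obtain ⟨t, ht0, ht⟩ := ribmp_frob_exists_t hm hY hu₁ hc₁
  obtain ⟨t', ht'0, ht'⟩ := ribmp_frob_exists_t hm hY hu₂ hc₂
  have hT : ReducesToOne A (M₁ * q) (nfEmb (beta0Field A) (M₁ * q) y₀ / t ^ (p ^ r)) := by
    rw [ht]
    exact hR₁
  have hT' : ReducesToOne A (M₁ * q)
      (atkinLehnerBar hq hqM (nfEmb (beta0Field A) (M₁ * q) y₀ / t' ^ (p ^ r))) := by
    rw [ht', map_mul, AlgEquiv.commutes]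
    exact hR₂
  obtain ⟨h, hh⟩ := hK y₀ hy₀0 (ribmp_frob_dvd_ord hY) hU₁ hU₂ t t' hT hT'
  have h1 : KummerRel (p ^ r) (σ • (atkinLehnerBar hq hqM • eisKill ℓ x))
      (arithmeticGalois (modularFunctionFieldFull (M₁ * q)) σ •
        atkinLehnerBar hq hqM (nfEmb (beta0Field A) (M₁ * q) y₀)) :=
    KummerRel.galois σ (ribmp_w_kummerRel hq hqM hY)
  have h2 : KummerRel (p ^ r) (q • eisKill ℓ x) (nfEmb (beta0Field A) (M₁ * q) y₀ ^ q) :=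
    ribmp_vh_kummerRel_nsmul hY q
  have h3 := h1.add h2
  rw [← hh, ← one_mul (h ^ (p ^ r))] at h3
  exact KummerRel.eq_zero_of_pow hm (fun v => v.ord_one) h3

/-- **FROB-J.**  `StmtFrobToric` for the exponent `p ^ r` from the Kummer form. -/
theorem ribmp_frob_pow_of_kummer (hK : StmtFrobToricKummer)
    (M₁ q : ℕ) [NeZero M₁] [NeZero q] [NeZero (M₁ * q)] (hq : q.Prime) (hqM : ¬ q ∣ M₁)
    (hq2 : q ≠ 2) (p : ℕ) (hp : p.Prime) (hp5 : 5 ≤ p) (hpq : p ≠ q) (r : ℕ)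
    (A : ValuationSubring Qb) (hA : A.LiesOverPrime q)
    (σ : Qb ≃ₐ[ℚ] Qb) (hσ : A.IsFrobeniusAt σ q)
    (x : JZero (M₁ * q)) (hx : p ^ r • x = 0) (hI : InertiaFixed A x)
    (ℓ : Nat.Primes) (hℓ : ¬ (ℓ : ℕ) ∣ M₁ * q * p)
    (htor : IsToric hq hqM A (p ^ r) (eisKill ℓ x)) :
    σ • (atkinLehnerBar hq hqM • eisKill ℓ x) + q • eisKill ℓ x = 0 :=
  ribmp_frob_pow_of_kummerAt M₁ q hq hqM p hp r A hA σ
    (hK M₁ q hq hqM hq2 p hp hp5 hpq r A hA σ hσ) x hx hI ℓ hℓ htor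

/-- **FROB-J.**  `StmtFrobToric` from the Kummer form. -/
theorem ribmp_frob_of_kummer (hK : StmtFrobToricKummer) : StmtFrobToric := by
  intro M₁ q _ _ _ hq hqM hq2 p hp hp5 hpq A hA σ hσ x hx hI ℓ hℓ htor
  have hx' : p ^ 1 • x = 0 := by rwa [pow_one]
  have htor' : IsToric hq hqM A (p ^ 1) (eisKill ℓ x) := by rwa [pow_one]
  exact ribmp_frob_pow_of_kummer hK M₁ q hq hqM hq2 p hp hp5 hpq 1 A hA σ hσ x hx' hI ℓ hℓ htor'

end Fermat.Agent.RIB.MP
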