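/-
Row 37, Mazur's principle, piece **MP-FROB** (helper3), part 2: the per-point hypothesis `hpts`
of `STB.stbsw_main_points` (swap twin of `STB.stb_mt_hpts`), generic charts.

Setting of `UNIP/AbstractT.lean`: `A₀` a DVR with uniformizer `π`, `E = Frac A₀`, `F / E(t)`
finite, two vertical valuation rings `V true`, `V false`, the dichotomy of U5 (`StbNodeAt`) at
every closed point of the two charts `t`, `t⁻¹`.

* `ribmp_frob_chart` : at a closed point `𝔫` of the chart `u`: either both components pass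
  through `𝔫`, with (S) and (N) at both branches, or exactly one component `c` passes through
  `𝔫`, with (N);
* `ribmp_frob_point` : the same on the index type `AtPt π t ⊕ AtPt π t⁻¹`;
* `ribmp_frob_hpts`  : `hpts` of `stbsw_main_points` from the dichotomy, (Fr′) at the crossing
  points, the preimage points at the one-component points and (F) at every point.
-/
import Fermat.Agent.STB.MainTwo
import Fermat.Agent.STB.SwapT

set_option autoImplicit false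
set_option linter.style.haveILetI false
set_option linter.unusedSectionVars false
set_option linter.unusedVariables false

namespace Fermat.Agent.RIB.MP

open Polynomial IntermediateField Fermat.Agent.INJ AlgebraicCurve Fermat.Agent.UNIP
  Fermat.Agent.STB

section Chart

variable {A₀ E F : Type*} [CommRing A₀] [IsDomain A₀] [IsDiscreteValuationRing A₀]
  [Field E] [Algebra A₀ E] [IsFractionRing A₀ E] [CharZero E]
  [Field F] [Algebra E F] [Algebra A₀ F] [IsScalarTower A₀ E F]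
  {π : A₀}

/-- **The dichotomy at a closed point of the chart `u`, with (S) and (N).** -/
theorem ribmp_frob_chart {u : F}
    [IsNoetherianRing ↥(zchClosure (A₀ := A₀) ({u} : Set F))]
    (V : Bool → ValuationSubring F)
    (hBV : ∀ c (b : F), IsIntegral ↥(Algebra.adjoin A₀ {u}) b → b ∈ V c)
    (hπV : ∀ c, algebraMap A₀ F π ∈ (V c).nonunits)
    (hSS1 : ∀ b : F, IsIntegral ↥(Algebra.adjoin A₀ {u}) b → (∀ c, b ∈ (V c).nonunits) →
      ∃ b' : F, IsIntegral ↥(Algebra.adjoin A₀ {u}) b' ∧ b = algebraMap A₀ F π * b')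
    (hVloc : ∀ c (x : F), x ∈ V c → ∃ b s : F, IsIntegral ↥(Algebra.adjoin A₀ {u}) b ∧
      IsIntegral ↥(Algebra.adjoin A₀ {u}) s ∧ s ∉ (V c).nonunits ∧ s * x = b)
    (hnle : ∀ c c', c ≠ c' → ¬ V c ≤ V c')
    {R : Type*} [CommRing R] (j : R →+* ↥(zchClosure (A₀ := A₀) ({u} : Set F))) (p : R)
    (hram : MgcRamified j (algebraMap A₀ ↥(zchClosure (A₀ := A₀) ({u} : Set F)) π) p)
    (𝔫 : AtPt (F := F) π u) (hnode : StbNodeAt (V true) (V false) 𝔫 j p) :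
    (atThrough 𝔫 (V true) ∧ atThrough 𝔫 (V false) ∧
      (∀ x : atLoc 𝔫, ¬ IsUnit x → ∃ a b : atLoc 𝔫, (a : F) ∈ (V true).nonunits ∧
        (b : F) ∈ (V false).nonunits ∧ x = a + b) ∧
      StbRes (atLoc 𝔫) (V true) ∧ StbRes (atLoc 𝔫) (V false)) ∨
    (∃ c, atThrough 𝔫 (V c) ∧ (∀ c', atThrough 𝔫 (V c') → c' = c) ∧
      StbRes (atLoc 𝔫) (V c)) := by
  rcases hnode with ⟨s, hs, hgen⟩ | ⟨hthr₁, hthr₂, X, Y, hX, hY, hgen⟩
  · right
    have hG := hram.mgg_locGen_pair 𝔫.2.2 s hgen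
    obtain ⟨c, hc, honly⟩ := stb_sx_exists_unique V hBV hπV hSS1 hVloc hnle 𝔫 (j s) hs hG
    exact ⟨c, hc, honly, stb_sp_res (V c) (hBV c) (hπV c) (hVloc c) 𝔫 hc (j s) hs hG⟩
  · left
    have hT₁ : atThrough 𝔫 (V true) :=
      stb_cp_through (V true) (hBV true) (hπV true) 𝔫 j p hram hthr₁
    have hT₂ : atThrough 𝔫 (V false) :=
      stb_cp_through (V false) (hBV false) (hπV false) 𝔫 j p hram hthr₂
    have hG := stb_cp_locGen 𝔫 j p hram X Y hgen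
    refine ⟨hT₁, hT₂, ?_, ?_, ?_⟩
    · exact stb_cp_sum (V true) (V false) (hBV true) (hBV false) (hπV true) 𝔫 hT₁ hT₂
        (j X) (j Y) hX hY hG
    · exact stb_cp_res₁ (V true) (hBV true) (hπV true) (hVloc true) 𝔫 hT₁ (j X) (j Y) hX
        (hT₂ _ hY) hG
    · exact stb_cp_res₂ (V false) (hBV false) (hπV false) (hVloc false) 𝔫 hT₂ (j X) (j Y)
        (hT₁ _ hX) hY hG

end Chart

section Points

variable {A₀ E F : Type*} [CommRing A₀] [IsDomain A₀] [IsDiscreteValuationRing A₀]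
  [Field E] [Algebra A₀ E] [IsFractionRing A₀ E] [CharZero E]
  [Field F] [Algebra E F] [Algebra A₀ F] [IsScalarTower A₀ E F]
  {π : A₀}

/-- **The dichotomy at every closed point of the two charts, with (S) and (N).** -/
theorem ribmp_frob_point (hπ : Irreducible π) {t : F} (ht : Transcendental E t)
    [FiniteDimensional E⟮t⟯ F]
    [IsNoetherianRing ↥(zchClosure (A₀ := A₀) ({t} : Set F))]
    [IsNoetherianRing ↥(zchClosure (A₀ := A₀) ({t⁻¹} : Set F))]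
    (V : Bool → ValuationSubring F) (hne : V true ≠ V false)
    (hBV₁ : ∀ c (b : F), IsIntegral ↥(Algebra.adjoin A₀ {t}) b → b ∈ V c)
    (hBV₂ : ∀ c (b : F), IsIntegral ↥(Algebra.adjoin A₀ {t⁻¹}) b → b ∈ V c)
    (hπV : ∀ c, algebraMap A₀ F π ∈ (V c).nonunits)
    (hSS1 : ∀ b : F, IsIntegral ↥(Algebra.adjoin A₀ {t}) b → (∀ c, b ∈ (V c).nonunits) →
      ∃ b' : F, IsIntegral ↥(Algebra.adjoin A₀ {t}) b' ∧ b = algebraMap A₀ F π * b')
    (harch : ∀ c (a x : F), a ∈ (V c).nonunits → ∃ N : ℕ, a ^ N * x ∈ (V c).nonunits)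
    (hVloc₁ : ∀ c (x : F), x ∈ V c → ∃ b s : F, IsIntegral ↥(Algebra.adjoin A₀ {t}) b ∧
      IsIntegral ↥(Algebra.adjoin A₀ {t}) s ∧ s ∉ (V c).nonunits ∧ s * x = b)
    (hVloc₂ : ∀ c (x : F), x ∈ V c → ∃ b s : F, IsIntegral ↥(Algebra.adjoin A₀ {t⁻¹}) b ∧
      IsIntegral ↥(Algebra.adjoin A₀ {t⁻¹}) s ∧ s ∉ (V c).nonunits ∧ s * x = b)
    {R₁ : Type*} [CommRing R₁] (j₁ : R₁ →+* ↥(zchClosure (A₀ := A₀) ({t} : Set F))) (p₁ : R₁)
    (hram₁ : MgcRamified j₁ (algebraMap A₀ ↥(zchClosure (A₀ := A₀) ({t} : Set F)) π) p₁)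
    {R₂ : Type*} [CommRing R₂] (j₂ : R₂ →+* ↥(zchClosure (A₀ := A₀) ({t⁻¹} : Set F))) (p₂ : R₂)
    (hram₂ : MgcRamified j₂ (algebraMap A₀ ↥(zchClosure (A₀ := A₀) ({t⁻¹} : Set F)) π) p₂)
    (hnode₁ : ∀ 𝔫 : AtPt (F := F) π t, StbNodeAt (V true) (V false) 𝔫 j₁ p₁)
    (hnode₂ : ∀ 𝔫 : AtPt (F := F) π t⁻¹, StbNodeAt (V true) (V false) 𝔫 j₂ p₂)
    (i : AtPt (F := F) π t ⊕ AtPt (F := F) π t⁻¹) :
    (atInc π t V i true ∧ atInc π t V i false ∧
      (∀ x : atO π t i, ¬ IsUnit x → ∃ a b : atO π t i, (a : F) ∈ (V true).nonunits ∧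
        (b : F) ∈ (V false).nonunits ∧ x = a + b) ∧
      StbRes (atO π t i) (V true) ∧ StbRes (atO π t i) (V false)) ∨
    (∃ c, atInc π t V i c ∧ (∀ c', atInc π t V i c' → c' = c) ∧
      StbRes (atO π t i) (V c)) := by
  have hπ0 : algebraMap A₀ F π ≠ 0 := unip_algebraMap_irreducible_ne_zero E hπ
  have harch' : ∀ c, StbArch (V c) := fun c x a ha => by
    obtain ⟨N, hN⟩ := harch c a x ha
    exact ⟨N, by rw [mul_comm]; exact hN⟩
  have hne' : ∀ c c' : Bool, c ≠ c' → V c ≠ V c' := by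
    intro c c' hcc' h
    cases c <;> cases c'
    · exact hcc' rfl
    · exact hne h.symm
    · exact hne h
    · exact hcc' rfl
  have hnle : ∀ c c' : Bool, c ≠ c' → ¬ V c ≤ V c' := fun c c' hcc' =>
    stb_not_le_of_ne (harch' c) hπ0 (hπV c') (hne' c c' hcc')
  rcases i with 𝔫 | 𝔫
  · exact ribmp_frob_chart V hBV₁ hπV hSS1 hVloc₁ hnle j₁ p₁ hram₁ 𝔫 (hnode₁ 𝔫)
  · exact ribmp_frob_chart V hBV₂ hπV (ats_SS1_inv ht hπ V hBV₁ hSS1) hVloc₂ hnle j₂ p₂ hram₂ 𝔫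
      (hnode₂ 𝔫)

/-- **`hpts` of `stbsw_main_points`** from the dichotomy of U5, (Fr′) at the crossing points,
the preimage points at the one-component points and (F) at every closed point. -/
theorem ribmp_frob_hpts (hπ : Irreducible π) {t : F} (ht : Transcendental E t)
    [FiniteDimensional E⟮t⟯ F]
    [IsNoetherianRing ↥(zchClosure (A₀ := A₀) ({t} : Set F))]
    [IsNoetherianRing ↥(zchClosure (A₀ := A₀) ({t⁻¹} : Set F))]
    (V : Bool → ValuationSubring F) (hne : V true ≠ V false)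
    (hBV₁ : ∀ c (b : F), IsIntegral ↥(Algebra.adjoin A₀ {t}) b → b ∈ V c)
    (hBV₂ : ∀ c (b : F), IsIntegral ↥(Algebra.adjoin A₀ {t⁻¹}) b → b ∈ V c)
    (hπV : ∀ c, algebraMap A₀ F π ∈ (V c).nonunits)
    (hSS1 : ∀ b : F, IsIntegral ↥(Algebra.adjoin A₀ {t}) b → (∀ c, b ∈ (V c).nonunits) →
      ∃ b' : F, IsIntegral ↥(Algebra.adjoin A₀ {t}) b' ∧ b = algebraMap A₀ F π * b')
    (harch : ∀ c (a x : F), a ∈ (V c).nonunits → ∃ N : ℕ, a ^ N * x ∈ (V c).nonunits)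
    (hVloc₁ : ∀ c (x : F), x ∈ V c → ∃ b s : F, IsIntegral ↥(Algebra.adjoin A₀ {t}) b ∧
      IsIntegral ↥(Algebra.adjoin A₀ {t}) s ∧ s ∉ (V c).nonunits ∧ s * x = b)
    (hVloc₂ : ∀ c (x : F), x ∈ V c → ∃ b s : F, IsIntegral ↥(Algebra.adjoin A₀ {t⁻¹}) b ∧
      IsIntegral ↥(Algebra.adjoin A₀ {t⁻¹}) s ∧ s ∉ (V c).nonunits ∧ s * x = b)
    {R₁ : Type*} [CommRing R₁] (j₁ : R₁ →+* ↥(zchClosure (A₀ := A₀) ({t} : Set F))) (p₁ : R₁)
    (hram₁ : MgcRamified j₁ (algebraMap A₀ ↥(zchClosure (A₀ := A₀) ({t} : Set F)) π) p₁)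
    {R₂ : Type*} [CommRing R₂] (j₂ : R₂ →+* ↥(zchClosure (A₀ := A₀) ({t⁻¹} : Set F))) (p₂ : R₂)
    (hram₂ : MgcRamified j₂ (algebraMap A₀ ↥(zchClosure (A₀ := A₀) ({t⁻¹} : Set F)) π) p₂)
    (hnode₁ : ∀ 𝔫 : AtPt (F := F) π t, StbNodeAt (V true) (V false) 𝔫 j₁ p₁)
    (hnode₂ : ∀ 𝔫 : AtPt (F := F) π t⁻¹, StbNodeAt (V true) (V false) 𝔫 j₂ p₂)
    (g : F →+* F) (Q m : ℕ) {y : F}
    (hfrob : ∀ i : AtPt (F := F) π t ⊕ AtPt (F := F) π t⁻¹,
      atInc π t V i true → atInc π t V i false →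
      ∀ x : atO π t i, ∃ z : atO π t i, ¬ IsUnit z ∧ (z : F) = g (x : F) - (x : F) ^ Q)
    (hgeom : ∀ (i : AtPt (F := F) π t ⊕ AtPt (F := F) π t⁻¹) (c : Bool),
      atInc π t V i c → (∀ c', atInc π t V i c' → c' = c) →
      ∃ i₁ : AtPt (F := F) π t ⊕ AtPt (F := F) π t⁻¹, atInc π t V i₁ (!c) ∧
        (∀ c', atInc π t V i₁ c' → c' = !c) ∧ ∀ x ∈ atO π t i₁, g x ∈ atO π t i)
    (hfac : ∀ i : AtPt (F := F) π t ⊕ AtPt (F := F) π t⁻¹, StbFacAt (atO π t i) m y)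
    (i : AtPt (F := F) π t ⊕ AtPt (F := F) π t⁻¹) :
    (atInc π t V i true ∧ atInc π t V i false ∧
      StbCross (atO π t i) (V true) (V false) g Q m y) ∨
    (∃ c, atInc π t V i c ∧ (∀ c', atInc π t V i c' → c' = c) ∧
      ∃ i₁ : AtPt (F := F) π t ⊕ AtPt (F := F) π t⁻¹, atInc π t V i₁ (!c) ∧
        StbSwapSmooth (atO π t i) (atO π t i₁) (V c) (V (!c)) g m y) := by
  have key := ribmp_frob_point hπ ht V hne hBV₁ hBV₂ hπV hSS1 harch hVloc₁ hVloc₂ j₁ p₁ hram₁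
    j₂ p₂ hram₂ hnode₁ hnode₂
  rcases key i with ⟨h1, h2, hsum, hres1, hres2⟩ | ⟨c, hc, honly, hres⟩
  · left
    exact ⟨h1, h2, hsum, hres1, hres2, hfrob i h1 h2, hfac i⟩
  · right
    obtain ⟨i₁, hi₁, honly₁, hg⟩ := hgeom i c hc honly
    refine ⟨c, hc, honly, i₁, hi₁, hg, hres, ?_, hfac i, hfac i₁⟩
    rcases key i₁ with ⟨h1, h2, -⟩ | ⟨c', hc', honly', hres'⟩
    · exfalso
      have e1 : true = !c := honly₁ true h1
      have e2 : false = !c := honly₁ false h2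
      have e3 : true = false := e1.trans e2.symm
      exact Bool.noConfusion e3
    · have e : (!c) = c' := honly' _ hi₁
      rw [e]
      exact hres'

end Points

end Fermat.Agent.RIB.MP
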