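/-
Row 37, Mazur's principle, piece **MP-FROB** (helper3), part 4: the concrete assembly.

`ribmp_frob_kummerAt` : (F) (`StmtFac`, helper95) ⇒ the Kummer form of MP-FROB at the level
`M₁ q` (`q ≠ 2`, `q = 3 → 2 ∣ M₁`), by `STB.stbsw_c_main` (helper45) over the ramified base
`E′ = ℚ̄^I · K₁`, `K₁` a number field of definition of the toric data.
-/
import Fermat.Agent.RIB.MP.FrobJ
import Fermat.Agent.RIB.MP.FrobPts
import Fermat.Agent.RIB.MP.FrobFac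
import Fermat.Agent.RIB.MP.FacStmt
import Fermat.Agent.STB.SwapFrobMG
import Fermat.Agent.STB.MGNodeFinal
import Fermat.Agent.UNIP.MGChartsBeta0All
import Fermat.Agent.STB.ToricMgv
import Fermat.Agent.UNIP.MGVertLocMain
import Fermat.Agent.STB.MGData

set_option autoImplicit false
set_option linter.style.haveILetI false
set_option linter.unusedSectionVars false
set_option linter.unusedVariables false
set_option linter.style.longLine false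

noncomputable section

namespace Fermat.Agent.RIB.MP

open ModularCurve AlgebraicCurve Fermat.Agent.ES Fermat.Agent.ES.G2 Fermat.Agent.INJ
  Fermat.Agent.UNIP Fermat.Agent.STB Fermat.Agent.AL
open IntermediateField

section Base

variable {A : ValuationSubring Qb} (K₁ : IntermediateField ℚ Qb) {q : ℕ} [NeZero q]

/-- the residue field of `A′ = A ∩ (E₀ ⊔ K₁)` is the residue field of `A₀ = A ∩ E₀` -/
theorem ribmp_frob_hres (hq : q.Prime) (hA : A.LiesOverPrime q)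
    [IsDiscreteValuationRing ↥(mgcA A K₁)] {π' : ↥(mgcA A K₁)} (hπ' : Irreducible π')
    (a' : ↥(mgcA A K₁)) :
    ∃ a : ↥(beta0Ring A (beta0Field A)),
      π' ∣ a' - beta0RingIncl (A := A) (le_sup_left : beta0Field A ≤ beta0Field A ⊔ K₁) a := by
  have ha' : (((a' : ↥(mgcE A K₁)) : Qb)) ∈ A := a'.2
  obtain ⟨b, hbE, hbA, hb⟩ := beta0_exists_residue hq hA ha'
  refine ⟨⟨⟨b, hbE⟩, hbA⟩, ?_⟩
  have h1 : a' - beta0RingIncl (A := A) (le_sup_left : beta0Field A ≤ beta0Field A ⊔ K₁)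
      ⟨⟨b, hbE⟩, hbA⟩ ∈ IsLocalRing.maximalIdeal ↥(mgcA A K₁) := by
    rw [beta0Ring_mem_maximalIdeal_iff]
    exact hb
  rw [hπ'.maximalIdeal_eq, Ideal.mem_span_singleton] at h1
  exact h1

/-- `π′ ∣ q` -/
theorem ribmp_frob_hdvd (hA : A.LiesOverPrime q)
    [IsDiscreteValuationRing ↥(mgcA A K₁)] {π' : ↥(mgcA A K₁)} (hπ' : Irreducible π') :
    π' ∣ beta0RingIncl (A := A) (le_sup_left : beta0Field A ≤ beta0Field A ⊔ K₁)
      ((q : ℕ) : ↥(beta0Ring A (beta0Field A))) := by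
  rw [map_natCast]
  exact stbd_dvd_natCast hπ' hA

end Base

section Emb

variable {A : ValuationSubring Qb} (K₁ : IntermediateField ℚ Qb) (N : ℕ) [NeZero N]

/-- the embedding `F_N(E₀) → F_N(E′)` -/
def ribmpFrobUp :
    ↥(modularFunctionFieldFullC ↥(beta0Field A) N) →+* ↥(mgcF A K₁ N) :=
  letI := beta0InstFieldAlgebra A K₁
  mgcEmb ↥(beta0Field A) ↥(beta0Field A ⊔ K₁) N

theorem ribmpFrobUp_coe (x : ↥(modularFunctionFieldFullC ↥(beta0Field A) N)) :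
    ((ribmpFrobUp K₁ N x : ↥(mgcF A K₁ N)) : LaurentSeries ↥(mgcE A K₁)) =
      coeffMap (letI := beta0InstFieldAlgebra A K₁
        algebraMap ↥(beta0Field A) ↥(beta0Field A ⊔ K₁)) (x : LaurentSeries ↥(beta0Field A)) :=
  rfl

/-- compatibility with the embeddings into `F_N(ℚ̄)` -/
theorem nfEmb_ribmpFrobUp (x : ↥(modularFunctionFieldFullC ↥(beta0Field A) N)) :
    nfEmb (mgcE A K₁) N (ribmpFrobUp K₁ N x) = nfEmb (beta0Field A) N x := by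
  apply Subtype.ext
  rw [nfEmb_coe, nfEmb_coe, ribmpFrobUp_coe, coeffMap_coeffMap]
  rfl

/-- `j ↦ j` -/
theorem ribmpFrobUp_J :
    ribmpFrobUp K₁ N (bgJ ↥(beta0Field A) N) = mgcT A K₁ N :=
  Subtype.ext (coeffMap_jqModC _)

/-- constants -/
theorem ribmpFrobUp_algebraMap (a : ↥(beta0Ring A (beta0Field A))) :
    ribmpFrobUp K₁ N
        (algebraMap ↥(beta0Ring A (beta0Field A))
          ↥(modularFunctionFieldFullC ↥(beta0Field A) N) a) =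
      algebraMap ↥(mgcA A K₁) ↥(mgcF A K₁ N)
        (beta0RingIncl (A := A) (le_sup_left : beta0Field A ≤ beta0Field A ⊔ K₁) a) := by
  letI := beta0InstFieldAlgebra A K₁
  rw [mgcAlgAGen_algebraMap, mgcAlgAGen_algebraMap]
  exact mgcEmb_algebraMap ↥(beta0Field A) ↥(beta0Field A ⊔ K₁) N _

end Emb

section Fac

variable {A : ValuationSubring Qb} (K₁ : IntermediateField ℚ Qb)
  {M₁ q : ℕ} [NeZero M₁] [NeZero q] [NeZero (M₁ * q)]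

/-- **(F) over the ramified base** `E′ = E₀ ⊔ K₁`, for the image of a function of `F_N(E₀)`. -/
theorem ribmp_frob_fac_mgc (hq : q.Prime) (hqM : ¬ q ∣ M₁) (hA : A.LiesOverPrime q)
    [IsDiscreteValuationRing ↥(mgcA A K₁)] {π' : ↥(mgcA A K₁)} (hπ' : Irreducible π')
    {m : ℕ} (hF : StmtFacOver M₁ q m A (beta0Field A))
    (y₀ : ↥(modularFunctionFieldFullC ↥(beta0Field A) (M₁ * q))) (hy₀ : y₀ ≠ 0)
    (hhor : ∀ P : Place NfQb (modularFunctionFieldBar (M₁ * q)),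
      (m : ℤ) ∣ P.ord (nfEmb (beta0Field A) (M₁ * q) y₀))
    (hU₁ : RibmpGaussUnit (M₁ * q) A (nfEmb (beta0Field A) (M₁ * q) y₀))
    (hU₂ : RibmpGaussUnit (M₁ * q) A
      (atkinLehnerBar hq hqM (nfEmb (beta0Field A) (M₁ * q) y₀))) :
    ∀ i' : AtPt (F := ↥(mgcF A K₁ (M₁ * q))) π' (mgcT A K₁ (M₁ * q)) ⊕
        AtPt (F := ↥(mgcF A K₁ (M₁ * q))) π' (mgcT A K₁ (M₁ * q))⁻¹,
      StbFacAt (atO π' (mgcT A K₁ (M₁ * q)) i') m (ribmpFrobUp K₁ (M₁ * q) y₀) := by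
  haveI := beta0Ring_isDVR_base (A := A) hq hA
  haveI : IsAlgClosed (IsLocalRing.ResidueField ↥(mgcA A K₁)) :=
    stb_isAlgClosed_residue hq hA (le_sup_left : beta0Field A ≤ mgcE A K₁)
  have hπ₀ : Irreducible ((q : ℕ) : ↥(beta0Ring A (beta0Field A))) :=
    beta0Ring_irreducible_q hq hA
  let ιC₀ : ↥(beta0Field A) →+* ℂ := cheapIota.comp (algebraMap ↥(beta0Field A) Qb)
  have hunit : ∀ c, (mgvV hπ₀ ιC₀ hq hqM c).valuation y₀ = 1 := by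
    intro c
    cases c
    · exact ribmp_vh_valuation_zero hπ₀ ιC₀ hq hqM y₀ hU₂
    · exact ribmp_vh_valuation_inf hπ₀ ιC₀ hq hqM y₀ hU₁
  have hy := hF hq hqM _ hπ₀ ιC₀ y₀ hy₀ hhor hunit
  exact ribmp_frob_fac_up_charts (ribmpFrobUp K₁ (M₁ * q))
    (beta0RingIncl (A := A) (le_sup_left : beta0Field A ≤ beta0Field A ⊔ K₁))
    (ribmpFrobUp_algebraMap K₁ (M₁ * q)) hπ₀ hπ' (ribmp_frob_hdvd K₁ hA hπ')
    (ribmp_frob_hres K₁ hq hA hπ') (ribmpFrobUp_J K₁ (M₁ * q)) hy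

end Fac

section Main

variable {M₁ q : ℕ} [NeZero M₁] [NeZero q] [NeZero (M₁ * q)]

set_option maxHeartbeats 3200000 in
/-- **MP-FROB, Kummer form, at `(M₁, q, p ^ r, A, σ)`**, from (F) over the inertia field. -/
theorem ribmp_frob_kummerAt (hq : q.Prime) (hqM : ¬ q ∣ M₁) (h2 : q = 2 → 3 ∣ M₁)
    (h3 : q = 3 → 2 ∣ M₁) {p : ℕ} (hp : p.Prime) (hpq : p ≠ q) (r : ℕ)
    {A : ValuationSubring Qb} (hA : A.LiesOverPrime q)
    (hF : StmtFacOver M₁ q (p ^ r) A (beta0Field A))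
    {σ : Qb ≃ₐ[ℚ] Qb} (hσ : A.IsFrobeniusAt σ q)
    (y₀ : ↥(modularFunctionFieldFullC ↥(beta0Field A) (M₁ * q))) (hy₀ : y₀ ≠ 0)
    (hhor : ∀ P : Place NfQb (modularFunctionFieldBar (M₁ * q)),
      ((p ^ r : ℕ) : ℤ) ∣ P.ord (nfEmb (beta0Field A) (M₁ * q) y₀))
    (hU₁ : RibmpGaussUnit (M₁ * q) A (nfEmb (beta0Field A) (M₁ * q) y₀))
    (hU₂ : RibmpGaussUnit (M₁ * q) A
      (atkinLehnerBar hq hqM (nfEmb (beta0Field A) (M₁ * q) y₀)))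
    (t t' : modularFunctionFieldBar (M₁ * q))
    (hT : ReducesToOne A (M₁ * q) (nfEmb (beta0Field A) (M₁ * q) y₀ / t ^ (p ^ r)))
    (hT' : ReducesToOne A (M₁ * q)
      (atkinLehnerBar hq hqM (nfEmb (beta0Field A) (M₁ * q) y₀ / t' ^ (p ^ r)))) :
    ∃ h : modularFunctionFieldBar (M₁ * q),
      h ^ (p ^ r) = (arithmeticGalois (modularFunctionFieldFull (M₁ * q)) σ •
        atkinLehnerBar hq hqM (nfEmb (beta0Field A) (M₁ * q) y₀)) *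
          nfEmb (beta0Field A) (M₁ * q) y₀ ^ q := by
  have hY0 : nfEmb (beta0Field A) (M₁ * q) y₀ ≠ 0 := (map_ne_zero _).2 hy₀
  obtain ⟨K', hK'fin, hK'⟩ := stb_exists_descent₃ (M₁ * q) t t' 1
  obtain ⟨K₁, hK'K₁, hK₁fin, hK₁gal, -⟩ :=
    rat_exists_field_rational (M₁ * q) (nfEmb (beta0Field A) (M₁ * q) y₀) hY0 K' hK'fin
  haveI : NumberField K₁ := @NumberField.mk _ _ inferInstance hK₁fin
  haveI : IsGalois ℚ K₁ := hK₁gal
  haveI : Normal ℚ K₁ := hK₁gal.to_normal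
  haveI : IsDiscreteValuationRing ↥(mgcA A K₁) := beta0Ring_isDVR_sup K₁ hq hA
  have hK₁E : K₁ ≤ mgcE A K₁ := le_sup_right
  obtain ⟨t₀, t₀', -, ht₀, ht₀', -⟩ := hK' (mgcE A K₁) (hK'K₁.trans hK₁E)
  have hφ : ∀ x ∈ mgcE A K₁, σ x ∈ mgcE A K₁ := fun x hx =>
    beta0_sup_decomp_apply_mem K₁ hσ.mem_decompositionSubgroup hx
  obtain ⟨π, hπ⟩ := IsDiscreteValuationRing.exists_irreducible ↥(mgcA A K₁)
  let ιC : ↥(mgcE A K₁) →+* ℂ := cheapIota.comp (algebraMap ↥(mgcE A K₁) Qb)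
  have hy'e : nfEmb (mgcE A K₁) (M₁ * q) (ribmpFrobUp K₁ (M₁ * q) y₀)
      = nfEmb (beta0Field A) (M₁ * q) y₀ := nfEmb_ribmpFrobUp K₁ (M₁ * q) y₀
  haveI := mgc_finiteDimensional A K₁ (M₁ * q)
  have ht := mgc_transcendental A K₁ (M₁ * q)
  have ht' : Transcendental ↥(mgcE A K₁) (mgcT A K₁ (M₁ * q))⁻¹ := zch_transcendental_inv ht
  haveI : FiniteDimensional (↥(mgcE A K₁))⟮(mgcT A K₁ (M₁ * q))⁻¹⟯ ↥(mgcF A K₁ (M₁ * q)) :=
    at_finiteDimensional_inv (mgcT A K₁ (M₁ * q))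
  haveI : IsNoetherianRing ↥(zchClosure (A₀ := ↥(mgcA A K₁))
      ({mgcT A K₁ (M₁ * q)} : Set ↥(mgcF A K₁ (M₁ * q)))) :=
    chart_closure_isNoetherianRing (A₀ := ↥(mgcA A K₁)) (E := ↥(mgcE A K₁)) ht
  haveI : IsNoetherianRing ↥(zchClosure (A₀ := ↥(mgcA A K₁))
      ({(mgcT A K₁ (M₁ * q))⁻¹} : Set ↥(mgcF A K₁ (M₁ * q)))) :=
    chart_closure_isNoetherianRing (A₀ := ↥(mgcA A K₁)) (E := ↥(mgcE A K₁)) ht'
  have hSS1 := mgcb_all_SS1 (K₁ := K₁) hq hqM hA h2 h3 hπ ιC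
  have hne := mgvl_hne hπ ιC hq hqM hA
  obtain ⟨R₁, _, j₁, p₁, hram₁, -, hnode₁⟩ := stbmn_hnode₁ K₁ hq hqM hA h2 h3 hπ ιC
  obtain ⟨R₂, _, j₂, p₂, hram₂, -, hnode₂⟩ := stbmn_hnode₂ K₁ hq hqM hA h2 h3 hπ ιC
  let tt : Bool → ↥(mgcF A K₁ (M₁ * q)) := fun c => if c then t₀ else t₀'
  have htoric : ∀ c, ribmpFrobUp K₁ (M₁ * q) y₀ / tt c ^ (p ^ r) - 1 ∈
      (mgvV hπ ιC hq hqM c).nonunits := by
    apply stb_mgt_htoric_mgv hπ ιC hq hqM tt (p ^ r)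
    · show ReducesToOne A (M₁ * q) (nfEmb (mgcE A K₁) (M₁ * q) (ribmpFrobUp K₁ (M₁ * q) y₀) /
        nfEmb (mgcE A K₁) (M₁ * q) t₀ ^ (p ^ r))
      rw [hy'e, ht₀]
      exact hT
    · show ReducesToOne A (M₁ * q) (atkinLehnerBar hq hqM
        (nfEmb (mgcE A K₁) (M₁ * q) (ribmpFrobUp K₁ (M₁ * q) y₀) /
          nfEmb (mgcE A K₁) (M₁ * q) t₀' ^ (p ^ r)))
      rw [hy'e, ht₀']
      exact hT'
  have hfac := ribmp_frob_fac_mgc K₁ hq hqM hA hπ hF y₀ hy₀ hhor hU₁ hU₂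
  have hfrob : ∀ i : AtPt (F := ↥(mgcF A K₁ (M₁ * q))) π (mgcT A K₁ (M₁ * q)) ⊕
        AtPt (F := ↥(mgcF A K₁ (M₁ * q))) π (mgcT A K₁ (M₁ * q))⁻¹,
      atInc π (mgcT A K₁ (M₁ * q)) (mgvV hπ ιC hq hqM) i true →
      atInc π (mgcT A K₁ (M₁ * q)) (mgvV hπ ιC hq hqM) i false →
      ∀ x : atO π (mgcT A K₁ (M₁ * q)) i, ∃ z : atO π (mgcT A K₁ (M₁ * q)) i, ¬ IsUnit z ∧
        (z : ↥(mgcF A K₁ (M₁ * q))) = stbswG ιC hq hqM σ hφ (x : ↥(mgcF A K₁ (M₁ * q))) -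
          (x : ↥(mgcF A K₁ (M₁ * q))) ^ q := by
    rintro (𝔫 | 𝔫) h1 h2' x
    · exact stbsw_mf_hfrob_J hπ ιC hq hqM hA h2 h3 hσ hφ 𝔫 h1 h2' x
    · exact stbsw_mf_hfrob_Jinv hπ ιC hq hqM hA h2 h3 hσ hφ 𝔫 h1 h2' x
  have hpts := ribmp_frob_hpts hπ ht (mgvV hπ ιC hq hqM) hne (mgv_hBV₁ hπ ιC hq hqM)
    (mgv_hBV₂ hπ ιC hq hqM) (mgv_hπV hπ ιC hq hqM) hSS1 (mgv_harch hπ ιC hq hqM)
    (mgv_hVloc₁ hπ ιC hq hqM hA hSS1) (mgv_hVloc₂ hπ ιC hq hqM hA hSS1) j₁ p₁ hram₁ j₂ p₂ hram₂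
    hnode₁ hnode₂ (stbswG ιC hq hqM σ hφ) q (p ^ r) hfrob
    (fun i c hc honly => stbsw_mf_geom hπ ιC hq hqM hA h2 h3 hσ hφ i c hc honly) hfac
  obtain ⟨h₀, hh₀⟩ := stbsw_c_main hq hA hπ hp hpq (mgvV hπ ιC hq hqM) true false
    (fun c => by cases c <;> simp) hne (mgv_hBV₁ hπ ιC hq hqM) (mgv_hBV₂ hπ ιC hq hqM)
    (mgv_hπV hπ ιC hq hqM) hSS1 (mgv_harch hπ ιC hq hqM) (stbswG ιC hq hqM σ hφ)
    (fun c => !c) rfl rfl (stbsw_mf_hgV hπ ιC hq hqM hσ.mem_decompositionSubgroup hφ) q r tt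
    htoric hpts
  refine ⟨nfEmb (mgcE A K₁) (M₁ * q) h₀, ?_⟩
  rw [← map_pow, hh₀, map_mul, map_pow, nfEmb_stbswG, hy'e]

end Main

end Fermat.Agent.RIB.MP
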