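/-
Row 37, Mazur's principle, piece **MP-FROB** (helper3), part 5: the final statements.

* `ribmp_frob_powE` : (F) (`StmtFac`, MP-FAC) ⇒ `StmtFrobToric` at the exponent `p ^ r`, under
  the hypothesis `5 ≤ q ∨ (5 - q) ∣ M₁` of `RIB/MP/PlanE.lean` (the form `StmtFrobToricPow` of
  K8);
* `stmtFrobToricE_of_fac : StmtFac → StmtFrobToricE`.
-/
import Fermat.Agent.RIB.MP.FrobMG
import Fermat.Agent.RIB.MP.PlanE

set_option autoImplicit false
set_option linter.style.haveILetI false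
set_option linter.unusedSectionVars false
set_option linter.unusedVariables false

noncomputable section

namespace Fermat.Agent.RIB.MP

open ModularCurve AlgebraicCurve Fermat.Agent.ES Fermat.Agent.ES.G2 Fermat.Agent.INJ
  Fermat.Agent.UNIP

/-- `p ^ r` is prime to `6` for a prime `p ≥ 5` -/
theorem ribmp_frob_coprime_six {p : ℕ} (hp : p.Prime) (hp5 : 5 ≤ p) (r : ℕ) :
    Nat.Coprime (p ^ r) 6 := by
  apply Nat.Coprime.pow_left
  have h2 : Nat.Coprime p 2 := by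
    rw [Nat.coprime_primes hp Nat.prime_two]
    omega
  have h3 : Nat.Coprime p 3 := by
    rw [Nat.coprime_primes hp Nat.prime_three]
    omega
  exact Nat.Coprime.mul_right h2 h3

/-- the Kummer form of MP-FROB at `(M₁, q, p ^ r, A, σ)` from (F) -/
theorem ribmp_frob_kummerAt_of_fac (hFac : StmtFac)
    (M₁ q : ℕ) [NeZero M₁] [NeZero q] [NeZero (M₁ * q)] (hq : q.Prime) (hqM : ¬ q ∣ M₁)
    (hE : 5 ≤ q ∨ (5 - q) ∣ M₁) (hq2 : q ≠ 2) (p : ℕ) (hp : p.Prime) (hp5 : 5 ≤ p)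
    (hpq : p ≠ q) (r : ℕ) (A : ValuationSubring Qb) (hA : A.LiesOverPrime q)
    (σ : Qb ≃ₐ[ℚ] Qb) (hσ : A.IsFrobeniusAt σ q) :
    StmtFrobToricKummerAt M₁ q hq hqM (p ^ r) A σ := by
  have h2 : q = 2 → 3 ∣ M₁ := fun h => absurd h hq2
  have h3 : q = 3 → 2 ∣ M₁ := by
    intro h
    subst h
    rcases hE with h | h
    · omega
    · exact h
  intro y₀ hy₀ hhor hU₁ hU₂ t t' hT hT'
  exact ribmp_frob_kummerAt hq hqM h2 h3 hp hpq r hA
    (hFac M₁ q hq hqM hq2 (p ^ r) (ribmp_frob_coprime_six hp hp5 r) A hA) hσ y₀ hy₀ hhor hU₁ hU₂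
    t t' hT hT'

/-- **MP-FROB at the exponent `p ^ r`** (restricted form), from (F). -/
theorem ribmp_frob_powE (hFac : StmtFac)
    (M₁ q : ℕ) [NeZero M₁] [NeZero q] [NeZero (M₁ * q)] (hq : q.Prime) (hqM : ¬ q ∣ M₁)
    (hE : 5 ≤ q ∨ (5 - q) ∣ M₁) (hq2 : q ≠ 2) (p : ℕ) (hp : p.Prime) (hp5 : 5 ≤ p)
    (hpq : p ≠ q) (r : ℕ) (A : ValuationSubring Qb) (hA : A.LiesOverPrime q)
    (σ : Qb ≃ₐ[ℚ] Qb) (hσ : A.IsFrobeniusAt σ q)
    (x : JZero (M₁ * q)) (hx : p ^ r • x = 0) (hI : InertiaFixed A x)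
    (ℓ : Nat.Primes) (hℓ : ¬ (ℓ : ℕ) ∣ M₁ * q * p)
    (htor : IsToric hq hqM A (p ^ r) (eisKill ℓ x)) :
    σ • (atkinLehnerBar hq hqM • eisKill ℓ x) + q • eisKill ℓ x = 0 :=
  ribmp_frob_pow_of_kummerAt M₁ q hq hqM p hp r A hA σ
    (ribmp_frob_kummerAt_of_fac hFac M₁ q hq hqM hE hq2 p hp hp5 hpq r A hA σ hσ)
    x hx hI ℓ hℓ htor

/-- **MP-FROB** (restricted form `StmtFrobToricE` of `RIB/MP/PlanE.lean`), from (F). -/
theorem stmtFrobToricE_of_fac (hFac : StmtFac) : StmtFrobToricE := by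
  intro M₁ q _ _ _ hq hqM hE hq2 p hp hp5 hpq A hA σ hσ x hx hI ℓ hℓ htor
  have hx' : p ^ 1 • x = 0 := by rwa [pow_one]
  have htor' : IsToric hq hqM A (p ^ 1) (eisKill ℓ x) := by rwa [pow_one]
  exact ribmp_frob_powE hFac M₁ q hq hqM hE hq2 p hp hp5 hpq 1 A hA σ hσ x hx' hI ℓ hℓ htor'

end Fermat.Agent.RIB.MP
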