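/-
Row 37, MP-RED: THE STATEMENT (helper91 RED-a, helper85 RED-b + RED-c).

* `stmtRedA : StmtRedA`                      (= `ribmp_red_a`, `RedA.lean`);
* `stmtRedE_of_fac : StmtFac → StmtRedE`     (MP-RED modulo MP-FAC);
* `ribmp_red_pow_of_fac`                     the same at the exponent `p ^ r` (`RT.K8.StmtRedPow`).
-/
import Fermat.Agent.RIB.MP.RedA
import Fermat.Agent.RIB.MP.RedFinal

set_option autoImplicit false
set_option linter.unusedSectionVars false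
set_option linter.unusedVariables false
set_option linter.style.longLine false
set_option synthInstance.maxHeartbeats 400000
set_option maxHeartbeats 1600000

noncomputable section

namespace Fermat.Agent.RIB.MP

open ModularCurve AlgebraicCurve Fermat.Agent.INJ Fermat.Agent.UNIP Fermat.Agent.STB
open Fermat.Agent.ES Fermat.Agent.ES.G2 Fermat.Agent.ES.M

/-- **RED-a.** -/
theorem stmtRedA : StmtRedA :=
  fun M₁ q _ _ _ hq hqM A hA _ π hπ ιC hRedF hfin m hm y₀ hy hF =>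
    ribmp_red_a hq hqM hA hπ ιC hRedF hfin hm y₀ hy hF

/-- **MP-RED modulo MP-FAC.** -/
theorem stmtRedE_of_fac (hFac : StmtFac) : StmtRedE := ribmp_rf_main stmtRedA hFac

/-- **MP-RED at the exponent `p ^ r`, modulo MP-FAC** (`RT.K8.StmtRedPow`). -/
theorem ribmp_red_pow_of_fac (hFac : StmtFac)
    (M₁ q : ℕ) [NeZero M₁] [NeZero q] [NeZero (M₁ * q)] (hq : q.Prime) (hqM : ¬ q ∣ M₁)
    (hE : 5 ≤ q ∨ (5 - q) ∣ M₁) (hq2 : q ≠ 2) (p : ℕ) (hp : p.Prime) (hp5 : 5 ≤ p) (hpq : p ≠ q)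
    (r : ℕ) (A : ValuationSubring Qb) (hA : A.LiesOverPrime q) (x : JZero (M₁ * q))
    (hx : p ^ r • x = 0) (hI : InertiaFixed A x)
    (ℓ : Nat.Primes) (hℓ : ¬ (ℓ : ℕ) ∣ M₁ * q * p) :
    (∃ y : JZero M₁, p ^ r • y = 0 ∧ RedInf A (p ^ r) (eisKill ℓ x) y) ∧
    (∃ y : JZero M₁, p ^ r • y = 0 ∧ RedZero hq hqM A (p ^ r) (eisKill ℓ x) y) :=
  ribmp_red_powE stmtRedA hFac M₁ q hq hqM hE hq2 p hp hp5 hpq r A hA x hx hI ℓ hℓ

end Fermat.Agent.RIB.MP
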