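/-
S59 walls M2 / M3 at `p = 3`, leaf MP-D, pieces RED3 + FROB3 (helper21): **MP-RED and MP-FROB,
POINTWISE**, from the local factorisation (F) at ONE triple `(M₁, q, m)`.

The landed `RedFinal.lean` / `FrobFinal.lean` take `StmtFac` (all `m` prime to `6`, `q ≠ 2`) and
`5 ≤ p`.  The proofs use (F) only at the level and at the exponent in question; here they are
re-run with the hypothesis `StmtFacAt M₁ q m` (no `5 ≤ p`, no `Coprime m 6`, no `q ≠ 2`):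

* `ribmpat_rf_half`, `ribmpat_rf_gen` : RED-c at a general exponent `m`, `q ∤ m`;
* `ribmpat_red_pow`   : MP-RED at the exponent `p ^ r`, `p ≠ q` ANY prime;
* `ribmpat_frob_pow`  : MP-FROB at the exponent `p ^ r`, `p ≠ q` ANY prime;
* `ribmpat_stmtFacEven`       : (F) at even levels for odd exponents, UNCONDITIONAL (helper49's
                        `ribmp_face_of` + the landed FAC-A, FAC-C, E-hor);
* `ribmpat_red_pow_even`, `ribmpat_frob_pow_even` : MP-RED / MP-FROB at `p ^ r`, `p` ODD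
  (`p = 3` included), `q ≠ 2`, `2 ∣ M₁`, UNCONDITIONAL.
The hypothesis `5 ≤ q ∨ (5 - q) ∣ M₁` (existence of the reduction package of `X₀(M₁)` at `q`)
holds for every odd `q` when `M₁` is even.
-/
import Fermat.Agent.RIB.MP.RedMain
import Fermat.Agent.RIB.MP.FrobFinal
import Fermat.Agent.RIB.MP.FacEven
import Fermat.Agent.RIB.MP.FacAll

set_option autoImplicit false
set_option linter.unusedSectionVars false
set_option linter.unusedVariables false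
set_option linter.style.longLine false
set_option linter.style.haveILetI false
set_option synthInstance.maxHeartbeats 400000
set_option maxHeartbeats 1600000

noncomputable section

namespace Fermat.Agent.RIB.MP

open ModularCurve AlgebraicCurve Fermat.Agent.INJ Fermat.Agent.UNIP Fermat.Agent.STB
open Fermat.Agent.ES Fermat.Agent.ES.G2 Fermat.Agent.ES.M Fermat.Agent.S15 Fermat.Agent.W1
open Fermat.Agent.S24 Fermat.Agent.DEU

section Half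

variable {M₁ q : ℕ} [NeZero M₁] [NeZero q] [NeZero (M₁ * q)] {A : ValuationSubring Qb}
  {hq : q.Prime} {hA : A.LiesOverPrime q} {hRedF : StmtRedF M₁ A}
  {r : Place Kb (FF M₁) → Place (kA A) ↥(modularFunctionFieldFullC (kA A) M₁)}
  {sp : JZero M₁ →+ JZeroC (kA A) M₁} {Pinf : Place Kb (FF M₁)}
  {Qinf : Place (kA A) ↥(modularFunctionFieldFullC (kA A) M₁)}

/-- **One half, pointwise**: `ribmp_rf_half` with (F) at `(M₁, q, m)` only. -/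
theorem ribmpat_rf_half (hRedA : StmtRedA) {m : ℕ} (hFac : StmtFacAt M₁ q m) (hqM : ¬ q ∣ M₁)
    (h : ModPRG M₁ A hq hA hRedF r sp Pinf Qinf) (hm0 : 0 < m)
    [IsDiscreteValuationRing ↥(beta0Ring A (beta0Field A))]
    {π : ↥(beta0Ring A (beta0Field A))} (hπ : Irreducible π) (ιC : ↥(beta0Field A) →+* ℂ)
    {x' : JZero (M₁ * q)} (y₀ : ↥(modularFunctionFieldFullC ↥(beta0Field A) (M₁ * q)))
    (hy0 : y₀ ≠ 0) (hK : KummerRel m x' (nfEmb (beta0Field A) (M₁ * q) y₀))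
    (hval : ∀ c : Bool, (mgvV hπ ιC hq hqM c).valuation y₀ = 1) :
    ∃ (ub : LaurentSeries (kA A)) (hubF : ub ∈ modularFunctionFieldFullC (kA A) M₁), ub ≠ 0 ∧
      ES.M.GaussRed (M₁ * q) A (nfEmb (beta0Field A) (M₁ * q) y₀) ub ∧
      ∀ Q : Place (kA A) ↥(modularFunctionFieldFullC (kA A) M₁),
        (m : ℤ) ∣ Q.ord (⟨ub, hubF⟩ : ↥(modularFunctionFieldFullC (kA A) M₁)) := by
  have hF := hFac A hA hq hqM π hπ ιC y₀ hy0
    (fun P => ribmp_rf_dvd_ord hK P) hval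
  exact hRedA M₁ q hq hqM A hA π hπ ιC hRedF (fun Q => ribmp_rf_hfin h Q) m hm0 y₀
    (hval true) hF

end Half

/-- **RED-c, general exponent `m`, pointwise**: `ribmp_rf_gen` with (F) at `(M₁, q, m)` only
(no `Coprime m 6`, no `q ≠ 2`). -/
theorem ribmpat_rf_gen (hRedA : StmtRedA)
    (M₁ q : ℕ) [NeZero M₁] [NeZero q] [NeZero (M₁ * q)] (hq : q.Prime) (hqM : ¬ q ∣ M₁)
    (hE : 5 ≤ q ∨ (5 - q) ∣ M₁) (m : ℕ) (hm0 : 0 < m) (hFac : StmtFacAt M₁ q m)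
    (hqm : ¬ q ∣ m) (A : ValuationSubring Qb) (hA : A.LiesOverPrime q)
    (x : JZero (M₁ * q)) (hx : m • x = 0) (hI : InertiaFixed A x)
    (ℓ : Nat.Primes) (hℓM : ¬ (ℓ : ℕ) ∣ M₁ * q) :
    (∃ y : JZero M₁, m • y = 0 ∧ RedInf A m (eisKill ℓ x) y) ∧
    (∃ y : JZero M₁, m • y = 0 ∧ RedZero hq hqM A m (eisKill ℓ x) y) := by
  haveI : IsDiscreteValuationRing ↥(beta0Ring A (beta0Field A)) := beta0Ring_isDVR_base hq hA
  have hπ := beta0Ring_irreducible_q (A := A) hq hA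
  set ιC : ↥(beta0Field A) →+* ℂ := mgdIota (beta0Field A) with hιC
  haveI : NeZero (ℓ : ℕ) := ⟨ℓ.2.ne_zero⟩
  -- 1. descent of a Kummer function to the inertia field
  obtain ⟨u₀, hu₀, hxu⟩ := ribmp_desc hq hA hm0.ne' hx hI
  -- 2. the Eisenstein-killed Kummer function and its `w`-twin
  obtain ⟨y₀, hy0, hy₀, hval⟩ := ribmp_vh_main hq hqM hA hπ ιC (ℓ : ℕ) ℓ.2 hℓM u₀ hu₀
  have hK : KummerRel m (eisKill ℓ x) (nfEmb (beta0Field A) (M₁ * q) y₀) := by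
    rw [hy₀]
    exact ribmp_vh_kummerRel ℓ hxu
  set y₁ : ↥(modularFunctionFieldFullC ↥(beta0Field A) (M₁ * q)) :=
    Fermat.Agent.AL.atkinLehner ↥(beta0Field A) ιC hq hqM y₀ with hy₁def
  have hy₁ : nfEmb (beta0Field A) (M₁ * q) y₁ =
      atkinLehnerBar hq hqM (nfEmb (beta0Field A) (M₁ * q) y₀) :=
    (stb_mgt_atkinLehnerBar_nfEmb' ιC hq hqM y₀).symm
  have hu : nfEmb (beta0Field A) (M₁ * q) u₀ ≠ 0 := (map_ne_zero _).2 hu₀
  have hy₁E : nfEmb (beta0Field A) (M₁ * q) y₁ =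
      ribmpEisFun (M₁ * q) (ℓ : ℕ) (atkinLehnerBar hq hqM (nfEmb (beta0Field A) (M₁ * q) u₀)) := by
    rw [hy₁, hy₀, ribmp_vh_atkinLehnerBar_eisFun hq hqM (ℓ : ℕ) ℓ.2 hℓM]
  have hval₁ : ∀ c : Bool, (mgvV hπ ιC hq hqM c).valuation y₁ = 1 := fun c =>
    ribmp_vh_valuation hπ ιC hq hqM hA (ℓ : ℕ) ℓ.2 hℓM _ ((map_ne_zero _).2 hu) y₁ hy₁E c
  have hK₁ : KummerRel m (atkinLehnerBar hq hqM • eisKill ℓ x)
      (nfEmb (beta0Field A) (M₁ * q) y₁) := by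
    rw [hy₁]
    exact ribmp_w_kummerRel hq hqM hK
  have hy10 : y₁ ≠ 0 := by
    intro h0
    apply hK₁.ne_zero
    rw [h0, map_zero]
  -- 4. the reduction package
  obtain ⟨r, sp, Pinf, Qinf, h⟩ := s15red_exists_pkg M₁ q hq hqM hE A hA
  -- 5. the two halves
  obtain ⟨ub, hubF, hub, hred, hdvd⟩ :=
    ribmpat_rf_half hRedA hFac hqM h hm0 hπ ιC y₀ hy0 hK hval
  obtain ⟨ub₁, hubF₁, hub₁, hred₁, hdvd₁⟩ :=
    ribmpat_rf_half hRedA hFac hqM h hm0 hπ ιC y₁ hy10 hK₁ hval₁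
  rw [hy₁] at hred₁
  exact ⟨ribmp_rl_redInf h hqm hK hubF hub hred hdvd,
    ribmp_rl_redZero hqM h hqm hK hubF₁ hub₁ hred₁ hdvd₁⟩

/-- **MP-RED at the exponent `p ^ r`, pointwise**: `p ≠ q` ANY prime, (F) at `(M₁, q, p ^ r)`. -/
theorem ribmpat_red_pow
    (M₁ q : ℕ) [NeZero M₁] [NeZero q] [NeZero (M₁ * q)] (hq : q.Prime) (hqM : ¬ q ∣ M₁)
    (hE : 5 ≤ q ∨ (5 - q) ∣ M₁) (p : ℕ) (hp : p.Prime) (hpq : p ≠ q)
    (r : ℕ) (hFac : StmtFacAt M₁ q (p ^ r))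
    (A : ValuationSubring Qb) (hA : A.LiesOverPrime q) (x : JZero (M₁ * q))
    (hx : p ^ r • x = 0) (hI : InertiaFixed A x)
    (ℓ : Nat.Primes) (hℓ : ¬ (ℓ : ℕ) ∣ M₁ * q * p) :
    (∃ y : JZero M₁, p ^ r • y = 0 ∧ RedInf A (p ^ r) (eisKill ℓ x) y) ∧
    (∃ y : JZero M₁, p ^ r • y = 0 ∧ RedZero hq hqM A (p ^ r) (eisKill ℓ x) y) := by
  have hℓM : ¬ (ℓ : ℕ) ∣ M₁ * q := fun hd => hℓ (Dvd.dvd.mul_right hd p)
  have hqp : ¬ q ∣ p ^ r := fun hd =>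
    hpq ((Nat.prime_dvd_prime_iff_eq hq hp).mp (hq.dvd_of_dvd_pow hd)).symm
  exact ribmpat_rf_gen stmtRedA M₁ q hq hqM hE (p ^ r) (pow_pos hp.pos r) hFac hqp A hA x hx hI
    ℓ hℓM

/-- **MP-FROB at the exponent `p ^ r`, pointwise**: `p ≠ q` ANY prime, (F) at `(M₁, q, p ^ r)`. -/
theorem ribmpat_frob_pow
    (M₁ q : ℕ) [NeZero M₁] [NeZero q] [NeZero (M₁ * q)] (hq : q.Prime) (hqM : ¬ q ∣ M₁)
    (hE : 5 ≤ q ∨ (5 - q) ∣ M₁) (p : ℕ) (hp : p.Prime) (hpq : p ≠ q)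
    (r : ℕ) (hFac : StmtFacAt M₁ q (p ^ r))
    (A : ValuationSubring Qb) (hA : A.LiesOverPrime q)
    (σ : Qb ≃ₐ[ℚ] Qb) (hσ : A.IsFrobeniusAt σ q)
    (x : JZero (M₁ * q)) (hx : p ^ r • x = 0) (hI : InertiaFixed A x)
    (ℓ : Nat.Primes) (hℓ : ¬ (ℓ : ℕ) ∣ M₁ * q * p)
    (htor : IsToric hq hqM A (p ^ r) (eisKill ℓ x)) :
    σ • (atkinLehnerBar hq hqM • eisKill ℓ x) + q • eisKill ℓ x = 0 := by
  have h2 : q = 2 → 3 ∣ M₁ := by
    intro h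
    subst h
    rcases hE with h | h
    · omega
    · exact h
  have h3 : q = 3 → 2 ∣ M₁ := by
    intro h
    subst h
    rcases hE with h | h
    · omega
    · exact h
  refine ribmp_frob_pow_of_kummerAt M₁ q hq hqM p hp r A hA σ ?_ x hx hI ℓ hℓ htor
  intro y₀ hy₀ hhor hU₁ hU₂ t t' hT hT'
  exact ribmp_frob_kummerAt hq hqM h2 h3 hp hpq r hA (hFac A hA) hσ y₀ hy₀ hhor hU₁ hU₂
    t t' hT hT'

/-- **(F) at even levels for odd exponents, UNCONDITIONAL** (helper49's `ribmp_face_of` with the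
landed FAC-A `ribmp_fuj_stmt`, FAC-C `ribmp_fcu_stmtFacCusp`, E-hor `stmtFacHor`). -/
theorem ribmpat_stmtFacEven : StmtFacEven :=
  ribmp_face_of ribmp_fuj_stmt ribmp_fcu_stmtFacCusp stmtFacHor

/-- for an even `M₁` and an odd prime `q` the reduction package of `X₀(M₁)` at `q` exists -/
theorem ribmpat_hE_of_even {M₁ q : ℕ} (hq : q.Prime) (hq2 : q ≠ 2) (h2 : 2 ∣ M₁) :
    5 ≤ q ∨ (5 - q) ∣ M₁ := by
  rcases Nat.lt_or_ge q 5 with h | h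
  · right
    have h1 := hq.two_le
    have h4 : q ≠ 4 := by
      rintro rfl
      exact absurd hq (by decide)
    have h3 : q = 3 := by omega
    subst h3
    exact h2
  · exact Or.inl h

/-- **MP-RED at `p ^ r`, `p` an ODD prime (`p = 3` included), `q ≠ 2`, `2 ∣ M₁`**,
UNCONDITIONAL. -/
theorem ribmpat_red_pow_even
    (M₁ q : ℕ) [NeZero M₁] [NeZero q] [NeZero (M₁ * q)] (hq : q.Prime) (hqM : ¬ q ∣ M₁)
    (hq2 : q ≠ 2) (h2 : 2 ∣ M₁) (p : ℕ) (hp : p.Prime) (hp2 : p ≠ 2) (hpq : p ≠ q)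
    (r : ℕ) (A : ValuationSubring Qb) (hA : A.LiesOverPrime q) (x : JZero (M₁ * q))
    (hx : p ^ r • x = 0) (hI : InertiaFixed A x)
    (ℓ : Nat.Primes) (hℓ : ¬ (ℓ : ℕ) ∣ M₁ * q * p) :
    (∃ y : JZero M₁, p ^ r • y = 0 ∧ RedInf A (p ^ r) (eisKill ℓ x) y) ∧
    (∃ y : JZero M₁, p ^ r • y = 0 ∧ RedZero hq hqM A (p ^ r) (eisKill ℓ x) y) :=
  ribmpat_red_pow M₁ q hq hqM (ribmpat_hE_of_even hq hq2 h2) p hp hpq r
    (ribmp_face_pow_odd ribmpat_stmtFacEven M₁ q hq hqM hq2 h2 hp hp2 r) A hA x hx hI ℓ hℓ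

/-- **MP-FROB at `p ^ r`, `p` an ODD prime (`p = 3` included), `q ≠ 2`, `2 ∣ M₁`**,
UNCONDITIONAL. -/
theorem ribmpat_frob_pow_even
    (M₁ q : ℕ) [NeZero M₁] [NeZero q] [NeZero (M₁ * q)] (hq : q.Prime) (hqM : ¬ q ∣ M₁)
    (hq2 : q ≠ 2) (h2 : 2 ∣ M₁) (p : ℕ) (hp : p.Prime) (hp2 : p ≠ 2) (hpq : p ≠ q)
    (r : ℕ) (A : ValuationSubring Qb) (hA : A.LiesOverPrime q)
    (σ : Qb ≃ₐ[ℚ] Qb) (hσ : A.IsFrobeniusAt σ q)
    (x : JZero (M₁ * q)) (hx : p ^ r • x = 0) (hI : InertiaFixed A x)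
    (ℓ : Nat.Primes) (hℓ : ¬ (ℓ : ℕ) ∣ M₁ * q * p)
    (htor : IsToric hq hqM A (p ^ r) (eisKill ℓ x)) :
    σ • (atkinLehnerBar hq hqM • eisKill ℓ x) + q • eisKill ℓ x = 0 :=
  ribmpat_frob_pow M₁ q hq hqM (ribmpat_hE_of_even hq hq2 h2) p hp hpq r
    (ribmp_face_pow_odd ribmpat_stmtFacEven M₁ q hq hqM hq2 h2 hp hp2 r) A hA σ hσ x hx hI ℓ hℓ htor

end Fermat.Agent.RIB.MP

end
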