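/-
S59 wall M2 (Mazur's principle for a general curve), leaf MP-C, piece FAC2 (helper2):
**the local factorisation (F) at `q = 2`** and the three inputs of Mazur's principle on the range
`5 ≤ p`, `q = 2`, `3 ∣ M₁`.

The landed `ribmp_fac_of` (`FacTop.lean`) proves (F) at the level `M₁ q`, `q ≠ 2`, by descent from
the rigid level `M₁ · 4 · q`.  At `q = 2` the rigid level of K6 is `9 ∣ M`
(`RT.K6.rtk6lfb0_ufd_J`, `rigid = (q ≠ 2 → 4 ∣ M) ∧ (q = 2 → 9 ∣ M)`), the factoriality at the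
cusps `ribmp_fcu_ufd_base` needs `q = 2 → 3 ∣ M`, and the degree of `F_{M₁ q} ⊆ F_{M₁ 9 q}` is `9`
or `12`, prime to every `m` prime to `6` (`ribmp_fdeg_coprime_nine`).  So the same descent with
`d = 9` gives (F) at `q = 2` for EVERY odd `M₁` and every `m` prime to `6`.

* `ribmp_fac2_at`        : `StmtFacAt M₁ q m` for `q = 2`, `2 ∤ M₁`, `m` prime to `6`;
* `ribmp_fac2_pow`       : the instance `m = p ^ r`, `5 ≤ p`;
* `ribmp_fac2_stmtInOn`  : `RT.K8.rtk8p3_StmtInOn (fun p q M₁ => 5 ≤ p ∧ q = 2 ∧ 3 ∣ M₁)`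
  (MP-DIV `rtk8g_torsDiv`, MP-RED / MP-FROB pointwise `ribmpat_red_pow` / `ribmpat_frob_pow`;
  `3 ∣ M₁` is the hypothesis `5 ≤ q ∨ (5 - q) ∣ M₁` of the reduction package at `q = 2`).
-/
import Fermat.Agent.RIB.MP.FacAll
import Fermat.Agent.RIB.MP.RedFrobAt
import Fermat.Agent.RT.K8.GeoP3

set_option autoImplicit false
set_option linter.unusedSectionVars false
set_option linter.unusedVariables false
set_option linter.style.haveILetI false
set_option linter.style.longLine false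
set_option synthInstance.maxHeartbeats 400000
set_option maxHeartbeats 1000000

noncomputable section

namespace Fermat.Agent.RIB.MP

open ModularCurve Polynomial IntermediateField Fermat.Agent.INJ Fermat.Agent.AL AlgebraicCurve
open Fermat.Agent.ES Fermat.Agent.ES.G2 Fermat.Agent.STB Fermat.Agent.UNIP Fermat.Agent.S36

/-- a prime power `p ^ r`, `5 ≤ p`, is prime to `6` -/
theorem ribmp_fac2_coprime_six {p : ℕ} (hp : p.Prime) (hp5 : 5 ≤ p) (r : ℕ) :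
    Nat.Coprime (p ^ r) 6 := by
  apply Nat.Coprime.pow_left
  rw [Nat.Prime.coprime_iff_not_dvd hp]
  intro h
  have hle : p ≤ 6 := Nat.le_of_dvd (by norm_num) h
  interval_cases p
  · omega
  · exact absurd hp (by decide)

/-- **(F) at `q = 2`**: the local factorisation at the level `M₁ q`, `q = 2 ∤ M₁`, for every
exponent `m` prime to `6`, by descent from the rigid level `M₁ · 9 · q`. -/
theorem ribmp_fac2_at (M₁ q : ℕ) [NeZero M₁] [NeZero q] [NeZero (M₁ * q)] (hq : q.Prime)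
    (hqM : ¬ q ∣ M₁) (hq2 : q = 2) (m : ℕ) (hm : Nat.Coprime m 6) : StmtFacAt M₁ q m := by
  intro A hA
  have h90 : (9 : ℕ) ≠ 0 := by norm_num
  haveI : NeZero (9 : ℕ) := ⟨h90⟩
  haveI : NeZero (M₁ * 9) := ⟨Nat.mul_ne_zero (NeZero.ne M₁) h90⟩
  haveI : NeZero (M₁ * 9 * q) := ⟨Nat.mul_ne_zero (NeZero.ne (M₁ * 9)) (NeZero.ne q)⟩
  have hq9 : ¬ q ∣ 9 := by
    rw [hq2]
    norm_num
  have hqMd : ¬ q ∣ M₁ * 9 := fun h => (hq.dvd_mul.1 h).elim hqM hq9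
  have hm0 : 0 < m := by
    rcases Nat.eq_zero_or_pos m with h | h
    · subst h
      simp at hm
    · exact h
  have h39 : 3 ∣ M₁ * 9 := Dvd.dvd.mul_left (by norm_num : (3 : ℕ) ∣ 9) M₁
  have h99 : 9 ∣ M₁ * 9 := Dvd.intro_left M₁ rfl
  have hq3 : q ≠ 3 := by
    rw [hq2]
    norm_num
  refine ribmp_fl_descent (d := 9) hqMd hm0
    (ribmp_fdeg_coprime_nine (K := ↥(beta0Field A)) (ribmp_fl_le ↥(beta0Field A) M₁ 9 q) hm)
    (fun y hy => stmtFacHor (beta0Field A) M₁ 9 q m y hy) ?_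
  intro hq' hqM' _ π hπ ιC y hy hhor hunit
  exact ribmp_fac_rigid_of hπ ιC hq' hqM' hA le_rfl (fun _ => h39) (fun h => absurd h hq3)
    (fun 𝔫 => Fermat.Agent.RT.K6.rtk6lfb0_ufd_J hπ
      (cheapIota.comp (algebraMap ↥(beta0Field A) Qb)) hq' hqM' hA
      ⟨fun h => absurd hq2 h, fun _ => h99⟩ 𝔫)
    (fun 𝔫 hT => ribmp_fcu_ufd_base hπ hq' hqM' hA (fun _ => h39) (fun h => absurd h hq3) 𝔫 hT)
    m y hy hhor hunit

/-- (F) at `q = 2` for the exponents `p ^ r`, `5 ≤ p`. -/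
theorem ribmp_fac2_pow (M₁ q : ℕ) [NeZero M₁] [NeZero q] [NeZero (M₁ * q)] (hq : q.Prime)
    (hqM : ¬ q ∣ M₁) (hq2 : q = 2) {p : ℕ} (hp : p.Prime) (hp5 : 5 ≤ p) (r : ℕ) :
    StmtFacAt M₁ q (p ^ r) :=
  ribmp_fac2_at M₁ q hq hqM hq2 (p ^ r) (ribmp_fac2_coprime_six hp hp5 r)

/-- **The inputs of Mazur's principle on the range `5 ≤ p`, `q = 2`, `3 ∣ M₁`** (leaf MP-C at the
levels divisible by `3`), UNCONDITIONAL. -/
theorem ribmp_fac2_stmtInOn :
    Fermat.Agent.RT.K8.rtk8p3_StmtInOn (fun p q M₁ => 5 ≤ p ∧ q = 2 ∧ 3 ∣ M₁) := by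
  intro p q M₁ _ _ _ hq hqM hp hpq hR
  obtain ⟨hp5, hq2, h3⟩ := hR
  have hE : 5 ≤ q ∨ (5 - q) ∣ M₁ := by
    right
    rw [hq2]
    exact h3
  refine ⟨fun y hy => Fermat.Agent.RT.K8.rtk8g_torsDiv M₁ p hp hp5 y hy, ?_, ?_⟩
  · intro A hA n x hx hI ℓ hℓ
    exact ribmpat_red_pow M₁ q hq hqM hE p hp hpq n (ribmp_fac2_pow M₁ q hq hqM hq2 hp hp5 n)
      A hA x hx hI ℓ hℓ
  · intro A hA σ hσ n x hx hI ℓ hℓ htor
    exact ribmpat_frob_pow M₁ q hq hqM hE p hp hpq n (ribmp_fac2_pow M₁ q hq hqM hq2 hp hp5 n)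
      A hA σ hσ x hx hI ℓ hℓ htor

end Fermat.Agent.RIB.MP

end
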