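/-
Row 37, Mazur's principle, piece MP-5 (helper43), part 1: TRANSPORT between the Frey curve and an
integral model (change of variables), for irreducibility, unramifiedness and scalar Frobenius.
-/
import Fermat.Agent.EC.VarChange
import Fermat.Agent.EC.DetChar
import Fermat.Agent.S04.FreyInt
import Fermat.Prelude.Def_FLTPrelim_Modularity
import Fermat.Prelude.Def_FLTPrelim_ModularRep
import Fermat.Prelude.Def_FLTPrelim_Ramification

set_option autoImplicit false

noncomputable section

namespace Fermat.Agent.RIB.MP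

open WeierstrassCurve WeierstrassCurve.Affine WeierstrassCurve.Affine.Point Fermat.Agent.EC
open Fermat.Agent.EC.DetChar
open scoped WeierstrassCurve.Affine

local notation "Qbar" => AlgebraicClosure ℚ
local notation "GQ'" => (AlgebraicClosure ℚ ≃ₐ[ℚ] AlgebraicClosure ℚ)

/-- the discriminant of an integral model of a curve with `Δ ≠ 0` is nonzero -/
theorem ribmp_model_Δ_ne_zero (E : WeierstrassCurve ℚ) (hE : E.Δ ≠ 0) (W : WeierstrassCurve ℤ)
    (hW : W.IsIntegralModelOf E) : W.Δ ≠ 0 := by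
  obtain ⟨C, hC⟩ := hW
  intro h0
  have h1 : (C • E).Δ = 0 := by
    rw [hC, WeierstrassCurve.map_Δ, h0, _root_.map_zero]
  rw [WeierstrassCurve.variableChange_Δ] at h1
  have hu : ((C.u⁻¹ : ℚˣ) : ℚ) ^ 12 ≠ 0 := pow_ne_zero _ (Units.ne_zero _)
  exact hE ((mul_eq_zero.1 h1).resolve_left hu)

theorem ribmp_freyCurve_Δ_ne_zero (P : FreyPackage) : P.freyCurve.Δ ≠ 0 := by
  rw [← Fermat.Agent.S04.freyCurveInt_map, WeierstrassCurve.map_Δ]
  have := Fermat.Agent.S04.freyCurveInt_Δ_ne_zero P
  simpa using this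

/-- **Transport of the torsion.**  If `C • E = W₁` the `n`-torsion modules are isomorphic,
compatibly with `G_ℚ`. -/
theorem ribmp_tors_transport (E W₁ : WeierstrassCurve ℚ) (C : VariableChange ℚ) (h : C • E = W₁)
    (n : ℕ) :
    ∃ e : TorsQbar W₁ n ≃+ TorsQbar E n, ∀ (σ : GQ') (x : TorsQbar W₁ n), e (σ • x) = σ • e x := by
  obtain ⟨e, he⟩ := Fermat.Agent.EC.vc_transport (K := Qbar) W₁ E C h
  have hmem : ∀ x : (W₁⁄Qbar).toAffine.Point,
      x ∈ Submodule.torsionBy ℤ (W₁⁄Qbar).toAffine.Point n ↔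
        e x ∈ Submodule.torsionBy ℤ (E⁄Qbar).toAffine.Point n := by
    intro x
    rw [Submodule.mem_torsionBy_iff, Submodule.mem_torsionBy_iff, ← map_zsmul]
    constructor
    · intro hx; rw [hx, _root_.map_zero]
    · intro hx; exact e.injective (by rw [hx, _root_.map_zero])
  refine ⟨{ toFun := fun x => ⟨e x.1, (hmem x.1).1 x.2⟩
            invFun := fun y => ⟨e.symm y.1, (hmem _).2 (by rw [e.apply_symm_apply]; exact y.2)⟩
            left_inv := fun x => Subtype.ext (e.symm_apply_apply _)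
            right_inv := fun y => Subtype.ext (e.apply_symm_apply _)
            map_add' := fun x y => Subtype.ext (map_add e _ _) }, ?_⟩
  intro σ x
  exact Subtype.ext (he σ x.1)

/-- **Transport of irreducibility.** -/
theorem ribmp_irr_transport (E W₁ : WeierstrassCurve ℚ) (C : VariableChange ℚ) (h : C • E = W₁)
    (n : ℕ) (hirr : GaloisRepIsIrreducible (K := Qbar) ℚ E n) :
    GaloisRepIsIrreducible (K := Qbar) ℚ W₁ n := by
  obtain ⟨e, he⟩ := ribmp_tors_transport E W₁ C h n
  obtain ⟨hnt, hN⟩ := hirr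
  refine ⟨e.symm.injective.nontrivial, fun N hstab => ?_⟩
  let f : TorsQbar W₁ n →ₗ[ZMod n] TorsQbar E n := e.toAddMonoidHom.toZModLinearMap n
  have hf : ∀ x, f x = e x := fun _ => rfl
  rcases hN (N.map f) (by
      intro σ y hy
      obtain ⟨x, hx, rfl⟩ := Submodule.mem_map.1 hy
      exact Submodule.mem_map.2 ⟨σ • x, hstab σ x hx, by rw [hf, hf, he]⟩) with h0 | h1
  · left
    rw [eq_bot_iff]
    intro x hx
    have : f x ∈ N.map f := Submodule.mem_map_of_mem hx
    rw [h0, Submodule.mem_bot, hf] at this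
    rw [Submodule.mem_bot]
    exact e.injective (by rw [this, _root_.map_zero])
  · right
    rw [eq_top_iff]
    intro y _
    have : f y ∈ N.map f := by rw [h1]; trivial
    obtain ⟨x, hx, hxy⟩ := Submodule.mem_map.1 this
    rw [hf, hf] at hxy
    rwa [← e.injective hxy]

/-- **An involution commuting with `G_ℚ` on an irreducible `E[n]` is `± 1`.** -/
theorem ribmp_involution (W₁ : WeierstrassCurve ℚ) (n : ℕ)
    (hirr : GaloisRepIsIrreducible (K := Qbar) ℚ W₁ n)
    (ψ : TorsQbar W₁ n →+ TorsQbar W₁ n) (hψ2 : ∀ y, ψ (ψ y) = y)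
    (hψσ : ∀ (σ : GQ') (y : TorsQbar W₁ n), ψ (σ • y) = σ • ψ y) :
    (∀ y, ψ y = y) ∨ (∀ y, ψ y = -y) := by
  let f : TorsQbar W₁ n →ₗ[ZMod n] TorsQbar W₁ n := ψ.toZModLinearMap n
  have hf : ∀ x, f x = ψ x := fun _ => rfl
  let N : Submodule (ZMod n) (TorsQbar W₁ n) := LinearMap.ker (f - LinearMap.id)
  have hN : ∀ x, x ∈ N ↔ ψ x = x := by
    intro x
    rw [LinearMap.mem_ker, LinearMap.sub_apply, LinearMap.id_apply, hf, sub_eq_zero]
  rcases hirr.2 N (by
      intro σ x hx
      rw [hN] at hx ⊢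
      rw [hψσ, hx]) with h0 | h1
  · right
    intro y
    have : y + ψ y ∈ N := by
      rw [hN, map_add, hψ2, add_comm]
    rw [h0, Submodule.mem_bot] at this
    exact (eq_neg_of_add_eq_zero_right this)
  · left
    intro y
    exact (hN y).1 (by rw [h1]; trivial)

end Fermat.Agent.RIB.MP
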