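import Fermat.Agent.RIB.MP.Plan
import Fermat.Agent.R38.Rep

/-!
# MP-1: a copy of `E[p]` in an Eichler–Shimura module of arbitrary level

`stmtRepN : StmtRepN` — the proof of `R38.stmtRep` (`R38/Rep.lean`) at an arbitrary level `N`:
it only uses the clauses `finite`, `smul_comm`, `finite_level`, `frob` of `ESDataInf N p J`.
The algebra (`R38/RepAlg.lean`) and the absolute irreducibility of `E[p]` (`r38rep_span`) are
shared.
-/

set_option autoImplicit false

noncomputable section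

namespace Fermat.Agent.RIB.MP

open ModularCurve Fermat.Agent.ES Fermat.Agent.S42 Fermat.Agent.RED Fermat.Agent.EC.DetChar
open Fermat.Agent.R38
open WeierstrassCurve WeierstrassCurve.Affine WeierstrassCurve.Affine.Point

/-! ### the eigen-space -/

section Eigen

variable (W : WeierstrassCurve ℤ) (N p : ℕ) (J : Type) [AddCommGroup J] [Module HeckeAlg J]

/-- the eigen-space of the system `a_ℓ(W)` in `J[p]` -/
def ribmp_repU : AddSubgroup J where
  carrier := {x | p • x = 0 ∧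
    ∀ ℓ ∈ goodAt W N p, heckeGen ℓ • x = (W.apOfModel ℓ : ℤ) • x}
  zero_mem' := ⟨smul_zero _, fun ℓ _ => by rw [smul_zero, smul_zero]⟩
  add_mem' := by
    rintro x y ⟨hx, hx'⟩ ⟨hy, hy'⟩
    refine ⟨by rw [smul_add, hx, hy, add_zero], fun ℓ hℓ => ?_⟩
    rw [smul_add, smul_add, hx' ℓ hℓ, hy' ℓ hℓ]
  neg_mem' := by
    rintro x ⟨hx, hx'⟩
    refine ⟨by rw [smul_neg, hx, _root_.neg_zero], fun ℓ hℓ => ?_⟩
    rw [smul_neg, smul_neg, hx' ℓ hℓ]

variable {W N p J}

instance ribmp_repUModule : Module (ZMod p) (ribmp_repU W N p J) :=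
  AddCommGroup.zmodModule fun x => Subtype.ext (by
    rw [AddSubgroup.coe_nsmul, AddSubgroup.coe_zero]
    exact x.2.1)

variable [DistribMulAction GQ J]

theorem ribmp_rep_stable (hcomm : ∀ (σ : GQ) (t : HeckeAlg) (x : J), σ • t • x = t • σ • x)
    (σ : GQ) {x : J} (hx : x ∈ ribmp_repU W N p J) : σ • x ∈ ribmp_repU W N p J := by
  refine ⟨?_, fun ℓ hℓ => ?_⟩
  · have := map_nsmul (DistribSMul.toAddMonoidHom J σ) p x
    simp only [DistribSMul.toAddMonoidHom_apply] at this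
    rw [← this, hx.1, smul_zero]
  · rw [← hcomm, hx.2 ℓ hℓ]
    have := map_zsmul (DistribSMul.toAddMonoidHom J σ) (W.apOfModel ℓ) x
    simpa only [DistribSMul.toAddMonoidHom_apply] using this

/-- the action of `G_ℚ` on the eigen-space -/
def ribmp_repTheta (hcomm : ∀ (σ : GQ) (t : HeckeAlg) (x : J), σ • t • x = t • σ • x) :
    GQ →* Module.End (ZMod p) (ribmp_repU W N p J) where
  toFun σ := AddMonoidHom.toZModLinearMap p
    { toFun := fun x => ⟨σ • (x : J), ribmp_rep_stable hcomm σ x.2⟩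
      map_zero' := Subtype.ext (smul_zero σ)
      map_add' := fun x y => Subtype.ext (smul_add σ (x : J) (y : J)) }
  map_one' := by
    apply LinearMap.ext
    intro x
    exact Subtype.ext (one_smul GQ (x : J))
  map_mul' σ τ := by
    apply LinearMap.ext
    intro x
    exact Subtype.ext (mul_smul σ τ (x : J))

@[simp] theorem ribmp_rep_theta_apply
    (hcomm : ∀ (σ : GQ) (t : HeckeAlg) (x : J), σ • t • x = t • σ • x) (σ : GQ)
    (x : ribmp_repU W N p J) :
    ((ribmp_repTheta hcomm σ x : ribmp_repU W N p J) : J) = σ • (x : J) := rfl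

end Eigen

/-! ### the characteristic polynomials -/

section Main

variable {W : WeierstrassCurve ℤ} {N p : ℕ} {J : Type} [AddCommGroup J] [Module HeckeAlg J]
  [DistribMulAction GQ J]

/-- the Eichler–Shimura relation on the eigen-space, for a Frobenius at a good prime, in terms of
the trace and the determinant on `E[p]` -/
theorem ribmp_rep_frob_rel [hpF : Fact p.Prime] (hΔ : W.Δ ≠ 0) (hirr : W.ModRepIsIrreducible p)
    (hN : 0 < N) (hES : ESDataInf N p J) {ℓ : ℕ} (hℓ : ℓ.Prime)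
    (hℓS : ℓ ∉ excSet W p ∪ N.primeFactors)
    {A : ValuationSubring (AlgebraicClosure ℚ)} (hA : A.LiesOverPrime ℓ) {τ : GQ}
    (hτ : A.IsFrobeniusAt τ ℓ) :
    ribmp_repTheta (W := W) (N := N) (p := p) hES.smul_comm τ * ribmp_repTheta hES.smul_comm τ
      - LinearMap.trace (ZMod p) (TorsQbar (W.map (Int.castRingHom ℚ)) p)
          (rhoBar (W.map (Int.castRingHom ℚ)) p τ) • ribmp_repTheta hES.smul_comm τ
      + LinearMap.det (rhoBar (W.map (Int.castRingHom ℚ)) p τ)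
          • (1 : Module.End (ZMod p) (ribmp_repU W N p J)) = 0 := by
  have hp : p.Prime := hpF.out
  obtain ⟨h2, hd, hg⟩ := (not_mem_excSet_iff W hΔ hp.ne_zero hℓ).1
    (fun h => hℓS (Finset.mem_union_left _ h))
  have hℓN : ¬ ℓ ∣ N := fun h => hℓS (Finset.mem_union_right _
    (Nat.mem_primeFactors.mpr ⟨hℓ, h, hN.ne'⟩))
  have hℓp : ℓ ≠ p := by
    rintro rfl
    exact hd dvd_rfl
  have hℓNp : ¬ ℓ ∣ N * p := fun h => (hℓ.dvd_mul.mp h).elim hℓN hd
  have htr : LinearMap.trace (ZMod p) (TorsQbar (W.map (Int.castRingHom ℚ)) p)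
      (rhoBar (W.map (Int.castRingHom ℚ)) p τ) = (W.apOfModel ℓ : ZMod p) :=
    galoisTrace_frob_of_model W hΔ hirr hℓ h2 hℓp hg hA hτ
  have hdet : LinearMap.det (rhoBar (W.map (Int.castRingHom ℚ)) p τ) = (ℓ : ZMod p) := by
    rw [det_of_model W hΔ hirr τ, cycloChar_frob p hp ℓ hℓ hℓp A hA τ hτ]
  rw [htr, hdet]
  apply LinearMap.ext
  intro x
  apply Subtype.ext
  rw [LinearMap.add_apply, LinearMap.sub_apply, Module.End.mul_apply, LinearMap.smul_apply,
    LinearMap.smul_apply, Module.End.one_apply, LinearMap.zero_apply, Int.cast_smul_eq_zsmul,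
    Nat.cast_smul_eq_nsmul, AddSubgroup.coe_add, AddSubgroup.coe_sub, AddSubgroup.coe_zsmul,
    AddSubgroup.coe_nsmul, AddSubgroup.coe_zero, ribmp_rep_theta_apply, ribmp_rep_theta_apply]
  have hfrob := hES.frob ℓ hℓ hℓNp A hA τ hτ (x : J) ⟨1, by rw [pow_one]; exact x.2.1⟩
  have heig := (ribmp_rep_stable hES.smul_comm τ x.2).2 ⟨ℓ, hℓ⟩ ⟨hℓNp, hg⟩
  rw [heig] at hfrob
  exact hfrob

/-- a common finite level of `E[p]` and of the eigen-space -/
theorem ribmp_rep_level [hpF : Fact p.Prime] (hΔ : W.Δ ≠ 0) (hES : ESDataInf N p J) :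
    ∃ F : IntermediateField ℚ (AlgebraicClosure ℚ), FiniteDimensional ℚ F ∧ IsGalois ℚ F ∧
      ∀ σ σ' : GQ, (∀ x ∈ F, σ x = σ' x) →
        rhoBar (W.map (Int.castRingHom ℚ)) p σ = rhoBar (W.map (Int.castRingHom ℚ)) p σ' ∧
        ribmp_repTheta (W := W) (N := N) (p := p) hES.smul_comm σ
          = ribmp_repTheta hES.smul_comm σ' := by
  classical
  have hp : p.Prime := hpF.out
  have hcard := card_torsQbar W hΔ hp.ne_zero
  obtain ⟨F₁, hF₁fin, -, hρ, -⟩ := exists_level (finite_of_card hcard) p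
  -- the levels of the points of `J[p]`
  have hJfin : Finite {x : J | p ^ 1 • x = 0} := (hES.finite 1).to_subtype
  let _ : Fintype {x : J | p ^ 1 • x = 0} := Fintype.ofFinite _
  have hlev : ∀ x : {x : J | p ^ 1 • x = 0}, ∃ E : IntermediateField ℚ (AlgebraicClosure ℚ),
      FiniteDimensional ℚ E ∧ ∀ σ : GQ, (∀ a ∈ E, σ a = a) → σ • (x : J) = x :=
    fun x => hES.finite_level x ⟨1, x.2⟩
  choose Ev hEvfin hEv using hlev
  obtain ⟨F, hFfin, hFnorm, hFle⟩ := stmtHull (insert F₁ (Finset.univ.image Ev)) (by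
    intro E hE
    rcases Finset.mem_insert.mp hE with rfl | hE
    · exact hF₁fin
    obtain ⟨v, -, rfl⟩ := Finset.mem_image.mp hE
    exact hEvfin v)
  have hF₁ : F₁ ≤ F := hFle _ (Finset.mem_insert_self _ _)
  have hFv : ∀ v, Ev v ≤ F := fun v => hFle _
    (Finset.mem_insert_of_mem (Finset.mem_image_of_mem Ev (Finset.mem_univ v)))
  refine ⟨F, hFfin, IsGalois.mk, fun σ σ' h => ⟨hρ σ σ' fun x hx => h x (hF₁ hx), ?_⟩⟩
  apply LinearMap.ext
  intro x
  apply Subtype.ext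
  rw [ribmp_rep_theta_apply, ribmp_rep_theta_apply]
  have hx : (x : J) ∈ {x : J | p ^ 1 • x = 0} := by
    show p ^ 1 • (x : J) = 0
    rw [pow_one]
    exact x.2.1
  have hfix : ∀ a ∈ Ev ⟨x, hx⟩, (σ'⁻¹ * σ) a = a := by
    intro a ha
    rw [AlgEquiv.mul_apply, h a (hFv _ ha)]
    exact σ'.symm_apply_apply a
  have := hEv ⟨x, hx⟩ _ hfix
  rw [mul_smul, inv_smul_eq_iff] at this
  exact this

/-- **every `σ` satisfies, on the eigen-space, the characteristic polynomial of `ρ̄_E(σ)`** -/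
theorem ribmp_rep_hrel [hpF : Fact p.Prime] (hΔ : W.Δ ≠ 0) (hirr : W.ModRepIsIrreducible p)
    (hN : 0 < N) (hES : ESDataInf N p J) (σ : GQ) :
    ribmp_repTheta (W := W) (N := N) (p := p) hES.smul_comm σ * ribmp_repTheta hES.smul_comm σ
      - LinearMap.trace (ZMod p) (TorsQbar (W.map (Int.castRingHom ℚ)) p)
          (rhoBar (W.map (Int.castRingHom ℚ)) p σ) • ribmp_repTheta hES.smul_comm σ
      + LinearMap.det (rhoBar (W.map (Int.castRingHom ℚ)) p σ)
          • (1 : Module.End (ZMod p) (ribmp_repU W N p J)) = 0 := by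
  have hp : p.Prime := hpF.out
  have hcard := card_torsQbar W hΔ hp.ne_zero
  have hdim := finrank_of_card hcard
  obtain ⟨F, hFfin, hFgal, hlev⟩ := ribmp_rep_level (W := W) (N := N) hΔ hES
  obtain ⟨ℓ, A, τ, m, hℓ, hℓS, hA, hτ, hm⟩ :=
    Fermat.Agent.Cheb.exists_frobenius_pow_eq F (excSet W p ∪ N.primeFactors) σ
  obtain ⟨h1, h2⟩ := hlev (τ ^ m) σ hm
  rw [← h1, ← h2, map_pow, map_pow]
  have hfr := ribmp_rep_frob_rel hΔ hirr hN hES hℓ hℓS hA hτ
  refine r38rep_rel_pow hdim (rhoBar (W.map (Int.castRingHom ℚ)) p τ)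
    (rhoBar (W.map (Int.castRingHom ℚ)) p τ⁻¹) ?_ ?_ (ribmp_repTheta hES.smul_comm τ)
    (ribmp_repTheta hES.smul_comm τ⁻¹) ?_ ?_ hfr m
  · rw [← map_mul, mul_inv_cancel, map_one]
  · rw [← map_mul, inv_mul_cancel, map_one]
  · rw [← map_mul, mul_inv_cancel, map_one]
  · rw [← map_mul, inv_mul_cancel, map_one]

end Main

/-! ### MP-1 -/

/-- **MP-1**: `R38.StmtRep` at an arbitrary level. -/
theorem stmtRepN : StmtRepN := by
  intro W hΔ p hp hp2 hirr N hN J _ _ _ hES v hv0 hpv heig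
  have hpF : Fact p.Prime := ⟨hp⟩
  have hcard := card_torsQbar W hΔ hp.ne_zero
  have hdim := finrank_of_card hcard
  have h2 : (2 : ZMod p) ≠ 0 := by
    intro h
    have h' : ((2 : ℕ) : ZMod p) = 0 := by exact_mod_cast h
    rw [ZMod.natCast_eq_zero_iff] at h'
    exact hp2 ((Nat.prime_dvd_prime_iff_eq hp Nat.prime_two).1 h')
  have hvU : v ∈ ribmp_repU W N p J := ⟨hpv, heig⟩
  have hu : (⟨v, hvU⟩ : ribmp_repU W N p J) ≠ 0 := fun h => hv0 (congrArg Subtype.val h)
  obtain ⟨φ, hφinj, hφ⟩ := r38rep_embed h2 hdim (rhoBar (W.map (Int.castRingHom ℚ)) p)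
    (ribmp_repTheta (W := W) (N := N) (p := p) hES.smul_comm) (ribmp_rep_hrel hΔ hirr hN hES)
    (r38rep_span W hΔ p hp2 hirr) ⟨v, hvU⟩ hu
  -- the embedding into `J`
  let ψ : TorsQbar (W.map (Int.castRingHom ℚ)) p →+ J :=
    (ribmp_repU W N p J).subtype.comp φ.toAddMonoidHom
  have hψinj : Function.Injective ψ := fun y y' h => hφinj (Subtype.ext h)
  have hψσ : ∀ (σ : GQ) y, ψ (σ • y) = σ • ψ y := by
    intro σ y
    have := congrArg Subtype.val (hφ σ y)
    rw [ribmp_rep_theta_apply] at this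
    exact this
  refine ⟨ψ.range, (AddMonoidHom.ofInjective hψinj).symm, ?_, ?_, ?_, ?_⟩
  · rintro x ⟨y, rfl⟩
    exact (φ y).2.1
  · rintro x ⟨y, rfl⟩ ℓ hℓ
    exact (φ y).2.2 ℓ hℓ
  · rintro σ x ⟨y, rfl⟩
    exact ⟨σ • y, hψσ σ y⟩
  · intro σ x
    rw [AddEquiv.symm_apply_eq]
    apply Subtype.ext
    rw [AddMonoidHom.ofInjective_apply, hψσ]
    have hx : ψ ((AddMonoidHom.ofInjective hψinj).symm x) = (x : J) := by
      rw [← AddMonoidHom.ofInjective_apply hψinj, AddEquiv.apply_symm_apply]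
    rw [hx]

end Fermat.Agent.RIB.MP
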