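/-
Row 37, Mazur's principle, piece MP-5b (helper43): THE PACKAGE `StmtPkgQe` of the abstract glue
(`RIB/MP/GlueAbs.lean`) for the CONCRETE module `J := PDiv (M₁ q) p` (the `p`-divisible torsion
of `J₀(M₁ q)(ℚ̄)`, `ES/TopFaith.lean`), from the `J`-form `StmtAtQE` of Mazur's principle
(`RIB/MP/PlanE.lean`).

* `ribmp_pkg_es`      : `ESDataInf N p (PDiv N p)` (unconditional, as `R38.r38pkg_es`);
* `ribmp_pkg_w`       : `w_q` restricted to `PDiv (M₁ q) p`;
* `ribmp_pkg_w_invol`, `ribmp_pkg_w_galois` : `w_q` is an involution commuting with `G_ℚ`;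
* `stmtPkgQe_of`      : `StmtAtQE → StmtPkgQe`;
* `stmtMPe_of_atQE`   : `StmtAtQE → RIB.StmtMPe`  (with `R38.stmtLift`, `stmtRepN`);
* `stmtMPe_of_geom`   : `StmtRedE → StmtFrobToricE → RIB.StmtMPe`.
-/
import Fermat.Agent.RIB.MP.GlueAbs
import Fermat.Agent.RIB.MP.PlanE
import Fermat.Agent.RIB.MP.AtQE
import Fermat.Agent.RIB.MP.RepN
import Fermat.Agent.R38.Lift
import Fermat.Agent.R38.PkgFrame

set_option autoImplicit false
set_option linter.style.haveILetI false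
set_option linter.unusedSectionVars false

noncomputable section

namespace Fermat.Agent.RIB.MP

open ModularCurve AlgebraicCurve Fermat.Agent.ES Fermat.Agent.STB ExtCitation Fermat.Agent.R38

/-- **PKG-ES**: the Eichler–Shimura package on `PDiv N p`. -/
theorem ribmp_pkg_es (N p : ℕ) [NeZero N] [hpF : Fact p.Prime] :
    letI := pDivModule N p
    letI := pDivGalois N p
    ESDataInf N p (PDiv N p) := by
  have hp : p.Prime := hpF.out
  have hm := multData_of_torsionUnifData hp.ne_zero (stb_p2_unifData N p hp.pos)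
  exact hm.esDataInf (stmtFiniteLevel N p hp.ne_zero)
    (G2.stmtFrob_of_stmtINJAll Fermat.Agent.INJ.injAll_stmtINJAll N p)
    (G2.stmtUnram_of_stmtINJAll Fermat.Agent.INJ.injAll_stmtINJAll N p)

/-- `heckeGen ℓ` acts on `PDiv N p` as `T_ℓ` (good `ℓ`) -/
theorem ribmp_pkg_heckeGen_coe (N p : ℕ) [NeZero N] [hpF : Fact p.Prime] (ℓ : Nat.Primes)
    (hℓ : ¬ (ℓ : ℕ) ∣ N * p) (x : PDiv N p) :
    ((letI := pDivModule N p; heckeGen ℓ • x : PDiv N p) : JZero N) =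
      heckeOperatorBar N ℓ (x : JZero N) := by
  have hp : p.Prime := hpF.out
  have hm := multData_of_torsionUnifData hp.ne_zero (stb_p2_unifData N p hp.pos)
  rw [hm.heckeGen_smul, pDivOp_of_good hℓ]

section W

variable {M₁ q : ℕ} [NeZero M₁] [NeZero q] [NeZero (M₁ * q)] (hq : q.Prime) (hqM : ¬ q ∣ M₁)

/-- `w_q` on `J₀(M₁ q)(ℚ̄)` is an involution -/
theorem ribmp_pkg_w_invol (x : JZero (M₁ * q)) :
    Fermat.Agent.UNIP.atkinLehnerBar hq hqM • (Fermat.Agent.UNIP.atkinLehnerBar hq hqM • x) =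
      x := by
  rw [smul_smul]
  have h : Fermat.Agent.UNIP.atkinLehnerBar hq hqM * Fermat.Agent.UNIP.atkinLehnerBar hq hqM =
      1 := by
    apply AlgEquiv.ext
    intro y
    rw [AlgEquiv.mul_apply, Fermat.Agent.UNIP.atkinLehnerBar_invol]
    rfl
  rw [h, one_smul]

/-- `w_q` commutes with the Galois action on `J₀(M₁ q)(ℚ̄)` -/
theorem ribmp_pkg_w_galois (σ : GQ) (x : JZero (M₁ * q)) :
    Fermat.Agent.UNIP.atkinLehnerBar hq hqM • (σ • x) =
      σ • (Fermat.Agent.UNIP.atkinLehnerBar hq hqM • x) := by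
  have hcomm : SemilinearAut.ofAlgAut (Fermat.Agent.UNIP.atkinLehnerBar hq hqM) *
      arithmeticGalois (modularFunctionFieldFull (M₁ * q)) σ =
      arithmeticGalois (modularFunctionFieldFull (M₁ * q)) σ *
        SemilinearAut.ofAlgAut (Fermat.Agent.UNIP.atkinLehnerBar hq hqM) := by
    apply Subtype.ext
    refine Prod.ext (RingEquiv.ext fun y => ?_) ?_
    · exact Fermat.Agent.UNIP.atkinLehnerBar_smul hq hqM σ y
    · show (1 : RingAut Qb) * _ = _ * (1 : RingAut Qb)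
      rw [one_mul, mul_one]
  show SemilinearAut.ofAlgAut (Fermat.Agent.UNIP.atkinLehnerBar hq hqM) •
      (arithmeticGalois (modularFunctionFieldFull (M₁ * q)) σ • x) =
    arithmeticGalois (modularFunctionFieldFull (M₁ * q)) σ •
      (SemilinearAut.ofAlgAut (Fermat.Agent.UNIP.atkinLehnerBar hq hqM) • x)
  rw [smul_smul, smul_smul, hcomm]

variable (p : ℕ)

/-- `w_q` restricted to the `p`-divisible torsion -/
def ribmp_pkg_w : PDiv (M₁ * q) p →+ PDiv (M₁ * q) p where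
  toFun x := ⟨Fermat.Agent.UNIP.atkinLehnerBar hq hqM • (x : JZero (M₁ * q)),
    map_mem_pDivTors (DistribSMul.toAddMonoidHom (JZero (M₁ * q))
      (Fermat.Agent.UNIP.atkinLehnerBar hq hqM)) x.2⟩
  map_zero' := Subtype.ext (smul_zero _)
  map_add' x y := Subtype.ext (smul_add _ (x : JZero (M₁ * q)) (y : JZero (M₁ * q)))

theorem ribmp_pkg_w_coe (x : PDiv (M₁ * q) p) :
    (ribmp_pkg_w hq hqM p x : JZero (M₁ * q)) =
      Fermat.Agent.UNIP.atkinLehnerBar hq hqM • (x : JZero (M₁ * q)) := rfl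

end W

/-- **MP-PKG at even levels** from the `J`-form of Mazur's principle. -/
theorem stmtPkgQe_of (hAtQ : StmtAtQE) : StmtPkgQe := by
  intro M₁ q p _ h2 hp hp5 hq hq2 hqp hqM₁ hpM₁ hsq
  haveI : NeZero q := ⟨hq.ne_zero⟩
  haveI : NeZero (M₁ * q) := ⟨Nat.mul_ne_zero (NeZero.ne M₁) hq.ne_zero⟩
  haveI : Fact p.Prime := ⟨hp⟩
  refine ⟨PDiv (M₁ * q) p, inferInstance, pDivModule (M₁ * q) p, pDivGalois (M₁ * q) p, ?_⟩
  letI := pDivModule (M₁ * q) p
  letI := pDivGalois (M₁ * q) p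
  refine ⟨ribmp_pkg_es (M₁ * q) p, ribmp_pkg_w hq hqM₁ p, ?_, ?_, ?_⟩
  · intro x
    exact Subtype.ext (ribmp_pkg_w_invol hq hqM₁ (x : JZero (M₁ * q)))
  · intro σ x
    exact Subtype.ext (ribmp_pkg_w_galois hq hqM₁ σ (x : JZero (M₁ * q)))
  · intro A hA σ hσ x hx hin t₀ ht₀ hK n₀ hn₀ hpn₀ ℓ₁ hℓ₁ n₁ hn₁ hpn₁
    have hG : ∀ ℓ ∈ goodPrimes (M₁ * q) p, ¬ (ℓ : ℕ) ∣ M₁ := fun ℓ hℓ h =>
      hℓ (Dvd.dvd.mul_right (Dvd.dvd.mul_right h q) p)
    have hKL : KillsLevel M₁ t₀ := killsLevel_of_forms (goodPrimes (M₁ * q) p) hG ht₀ hK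
    have hin' : InertiaFixed A (x : JZero (M₁ * q)) := fun τ hτ =>
      congrArg Subtype.val (hin τ hτ)
    have hn₁' : heckeOperatorBar (M₁ * q) ℓ₁ (x : JZero (M₁ * q)) =
        n₁ • (x : JZero (M₁ * q)) := by
      rw [← ribmp_pkg_heckeGen_coe (M₁ * q) p ℓ₁ hℓ₁ x, hn₁]
      rfl
    have key := hAtQ M₁ q hq hqM₁ (ribmp_e_hyp_of_even hq hq2 h2) hsq hq2 p hp hp5 hqp.symm A hA
      σ hσ x hx hin' ℓ₁ n₁ hℓ₁ hn₁' hpn₁ t₀ ht₀ hKL n₀ hn₀ hpn₀
    apply Subtype.ext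
    exact key

/-- **MP at even levels** from the `J`-form of Mazur's principle. -/
theorem stmtMPe_of_atQE (hAtQ : StmtAtQE) : Fermat.Agent.RIB.StmtMPe :=
  ribmp_glue_even stmtLift stmtRepN (stmtPkgQe_of hAtQ)

/-- **MP at even levels** from the two geometric pieces MP-RED and MP-FROB. -/
theorem stmtMPe_of_geom (hRed : StmtRedE) (hFrob : StmtFrobToricE) :
    Fermat.Agent.RIB.StmtMPe :=
  stmtMPe_of_atQE (stmtAtQE_of_geom hRed hFrob)

end Fermat.Agent.RIB.MP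

end
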