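/-
Row 37, Mazur's principle (sub-captain helper2): THE FINAL WIRING of MP — `RIB.StmtMPe` PROVED.

All the pieces of Mazur's principle are assembled here:

* MP-PKG / glue  : `stmtMPe_of_geom : StmtRedE → StmtFrobToricE → RIB.StmtMPe`  (`RIB/MP/PkgQ.lean`);
* MP-RED         : `stmtRedE_of_fac : StmtFac → StmtRedE`                        (`RIB/MP/RedMain.lean`);
* MP-FROB        : `stmtFrobToricE_of_fac : StmtFac → StmtFrobToricE`            (`RIB/MP/FrobFinal.lean`);
* MP-FAC         : `ribmp_fac_of_ufd : StmtFacUfdJ → StmtFacCusp → StmtFac`      (`RIB/MP/FacFinal.lean`);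
* FAC-A          : `ribmp_fuj_stmt : StmtFacUfdJ`                                (`RIB/MP/FacUfdJ.lean`);
* FAC-C          : `ribmp_fcu_stmtFacCusp : StmtFacCusp`                         (`RIB/MP/FacCuspStmt.lean`);
* (F)            : `stmtFac : StmtFac`                                           (`RIB/MP/FacAll.lean`).

Results (all unconditional):

* `ribmp_final_stmtRedE       : StmtRedE`;
* `ribmp_final_stmtFrobToricE : StmtFrobToricE`;
* `ribmp_final_stmtAtQE       : StmtAtQE`;
* `ribmp_final_stmtPkgQe      : StmtPkgQe`;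
* `ribmp_final_stmtMPe        : RIB.StmtMPe`   — **Mazur's principle at even levels**;
* `ribmp_final_s43_of         : RIB.StmtTRe → RIB.StmtPe → (frozen S43 shape)`.
-/
import Fermat.Agent.RIB.S43Of
import Fermat.Agent.RIB.MP.RedMain
import Fermat.Agent.RIB.MP.FrobFinal
import Fermat.Agent.RIB.MP.FacAll

set_option autoImplicit false
set_option linter.unusedSectionVars false
set_option linter.unusedVariables false
set_option linter.style.haveILetI false
set_option linter.style.longLine false

open WeierstrassCurve WeierstrassCurve.Affine WeierstrassCurve.Affine.Point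

namespace Fermat.Agent.RIB.MP

/-- **MP-RED**, unconditional. -/
theorem ribmp_final_stmtRedE : StmtRedE :=
  stmtRedE_of_fac stmtFac

/-- **MP-FROB**, unconditional. -/
theorem ribmp_final_stmtFrobToricE : StmtFrobToricE :=
  stmtFrobToricE_of_fac stmtFac

/-- **MP-ATQ** (the `J`-form of Mazur's principle), unconditional. -/
theorem ribmp_final_stmtAtQE : StmtAtQE :=
  stmtAtQE_of_geom ribmp_final_stmtRedE ribmp_final_stmtFrobToricE

/-- **MP-PKG at even levels**, unconditional. -/
theorem ribmp_final_stmtPkgQe : StmtPkgQe :=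
  stmtPkgQe_of ribmp_final_stmtAtQE

/-- **Mazur's principle at even levels**, unconditional. -/
theorem ribmp_final_stmtMPe : Fermat.Agent.RIB.StmtMPe :=
  stmtMPe_of_geom ribmp_final_stmtRedE ribmp_final_stmtFrobToricE

/-- **The frozen statement S43**, from the two remaining inputs: the K-machine `StmtTRe` and the
removal of `p` `StmtPe` (row 38). -/
theorem ribmp_final_s43_of (hTR : Fermat.Agent.RIB.StmtTRe) (hP : Fermat.Agent.RIB.StmtPe)
    (P : FreyPackage) {N q : ℕ} (hcond : P.IsConductorLevel N) (hq : q.Prime) (hq2 : q ≠ 2)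
    (hqp : q ≠ P.p) (hqN : q ∣ N)
    (hirr : GaloisRepIsIrreducible (K := AlgebraicClosure ℚ) ℚ P.freyCurve P.p)
    (hmod : P.ModularRepOfLevel N) (hunr : P.GaloisRepUnramifiedAt q) :
    ∃ M : ℕ, M ∣ N ∧ ¬ q ∣ M ∧ P.ModularRepOfLevel M :=
  Fermat.Agent.RIB.s43_of ribmp_final_stmtRedE ribmp_final_stmtFrobToricE hTR hP P hcond hq hq2
    hqp hqN hirr hmod hunr

end Fermat.Agent.RIB.MP
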