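/-
Row 37, Mazur's principle, piece **MP-FROB** (helper3), FINAL: unconditional.

* `ribmp_froball_fac : StmtFac` — (F), from FAC-A (`ribmp_fuj_stmt`, helper54's
  `RT.K6.rtk6lfb0_ufd_J`) and FAC-C (`ribmp_fcu_stmtFacCusp`, helper81) through helper95's
  `ribmp_fac_of_ufd`;
* `stmtFrobToricE : StmtFrobToricE` — **MP-FROB**, the restricted form of `RIB/MP/PlanE.lean`;
* `ribmp_froball_pow` — MP-FROB at the exponents `p ^ r` (input of K8), unconditional.
-/
import Fermat.Agent.RIB.MP.FrobFinal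
import Fermat.Agent.RIB.MP.FacFinal
import Fermat.Agent.RIB.MP.FacUfdJ
import Fermat.Agent.RIB.MP.FacCuspStmt

set_option autoImplicit false
set_option linter.unusedSectionVars false
set_option linter.unusedVariables false
set_option linter.style.haveILetI false
set_option linter.style.longLine false

noncomputable section

namespace Fermat.Agent.RIB.MP

open ModularCurve AlgebraicCurve Fermat.Agent.ES Fermat.Agent.ES.G2 Fermat.Agent.INJ
  Fermat.Agent.UNIP

/-- **MP-FAC**, unconditional. -/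
theorem ribmp_froball_fac : StmtFac :=
  ribmp_fac_of_ufd ribmp_fuj_stmt ribmp_fcu_stmtFacCusp

/-- **MP-FROB**, unconditional (restricted form `StmtFrobToricE`). -/
theorem stmtFrobToricE : StmtFrobToricE :=
  stmtFrobToricE_of_fac ribmp_froball_fac

/-- **MP-FROB at the exponent `p ^ r`**, unconditional. -/
theorem ribmp_froball_pow
    (M₁ q : ℕ) [NeZero M₁] [NeZero q] [NeZero (M₁ * q)] (hq : q.Prime) (hqM : ¬ q ∣ M₁)
    (hE : 5 ≤ q ∨ (5 - q) ∣ M₁) (hq2 : q ≠ 2) (p : ℕ) (hp : p.Prime) (hp5 : 5 ≤ p)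
    (hpq : p ≠ q) (r : ℕ) (A : ValuationSubring Qb) (hA : A.LiesOverPrime q)
    (σ : Qb ≃ₐ[ℚ] Qb) (hσ : A.IsFrobeniusAt σ q)
    (x : JZero (M₁ * q)) (hx : p ^ r • x = 0) (hI : InertiaFixed A x)
    (ℓ : Nat.Primes) (hℓ : ¬ (ℓ : ℕ) ∣ M₁ * q * p)
    (htor : IsToric hq hqM A (p ^ r) (eisKill ℓ x)) :
    σ • (atkinLehnerBar hq hqM • eisKill ℓ x) + q • eisKill ℓ x = 0 :=
  ribmp_frob_powE ribmp_froball_fac M₁ q hq hqM hE hq2 p hp hp5 hpq r A hA σ hσ x hx hI ℓ hℓ htor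

end Fermat.Agent.RIB.MP
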