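/-
Row 37, Mazur's principle, piece **MP-FROB** (helper3), part 3: the transfer of the local
factorisation (F) from the charts over the unramified base `A₀` to the charts over a ramified
base `A'` (generic).

Setting: two chart settings `(A₀, E₀, F₀, u)` and `(A', E', F', up u)` (as in
`UNIP/AbstractT.lean`), a ring homomorphism `up : F₀ →+* F'` compatible with `ι : A₀ →+* A'` on the
constants, uniformizers `π₀`, `π'` with `π' ∣ ι π₀`.  If the closed points of the special fibre of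
the chart `up u` are rational over `ι A₀` (`hrat`), then every closed point `𝔫'` of the chart
`up u` lies over a closed point `𝔫` of the chart `u`, `up (atLoc 𝔫) ⊆ atLoc 𝔫'`, and (F) at `𝔫`
for `y` gives (F) at `𝔫'` for `up y`.

* `ribmpFrobChartMap`, `ribmp_frob_exists_below`, `ribmp_frob_up_atLoc`, `ribmp_frob_fac_up`,
  `ribmp_frob_fac_up_charts`.
-/
import Fermat.Agent.UNIP.AbstractT
import Fermat.Agent.STB.AbstractT2
import Fermat.Agent.STB.CrossFrob

set_option autoImplicit false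
set_option linter.style.haveILetI false
set_option linter.unusedSectionVars false
set_option linter.unusedVariables false

namespace Fermat.Agent.RIB.MP

open Polynomial IntermediateField Fermat.Agent.INJ Fermat.Agent.UNIP Fermat.Agent.STB

section Up

variable {A₀ E₀ F₀ : Type*} [CommRing A₀] [IsDomain A₀] [IsDiscreteValuationRing A₀]
  [Field E₀] [Algebra A₀ E₀] [IsFractionRing A₀ E₀] [CharZero E₀]
  [Field F₀] [Algebra E₀ F₀] [Algebra A₀ F₀] [IsScalarTower A₀ E₀ F₀]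
  {A' E' F' : Type*} [CommRing A'] [IsDomain A'] [IsDiscreteValuationRing A']
  [Field E'] [Algebra A' E'] [IsFractionRing A' E'] [CharZero E']
  [Field F'] [Algebra E' F'] [Algebra A' F'] [IsScalarTower A' E' F']
  {π₀ : A₀} {π' : A'}
  (up : F₀ →+* F') (ι : A₀ →+* A')
  (hup : ∀ a : A₀, up (algebraMap A₀ F₀ a) = algebraMap A' F' (ι a))

include hup in
/-- `up` maps `A₀[u]` into `A'[up u]` -/
theorem ribmp_frob_up_adjoin (u : F₀) {x : F₀}
    (hx : x ∈ Algebra.adjoin A₀ ({u} : Set F₀)) :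
    up x ∈ Algebra.adjoin A' ({up u} : Set F') := by
  induction hx using Algebra.adjoin_induction with
  | mem x hx =>
    rw [Set.mem_singleton_iff] at hx
    rw [hx]
    exact Algebra.subset_adjoin (Set.mem_singleton _)
  | algebraMap r =>
    rw [hup]
    exact Subalgebra.algebraMap_mem _ _
  | add x y _ _ hx hy =>
    rw [map_add]
    exact Subalgebra.add_mem _ hx hy
  | mul x y _ _ hx hy =>
    rw [map_mul]
    exact Subalgebra.mul_mem _ hx hy

include hup in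
/-- `up` maps the chart `B_u` into the chart `B'_{up u}` -/
theorem ribmp_frob_up_isIntegral (u : F₀) {x : F₀}
    (hx : IsIntegral ↥(Algebra.adjoin A₀ ({u} : Set F₀)) x) :
    IsIntegral ↥(Algebra.adjoin A' ({up u} : Set F')) (up x) := by
  let φ : ↥(Algebra.adjoin A₀ ({u} : Set F₀)) →+* ↥(Algebra.adjoin A' ({up u} : Set F')) :=
    { toFun := fun a => ⟨up (a : F₀), ribmp_frob_up_adjoin up ι hup u a.2⟩
      map_one' := Subtype.ext (map_one up)
      map_mul' := fun a b => Subtype.ext (map_mul up (a : F₀) (b : F₀))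
      map_zero' := Subtype.ext (map_zero up)
      map_add' := fun a b => Subtype.ext (map_add up (a : F₀) (b : F₀)) }
  exact hx.map_of_comp_eq φ up (by ext a; rfl)

/-- the map of charts `B_u → B'_{up u}` -/
def ribmpFrobChartMap (u : F₀) :
    ↥(zchClosure (A₀ := A₀) ({u} : Set F₀)) →+* ↥(zchClosure (A₀ := A') ({up u} : Set F')) where
  toFun b := ⟨up (b : F₀), mem_zchClosure.mpr
    (ribmp_frob_up_isIntegral up ι hup u (mem_zchClosure.mp b.2))⟩
  map_one' := Subtype.ext (map_one up)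
  map_mul' a b := Subtype.ext (map_mul up (a : F₀) (b : F₀))
  map_zero' := Subtype.ext (map_zero up)
  map_add' a b := Subtype.ext (map_add up (a : F₀) (b : F₀))

theorem ribmpFrobChartMap_coe (u : F₀) (b : ↥(zchClosure (A₀ := A₀) ({u} : Set F₀))) :
    ((ribmpFrobChartMap up ι hup u b : ↥(zchClosure (A₀ := A') ({up u} : Set F'))) : F')
      = up (b : F₀) := rfl

theorem ribmpFrobChartMap_algebraMap (u : F₀) (a : A₀) :
    ribmpFrobChartMap up ι hup u (algebraMap A₀ ↥(zchClosure (A₀ := A₀) ({u} : Set F₀)) a)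
      = algebraMap A' ↥(zchClosure (A₀ := A') ({up u} : Set F')) (ι a) :=
  Subtype.ext (hup a)

/-- **Every closed point of the chart `up u` lies over a closed point of the chart `u`.** -/
theorem ribmp_frob_exists_below (hπ₀ : Irreducible π₀) (hdvd : π' ∣ ι π₀) (u : F₀)
    (𝔫' : AtPt (F := F') π' (up u))
    (hrat : ∀ b' : ↥(zchClosure (A₀ := A') ({up u} : Set F')), ∃ a : A₀,
      b' - algebraMap A' ↥(zchClosure (A₀ := A') ({up u} : Set F')) (ι a) ∈ 𝔫'.1) :
    ∃ 𝔫 : AtPt (F := F₀) π₀ u, 𝔫.1 = 𝔫'.1.comap (ribmpFrobChartMap up ι hup u) := by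
  haveI := 𝔫'.2.1
  have hπ𝔫 : algebraMap A₀ ↥(zchClosure (A₀ := A₀) ({u} : Set F₀)) π₀ ∈
      𝔫'.1.comap (ribmpFrobChartMap up ι hup u) := by
    rw [Ideal.mem_comap, ribmpFrobChartMap_algebraMap]
    obtain ⟨c, hc⟩ := hdvd
    rw [hc, map_mul]
    exact Ideal.mul_mem_right _ _ 𝔫'.2.2
  have hmax : (𝔫'.1.comap (ribmpFrobChartMap up ι hup u)).IsMaximal := by
    rw [Ideal.isMaximal_iff]
    refine ⟨fun h1 => ?_, fun J x hJ hx hxJ => ?_⟩
    · rw [Ideal.mem_comap, map_one] at h1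
      exact 𝔫'.2.1.ne_top ((Ideal.eq_top_iff_one _).mpr h1)
    · obtain ⟨a, ha⟩ := hrat (ribmpFrobChartMap up ι hup u x)
      have h2 : x - algebraMap A₀ ↥(zchClosure (A₀ := A₀) ({u} : Set F₀)) a ∈
          𝔫'.1.comap (ribmpFrobChartMap up ι hup u) := by
        rw [Ideal.mem_comap, map_sub, ribmpFrobChartMap_algebraMap]
        exact ha
      have haJ : algebraMap A₀ ↥(zchClosure (A₀ := A₀) ({u} : Set F₀)) a ∈ J := by
        have := J.sub_mem hxJ (hJ h2)
        rwa [sub_sub_cancel] at this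
      have hau : IsUnit a := by
        by_contra hau
        have h3 : a ∈ IsLocalRing.maximalIdeal A₀ := (IsLocalRing.mem_maximalIdeal a).2 hau
        rw [hπ₀.maximalIdeal_eq, Ideal.mem_span_singleton] at h3
        obtain ⟨c, rfl⟩ := h3
        apply hx
        have h4 : algebraMap A₀ ↥(zchClosure (A₀ := A₀) ({u} : Set F₀)) (π₀ * c) ∈
            𝔫'.1.comap (ribmpFrobChartMap up ι hup u) := by
          rw [map_mul]
          exact Ideal.mul_mem_right _ _ hπ𝔫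
        have := Ideal.add_mem _ h2 h4
        rwa [sub_add_cancel] at this
      have hu' : IsUnit (algebraMap A₀ ↥(zchClosure (A₀ := A₀) ({u} : Set F₀)) a) :=
        hau.map _
      have := J.eq_top_of_isUnit_mem haJ hu'
      rw [this]
      exact Submodule.mem_top
  exact ⟨⟨𝔫'.1.comap (ribmpFrobChartMap up ι hup u), hmax, hπ𝔫⟩, rfl⟩

/-- `up` maps the local ring at `𝔫` into the local ring at `𝔫'` -/
theorem ribmp_frob_up_atLoc (u : F₀) (𝔫 : AtPt (F := F₀) π₀ u) (𝔫' : AtPt (F := F') π' (up u))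
    (h : 𝔫.1 = 𝔫'.1.comap (ribmpFrobChartMap up ι hup u)) {x : F₀} (hx : x ∈ atLoc 𝔫) :
    up x ∈ atLoc 𝔫' := by
  obtain ⟨b, s, hs, hsx⟩ := hx
  refine ⟨ribmpFrobChartMap up ι hup u b, ribmpFrobChartMap up ι hup u s, ?_, ?_⟩
  · intro hh
    apply hs
    rw [h, Ideal.mem_comap]
    exact hh
  · have e : (s : F₀) * x = (b : F₀) := hsx
    show up (s : F₀) * up x = up (b : F₀)
    rw [← map_mul, e]

/-- **(F)-transfer at a point.** -/
theorem ribmp_frob_fac_up_at (u : F₀) (𝔫 : AtPt (F := F₀) π₀ u)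
    (𝔫' : AtPt (F := F') π' (up u))
    (h : 𝔫.1 = 𝔫'.1.comap (ribmpFrobChartMap up ι hup u)) {m : ℕ} {y : F₀}
    (hy : StbFacAt (atLoc 𝔫) m y) : StbFacAt (atLoc 𝔫') m (up y) := by
  obtain ⟨γ, ε, hε, hyε⟩ := hy
  obtain ⟨ε', hε'⟩ := hε.exists_right_inv
  have h1 : (ε : F₀) * (ε' : F₀) = 1 := congrArg Subtype.val hε'
  refine ⟨up γ, ⟨up (ε : F₀), ribmp_frob_up_atLoc up ι hup u 𝔫 𝔫' h ε.2⟩, ?_, ?_⟩
  · refine IsUnit.of_mul_eq_one
      (⟨up (ε' : F₀), ribmp_frob_up_atLoc up ι hup u 𝔫 𝔫' h ε'.2⟩ : atLoc 𝔫') ?_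
    apply Subtype.ext
    show up (ε : F₀) * up (ε' : F₀) = 1
    rw [← map_mul, h1, map_one]
  · show up y = up (ε : F₀) * up γ ^ m
    rw [hyε, map_mul, map_pow]

include hup in
/-- **(F)-transfer, chart `u`.** -/
theorem ribmp_frob_fac_up (hπ₀ : Irreducible π₀) (hdvd : π' ∣ ι π₀) (u : F₀)
    (hrat : ∀ (𝔫' : AtPt (F := F') π' (up u))
      (b' : ↥(zchClosure (A₀ := A') ({up u} : Set F'))), ∃ a : A₀,
      b' - algebraMap A' ↥(zchClosure (A₀ := A') ({up u} : Set F')) (ι a) ∈ 𝔫'.1)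
    {m : ℕ} {y : F₀} (hy : ∀ 𝔫 : AtPt (F := F₀) π₀ u, StbFacAt (atLoc 𝔫) m y)
    (𝔫' : AtPt (F := F') π' (up u)) : StbFacAt (atLoc 𝔫') m (up y) := by
  obtain ⟨𝔫, h𝔫⟩ := ribmp_frob_exists_below up ι hup hπ₀ hdvd u 𝔫' (hrat 𝔫')
  exact ribmp_frob_fac_up_at up ι hup u 𝔫 𝔫' h𝔫 (hy 𝔫)

include hup in
/-- **(F)-transfer, chart `u`**, the closed points being rational (algebraically closed residue
field of `A'`, which is the residue field of `A₀`). -/
theorem ribmp_frob_fac_up_chart [IsAlgClosed (IsLocalRing.ResidueField A')]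
    (hπ₀ : Irreducible π₀) (hπ' : Irreducible π') (hdvd : π' ∣ ι π₀)
    (hres : ∀ a' : A', ∃ a : A₀, π' ∣ a' - ι a)
    {u : F₀} {u' : F'} (hu : up u = u') {m : ℕ} {y : F₀}
    (hy : ∀ 𝔫 : AtPt (F := F₀) π₀ u, StbFacAt (atLoc 𝔫) m y)
    (𝔫' : AtPt (F := F') π' u') : StbFacAt (atLoc 𝔫') m (up y) := by
  subst hu
  refine ribmp_frob_fac_up up ι hup hπ₀ hdvd u ?_ hy 𝔫'
  intro 𝔫'' b'
  obtain ⟨a', ha'⟩ := stb_cf_rational hπ' 𝔫'' b'
  obtain ⟨a, c, hc⟩ := hres a'
  refine ⟨a, ?_⟩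
  have e : b' - algebraMap A' ↥(zchClosure (A₀ := A') ({up u} : Set F')) (ι a)
      = (b' - algebraMap A' ↥(zchClosure (A₀ := A') ({up u} : Set F')) a')
        + algebraMap A' ↥(zchClosure (A₀ := A') ({up u} : Set F')) (a' - ι a) := by
    rw [map_sub]
    ring
  rw [e]
  refine Ideal.add_mem _ ha' ?_
  rw [hc, map_mul]
  exact Ideal.mul_mem_right _ _ 𝔫''.2.2

include hup in
/-- **(F)-transfer, both charts.** -/
theorem ribmp_frob_fac_up_charts [IsAlgClosed (IsLocalRing.ResidueField A')]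
    (hπ₀ : Irreducible π₀) (hπ' : Irreducible π') (hdvd : π' ∣ ι π₀)
    (hres : ∀ a' : A', ∃ a : A₀, π' ∣ a' - ι a)
    {t : F₀} {t' : F'} (ht : up t = t') {m : ℕ} {y : F₀}
    (hy : ∀ i : AtPt (F := F₀) π₀ t ⊕ AtPt (F := F₀) π₀ t⁻¹, StbFacAt (atO π₀ t i) m y) :
    ∀ i' : AtPt (F := F') π' t' ⊕ AtPt (F := F') π' t'⁻¹,
      StbFacAt (atO π' t' i') m (up y) := by
  rintro (𝔫' | 𝔫')
  · exact ribmp_frob_fac_up_chart up ι hup hπ₀ hπ' hdvd hres ht (fun 𝔫 => hy (Sum.inl 𝔫)) 𝔫'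
  · exact ribmp_frob_fac_up_chart up ι hup hπ₀ hπ' hdvd hres
      (show up t⁻¹ = t'⁻¹ by rw [map_inv₀, ht]) (fun 𝔫 => hy (Sum.inr 𝔫)) 𝔫'

end Up

end Fermat.Agent.RIB.MP
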