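/-
S59 wall M2 (Mazur's principle at `p = 3`), leaf MP-D, piece MP-DIV / PAR at ODD exponents
(helper49; twin of `ParLift.lean`, which asks `n` prime to `6`).

`ParLift.lean` uses `Coprime n 6` ONCE: a character `χ : Γ → ℤ/n` kills the `γ ∈ Γ` with
`γ ^ 6 = 1`.  If `Γ` has no element of order `3` or `6` (`γ ^ 6 = 1 → γ ^ 2 = 1`), the same holds
for every ODD `n`.  This is the case for every `Γ ≤ Γ₀(N)` with `N` EVEN: the trace of an element
of `Γ₀(N)` is even, and an element `g` of `SL₂(ℤ)` of even trace with `g ^ 6 = 1` is `± 1`.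

* `ribmp_plo_sq_eq_one_of_even_trace` : `g ^ 6 = 1`, `tr g` even ⇒ `g ^ 2 = 1`;
* `ribmp_plo_even_trace_gamma0`       : `γ ∈ Γ₀(N)`, `2 ∣ N` ⇒ `tr γ` even;
* `ribmp_plo_no_order_three`          : `Γ ≤ Γ₀(N)`, `2 ∣ N`, `γ ∈ Γ`, `γ ^ 6 = 1` ⇒ `γ ^ 2 = 1`;
* `StmtParLiftOdd`, `stmtParLiftOdd_of : StmtLatLift → StmtParLiftOdd` (twin of
  `stmtParLift_of`).
-/
import Fermat.Agent.RIB.MP.ParLift

set_option autoImplicit false
set_option linter.unusedVariables false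
set_option linter.style.longLine false

namespace Fermat.Agent.RIB.MP

open scoped MatrixGroups
open ModularGroup (S T)
open ModularCurve.Period (IsParabolicHom)
open Fermat.Agent.S41.PD

/-- integers: `h * h = 1`, `det h = 1` ⇒ `h` is diagonal -/
theorem ribmp_plo_invol {p q r s : ℤ} (hdet : p * s - q * r = 1) (h00 : p * p + q * r = 1)
    (h01 : p * q + q * s = 0) (h10 : r * p + s * r = 0) : q = 0 ∧ r = 0 := by
  have h2 : p * (p + s) = 2 := by linear_combination h00 + hdet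
  have hne : p + s ≠ 0 := by
    intro h0
    rw [h0, mul_zero] at h2
    exact absurd h2 (by norm_num)
  constructor
  · have : q * (p + s) = 0 := by linear_combination h01
    exact (mul_eq_zero.1 this).resolve_right hne
  · have : r * (p + s) = 0 := by linear_combination h10
    exact (mul_eq_zero.1 this).resolve_right hne

/-- an element of `SL₂(ℤ)` of EVEN trace with `g ^ 6 = 1` satisfies `g ^ 2 = 1` (it is `± 1`). -/
theorem ribmp_plo_sq_eq_one_of_even_trace (g : SL(2, ℤ)) (h6 : g ^ 6 = 1)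
    (hev : Even ((g : Matrix (Fin 2) (Fin 2) ℤ).trace)) : g ^ 2 = 1 := by
  have hdet : g 0 0 * g 1 1 - g 0 1 * g 1 0 = 1 := by
    have := g.det_coe
    rw [Matrix.det_fin_two] at this
    exact this
  rw [Matrix.trace_fin_two] at hev
  -- the cube `h = g ^ 3`
  have e00 : (g ^ 3) 0 0 = (g 0 0 * g 0 0 + g 0 1 * g 1 0) * g 0 0 +
      (g 0 0 * g 0 1 + g 0 1 * g 1 1) * g 1 0 := by
    simp [pow_succ, Matrix.SpecialLinearGroup.coe_mul, Matrix.mul_apply, Fin.sum_univ_two]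
  have e01 : (g ^ 3) 0 1 = (g 0 0 * g 0 0 + g 0 1 * g 1 0) * g 0 1 +
      (g 0 0 * g 0 1 + g 0 1 * g 1 1) * g 1 1 := by
    simp [pow_succ, Matrix.SpecialLinearGroup.coe_mul, Matrix.mul_apply, Fin.sum_univ_two]
  have e10 : (g ^ 3) 1 0 = (g 1 0 * g 0 0 + g 1 1 * g 1 0) * g 0 0 +
      (g 1 0 * g 0 1 + g 1 1 * g 1 1) * g 1 0 := by
    simp [pow_succ, Matrix.SpecialLinearGroup.coe_mul, Matrix.mul_apply, Fin.sum_univ_two]
  have hdet3 : (g ^ 3) 0 0 * (g ^ 3) 1 1 - (g ^ 3) 0 1 * (g ^ 3) 1 0 = 1 := by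
    have := (g ^ 3).det_coe
    rw [Matrix.det_fin_two] at this
    exact this
  have h33 : g ^ 3 * g ^ 3 = 1 := by rw [← pow_add]; exact h6
  have hm : ((g ^ 3 : SL(2, ℤ)) : Matrix (Fin 2) (Fin 2) ℤ) *
      ((g ^ 3 : SL(2, ℤ)) : Matrix (Fin 2) (Fin 2) ℤ) = 1 := by
    rw [← Matrix.SpecialLinearGroup.coe_mul, h33, Matrix.SpecialLinearGroup.coe_one]
  have k00 : (g ^ 3) 0 0 * (g ^ 3) 0 0 + (g ^ 3) 0 1 * (g ^ 3) 1 0 = 1 := by
    have := congrFun (congrFun hm 0) 0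
    simpa [Matrix.mul_apply, Fin.sum_univ_two] using this
  have k01 : (g ^ 3) 0 0 * (g ^ 3) 0 1 + (g ^ 3) 0 1 * (g ^ 3) 1 1 = 0 := by
    have := congrFun (congrFun hm 0) 1
    simpa [Matrix.mul_apply, Fin.sum_univ_two] using this
  have k10 : (g ^ 3) 1 0 * (g ^ 3) 0 0 + (g ^ 3) 1 1 * (g ^ 3) 1 0 = 0 := by
    have := congrFun (congrFun hm 1) 0
    simpa [Matrix.mul_apply, Fin.sum_univ_two] using this
  obtain ⟨hq, hr⟩ := ribmp_plo_invol hdet3 k00 k01 k10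
  -- `t ^ 2 - 1` is odd, hence nonzero
  obtain ⟨k, hk⟩ := hev
  have hodd : (g 0 0 + g 1 1) ^ 2 - 1 ≠ 0 := by
    intro h0
    rw [hk] at h0
    have h1 : (2 : ℤ) * (2 * k * k) = 1 := by linear_combination h0
    omega
  -- `b = 0`, `c = 0`
  have hb : g 0 1 * ((g 0 0 + g 1 1) ^ 2 - 1) = 0 := by
    rw [e01] at hq
    linear_combination hq + g 0 1 * hdet
  have hc : g 1 0 * ((g 0 0 + g 1 1) ^ 2 - 1) = 0 := by
    rw [e10] at hr
    linear_combination hr + g 1 0 * hdet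
  have hb0 : g 0 1 = 0 := (mul_eq_zero.1 hb).resolve_right hodd
  have hc0 : g 1 0 = 0 := (mul_eq_zero.1 hc).resolve_right hodd
  have had : g 0 0 * g 1 1 = 1 := by
    rw [hb0, zero_mul, sub_zero] at hdet
    exact hdet
  have haa : g 0 0 * g 0 0 = 1 := by
    rcases Int.eq_one_or_neg_one_of_mul_eq_one had with h | h <;> rw [h] <;> norm_num
  have hdd : g 1 1 * g 1 1 = 1 := by
    rcases Int.eq_one_or_neg_one_of_mul_eq_one (by rw [mul_comm]; exact had :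
      g 1 1 * g 0 0 = 1) with h | h <;> rw [h] <;> norm_num
  ext i j
  fin_cases i <;> fin_cases j <;>
    simp [pow_two, Matrix.SpecialLinearGroup.coe_mul, Matrix.mul_apply, Fin.sum_univ_two,
      hb0, hc0, haa, hdd]

/-- the trace of an element of `Γ₀(N)`, `N` even, is even -/
theorem ribmp_plo_even_trace_gamma0 {N : ℕ} (h2 : 2 ∣ N) (γ : SL(2, ℤ))
    (hγ : γ ∈ CongruenceSubgroup.Gamma0 N) :
    Even ((γ : Matrix (Fin 2) (Fin 2) ℤ).trace) := by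
  rw [CongruenceSubgroup.Gamma0_mem] at hγ
  have hc : (N : ℤ) ∣ γ 1 0 := (ZMod.intCast_zmod_eq_zero_iff_dvd _ _).1 hγ
  have hc2 : (2 : ℤ) ∣ γ 1 0 := dvd_trans (by exact_mod_cast h2) hc
  have hdet : γ 0 0 * γ 1 1 - γ 0 1 * γ 1 0 = 1 := by
    have := γ.det_coe
    rw [Matrix.det_fin_two] at this
    exact this
  rw [Matrix.trace_fin_two]
  obtain ⟨k, hk⟩ := hc2
  have had : γ 0 0 * γ 1 1 = 1 + 2 * (γ 0 1 * k) := by
    rw [hk] at hdet
    linear_combination hdet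
  have hoddprod : Odd (γ 0 0 * γ 1 1) := by
    rw [had]
    exact ⟨γ 0 1 * k, by ring⟩
  rw [Int.odd_mul] at hoddprod
  exact hoddprod.1.add_odd hoddprod.2

/-- a subgroup of `Γ₀(N)`, `N` even, has no element of order `3` or `6` -/
theorem ribmp_plo_no_order_three {N : ℕ} (h2 : 2 ∣ N) (Γ : Subgroup SL(2, ℤ))
    (hΓ : Γ ≤ CongruenceSubgroup.Gamma0 N) (γ : Γ) (h6 : γ ^ 6 = 1) : γ ^ 2 = 1 := by
  apply Subtype.ext
  rw [Subgroup.coe_pow, Subgroup.coe_one]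
  apply ribmp_plo_sq_eq_one_of_even_trace
  · rw [← Subgroup.coe_pow, h6, Subgroup.coe_one]
  · exact ribmp_plo_even_trace_gamma0 h2 _ (hΓ γ.2)

/-- **MP-DIV / PAR at odd exponents**: in a group without elements of order `3` parabolic
characters with values in `ℤ/n`, `n` ODD, lift to parabolic homomorphisms with values in `ℤ`. -/
def StmtParLiftOdd : Prop :=
  ∀ (Γ : Subgroup SL(2, ℤ)) [Fintype (SL(2, ℤ) ⧸ Γ)], (-1 : SL(2, ℤ)) ∈ Γ →
    (∀ γ : Γ, γ ^ 6 = 1 → γ ^ 2 = 1) →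
    ∀ n : ℕ, Odd n → ∀ χ : Additive Γ →+ ZMod n, IsParabolicHom Γ χ →
      ∃ φ : Additive Γ →+ ℤ, IsParabolicHom Γ φ ∧
        ∀ γ : Additive Γ, ((φ γ : ℤ) : ZMod n) = χ γ

/-- **MP-DIV / PAR at odd exponents** from the lattice lemma (twin of `stmtParLift_of`). -/
theorem stmtParLiftOdd_of (hL : StmtLatLift) : StmtParLiftOdd := by
  intro Γ _ hneg hno n hodd χ hχ
  -- `χ` kills the elements of finite order
  have hx6 : ∀ γ : Γ, γ ^ 6 = 1 → χ (Additive.ofMul γ) = 0 := by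
    intro γ hγ
    have h2 : (2 : ℕ) • χ (Additive.ofMul γ) = 0 := by
      rw [← map_nsmul, ← ofMul_pow, hno γ hγ, ofMul_one, map_zero]
    have hu : IsUnit ((2 : ℕ) : ZMod n) :=
      (ZMod.isUnit_iff_coprime 2 n).mpr (Nat.coprime_two_left.mpr hodd)
    rw [nsmul_eq_mul] at h2
    exact (hu.mul_right_eq_zero).mp h2
  have hχ1 : χ (Additive.ofMul (⟨-1, hneg⟩ : Γ)) = 0 := hχ ⟨-1, hneg⟩ ribmp_td_trace_neg_one
  obtain ⟨a', ha', haU'⟩ := exists_NF2 χ hx6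
  obtain ⟨b', hb', hbT'⟩ := exists_NF1 χ hχ
  have h1' : a' (-1) = 0 := ha'.map_neg_one hneg hχ1
  have haT' : a' T = a' S := ha'.1.map_T_of_map_U hneg h1' haU'
  have hSS : a' S + rho S (a' S) = 0 := ha'.1.map_S_add h1'
  obtain ⟨ξ, hξ⟩ := hb'.exists_cobdry ha'
  have hZs : a' S = rho T ξ - ξ := by
    rw [← haT', hξ, Pi.add_apply, hbT', zero_add, cobdry_apply]
  obtain ⟨e, he, hee⟩ := hL (SL(2, ℤ) ⧸ Γ) (fun q => neg_one_smul_eq hneg q) n hodd (a' S) ξ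
    hSS hZs
  obtain ⟨x, hx, a, hax, haU, haS⟩ := exists_NF2_of_isZs hneg e he
  have hx1 : x (Additive.ofMul (⟨-1, hneg⟩ : Γ)) = 0 := hx ⟨-1, hneg⟩ ribmp_td_trace_neg_one
  have h1 : a (-1) = 0 := hax.map_neg_one hneg hx1
  have haT : a T = a S := hax.1.map_T_of_map_U hneg h1 haU
  refine ⟨x, hx, ?_⟩
  have hā := ribmp_td_isCoc_cast n hax.1
  have hd := ribmp_td_coc_eq_zero (hā.sub ha'.1)
    (by
      funext q
      show ((a S q : ℤ) : ZMod n) - a' S q = 0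
      rw [haS, hee, sub_self])
    (by
      funext q
      show ((a T q : ℤ) : ZMod n) - a' T q = 0
      rw [haT, haS, haT', hee, sub_self])
  intro γ
  obtain ⟨γ, rfl⟩ : ∃ γ' : Γ, Additive.ofMul γ' = γ := ⟨Additive.toMul γ, rfl⟩
  have h2 := congrFun (congrFun hd (γ : SL(2, ℤ))) ((1 : SL(2, ℤ)) : SL(2, ℤ) ⧸ Γ)
  have h3 : ((a (γ : SL(2, ℤ)) ((1 : SL(2, ℤ)) : SL(2, ℤ) ⧸ Γ) : ℤ) : ZMod n) -
      a' (γ : SL(2, ℤ)) ((1 : SL(2, ℤ)) : SL(2, ℤ) ⧸ Γ) = 0 := h2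
  rw [hax.2 γ, ha'.2 γ, sub_eq_zero] at h3
  exact h3

end Fermat.Agent.RIB.MP
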