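import Fermat.Agent.RIB.SurjQ
import Fermat.Agent.ES.KummerBridge
import Fermat.Agent.ES.RiemannGeneric

/-!
# MP-RED-LIFT: Kummer functions on the special fibre lift (function-level (SURJ-q))

Abstract part (reduction package `R : PRData K F k Fk A`, nice curves of the same genus, `K`
algebraically closed, `m` a unit of `A`):

* `ribmp_rl_const_of_ord_eq_zero` : a function without zeros and poles is a nonzero constant;
* `ribmp_rl_kummerRel_red` : if `v ∈ O` is a Kummer function of `x` with `red v ≠ 0`, then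
  `red v` is a Kummer function of `sp x`;
* `ribmp_rl_abstract` : if `ū` is a Kummer function (exponent `m`) of `ȳ ∈ Pic⁰(F̄)`, there are
  `x ∈ Pic⁰(F)` and `v ∈ O` with `m • x = 0`, `sp x = ȳ`, `v` a Kummer function of `x` and
  `red v = ū`.

Modular part (`ModPRG`, the reduction package of `X₀(N)` at `A ∣ ℓ`, `ℓ ∤ N`):

* `ribmp_rl_modular` : the same with `sp` of the package and `GaussRed N A v ū`.
-/

set_option autoImplicit false
set_option linter.unusedSectionVars false
set_option linter.style.haveILetI false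
set_option synthInstance.maxHeartbeats 400000
set_option maxHeartbeats 1600000

open ModularCurve AlgebraicCurve Module

namespace Fermat.Agent.RIB.MP

open Fermat.Agent.W1 Fermat.Agent.S15 Fermat.Agent.S24 Fermat.Agent.ES.M Fermat.Agent.DEU
  Fermat.Agent.ES Fermat.Agent.ES.R Fermat.Agent.RIB

/-! ## 1. Abstract part -/

section Abstract

variable {K F k Fk : Type} [Field K] [Field F] [Algebra K F] [Field k] [Field Fk] [Algebra k Fk]
variable {A : ValuationSubring K}

/-- a function without zeros and poles is a nonzero constant -/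
theorem ribmp_rl_const_of_ord_eq_zero [HasPrincipalDivisors k Fk]
    (hres : ∀ v : Place k Fk, Function.Bijective (algebraMap k v.ResidueField))
    (v₀ : Place k Fk) {c : Fk} (hc0 : c ≠ 0) (hc : ∀ v : Place k Fk, v.ord c = 0) :
    ∃ a : k, a ≠ 0 ∧ c = algebraMap k Fk a := by
  obtain ⟨a, ha⟩ := exists_sub_smul_ord_gt v₀ (hres v₀) hc0 (one_ne_zero (α := Fk))
    (by rw [hc v₀, v₀.ord_one])
  have key : c - a • (1 : Fk) = 0 := by
    rcases ha with h | h
    · exact h
    · by_contra hne
      rw [v₀.ord_one] at h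
      have hmem : c - a • (1 : Fk) ∈ riemannRochSpace (-(Finsupp.single v₀ (1 : ℤ))) := by
        rw [mem_riemannRochSpace_iff]
        intro v
        right
        by_cases hv : v = v₀
        · subst hv
          simp only [Finsupp.coe_neg, Pi.neg_apply, Finsupp.single_eq_same, neg_neg]
          omega
        · have h1 : (-(Finsupp.single v₀ (1 : ℤ)) : Divisor k Fk) v = 0 := by
            simp only [Finsupp.coe_neg, Pi.neg_apply, neg_eq_zero]
            exact Finsupp.single_eq_of_ne (Ne.symm (Ne.symm hv))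
          rw [h1, neg_zero]
          have h2 := (v.adicValuation_le_one_iff (f := c - a • (1 : Fk))).mp (by
            refine (Valuation.map_sub _ _ _).trans (max_le ?_ ?_)
            · exact (v.adicValuation_le_one_iff).mpr (Or.inr (hc v).ge)
            · rw [Algebra.smul_def, mul_one]
              exact v.adicValuation_algebraMap_le_one a)
          exact h2.resolve_left hne
      have hdeg : Divisor.degree (-(Finsupp.single v₀ (1 : ℤ)) : Divisor k Fk) < 0 := by
        rw [map_neg, Divisor.degree_single, place_deg_eq_one v₀ (hres v₀)]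
        norm_num
      rw [rr_eq_bot_of_degree_neg hdeg, Submodule.mem_bot] at hmem
      exact hne hmem
  have hca : c = algebraMap k Fk a := by
    rw [sub_eq_zero, Algebra.smul_def, mul_one] at key
    exact key
  refine ⟨a, ?_, hca⟩
  rintro rfl
  rw [map_zero] at hca
  exact hc0 hca

/-- the reduction of a Kummer function is a Kummer function of the specialization -/
theorem ribmp_rl_kummerRel_red (R : PRData K F k Fk A) (hR : R.IsPR)
    (hres : ∀ v : Place K F, Function.Bijective (algebraMap K v.ResidueField))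
    (hresk : ∀ v : Place k Fk, Function.Bijective (algebraMap k v.ResidueField))
    {m : ℕ} {x : Pic0 K F} (v : R.O) (hv : KummerRel m x (v : F)) (hred : R.red v ≠ 0) :
    KummerRel m (s15red_sp R hR hres hresk x) (R.red v) := by
  obtain ⟨D, rfl, hv0, hD⟩ := hv
  refine ⟨s15red_degZeroHom R hres hresk D, (s15red_sp_mk R hR hres hresk D).symm, hred,
    fun Q => ?_⟩
  rw [s15red_coe_degZeroHom]
  have h1 := hR.r_div v hred ((m : ℤ) • (D : Divisor K F)) (fun P => by
    rw [Finsupp.smul_apply, smul_eq_mul]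
    exact hD P) Q
  rw [← h1, Finsupp.mapDomain_smul, Finsupp.smul_apply, smul_eq_mul]

/-- multiplying a Kummer function by an `m`-th power -/
theorem ribmp_rl_kummerRel_mul_pow [HasPrincipalDivisors K F] {m : ℕ} {x : Pic0 K F} {u : F}
    (h : KummerRel m x u) {g : F} (hg : g ≠ 0) : KummerRel m x (u * g ^ m) := by
  obtain ⟨Dg, hDg, hdeg⟩ := HasPrincipalDivisors.exists_divisor (K := K) g hg
  have h0 : KummerRel m (0 : Pic0 K F) (g ^ m) := by
    refine ⟨⟨Dg, Divisor.mem_degZero.mpr hdeg⟩, ?_, pow_ne_zero m hg, fun v => ?_⟩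
    · rw [pic0_mk_eq_zero_iff]
      exact ⟨g, hg, hDg⟩
    · have h1 : v.ord (g ^ m) = (m : ℤ) * v.ord g := by
        have := v.ord_zpow g (m : ℤ)
        rwa [zpow_natCast] at this
      rw [h1]
      show (m : ℤ) * Dg v = _
      rw [hDg v]
  have := h.add h0
  rwa [add_zero] at this

/-- **MP-RED-LIFT, abstract form.**  A Kummer function `ū` of a class `ȳ` of the special fibre
is the reduction of a Kummer function `v` of a class `x` with `m • x = 0`, `sp x = ȳ`. -/
theorem ribmp_rl_abstract [IsAlgClosed K] (R : PRData K F k Fk A) (hR : R.IsPR) {g : ℕ}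
    (hF : IsNiceCurve K F g) (hFk : IsNiceCurve k Fk g) (hO : R.Orth)
    {m : ℕ} (hm : (m : K) ∉ A.nonunits) (y : Pic0 k Fk) (ub : Fk) (hy : KummerRel m y ub) :
    ∃ (x : Pic0 K F) (v : R.O), m • x = 0 ∧ s15red_sp R hR hF.hres hFk.hres x = y ∧
      KummerRel m x (v : F) ∧ R.red v = ub := by
  haveI := hF.hpd
  haveI := hFk.hpd
  obtain ⟨x, hx, hxy⟩ := surjq_exists_torsion_lift R hR hF hFk hO hm y hy.nsmul_eq_zero
  obtain ⟨v₀, hv₀⟩ := exists_kummerRel hx
  obtain ⟨a, ha, h1, hred1⟩ := hR.prim v₀ hv₀.ne_zero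
  have ha0 : algebraMap K F a ≠ 0 := (map_ne_zero_iff _ (algebraMap K F).injective).mpr ha
  have hv₁ : KummerRel m x (algebraMap K F a * v₀) :=
    hv₀.const_mul ha0 (fun v => PlaceAux.ord_algebraMap v a)
  have hK1 : KummerRel m y (R.red ⟨algebraMap K F a * v₀, h1⟩) := by
    have := ribmp_rl_kummerRel_red R hR hF.hres hFk.hres ⟨algebraMap K F a * v₀, h1⟩ hv₁ hred1
    rwa [hxy] at this
  obtain ⟨gb, cb, hgb, hcb, hcbord, heq⟩ := hy.exists_eq_mul_pow hK1
  obtain ⟨Q₀, -⟩ := hFk.infinite.nonempty
  obtain ⟨ab, hab, rfl⟩ := ribmp_rl_const_of_ord_eq_zero hFk.hres Q₀ hcb hcbord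
  -- lift the constant and the function
  obtain ⟨b, hb⟩ := hR.res_surjective ab
  obtain ⟨G, hG⟩ := hR.red_surjective gb
  have hbO : algebraMap K F (b : K) ∈ R.O := (hR.algebraMap_mem_iff _).mpr b.2
  have hredb : R.red ⟨algebraMap K F (b : K), hbO⟩ = algebraMap k Fk ab := by
    rw [hR.red_algebraMap b hbO, hb]
  set w : R.O := ⟨algebraMap K F (b : K), hbO⟩ * G ^ m with hw
  have hredw : R.red w = algebraMap k Fk ab * gb ^ m := by
    rw [hw, map_mul, map_pow, hredb, hG]
  have hredw0 : R.red w ≠ 0 := by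
    rw [hredw]
    exact mul_ne_zero hcb (pow_ne_zero m hgb)
  have hwu : IsUnit w := by
    have h2 : (w : F) ∉ R.O.nonunits := fun h => hredw0 ((hR.red_eq_zero_iff w).mpr h)
    have h3 : w ∉ nonunits R.O := by
      intro h4
      apply h2
      rw [ValuationSubring.mem_nonunits_iff_exists_mem_maximalIdeal]
      exact ⟨w.2, h4⟩
    simpa [mem_nonunits_iff] using h3
  obtain ⟨wi, hwi⟩ := isUnit_iff_exists_inv.mp hwu
  have hb0 : (b : K) ≠ 0 := by
    rintro h0
    have : R.res b = 0 := by
      rw [hR.res_eq_zero_iff, h0]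
      exact (ValuationSubring.mem_nonunits_iff_or A).mpr (Or.inl rfl)
    rw [hb] at this
    exact hab this
  have hG0 : (G : F) ≠ 0 := by
    rintro h0
    have : G = 0 := Subtype.ext h0
    rw [this, map_zero] at hG
    exact hgb hG.symm
  have hwiF : (wi : F) = (algebraMap K F (b : K))⁻¹ * ((G : F)⁻¹) ^ m := by
    have h5 : (w : F) * (wi : F) = 1 := by
      have := congrArg (Subtype.val) hwi
      simpa using this
    have h6 : (w : F) = algebraMap K F (b : K) * (G : F) ^ m := by
      rw [hw]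
      simp
    have hb0' : algebraMap K F (b : K) ≠ 0 :=
      (map_ne_zero_iff _ (algebraMap K F).injective).mpr hb0
    rw [h6] at h5
    rw [inv_pow]
    field_simp
    rw [← h5]
    ring
  refine ⟨x, ⟨algebraMap K F a * v₀, h1⟩ * wi, hx, hxy, ?_, ?_⟩
  · show KummerRel m x ((algebraMap K F a * v₀) * (wi : F))
    rw [hwiF]
    have e : algebraMap K F a * v₀ * ((algebraMap K F (b : K))⁻¹ * ((G : F)⁻¹) ^ m) =
        algebraMap K F (b : K)⁻¹ * ((algebraMap K F a * v₀) * ((G : F)⁻¹) ^ m) := by
      rw [map_inv₀]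
      ring
    rw [e]
    refine (ribmp_rl_kummerRel_mul_pow hv₁ (inv_ne_zero hG0)).const_mul ?_
      (fun v => PlaceAux.ord_algebraMap v _)
    exact (map_ne_zero_iff _ (algebraMap K F).injective).mpr (inv_ne_zero hb0)
  · have h7 : R.red w * R.red wi = 1 := by
      rw [← map_mul, hwi, map_one]
    rw [map_mul, heq]
    calc algebraMap k Fk ab * ub * gb ^ m * R.red wi
        = ub * (algebraMap k Fk ab * gb ^ m * R.red wi) := by ring
      _ = ub * (R.red w * R.red wi) := by rw [hredw]
      _ = ub := by rw [h7, mul_one]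

end Abstract

/-! ## 2. Modular part -/

section Modular

variable {N : ℕ} [NeZero N] {A : ValuationSubring Kb} {ℓ : ℕ} {hℓ : ℓ.Prime}
  {hA : A.LiesOverPrime ℓ} {hRedF : StmtRedF N A}
  {r : Place Kb (FF N) → Place (kA A) ↥(modularFunctionFieldFullC (kA A) N)}
  {sp : JZero N →+ JZeroC (kA A) N} {Pinf : Place Kb (FF N)}
  {Qinf : Place (kA A) ↥(modularFunctionFieldFullC (kA A) N)}

/-- **MP-RED-LIFT.**  For `ℓ ∤ m`: a Kummer function `ū` (exponent `m`) of a class `ȳ` of
`Pic⁰(F̄_N)` is the Gauss reduction of a Kummer function `v` of a class `x ∈ J₀(N)[m]` with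
`sp x = ȳ`. -/
theorem ribmp_rl_modular (h : ModPRG N A hℓ hA hRedF r sp Pinf Qinf) {m : ℕ} (hm : ¬ ℓ ∣ m)
    (y : JZeroC (kA A) N) (ub : ↥(modularFunctionFieldFullC (kA A) N))
    (hy : KummerRel m y ub) :
    ∃ (x : JZero N) (v : FF N), m • x = 0 ∧ sp x = y ∧ KummerRel m x v ∧
      GaussRed N A v (ub : LaurentSeries (kA A)) := by
  have hmu : ((m : ℕ) : Kb) ∉ A.nonunits := by
    rw [Fermat.Agent.S05.natCast_mem_nonunits_iff A hℓ hA]
    exact hm
  obtain ⟨x, v, hx, hxy, hv, hred⟩ := ribmp_rl_abstract (modPRData N A hRedF r) h.modPR.isPR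
    h.modPR.nice h.modPR.nice_k h.modPR.orth hmu y ub hy
  refine ⟨x, (v : FF N), hx, by rw [surjq_sp_eq h, hxy], hv, ?_⟩
  rw [deuValRed_iff N A hRedF]
  exact ⟨v.2, congrArg Subtype.val hred⟩

end Modular

end Fermat.Agent.RIB.MP
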