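/-
S59 wall M2 (Mazur's principle at `p = 3`), leaf MP-D, piece MP-DIV at EVEN level (helper15; twin of
`TorsDiv.lean`, which asks `5 ≤ p`).

For an ODD prime `p` and an EVEN level `M` every `p`-power torsion class of `J₀(M)(ℚ̄)` lies in the
`p`-divisible part `pDivTors p (JZero M)`:  `Γ₀(M)` has no element of order `3`
(`ribmp_plo_no_order_three`, helper49), so the parabolic character `μ y` mod `pᵃ` lifts to `ℤ`
(`StmtParLiftOdd`), and the proof of `stmtTorsDivMP_of` goes through word for word.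

* `ribmp_tdo_torsDiv_of : StmtParLiftOdd → …` and `ribmp_tdo_torsDiv` (unconditional);
  the conclusion is the body of `RT.K8.rtk8p3_DivAt M p` (helper21);
* `ribmp_tdo_divEis` : the `StmtDivEis` shape (`T_ℓ − (ℓ + 1)` maps the torsion into `pDivTors`).
-/
import Fermat.Agent.RIB.MP.TorsDiv
import Fermat.Agent.RIB.MP.ParLiftOdd
import Fermat.Agent.RIB.MP.LatLift
import Fermat.Agent.RIB.MP.Plan

set_option autoImplicit false
set_option linter.style.haveILetI false

noncomputable section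

namespace Fermat.Agent.RIB.MP

open scoped MatrixGroups
open ModularCurve ModularCurve.Period CongruenceSubgroup
open Fermat.Agent.ES Fermat.Agent.STB

/-- **MP-DIV at even level, odd `p`** from the lifting of parabolic characters at odd exponents. -/
theorem ribmp_tdo_torsDiv_of (hP : StmtParLiftOdd) (M p : ℕ) [NeZero M] (hp : p.Prime)
    (hp2 : p ≠ 2) (h2 : 2 ∣ M) (y : JZero M) (hy : IsPPowerTorsion p y) :
    y ∈ pDivTors p (JZero M) := by
  obtain ⟨a, ha⟩ := hy
  have hD := stb_p2_unifData M p hp.pos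
  have hm := multData_of_torsionUnifData hp.ne_zero hD
  have hyt : IsPPowerTorsion p y := ⟨a, ha⟩
  have hpar : IsParabolicHom (Gamma0 M) (muMap M y) := stb_p2_muMap_par M p hp.pos ha
  have htor : p ^ a • muMap M y = 0 := by
    rw [← hm.map_nsmul hyt, ha, hm.map_zero]
  have hn0 : p ^ a ≠ 0 := pow_ne_zero a hp.ne_zero
  obtain ⟨χ, hχ⟩ := ribmp_td_zmod hn0 (muMap M y) htor
  -- `χ` is parabolic
  have hχpar : IsParabolicHom (Gamma0 M) χ := by
    intro γ hγ
    obtain ⟨k, hk⟩ := ZMod.intCast_surjective (χ (Additive.ofMul γ))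
    have h1 := hχ (Additive.ofMul γ) k hk
    rw [hpar γ hγ] at h1
    rw [← hk]
    exact (ZMod.intCast_zmod_eq_zero_iff_dvd k (p ^ a)).mpr
      ((expHom_eq_zero_iff hn0 k).mp h1.symm)
  -- `pᵃ` is odd
  have hodd : Odd (p ^ a) := (hp.odd_of_ne_two hp2).pow
  have hneg : (-1 : SL(2, ℤ)) ∈ Gamma0 M := by
    rw [Gamma0_mem]
    simp
  haveI : Fintype (SL(2, ℤ) ⧸ Gamma0 M) := Fintype.ofFinite _
  obtain ⟨φ, hφ, hφχ⟩ := hP (Gamma0 M) hneg
    (fun γ h6 => ribmp_plo_no_order_three h2 (Gamma0 M) le_rfl γ h6) (p ^ a) hodd χ hχpar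
  have hμ : muMap M y = (expHom (p ^ a)).comp φ := by
    refine DFunLike.ext _ _ fun γ => ?_
    rw [AddMonoidHom.comp_apply]
    exact hχ γ (φ γ) (hφχ γ)
  obtain ⟨x, hx, hxa, hμx⟩ := hm.surj_pDiv φ hφ a
  have hxy : x = y := hm.eq_of_eq (isPPowerTorsion_of_pow_smul hxa) hyt (by rw [hμx, hμ])
  rw [← hxy]
  exact hx

/-- **MP-DIV at even level, odd `p`**, unconditional: for an odd prime `p` and an even level `M`
the `p`-power torsion of `J₀(M)(ℚ̄)` is `p`-divisible. -/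
theorem ribmp_tdo_torsDiv (M p : ℕ) [NeZero M] (hp : p.Prime) (hp2 : p ≠ 2) (h2 : 2 ∣ M)
    (y : JZero M) (hy : IsPPowerTorsion p y) : y ∈ pDivTors p (JZero M) :=
  ribmp_tdo_torsDiv_of (stmtParLiftOdd_of stmtLatLift) M p hp hp2 h2 y hy

/-- the `StmtDivEis` shape at even level, odd `p`: `T_ℓ − (ℓ + 1)` maps the `p`-power torsion of
`J₀(M)(ℚ̄)` into its `p`-divisible part. -/
theorem ribmp_tdo_divEis (M p : ℕ) [NeZero M] (hp : p.Prime) (hp2 : p ≠ 2) (h2 : 2 ∣ M)
    (ℓ : Nat.Primes) (x : JZero M) (hx : IsPPowerTorsion p x) :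
    eisKill ℓ x ∈ pDivTors p (JZero M) := by
  obtain ⟨a, ha⟩ := hx
  refine ribmp_tdo_torsDiv M p hp hp2 h2 (eisKill ℓ x) ⟨a, ?_⟩
  show p ^ a • (heckeOperatorBar M ℓ x - ((ℓ : ℕ) + 1) • x) = 0
  rw [nsmul_sub, ← map_nsmul, ha, map_zero, smul_comm, ha, smul_zero, sub_zero]

end Fermat.Agent.RIB.MP

end
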